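import Fermat.Agent.RR.LSpace

/-!
# Evaluation at places
-/

set_option autoImplicit false
set_option linter.unusedSectionVars false

namespace Fermat.Agent.MW

open AlgebraicCurve Fermat.Agent.RR Fermat.Agent.Curve

variable {K F : Type*} [Field K] [IsAlgClosed K] [Field F] [Algebra K F] [FunField K F]

open Classical in
/-- the value of a function at a place (zero at poles) -/
noncomputable def ev (v : Place K F) (f : F) : K :=
  if h : ∃ a : K, Ge v 1 (f - algebraMap K F a) then h.choose else 0

theorem ge_zero_of {v : Place K F} {f : F} {a : K} (h : Ge v 1 (f - algebraMap K F a)) :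
    Ge v 0 f := by
  have := (h.mono (by norm_num : (0 : ℤ) ≤ 1)).add (Ge.algebraMap v a)
  rwa [sub_add_cancel] at this

theorem ev_spec {v : Place K F} {f : F} (h : Ge v 0 f) : Ge v 1 (f - algebraMap K F (ev v f)) := by
  have hex := exists_const' v h.mem
  rw [ev, dif_pos hex]
  exact hex.choose_spec

theorem const_eq_zero {v : Place K F} {a : K} (h : Ge v 1 (algebraMap K F a)) : a = 0 := by
  rcases h with h | h
  · exact (map_eq_zero _).1 h
  · rw [ord_algebraMap] at h
    omega

theorem ev_unique {v : Place K F} {f : F} {a : K} (h : Ge v 1 (f - algebraMap K F a)) :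
    ev v f = a := by
  have h1 := ev_spec (ge_zero_of h)
  have h2 := h.sub h1
  have h3 : f - algebraMap K F a - (f - algebraMap K F (ev v f)) =
      algebraMap K F (ev v f - a) := by
    rw [map_sub]; ring
  rw [h3] at h2
  exact sub_eq_zero.1 (const_eq_zero h2)

theorem ev_add {v : Place K F} {f g : F} (hf : Ge v 0 f) (hg : Ge v 0 g) :
    ev v (f + g) = ev v f + ev v g := by
  apply ev_unique
  have := (ev_spec hf).add (ev_spec hg)
  convert this using 1
  rw [map_add]; ring

theorem ev_sub {v : Place K F} {f g : F} (hf : Ge v 0 f) (hg : Ge v 0 g) :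
    ev v (f - g) = ev v f - ev v g := by
  apply ev_unique
  have := (ev_spec hf).sub (ev_spec hg)
  convert this using 1
  rw [map_sub]; ring

theorem ev_mul {v : Place K F} {f g : F} (hf : Ge v 0 f) (hg : Ge v 0 g) :
    ev v (f * g) = ev v f * ev v g := by
  apply ev_unique
  have h1 := ((ev_spec hf).mul hg).mono (by norm_num : (1 : ℤ) ≤ 1 + 0)
  have h2 := ((Ge.algebraMap v (ev v f)).mul (ev_spec hg)).mono (by norm_num : (1 : ℤ) ≤ 0 + 1)
  convert h1.add h2 using 1
  rw [map_mul]; ring

theorem ev_algebraMap (v : Place K F) (a : K) : ev v (algebraMap K F a) = a := by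
  apply ev_unique
  rw [sub_self]
  exact Ge.zero v 1

theorem ev_one (v : Place K F) : ev v (1 : F) = 1 := by
  rw [← map_one (algebraMap K F), ev_algebraMap]

theorem ev_zero (v : Place K F) : ev v (0 : F) = 0 := by
  rw [← map_zero (algebraMap K F), ev_algebraMap]

theorem ev_eq_zero_iff {v : Place K F} {f : F} (hf : Ge v 0 f) : ev v f = 0 ↔ Ge v 1 f := by
  constructor
  · intro h
    have := ev_spec hf
    rwa [h, map_zero, sub_zero] at this
  · intro h
    apply ev_unique
    rwa [map_zero, sub_zero]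

theorem ev_ne_zero {v : Place K F} {f : F} (hf : f ≠ 0) (h : v.ord f = 0) : ev v f ≠ 0 := by
  rw [ne_eq, ev_eq_zero_iff (Or.inr h.ge)]
  rintro (h1 | h1)
  · exact hf h1
  · omega

theorem ord_eq_zero_of_ev {v : Place K F} {f : F} (hf : Ge v 0 f) (h : ev v f ≠ 0) :
    f ≠ 0 ∧ v.ord f = 0 := by
  have hf0 : f ≠ 0 := by rintro rfl; exact h (ev_zero v)
  refine ⟨hf0, ?_⟩
  have h1 := hf.le_ord hf0
  by_contra h2
  exact h ((ev_eq_zero_iff hf).2 (Ge.of_le (by omega)))

theorem ev_pow {v : Place K F} {f : F} (hf : Ge v 0 f) (n : ℕ) : ev v (f ^ n) = ev v f ^ n := by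
  induction n with
  | zero => rw [pow_zero, pow_zero, ev_one]
  | succ n ih =>
    rw [pow_succ, pow_succ, ev_mul ((hf.pow n).mono (by simp)) hf, ih]

theorem ev_inv {v : Place K F} {f : F} (hf : f ≠ 0) (h : v.ord f = 0) :
    ev v f⁻¹ = (ev v f)⁻¹ := by
  have h1 : ev v (f * f⁻¹) = ev v f * ev v f⁻¹ := ev_mul (Or.inr h.ge) (Or.inr (by rw [v.ord_inv]; omega))
  rw [mul_inv_cancel₀ hf, ev_one] at h1
  exact eq_inv_of_mul_eq_one_right h1.symm

theorem ev_zpow {v : Place K F} {f : F} (hf : f ≠ 0) (h : v.ord f = 0) (n : ℤ) :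
    ev v (f ^ n) = ev v f ^ n := by
  rcases n with n | n
  · simpa using ev_pow (Or.inr h.ge) n
  · rw [zpow_negSucc, zpow_negSucc, ev_inv (pow_ne_zero _ hf) (by rw [ord_pow, h, mul_zero]),
      ev_pow (Or.inr h.ge)]

theorem ev_prod {v : Place K F} {ι : Type*} (s : Finset ι) (f : ι → F)
    (hf : ∀ i ∈ s, Ge v 0 (f i)) : ev v (∏ i ∈ s, f i) = ∏ i ∈ s, ev v (f i) := by
  classical
  induction s using Finset.induction_on with
  | empty => rw [Finset.prod_empty, Finset.prod_empty, ev_one]
  | insert i s hi ih =>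
    have h1 : Ge v 0 (∏ i ∈ s, f i) := by
      have h2 : ∀ t : Finset ι, t ⊆ s → Ge v 0 (∏ i ∈ t, f i) := by
        intro t
        induction t using Finset.induction_on with
        | empty => intro _; rw [Finset.prod_empty]; exact Ge.one v
        | insert j t hj ih2 =>
          intro ht
          rw [Finset.prod_insert hj]
          exact ((hf j (Finset.mem_insert_of_mem (ht (Finset.mem_insert_self j t)))).mul
            (ih2 fun x hx => ht (Finset.mem_insert_of_mem hx))).mono (by norm_num)
      exact h2 s le_rfl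
    rw [Finset.prod_insert hi, Finset.prod_insert hi, ev_mul (hf i (Finset.mem_insert_self i s)) h1,
      ih fun j hj => hf j (Finset.mem_insert_of_mem hj)]

theorem ord_prod {v : Place K F} {ι : Type*} (s : Finset ι) (f : ι → F)
    (hf : ∀ i ∈ s, f i ≠ 0) : v.ord (∏ i ∈ s, f i) = ∑ i ∈ s, v.ord (f i) := by
  classical
  induction s using Finset.induction_on with
  | empty => simp
  | insert i s hi ih =>
    rw [Finset.prod_insert hi, Finset.sum_insert hi, v.ord_mul (hf i (Finset.mem_insert_self i s))
      (Finset.prod_ne_zero_iff.2 fun j hj => hf j (Finset.mem_insert_of_mem hj)),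
      ih fun j hj => hf j (Finset.mem_insert_of_mem hj)]

end Fermat.Agent.MW
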