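import Fermat.Agent.MW.BC
import Fermat.Agent.MW.Eval
import Fermat.Agent.RR.TowerDeg

/-!
# Embeddings of function fields: restriction of places
-/

set_option autoImplicit false
set_option linter.unusedSectionVars false
set_option linter.style.haveILetI false

namespace Fermat.Agent.MW

open AlgebraicCurve Fermat.Agent.RR Fermat.Agent.Curve IntermediateField Module

variable {k F L : Type*} [Field k] [IsAlgClosed k] [Field F] [Field L] [Algebra k F] [Algebra k L]
  [FunField k F] [FunField k L] (φ : F →ₐ[k] L)

theorem exists_rs (v : Place k L) : ∃ P : Place k F, ∃ e : ℤ, 0 < e ∧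
    ∀ f : F, f ≠ 0 → v.ord (φ f) = e * P.ord f := by
  obtain ⟨f, hf, _⟩ := (inferInstance : FunField k F).out
  by_cases h : v.ord (φ f) = 0
  · have h1 : Ge v 0 (φ f) := Ge.of_le h.ge
    have h2 := ev_spec h1
    have h3 : φ f - algebraMap k L (ev v (φ f)) = φ (f - algebraMap k F (ev v (φ f))) := by
      rw [map_sub, AlgHom.commutes]
    rw [h3] at h2
    have h4 : f - algebraMap k F (ev v (φ f)) ≠ 0 := by
      intro h0
      apply hf
      rw [sub_eq_zero.1 h0]
      exact isAlgebraic_algebraMap _
    have h5 := h2.le_ord ((map_ne_zero φ).2 h4)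
    exact exists_restrict φ v (j := f - algebraMap k F (ev v (φ f))) (by omega)
  · exact exists_restrict φ v h

/-- restriction of a place -/
noncomputable def rs (v : Place k L) : Place k F := (exists_rs φ v).choose

/-- ramification index -/
noncomputable def re (v : Place k L) : ℤ := (exists_rs φ v).choose_spec.choose

theorem re_pos (v : Place k L) : 0 < re φ v := (exists_rs φ v).choose_spec.choose_spec.1

theorem ord_map (v : Place k L) (f : F) : v.ord (φ f) = re φ v * (rs φ v).ord f := by
  rcases eq_or_ne f 0 with rfl | hf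
  · rw [map_zero, v.ord_zero, Place.ord_zero, mul_zero]
  · exact (exists_rs φ v).choose_spec.choose_spec.2 f hf

theorem rs_unique (v : Place k L) {P : Place k F} {e : ℤ} (he : 0 < e)
    (h : ∀ f : F, f ≠ 0 → v.ord (φ f) = e * P.ord f) : rs φ v = P ∧ re φ v = e := by
  have h1 : rs φ v = P := by
    apply place_eq_of_le
    intro x hx
    rw [mem_iff_ord_nonneg] at hx ⊢
    rcases eq_or_ne x 0 with rfl | hx0
    · rw [P.ord_zero]
    have h2 := h x hx0
    rw [ord_map] at h2
    have h3 : 0 ≤ e * P.ord x := h2 ▸ mul_nonneg (re_pos φ v).le hx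
    exact nonneg_of_mul_nonneg_right h3 he
  refine ⟨h1, ?_⟩
  obtain ⟨z, hz0, hz⟩ := exists_ord_eq P 1
  have h2 := h z hz0
  rw [ord_map, h1, hz] at h2
  linarith

theorem le_zero_iff (v : Place k L) (f : F) : 0 ≤ v.ord (φ f) ↔ 0 ≤ (rs φ v).ord f := by
  rw [ord_map]
  constructor
  · intro h; exact nonneg_of_mul_nonneg_right h (re_pos φ v)
  · intro h; exact mul_nonneg (re_pos φ v).le h

theorem ev_map (v : Place k L) {f : F} (hf : Ge (rs φ v) 0 f) : ev v (φ f) = ev (rs φ v) f := by
  apply ev_unique
  have h1 := ev_spec hf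
  have h2 : φ f - algebraMap k L (ev (rs φ v) f) = φ (f - algebraMap k F (ev (rs φ v) f)) := by
    rw [map_sub, AlgHom.commutes]
  rw [h2]
  rcases h1 with h1 | h1
  · rw [h1, map_zero]; exact Ge.zero v 1
  · refine Ge.of_le ?_
    rw [ord_map]
    have := re_pos φ v
    nlinarith

/-- the degree of an embedding -/
noncomputable def dg : ℕ := @Module.finrank F L _ _ φ.toRingHom.toAlgebra.toModule

theorem map_transcendental {f : F} (hf : Transcendental k f) : Transcendental k (φ f) :=
  fun h => hf ((isAlgebraic_algHom_iff φ φ.injective).1 h)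

theorem degree_poleDiv_map {f : F} (hf : Transcendental k f) :
    Divisor.degree (poleDiv k (φ f)) = dg φ * Divisor.degree (poleDiv k f) := by
  letI : Algebra F L := φ.toRingHom.toAlgebra
  haveI : IsScalarTower k F L := IsScalarTower.of_algebraMap_eq fun a => (φ.commutes a).symm
  have h1 := degree_poleDiv (K := k) hf
  have h2 := degree_poleDiv (K := k) (map_transcendental φ hf)
  have h3 := finrank_tower (K := k) (E := F) (F := L) f
  rw [h1, h2]
  have h4 : algebraMap F L f = φ f := rfl
  rw [h4] at h3
  rw [h3]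
  push_cast
  rw [mul_comm]
  rfl

theorem dg_pos : 0 < dg φ := by
  obtain ⟨f, hf, _⟩ := (inferInstance : FunField k F).out
  have h1 := degree_poleDiv_map φ hf
  have h2 : 0 < Divisor.degree (poleDiv k (φ f)) := by
    rw [degree_poleDiv (map_transcendental φ hf)]
    haveI := fd (K := k) (map_transcendental φ hf)
    exact_mod_cast Module.finrank_pos
  by_contra h
  have h3 : dg φ = 0 := by omega
  rw [h3] at h1
  simp only [Nat.cast_zero, zero_mul] at h1
  omega

/-- the fibre formula -/
theorem sum_re (P : Place k F) : ∃ T : Finset (Place k L), (∀ v, v ∈ T ↔ rs φ v = P) ∧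
    ∑ v ∈ T, re φ v = dg φ := by
  classical
  obtain ⟨c, hc⟩ := exists_single_pole P
  obtain ⟨f, hf, hfP⟩ := hc (c + 1) (by omega)
  have hf0 : f ≠ 0 := by rintro rfl; exact hf isAlgebraic_zero
  have hP : ∀ Q : Place k F, max (-Q.ord f) 0 = if Q = P then ((c + 1 : ℕ) : ℤ) else 0 := by
    intro Q
    rw [← poleDiv_apply, hfP, Finsupp.single_apply]
    simp only [eq_comm]
  have hv : ∀ v : Place k L, poleDiv k (φ f) v = if rs φ v = P then re φ v * ((c + 1 : ℕ) : ℤ) else 0 := by
    intro v
    rw [poleDiv_apply, ord_map]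
    have h1 := hP (rs φ v)
    have h2 := re_pos φ v
    have h3 : max (-(re φ v * (rs φ v).ord f)) 0 = re φ v * max (-(rs φ v).ord f) 0 := by
      rw [mul_max_of_nonneg _ _ h2.le, mul_zero]
      congr 1
      ring
    rw [h3, h1]
    split_ifs
    · rfl
    · rw [mul_zero]
  refine ⟨(poleDiv k (φ f)).support, ?_, ?_⟩
  · intro v
    rw [Finsupp.mem_support_iff, hv v]
    constructor
    · intro h
      by_contra h1
      rw [if_neg h1] at h
      exact h rfl
    · intro h
      rw [if_pos h]
      exact mul_ne_zero (re_pos φ v).ne' (by positivity)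
  · have h1 := degree_poleDiv_map φ hf
    rw [hfP, degree_single', degree_eq] at h1
    have h2 : ∑ v ∈ (poleDiv k (φ f)).support, poleDiv k (φ f) v =
        (∑ v ∈ (poleDiv k (φ f)).support, re φ v) * ((c + 1 : ℕ) : ℤ) := by
      rw [Finset.sum_mul]
      refine Finset.sum_congr rfl fun v hv' => ?_
      rw [Finsupp.mem_support_iff, hv v] at hv'
      rw [hv v]
      by_cases h : rs φ v = P
      · rw [if_pos h]
      · rw [if_neg h] at hv'
        exact absurd rfl hv'
    rw [h2] at h1
    exact mul_right_cancel₀ (by positivity) h1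

theorem exists_above (P : Place k F) : ∃ v : Place k L, rs φ v = P := by
  obtain ⟨T, hT, hsum⟩ := sum_re φ P
  have h1 := dg_pos φ
  have h2 : T.Nonempty := by
    rw [Finset.nonempty_iff_ne_empty]
    rintro rfl
    rw [Finset.sum_empty] at hsum
    omega
  obtain ⟨v, hv⟩ := h2
  exact ⟨v, (hT v).1 hv⟩

end Fermat.Agent.MW
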