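import Fermat.Agent.MW.G6
import Fermat.Agent.Spec.CoeffAut
import Fermat.Agent.Kum.Final

/-!
# The modular function field as a constant curve
-/

set_option autoImplicit false
set_option linter.unusedSectionVars false
set_option linter.style.haveILetI false

noncomputable section

namespace Fermat.Agent.MW

open AlgebraicCurve ModularCurve Fermat.Agent.RR Fermat.Agent.Curve IntermediateField Module
open Fermat.Agent.ModPoly Fermat.Agent.Spec Fermat.Agent.Red Fermat.Agent.RedMod Fermat.Agent.Cusp

section

variable (k Ω : Type*) [Field k] [Field Ω] [Algebra k Ω] (N : ℕ) [NeZero N]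

/-- extension of constants of the modular function field -/
@[reducible] def ffAlg : Algebra (FF k N) (FF Ω N) :=
  RingHom.toAlgebra
    { toFun := fun x => ⟨coeffMap (algebraMap k Ω) (x : LaurentSeries k),
        ModPoly.coeffMap_mem_FF _ x.2⟩
      map_one' := Subtype.ext (map_one (coeffMap (algebraMap k Ω)))
      map_mul' := fun _ _ => Subtype.ext (map_mul (coeffMap (algebraMap k Ω)) _ _)
      map_zero' := Subtype.ext (map_zero (coeffMap (algebraMap k Ω)))
      map_add' := fun _ _ => Subtype.ext (map_add (coeffMap (algebraMap k Ω)) _ _) }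

attribute [local instance] ffAlg

theorem coe_ffAlg (x : FF k N) : ((algebraMap (FF k N) (FF Ω N) x : FF Ω N) : LaurentSeries Ω) =
    coeffMap (algebraMap k Ω) (x : LaurentSeries k) := rfl

theorem ffCExt : CExt k Ω (FF k N) (FF Ω N) where
  comm a := by
    apply Subtype.ext
    rw [coe_ffAlg]
    change coeffMap (algebraMap k Ω) (algebraMap k (LaurentSeries k) a) =
      algebraMap Ω (LaurentSeries Ω) (algebraMap k Ω a)
    rw [algebraMap_eq_C, coeffMap_C, ← algebraMap_eq_C]
  gen E hE := by
    rw [eq_top_iff, ← adjoin_jm_eq_top, adjoin_le_iff]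
    rintro _ ⟨m, hm, rfl⟩
    have := hE (jm k m hm)
    have h2 : algebraMap (FF k N) (FF Ω N) (jm k m hm) = jm Ω m hm := by
      apply Subtype.ext
      rw [coe_ffAlg]
      haveI : NeZero (m : ℕ) := ⟨m.ne_zero⟩
      change coeffMap _ (Jc 1 m : LaurentSeries k) = (Jc 1 m : LaurentSeries Ω)
      rw [Jc_one_eq, coeffMap_qExpand, coeffMap_jqModC, ← Jc_one_eq]
    rw [h2] at this
    exact this
  tr f := by
    rintro ⟨a, ha⟩
    have h1 := congrArg (fun x : FF Ω N => (x : LaurentSeries Ω)) ha
    simp only [coe_ffAlg] at h1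
    have h2 : ((algebraMap Ω (FF Ω N) a : FF Ω N) : LaurentSeries Ω) = HahnSeries.C a := by
      rw [← algebraMap_eq_C]; rfl
    rw [h2] at h1
    refine ⟨(f : LaurentSeries k).coeff 0, ?_⟩
    apply Subtype.ext
    change algebraMap k (LaurentSeries k) _ = _
    rw [algebraMap_eq_C]
    ext n
    have h3 := congrArg (fun x : LaurentSeries Ω => x.coeff n) h1
    simp only [coeffMap_coeff] at h3
    by_cases hn : n = 0
    · subst hn
      simp
    · rw [HahnSeries.C_apply, HahnSeries.coeff_single_of_ne hn] at h3
      rw [HahnSeries.C_apply, HahnSeries.coeff_single_of_ne hn]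
      exact ((map_eq_zero (algebraMap k Ω)).1 h3.symm).symm

end

end Fermat.Agent.MW
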