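import Fermat.Agent.MW.Cls
import Fermat.Agent.MW.FFExt
import Fermat.Agent.Kum.Class

/-!
# Finiteness of torsion in the Jacobian of the modular curve
-/

set_option autoImplicit false
set_option linter.unusedSectionVars false
set_option linter.style.haveILetI false

noncomputable section

namespace Fermat.Agent.MW

open AlgebraicCurve ModularCurve Fermat.Agent.RR Fermat.Agent.Curve IntermediateField Module
open Fermat.Agent.Kum Fermat.Agent.ModPoly Fermat.Agent.X0Genus

variable {K : Type*} [Field K] [IsAlgClosed K] [CharZero K] (ι : K →+* ℂ) {N : ℕ} [NeZero N]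

include ι in
theorem finite_torsion' [Algebra ℚ K] (m : ℕ) [NeZero m] :
    {x : Pic0 K (FK K N) | m • x = 0}.Finite := by
  classical
  have h : ∀ x : Pic0 K (FK K N), m • x = 0 → ∃ (D : Divisor.degZero (K := K) (F := FK K N))
      (f : FK K N), Pic0.mk D = x ∧ f ≠ 0 ∧ m • (D : Divisor K (FK K N)) = divisor K f ∧
      ∃ φ : Additive (Kum.G0 N) →+ ZMod m, Kum.Rep N (coeffMap ι f.1) φ := by
    intro x hx
    obtain ⟨D, rfl⟩ := Pic0.mk_surjective x
    rw [Spec.nsmul_mk, Spec.pic0_mk_eq_zero] at hx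
    obtain ⟨f, hf, hfD⟩ := Spec.isPrincipal_iff.1 hx
    have hfD' : m • (D : Divisor K (FK K N)) = divisor K f := hfD
    have hKD : KD m f := by
      refine ⟨hf, fun v => ?_⟩
      have h1 := DFunLike.congr_fun hfD' v
      rw [divisor_apply, Finsupp.smul_apply, nsmul_eq_mul] at h1
      exact ⟨_, h1.symm⟩
    obtain ⟨φ, -, hφ⟩ := hKD.exists_rep ι
    exact ⟨D, f, rfl, hf, hfD', φ, hφ⟩
  choose! D f h1 h2 h3 φ h4 using h
  apply Set.Finite.of_finite_image (f := φ)
  · exact Set.toFinite _
  · intro x hx y hy hxy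
    have hx' := h4 x hx
    have hy' := h4 y hy
    change φ x = φ y at hxy
    rw [← hxy] at hy'
    have h5 : Kum.Rep N (coeffMap ι (f x * (f y)⁻¹).1) (0 : Additive (Kum.G0 N) →+ ZMod m) := by
      have h6 := hx'.mul hy'.inv
      rw [add_neg_cancel] at h6
      have : coeffMap ι (f x * (f y)⁻¹).1 = coeffMap ι (f x).1 * (coeffMap ι (f y).1)⁻¹ := by
        rw [← map_inv₀, ← map_mul]; rfl
      rw [this]
      exact h6
    obtain ⟨z, hz⟩ := exists_pow_of_rep_zero ι h5
    have hz0 : z ≠ 0 := by
      rintro rfl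
      rw [zero_pow (NeZero.ne m)] at hz
      exact mul_ne_zero (h2 x hx) (inv_ne_zero (h2 y hy)) hz
    have h7 : (D x : Divisor K (FK K N)) - D y = divisor K z := by
      have h8 : m • ((D x : Divisor K (FK K N)) - D y) = m • divisor K z := by
        rw [← Spec.divisor_pow, ← hz, Spec.divisor_mul (h2 x hx) (inv_ne_zero (h2 y hy)), smul_sub,
          h3 x hx, h3 y hy]
        have : divisor K ((f y)⁻¹) = -divisor K (f y) := by
          ext v
          rw [Finsupp.neg_apply, divisor_apply, divisor_apply, v.ord_inv]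
        rw [this, sub_eq_add_neg]
      ext v
      have h9 := DFunLike.congr_fun h8 v
      rw [Finsupp.smul_apply, Finsupp.smul_apply, nsmul_eq_mul, nsmul_eq_mul] at h9
      exact mul_left_cancel₀ (by exact_mod_cast NeZero.ne m) h9
    rw [← h1 x hx, ← h1 y hy, ← sub_eq_zero]
    change Pic0.mk (D x - D y) = 0
    rw [Spec.pic0_mk_eq_zero]
    exact Spec.isPrincipal_iff.2 ⟨z, hz0, h7⟩

include ι in
theorem finite_torsion_of_eq [Algebra ℚ K] (m : ℕ) [NeZero m]
    (E : IntermediateField K (LaurentSeries K)) (hE : FK K N = E) :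
    {x : Pic0 K E | m • x = 0}.Finite := by
  subst hE
  exact finite_torsion' ι m

include ι in
theorem finite_torsion (m : ℕ) [NeZero m] : {x : Pic0 K (FF K N) | m • x = 0}.Finite := by
  letI : Algebra ℚ K := DivisionRing.toRatAlgebra
  exact finite_torsion_of_eq ι m (FF K N) (baseChange_eq K N)

end Fermat.Agent.MW
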