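import Fermat.Agent.MW.Quad
import Fermat.Agent.RR.Hurwitz

/-!
# Finite ramification, reduced divisors, fields of definition
-/

set_option autoImplicit false
set_option linter.unusedSectionVars false
set_option linter.unusedVariables false
set_option linter.style.haveILetI false

namespace Fermat.Agent.MW

open AlgebraicCurve Fermat.Agent.RR Fermat.Agent.Curve IntermediateField Module Fermat.Agent

section
variable {k F : Type*} [Field k] [Field F] [Algebra k F] [IsAlgClosed k] [FunField k F]

theorem finite_ram [CharZero k] {t : F} (ht : Transcendental k t) :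
    {v : Place k F | Ge v 0 t ∧ v.ord (t - algebraMap k F (ev v t)) ≠ 1}.Finite := by
  classical
  haveI := fd (K := k) ht
  haveI : CharZero k⟮t⟯ := IntermediateField.charZero _
  by_contra hinf
  have hne : ∀ a : k, t - algebraMap k F a ≠ 0 := by
    intro a h
    apply ht
    rw [sub_eq_zero.1 h]
    exact isAlgebraic_algebraMap a
  obtain ⟨S, hS, hcard⟩ := Set.Infinite.exists_subset_card_eq hinf
    ((2 * rrGenus k F + 2 * Module.finrank k⟮t⟯ F) + 1)
  have h1 : ∀ v ∈ S, 2 ≤ v.ord (t - algebraMap k F (ev v t)) := by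
    intro v hv
    have h2 := hS hv
    have h3 := (ev_spec h2.1).le_ord (hne _)
    have h4 : v.ord (t - algebraMap k F (ev v t)) ≠ 1 := h2.2
    omega
  have h2 := hurwitz_le ht S (fun v => v.ord (t - algebraMap k F (ev v t))) (fun v hv =>
    ⟨by have := h1 v hv; change 0 < v.ord _; omega, Or.inr ⟨_, rfl⟩⟩)
  have h3 : (S.card : ℤ) ≤ ∑ v ∈ S, (v.ord (t - algebraMap k F (ev v t)) - 1) := by
    have h4 : (S.card : ℤ) = ∑ v ∈ S, 1 := by simp
    rw [h4]
    refine Finset.sum_le_sum fun v hv => ?_
    have := h1 v hv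
    omega
  rw [hcard] at h3
  push_cast at h3
  omega

/-- **Reduced divisors in a class.** -/
theorem exists_reduced [CharZero k] : ∃ c : ℤ, ∀ D : Divisor k F, c ≤ Divisor.degree D →
    ∀ S : Finset (Place k F), ∃ x : F, x ≠ 0 ∧ (∀ Q, (D + divisor k x) Q = 0 ∨
      (D + divisor k x) Q = 1) ∧ ∀ Q ∈ S, (D + divisor k x) Q = 0 := by
  classical
  obtain ⟨c, hc⟩ := Spec.exists_tight k F
  refine ⟨max c 1, fun D hD S => ?_⟩
  obtain ⟨x₁, hx₁, hx₁0, -⟩ := hc D ((le_max_left _ _).trans hD) ∅
  set E := D + divisor k x₁ with hE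
  have hE0 : 0 ≤ E := (Spec.mem_L_of_divisor hx₁0).1 hx₁
  have hEdeg : Divisor.degree E = Divisor.degree D := by
    rw [hE, map_add, degree_divisor, add_zero]
  obtain ⟨f, hf, hf0, hfS⟩ := hc E (by rw [hEdeg]; exact (le_max_left _ _).trans hD) E.support
  have hfE := (Spec.mem_L_of_divisor hf0).1 hf
  have hft : Transcendental k f := by
    intro halg
    obtain ⟨a, rfl⟩ := mem_range_of_isAlgebraic halg
    have h1 : E.support.Nonempty := by
      rw [Finset.nonempty_iff_ne_empty]
      intro h
      rw [Finsupp.support_eq_empty] at h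
      rw [h, map_zero] at hEdeg
      have := (le_max_right c 1).trans hD
      omega
    obtain ⟨v, hv⟩ := h1
    have h2 := hfS v hv
    rw [ord_algebraMap] at h2
    rw [Finsupp.mem_support_iff] at hv
    omega
  -- avoid bad values
  let bad : Finset (Place k F) := (finite_ram hft).toFinset ∪ S
  haveI : Infinite k := IsAlgClosed.instInfinite
  obtain ⟨β, hβ⟩ := Infinite.exists_notMem_finset (bad.image fun v => ev v f)
  have hβ0 : f - algebraMap k F β ≠ 0 := by
    intro h
    apply hft
    rw [sub_eq_zero.1 h]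
    exact isAlgebraic_algebraMap β
  have hval : ∀ v : Place k F, (divisor k x₁ v + D v = E v) := by
    intro v
    rw [hE, Finsupp.add_apply, add_comm]
  have hkey : ∀ v : Place k F, (E + divisor k (f - algebraMap k F β)) v =
      if Ge v 0 f then v.ord (f - algebraMap k F β) + E v else 0 := by
    intro v
    rw [Finsupp.add_apply, divisor_apply]
    split_ifs with h
    · rw [add_comm]
    · have h1 : v.ord f < 0 := by
        by_contra h2
        exact h (Ge.of_le (not_lt.1 h2))
      rw [(ord_sub_eq_of_neg h1 β).2]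
      have h2 : v ∈ E.support := by
        rw [Finsupp.mem_support_iff]
        intro h3
        have h4 := hfE v
        rw [Finsupp.add_apply, divisor_apply, h3] at h4
        change 0 ≤ _ at h4
        omega
      rw [hfS v h2]
      ring
  have hkey2 : ∀ v : Place k F, Ge v 0 f → E v = 0 := by
    intro v hv
    by_contra h
    have h1 := hfS v (Finsupp.mem_support_iff.2 h)
    have h2 := hv.le_ord hf0
    have h3 := hE0 v
    change 0 ≤ E v at h3
    omega
  refine ⟨x₁ * (f - algebraMap k F β), mul_ne_zero hx₁0 hβ0, ?_, ?_⟩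
  · intro v
    rw [Spec.divisor_mul hx₁0 hβ0, ← add_assoc, ← hE, hkey]
    by_cases h : Ge v 0 f
    · rw [if_pos h, hkey2 v h, add_zero]
      by_cases h2 : ev v f = β
      · right
        have h3 : v ∉ bad := fun h4 => hβ (Finset.mem_image.2 ⟨v, h4, h2⟩)
        have h4 : v ∉ (finite_ram hft).toFinset := fun h5 => h3 (Finset.mem_union_left _ h5)
        rw [Set.Finite.mem_toFinset] at h4
        by_contra h5
        exact h4 ⟨h, by rw [h2]; exact h5⟩
      · left
        have h3 : Ge v 0 (f - algebraMap k F β) := h.sub (Ge.algebraMap v β)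
        refine (ord_eq_zero_of_ev h3 ?_).2
        rw [ev_sub h (Ge.algebraMap v β), ev_algebraMap]
        exact sub_ne_zero.2 h2
    · rw [if_neg h]; exact Or.inl rfl
  · intro v hv
    rw [Spec.divisor_mul hx₁0 hβ0, ← add_assoc, ← hE, hkey]
    split_ifs with h
    · rw [hkey2 v h, add_zero]
      have h3 : Ge v 0 (f - algebraMap k F β) := h.sub (Ge.algebraMap v β)
      refine (ord_eq_zero_of_ev h3 ?_).2
      rw [ev_sub h (Ge.algebraMap v β), ev_algebraMap]
      apply sub_ne_zero.2
      intro h4
      exact hβ (Finset.mem_image.2 ⟨v, Finset.mem_union_right _ hv, h4⟩)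
    · rfl

/-- the support of a reduced divisor as a family -/
theorem exists_sumD {D : Divisor k F} (h : ∀ Q, D Q = 0 ∨ D Q = 1) {n : ℕ}
    (hn : Divisor.degree D = n) :
    ∃ P : Fin n → Place k F, Function.Injective P ∧ (∑ i, Finsupp.single (P i) 1 = D) ∧
      ∀ i, D (P i) ≠ 0 := by
  classical
  have h1 : D.support.card = n := by
    have h2 : Divisor.degree D = ∑ v ∈ D.support, (1 : ℤ) := by
      rw [degree_eq]
      refine Finset.sum_congr rfl fun v hv => ?_
      rcases h v with h3 | h3
      · exact absurd h3 (Finsupp.mem_support_iff.1 hv)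
      · exact h3
    rw [Finset.sum_const, nsmul_eq_mul, mul_one, hn] at h2
    exact_mod_cast h2.symm
  let e := (Finset.equivFinOfCardEq h1).symm
  refine ⟨fun i => (e i : Place k F), fun i j hij => e.injective (Subtype.ext hij), ?_,
    fun i => Finsupp.mem_support_iff.1 (e i).2⟩
  have h2 : ∑ i, Finsupp.single ((e i : Place k F)) (1 : ℤ) =
      ∑ v : D.support, Finsupp.single (v : Place k F) (1 : ℤ) :=
    Equiv.sum_comp e (fun v : D.support => Finsupp.single (v : Place k F) (1 : ℤ))
  rw [h2, Finset.sum_coe_sort D.support (fun v => Finsupp.single v (1 : ℤ))]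
  conv_rhs => rw [← Finsupp.sum_single D, Finsupp.sum]
  refine Finset.sum_congr rfl fun v hv => ?_
  rcases h v with h3 | h3
  · exact absurd h3 (Finsupp.mem_support_iff.1 hv)
  · rw [h3]

end

section fields
variable {k Ω : Type*} [Field k] [Field Ω] [Algebra k Ω]

theorem funField_of_finite {t : Ω} (ht : Transcendental k t) (L : IntermediateField k Ω)
    (h : k⟮t⟯ ≤ L) (hfin : FiniteDimensional k⟮t⟯ (extendScalars h)) : FunField k L := by
  have htL : t ∈ L := h (mem_adjoin_simple_self k t)
  let t' : L := ⟨t, htL⟩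
  have ht' : Transcendental k t' := by
    intro halg
    apply ht
    exact (isAlgebraic_algHom_iff L.val L.val.injective).2 halg
  let M : IntermediateField k L := k⟮t'⟯
  have hM : M.map L.val = k⟮t⟯ := by
    rw [adjoin_map, Set.image_singleton]
    rfl
  let e0 : M ≃ₐ[k] (M.map L.val) := M.equivMap L.val
  let e1 : (M.map L.val) ≃ₐ[k] k⟮t⟯ := IntermediateField.equivOfEq hM
  let e : k⟮t⟯ ≃+* M := (e0.trans e1).symm.toRingEquiv
  let e2 : (extendScalars h) ≃+* L := RingEquiv.refl L
  haveI : Module.Finite M L := by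
    refine Module.Finite.of_equiv_equiv e e2 ?_
    ext x
    obtain ⟨y, rfl⟩ := (e0.trans e1).surjective x
    change ((((e0.trans e1).symm ((e0.trans e1) y) : M) : L) : Ω) = (((e0.trans e1) y : k⟮t⟯) : Ω)
    rw [AlgEquiv.symm_apply_apply]
    rfl
  exact ⟨t', ht', this⟩

/-- finitely many elements lie in a function field -/
theorem exists_funField {t : Ω} (ht : Transcendental k t)
    (halg : ∀ x : Ω, IsIntegral k⟮t⟯ x) (S : Set Ω) (hS : S.Finite) :
    ∃ L : IntermediateField k Ω, FunField k L ∧ S ⊆ L := by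
  haveI : Finite S := hS
  let L' : IntermediateField k⟮t⟯ Ω := adjoin k⟮t⟯ S
  haveI : FiniteDimensional k⟮t⟯ L' := finiteDimensional_adjoin fun x _ => halg x
  let L : IntermediateField k Ω := restrictScalars k L'
  have h : k⟮t⟯ ≤ L := by
    intro x hx
    exact L'.algebraMap_mem ⟨x, hx⟩
  refine ⟨L, funField_of_finite ht L h ?_, ?_⟩
  · exact this
  · intro x hx
    exact subset_adjoin k⟮t⟯ S hx

end fields

end Fermat.Agent.MW
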