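import Fermat.Agent.MW.GoodW
import Fermat.Agent.MW.Fin
import Fermat.Agent.Spec.TorsInj
import Fermat.Agent.Kum.Final

/-!
# Reduction of the constant curve from a reduction model
-/

set_option autoImplicit false
set_option linter.unusedSectionVars false
set_option linter.style.haveILetI false

noncomputable section

namespace Fermat.Agent.MW

open AlgebraicCurve Fermat.Agent.RR Fermat.Agent.Curve IntermediateField Module
open Fermat.Agent.Spec Fermat.Agent.Red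

variable {k Ω F 𝓕 : Type*} [Field k] [Field Ω] [Field F] [Field 𝓕]
  [Algebra k F] [Algebra Ω 𝓕] [Algebra k Ω] [Algebra F 𝓕]
  [IsAlgClosed k] [IsAlgClosed Ω] [FunField k F] [FunField Ω 𝓕] [hC : CExt k Ω F 𝓕]
  (A : ValuationSubring Ω) [Algebra A k] [Algebra A 𝓕] [IsScalarTower A Ω 𝓕] [Algebra A F]
  [IsScalarTower A k F] {M : RedModel A Ω 𝓕 k F} {hk : Function.Surjective (algebraMap A k)}
  (𝓓 : DivRed A Ω 𝓕 k F M hk)
  (hbc : ∀ f : F, ∃ h : bc F 𝓕 f ∈ M.W, M.π ⟨bc F 𝓕 f, h⟩ = f)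

/-- the reduction of places -/
def rpD (v : Place Ω 𝓕) : Place k F := (𝓓.r_single v).choose

theorem rpD_spec (v : Place Ω 𝓕) : 𝓓.r (Finsupp.single v 1) = Finsupp.single (rpD A 𝓓 v) 1 :=
  (𝓓.r_single v).choose_spec

theorem mapDomain_rpD (D : Divisor Ω 𝓕) : Finsupp.mapDomain (rpD A 𝓓) D = 𝓓.r D := by
  have : (Finsupp.mapDomain.addMonoidHom (rpD A 𝓓) : Divisor Ω 𝓕 →+ Divisor k F) = 𝓓.r := by
    refine Finsupp.addHom_ext' fun v => AddMonoidHom.ext_int ?_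
    change Finsupp.mapDomain (rpD A 𝓓) (Finsupp.single v 1) = 𝓓.r (Finsupp.single v 1)
    rw [Finsupp.mapDomain_single, rpD_spec]
  exact DFunLike.congr_fun this D

theorem rpD_div (x : M.W) (hx : M.π x ≠ 0) :
    Finsupp.mapDomain (rpD A 𝓓) (divisor Ω (x : 𝓕)) = divisor k (M.π x) := by
  rw [mapDomain_rpD]
  exact 𝓓.r_divisor x.2 hx

include hbc in
theorem rpD_bcP (P : Place k F) : rpD A 𝓓 (bcP Ω 𝓕 P) = P := by
  classical
  obtain ⟨c, hc'⟩ := exists_single_pole P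
  obtain ⟨f, hft, hf⟩ := hc' (c + 1) (Nat.le_succ c)
  have hf0 : f ≠ 0 := by
    rintro rfl
    exact hft isAlgebraic_zero
  obtain ⟨hm, hπ⟩ := hbc f
  by_contra hne
  have h1 := 𝓓.r_divisor hm (by rw [hπ]; exact hf0)
  rw [hπ, divisor_bc (K := k) (K' := Ω) f] at h1
  have hZ : 0 ≤ divisor k f + Finsupp.single P ((c + 1 : ℕ) : ℤ) := by
    intro v
    rw [Finsupp.add_apply, divisor_apply, ← hf, poleDiv_apply, Finsupp.coe_zero, Pi.zero_apply]
    have := le_max_left (-v.ord f) 0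
    omega
  have h2 : divisor k f = (divisor k f + Finsupp.single P ((c + 1 : ℕ) : ℤ)) -
    ((c + 1 : ℕ) : ℤ) • Finsupp.single P 1 := by
    rw [Finsupp.smul_single, smul_eq_mul, mul_one, add_sub_cancel_right]
  have h3 := 𝓓.r_nonneg (bcD_nonneg (K' := Ω) (F' := 𝓕) hZ)
  have h4 : 𝓓.r (bcD Ω 𝓕 (divisor k f)) = 𝓓.r (bcD Ω 𝓕 (divisor k f +
      Finsupp.single P ((c + 1 : ℕ) : ℤ))) - ((c + 1 : ℕ) : ℤ) •
        Finsupp.single (rpD A 𝓓 (bcP Ω 𝓕 P)) 1 := by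
    conv_lhs => rw [h2]
    rw [map_sub, map_sub, map_zsmul, map_zsmul, bcD_single, rpD_spec]
  rw [h4] at h1
  have h5 := DFunLike.congr_fun h1 P
  have h6 : (divisor k f) P = -((c + 1 : ℕ) : ℤ) := by
    have := DFunLike.congr_fun hf P
    rw [poleDiv_apply, Finsupp.single_eq_same] at this
    rw [divisor_apply]
    have h7 : (0 : ℤ) < ((c + 1 : ℕ) : ℤ) := by positivity
    omega
  rw [h6, Finsupp.sub_apply, Finsupp.smul_apply, Finsupp.single_eq_of_ne (Ne.symm hne),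
    smul_zero, sub_zero] at h5
  have h7 := h3 P
  rw [h5, Finsupp.coe_zero, Pi.zero_apply] at h7
  have h8 : (0 : ℤ) < ((c + 1 : ℕ) : ℤ) := by positivity
  omega

theorem rpD_lift (D : Divisor Ω 𝓕) : ∃ x : Fin (ell D) → M.W, (∀ i, (x i : 𝓕) ∈ riemannRochSpace D) ∧
    LinearIndependent k (fun i => M.π (x i)) ∧
    ∀ i, M.π (x i) ∈ riemannRochSpace (Finsupp.mapDomain (rpD A 𝓓) D : Divisor k F) := by
  let V := riemannRochSpace D
  let b₀ := Module.Free.chooseBasis A (M.lat V)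
  have h1 : Module.finrank A (M.lat V) = ell D := M.finrank_lat V
  let b := b₀.reindex (Fintype.equivFinOfCardEq (by
    rw [← Module.finrank_eq_card_basis b₀, h1]))
  refine ⟨fun i => ⟨b i, (b i).2.1⟩, fun i => (b i).2.2, M.linearIndependent_red hk b, ?_⟩
  intro i
  rw [mapDomain_rpD]
  exact 𝓓.π_mem _ (b i).2.2

include hk in
theorem red_prim {x : 𝓕} (hx : x ≠ 0) :
    ∃ c : Ω, c ≠ 0 ∧ ∃ h : algebraMap Ω 𝓕 c * x ∈ M.W, M.π ⟨_, h⟩ ≠ 0 := by
  obtain ⟨c, hc0, h, h1⟩ := Kum.exists_smul_red_ne_zero M hk hx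
  have hcongr : ∀ y y' : 𝓕, y = y' → ∀ h : y ∈ M.W, ∃ h' : y' ∈ M.W,
      M.π ⟨y', h'⟩ = M.π ⟨y, h⟩ := by
    rintro y _ rfl h
    exact ⟨h, rfl⟩
  obtain ⟨h2, h3⟩ := hcongr _ _ (Algebra.smul_def c x) h
  exact ⟨c, hc0, h2, by rw [← h3] at h1; exact h1⟩

theorem red_inv (x : M.W) (hx : M.π x ≠ 0) : (x : 𝓕)⁻¹ ∈ M.W := by
  have h1 : IsUnit (M.π x) := isUnit_iff_ne_zero.2 hx
  obtain ⟨y, hy⟩ := (M.isUnit_of x h1).exists_right_inv
  have : (x : 𝓕)⁻¹ = y := by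
    rw [inv_eq_iff_eq_inv]
    exact eq_inv_of_mul_eq_one_left (congrArg Subtype.val hy)
  rw [this]
  exact y.2

/-- the reduction of a constant curve from a reduction model -/
def mkCRed (hc : ∀ c : k, algebraMap k Ω c ∈ A)
    (hρ : ∀ c : k, algebraMap A k ⟨algebraMap k Ω c, hc c⟩ = c)
    (hloc : ∀ a : A, algebraMap A k a = 0 ↔ ¬ IsUnit a) : CRed k Ω F 𝓕 where
  A := A
  ρ := algebraMap A k
  const_mem := hc
  ρ_const := hρ
  ρ_eq_zero := by
    intro a ha ha0 hinv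
    refine (hloc a).1 ha ?_
    exact ⟨⟨a, ⟨(a : Ω)⁻¹, hinv⟩, Subtype.ext (mul_inv_cancel₀ ha0),
      Subtype.ext (inv_mul_cancel₀ ha0)⟩, rfl⟩
  ρ_ne_zero := by
    intro a ha
    have h1 : IsUnit a := by
      by_contra h2
      exact ha ((hloc a).2 h2)
    obtain ⟨b, hb⟩ := h1.exists_right_inv
    have : (a : Ω)⁻¹ = b := by
      rw [inv_eq_iff_eq_inv]
      exact eq_inv_of_mul_eq_one_left (congrArg Subtype.val hb)
    rw [this]
    exact b.2
  W := M.W.toSubring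
  π := M.π.toRingHom
  bc_mem f := (hbc f).choose
  π_bc f := (hbc f).choose_spec
  scal_mem a := by
    have := M.W.algebraMap_mem a
    rwa [IsScalarTower.algebraMap_apply A Ω 𝓕] at this
  π_scal a := by
    have h1 := M.π.commutes a
    rw [IsScalarTower.algebraMap_apply A k F] at h1
    rw [← h1]
    change M.π _ = M.π _
    congr 1
    exact Subtype.ext (IsScalarTower.algebraMap_apply A Ω 𝓕 a).symm
  prim _ hx := red_prim (hk := hk) A hx
  inv_mem x hx := red_inv A x hx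
  rp := rpD A 𝓓
  map_div x hx := rpD_div A 𝓓 x hx
  rp_bcP := rpD_bcP A 𝓓 hbc
  lift := rpD_lift A 𝓓

end Fermat.Agent.MW
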