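import Mathlib

/-!
# Automorphisms of `ℂ`
-/

set_option autoImplicit false
set_option linter.style.haveILetI false

noncomputable section

namespace Fermat.Agent.MW

open IntermediateField Cardinal

/-- Extension of the identity of `R` to isomorphisms of algebraically closed fields. -/
theorem exists_equiv {R K L : Type} [Field R] [Field K] [Field L] [Algebra R K] [Algebra R L]
    [IsAlgClosed K] [IsAlgClosed L] {ι κ : Type} {v : ι → K} {w : κ → L} (e : ι ≃ κ)
    (hv : IsTranscendenceBasis R v) (hw : IsTranscendenceBasis R w) :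
    ∃ σ : K ≃+* L, (∀ r : R, σ (algebraMap R K r) = algebraMap R L r) ∧
      ∀ i, σ (v i) = w (e i) := by
  letI h1 := IsAlgClosed.isAlgClosure_of_transcendence_basis v hv
  letI h2 := IsAlgClosed.isAlgClosure_of_transcendence_basis w hw
  let E : Algebra.adjoin R (Set.range v) ≃ₐ[R] Algebra.adjoin R (Set.range w) :=
    (hv.1.aevalEquiv.symm.trans (MvPolynomial.renameEquiv R e)).trans hw.1.aevalEquiv
  refine ⟨IsAlgClosure.equivOfEquiv K L E.toRingEquiv, ?_, ?_⟩
  · intro r
    have h3 := IsAlgClosure.equivOfEquiv_algebraMap K L E.toRingEquiv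
      (algebraMap R (Algebra.adjoin R (Set.range v)) r)
    rw [← IsScalarTower.algebraMap_apply] at h3
    rw [h3]
    change algebraMap _ L (E (algebraMap R _ r)) = _
    rw [AlgEquiv.commutes, ← IsScalarTower.algebraMap_apply]
  · intro i
    have h3 := IsAlgClosure.equivOfEquiv_algebraMap K L E.toRingEquiv
      ⟨v i, Algebra.subset_adjoin ⟨i, rfl⟩⟩
    have h4 : hv.1.aevalEquiv.symm ⟨v i, Algebra.subset_adjoin ⟨i, rfl⟩⟩ = MvPolynomial.X i := by
      rw [AlgEquiv.symm_apply_eq]
      apply Subtype.ext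
      simp
    have h5 : E ⟨v i, Algebra.subset_adjoin ⟨i, rfl⟩⟩ =
        ⟨w (e i), Algebra.subset_adjoin ⟨e i, rfl⟩⟩ := by
      change hw.1.aevalEquiv (MvPolynomial.renameEquiv R e (hv.1.aevalEquiv.symm _)) = _
      rw [h4]
      apply Subtype.ext
      simp
    refine h3.trans ?_
    change algebraMap _ L (E _) = _
    rw [h5]
    rfl

/-- Any two embeddings of a countable field are conjugate. -/
theorem exists_conj {R : Type} [Field R] [Countable R] (φ φ' : R →+* ℂ) :
    ∃ σ : ℂ ≃+* ℂ, ∀ r : R, σ (φ r) = φ' r := by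
  have key : ∀ (a : Algebra R ℂ), ∃ (ι : Type) (v : ι → ℂ), IsTranscendenceBasis R v ∧ #ι = #ℂ := by
    intro a
    obtain ⟨ι, v, hv⟩ := exists_isTranscendenceBasis' (R := R) (A := ℂ)
    refine ⟨ι, v, hv, ?_⟩
    have := IsAlgClosed.cardinal_eq_cardinal_transcendence_basis_of_aleph0_lt' v hv
      Cardinal.mk_le_aleph0 (by
        rw [Cardinal.mk_complex]
        exact Cardinal.aleph0_lt_continuum)
    exact this.symm
  obtain ⟨ι, v, hv, h1⟩ := key φ.toAlgebra
  obtain ⟨κ, w, hw, h2⟩ := key φ'.toAlgebra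
  obtain ⟨e⟩ := Cardinal.eq.1 (h1.trans h2.symm)
  obtain ⟨σ, hσ, -⟩ := @exists_equiv R ℂ ℂ _ _ _ φ.toAlgebra φ'.toAlgebra _ _ ι κ v w e hv hw
  exact ⟨σ, hσ⟩

section

variable (K : Type) [Field K] [Algebra K ℂ]

/-- a transcendental number has translates by all natural numbers as conjugates -/
theorem exists_aut_add (a : ℂ) (ha : Transcendental K a) (n : ℕ) :
    ∃ σ : ℂ ≃+* ℂ, (∀ c : K, σ (algebraMap K ℂ c) = algebraMap K ℂ c) ∧ σ a = a + n := by
  classical
  have hind : AlgebraicIndepOn K id ({a} : Set ℂ) :=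
    (algebraicIndependent_singleton_iff (R := K) (x := fun i : ({a} : Set ℂ) => id (i : ℂ))
      ⟨a, rfl⟩).mpr ha
  obtain ⟨B, haB, hB⟩ := exists_isTranscendenceBasis_superset hind
  let v : B → ℂ := fun b => b
  let w : B → ℂ := fun b => (b : ℂ) + n
  have hw : IsTranscendenceBasis K w := by
    let θ : MvPolynomial B K →ₐ[K] MvPolynomial B K :=
      MvPolynomial.aeval (fun b => MvPolynomial.X b + MvPolynomial.C (n : K))
    let θ' : MvPolynomial B K →ₐ[K] MvPolynomial B K :=
      MvPolynomial.aeval (fun b => MvPolynomial.X b - MvPolynomial.C (n : K))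
    have h1 : θ'.comp θ = AlgHom.id K _ := by
      apply MvPolynomial.algHom_ext
      intro b
      simp [θ, θ']
    rw [isTranscendenceBasis_iff_algebraicIndependent_isAlgebraic]
    have hcomp : (MvPolynomial.aeval w : MvPolynomial B K →ₐ[K] ℂ) =
        (MvPolynomial.aeval v).comp θ := by
      apply MvPolynomial.algHom_ext
      intro b
      simp [θ, v, w]
    have hθ : Function.Injective θ := by
      intro x y hxy
      have := congrArg θ' hxy
      have h2 := fun z => AlgHom.congr_fun h1 z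
      simp only [AlgHom.comp_apply, AlgHom.id_apply] at h2
      rwa [h2, h2] at this
    refine ⟨?_, ?_⟩
    · change Function.Injective (MvPolynomial.aeval w : MvPolynomial B K →ₐ[K] ℂ)
      rw [hcomp]
      rw [AlgHom.coe_comp]
      exact Function.Injective.comp hB.1 hθ
    · have hadj : Algebra.adjoin K (Set.range w) = Algebra.adjoin K (Set.range v) := by
        apply le_antisymm
        · rw [Algebra.adjoin_le_iff]
          rintro _ ⟨b, rfl⟩
          exact add_mem (Algebra.subset_adjoin ⟨b, rfl⟩) (natCast_mem _ n)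
        · rw [Algebra.adjoin_le_iff]
          rintro _ ⟨b, rfl⟩
          have : v b = w b - n := by simp [v, w]
          rw [this]
          exact sub_mem (Algebra.subset_adjoin ⟨b, rfl⟩) (natCast_mem _ n)
      rw [hadj]
      exact hB.isAlgebraic
  obtain ⟨σ, hσ, hσ'⟩ := exists_equiv (Equiv.refl B) hB hw
  exact ⟨σ, hσ, hσ' ⟨a, haB rfl⟩⟩

/-- an element with a finite orbit is algebraic -/
theorem isAlgebraic_of_finite {a : ℂ}
    (h : {b : ℂ | ∃ σ : ℂ ≃+* ℂ, (∀ c : K, σ (algebraMap K ℂ c) = algebraMap K ℂ c) ∧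
      σ a = b}.Finite) : IsAlgebraic K a := by
  by_contra ha
  choose σ hσ hσ' using exists_aut_add K a ha
  have : Set.Infinite {b : ℂ | ∃ σ : ℂ ≃+* ℂ,
      (∀ c : K, σ (algebraMap K ℂ c) = algebraMap K ℂ c) ∧ σ a = b} := by
    refine Set.infinite_of_injective_forall_mem (f := fun n : ℕ => a + n) ?_ ?_
    · intro m n hmn
      simpa using hmn
    · intro n
      exact ⟨σ n, hσ n, hσ' n⟩
  exact this h

end

/-! ### algebraically closed subfields generated by sets -/

/-- the algebraic closure in `ℂ` of the field generated by a set -/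
def KS (S : Set ℂ) : IntermediateField ℚ ℂ :=
  (algebraicClosure (IntermediateField.adjoin ℚ S) ℂ).restrictScalars ℚ

theorem mem_KS {S : Set ℂ} {x : ℂ} : x ∈ KS S ↔ IsAlgebraic (IntermediateField.adjoin ℚ S) x :=
  mem_algebraicClosure_iff

theorem mem_KS_iff_closure {S : Set ℂ} {x : ℂ} :
    x ∈ KS S ↔ x ∈ (AlgebraicIndependent.matroid ℚ ℂ).closure S := by
  rw [mem_KS, AlgebraicIndependent.matroid_closure_eq, SetLike.mem_coe,
    Subalgebra.mem_algebraicClosure]
  exact isAlgebraic_adjoin_iff

instance (S : Set ℂ) : IsAlgClosed (KS S) :=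
  (inferInstance : IsAlgClosure (IntermediateField.adjoin ℚ S)
    (algebraicClosure (IntermediateField.adjoin ℚ S) ℂ)).isAlgClosed

theorem subset_KS (S : Set ℂ) : S ⊆ KS S := by
  intro x hx
  have : x ∈ (AlgebraicIndependent.matroid ℚ ℂ).closure S :=
    (AlgebraicIndependent.matroid ℚ ℂ).subset_closure S (by simp) hx
  exact mem_KS_iff_closure.2 this

theorem KS_mono {S T : Set ℂ} (h : S ⊆ T) : KS S ≤ KS T := by
  intro x hx
  rw [mem_KS_iff_closure] at hx ⊢
  exact (AlgebraicIndependent.matroid ℚ ℂ).closure_subset_closure h hx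

theorem KS_le {S T : Set ℂ} (h : S ⊆ KS T) : KS S ≤ KS T := by
  intro x hx
  rw [mem_KS_iff_closure] at hx ⊢
  have h1 : S ⊆ (AlgebraicIndependent.matroid ℚ ℂ).closure T := fun y hy =>
    mem_KS_iff_closure.1 (h hy)
  exact (AlgebraicIndependent.matroid ℚ ℂ).closure_subset_closure_of_subset_closure h1 hx

instance countable_KS (S : Set ℂ) [Countable S] : Countable (KS S) := by
  have h1 : #(IntermediateField.adjoin ℚ S) ≤ ℵ₀ := by
    refine (IntermediateField.cardinalMk_adjoin_le ℚ S).trans ?_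
    refine max_le (max_le ?_ ?_) le_rfl
    · exact Cardinal.mk_le_aleph0
    · exact Cardinal.mk_le_aleph0
  have h2 : #(algebraicClosure (IntermediateField.adjoin ℚ S) ℂ) ≤ ℵ₀ :=
    (Algebra.IsAlgebraic.cardinalMk_le_max (IntermediateField.adjoin ℚ S)
      (algebraicClosure (IntermediateField.adjoin ℚ S) ℂ)).trans (max_le h1 le_rfl)
  exact Cardinal.mk_le_aleph0_iff.1 h2

theorem mem_KS_of_isAlgebraic {S : Set ℂ} {x : ℂ} (h : IsAlgebraic (KS S) x) : x ∈ KS S := by
  have := IsAlgClosed.degree_eq_one_of_irreducible (KS S) (minpoly.irreducible h.isIntegral)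
  obtain ⟨y, hy⟩ := minpoly.mem_range_of_degree_eq_one (KS S) x this
  rw [← hy]
  exact y.2

theorem exists_notMem_KS (S : Set ℂ) [Countable S] : ∃ x : ℂ, x ∉ KS S := by
  by_contra h
  push Not at h
  have h1 : (Set.univ : Set ℂ).Countable := by
    have h2 : (KS S : Set ℂ).Countable := (inferInstance : Countable (KS S))
    exact h2.mono fun x _ => h x
  exact not_countable_complex h1

end Fermat.Agent.MW
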