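import Fermat.Agent.RR.Riemann
import Fermat.Agent.RR.Tower
import Fermat.Agent.Spec.Tight

/-!
# Constant field extensions of function fields
-/

set_option autoImplicit false
set_option linter.unusedSectionVars false
set_option linter.style.haveILetI false

namespace Fermat.Agent.MW

open AlgebraicCurve Fermat.Agent.RR Fermat.Agent.Curve IntermediateField Module

variable (K K' F F' : Type*) [Field K] [Field K'] [Field F] [Field F']
  [Algebra K F] [Algebra K' F'] [Algebra K K'] [Algebra F F']

/-- `F'` is obtained from `F` by extension of constants from `K` to `K'`. -/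
class CExt : Prop where
  comm : ∀ a : K, algebraMap F F' (algebraMap K F a) = algebraMap K' F' (algebraMap K K' a)
  gen : ∀ E : IntermediateField K' F', (∀ f : F, algebraMap F F' f ∈ E) → E = ⊤
  tr : ∀ f : F, (∃ a : K', algebraMap K' F' a = algebraMap F F' f) → ∃ a : K, algebraMap K F a = f

section

variable {K K' F F'} [hC : CExt K K' F F']

variable (F F') in
/-- the base change of functions -/
noncomputable abbrev bc : F →+* F' := algebraMap F F'

include hC in
theorem bc_mem_adjoin {f : F} {c : F} (hc : c ∈ K⟮f⟯) : bc F F' c ∈ K'⟮bc F F' f⟯ := by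
  induction hc using IntermediateField.adjoin_induction with
  | mem x hx =>
    rw [Set.mem_singleton_iff] at hx
    rw [hx]
    exact mem_adjoin_simple_self K' _
  | algebraMap a =>
    rw [bc, hC.comm]
    exact IntermediateField.algebraMap_mem _ _
  | add x y _ _ hx hy => rw [map_add]; exact add_mem hx hy
  | inv x _ hx => rw [map_inv₀]; exact inv_mem hx
  | mul x y _ _ hx hy => rw [map_mul]; exact mul_mem hx hy

include hC in
theorem finrank_bc_le (f : F) [FiniteDimensional K⟮f⟯ F] :
    FiniteDimensional K'⟮bc F F' f⟯ F' ∧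
      finrank K'⟮bc F F' f⟯ F' ≤ finrank K⟮f⟯ F := by
  classical
  let b := Module.finBasis K⟮f⟯ F
  let V : Submodule K'⟮bc F F' f⟯ F' := Submodule.span _ (Set.range fun i => bc F F' (b i))
  have h1 : ∀ x : F, bc F F' x ∈ V := by
    intro x
    rw [← b.sum_repr x, map_sum]
    refine Submodule.sum_mem _ fun i _ => ?_
    have : bc F F' (b.repr x i • b i) =
        (⟨bc F F' (b.repr x i : F), bc_mem_adjoin (b.repr x i).2⟩ : K'⟮bc F F' f⟯) •
          bc F F' (b i) := by
      rw [Algebra.smul_def, map_mul]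
      rfl
    rw [this]
    exact Submodule.smul_mem _ _ (Submodule.subset_span ⟨i, rfl⟩)
  have hmul : ∀ x ∈ V, ∀ y ∈ V, x * y ∈ V := by
    intro x hx y hy
    induction hx using Submodule.span_induction with
    | mem x hx =>
      obtain ⟨i, rfl⟩ := hx
      induction hy using Submodule.span_induction with
      | mem y hy =>
        obtain ⟨j, rfl⟩ := hy
        change bc F F' (b i) * bc F F' (b j) ∈ V
        rw [← map_mul]
        exact h1 _
      | zero => rw [mul_zero]; exact zero_mem _
      | add y z _ _ hy hz => rw [mul_add]; exact add_mem hy hz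
      | smul a y _ hy => rw [mul_smul_comm]; exact Submodule.smul_mem _ _ hy
    | zero => rw [zero_mul]; exact zero_mem _
    | add x z _ _ hx hz => rw [add_mul]; exact add_mem hx hz
    | smul a x _ hx => rw [smul_mul_assoc]; exact Submodule.smul_mem _ _ hx
  have hone : (1 : F') ∈ V := by
    have := h1 1
    rwa [map_one] at this
  let S : Subalgebra K'⟮bc F F' f⟯ F' := V.toSubalgebra hone (fun x y hx hy => hmul x hx y hy)
  haveI hVfin : FiniteDimensional K'⟮bc F F' f⟯ V :=
    FiniteDimensional.span_of_finite _ (Set.finite_range _)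
  haveI hSfin : FiniteDimensional K'⟮bc F F' f⟯ S := hVfin
  have hSf : IsField S := by
    haveI : Algebra.IsIntegral K'⟮bc F F' f⟯ S := inferInstance
    exact isField_of_isIntegral_of_isField' (Field.toIsField K'⟮bc F F' f⟯)
  let E : IntermediateField K'⟮bc F F' f⟯ F' := S.toIntermediateField' hSf
  have hE : E.restrictScalars K' = ⊤ := by
    apply hC.gen
    intro x
    exact h1 x
  have hV : V = ⊤ := by
    rw [eq_top_iff]
    intro x _
    have : x ∈ E.restrictScalars K' := by rw [hE]; exact IntermediateField.mem_top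
    exact this
  have hfin : FiniteDimensional K'⟮bc F F' f⟯ F' := by
    rw [hV] at hVfin
    exact Module.Finite.equiv (Submodule.topEquiv)
  refine ⟨hfin, ?_⟩
  have h2 : finrank K'⟮bc F F' f⟯ V ≤ finrank K⟮f⟯ F := by
    refine (finrank_range_le_card _).trans ?_
    rw [Fintype.card_fin]
  rw [hV, finrank_top] at h2
  exact h2

end

section Places

variable {K K' F F'} [IsAlgClosed K] [IsAlgClosed K'] [FunField K F] [FunField K' F']

/-- functions with a single pole -/
theorem exists_single_pole {K F : Type*} [Field K] [IsAlgClosed K] [Field F] [Algebra K F]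
    [FunField K F] (v : Place K F) : ∃ c : ℕ, ∀ n : ℕ, c ≤ n → ∃ f : F, Transcendental K f ∧
      poleDiv K f = Finsupp.single v (n : ℤ) := by
  classical
  obtain ⟨c, hc⟩ := Spec.exists_tight K F
  refine ⟨c.toNat + 1, fun n hn => ?_⟩
  obtain ⟨f, hf, hf0, hfv⟩ := hc (Finsupp.single v (n : ℤ)) (by
    rw [degree_single']; omega) {v}
  have h1 := hfv v (Finset.mem_singleton_self v)
  rw [Finsupp.single_eq_same] at h1
  refine ⟨f, transcendental_of_ord_ne_zero v (by rw [h1]; omega), ?_⟩
  ext w
  rw [poleDiv_apply]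
  by_cases hw : w = v
  · subst hw
    rw [h1, Finsupp.single_eq_same]
    omega
  · rw [Finsupp.single_eq_of_ne hw]
    have h2 := ((mem_L.1 hf) w).le_ord hf0
    rw [Finsupp.single_eq_of_ne hw] at h2
    omega

variable [hC : CExt K K' F F']

include hC in
theorem bc_transcendental {f : F} (hf : Transcendental K f) : Transcendental K' (bc F F' f) := by
  intro h
  obtain ⟨a, ha⟩ := mem_range_of_isAlgebraic h
  obtain ⟨b, hb⟩ := hC.tr f ⟨a, ha⟩
  exact hf (hb ▸ isAlgebraic_algebraMap b)

theorem bc_ne_zero {f : F} (hf : f ≠ 0) : bc F F' f ≠ 0 := (map_ne_zero _).2 hf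

include hC in
theorem degree_poleDiv_bc_le {f : F} (hf : Transcendental K f) :
    Divisor.degree (poleDiv K' (bc F F' f)) ≤ Divisor.degree (poleDiv K f) := by
  haveI := fd (K := K) hf
  obtain ⟨h1, h2⟩ := finrank_bc_le (K := K) (K' := K') (F' := F') f
  have h3 := degree_poleDiv (K := K) hf
  have h4 := degree_poleDiv (K := K') (bc_transcendental (K' := K') (F' := F') hf)
  rw [h3, h4]
  exact_mod_cast h2

include hC in
theorem exists_restrict_bc (P' : Place K' F') {f : F} (hf : P'.ord (bc F F' f) ≠ 0) :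
    ∃ P : Place K F, ∃ m : ℤ, 0 < m ∧ ∀ g : F, g ≠ 0 → P'.ord (bc F F' g) = m * P.ord g := by
  apply exists_place_of_valuation (K := K) (fun g : F => P'.ord (bc F F' g))
  · intro f g hf hg
    rw [map_mul]
    exact P'.ord_mul (bc_ne_zero hf) (bc_ne_zero hg)
  · intro f g hf hg hfg
    rw [map_add]
    refine le_ord_add P' ?_ (min_le_left _ _) (min_le_right _ _) (bc_ne_zero hf) (bc_ne_zero hg)
    rw [← map_add]
    exact bc_ne_zero hfg
  · intro a _
    rw [bc, hC.comm, ord_algebraMap]
  · refine ⟨f, ?_, hf⟩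
    rintro rfl
    rw [map_zero, P'.ord_zero] at hf
    exact hf rfl

/-- a place above `P` is unramified, and it is unique -/
theorem bc_unique (P : Place K F) {P' : Place K' F'} {m : ℤ} (hm : 0 < m)
    (h : ∀ g : F, g ≠ 0 → P'.ord (bc F F' g) = m * P.ord g) :
    m = 1 ∧ ∀ Q' : Place K' F', ∀ m' : ℤ, 0 < m' →
      (∀ g : F, g ≠ 0 → Q'.ord (bc F F' g) = m' * P.ord g) → Q' = P' := by
  classical
  obtain ⟨c, hc⟩ := exists_single_pole P
  obtain ⟨f, hf, hfP⟩ := hc (c + 1) (by omega)
  have hf0 : f ≠ 0 := by rintro rfl; exact hf isAlgebraic_zero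
  have h1 := degree_poleDiv_bc_le (K' := K') (F' := F') hf
  rw [hfP, degree_single'] at h1
  have hP : P.ord f = -((c + 1 : ℕ) : ℤ) := by
    have h2 := congrArg (fun D : Divisor K F => D P) hfP
    simp only [Finsupp.single_eq_same, poleDiv_apply] at h2
    omega
  have hle : ∀ (Q' : Place K' F') (m' : ℤ), 0 < m' →
      (∀ g : F, g ≠ 0 → Q'.ord (bc F F' g) = m' * P.ord g) →
      poleDiv K' (bc F F' f) Q' = m' * ((c + 1 : ℕ) : ℤ) := by
    intro Q' m' hm' h'
    have e1 : Q'.ord (bc F F' f) = -(m' * ((c + 1 : ℕ) : ℤ)) := by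
      rw [h' f hf0, hP]; ring
    rw [poleDiv_apply, e1, neg_neg]
    exact max_eq_left (by positivity)
  have hsingle : ∀ (Q' : Place K' F') (m' : ℤ), 0 < m' →
      (∀ g : F, g ≠ 0 → Q'.ord (bc F F' g) = m' * P.ord g) →
      Finsupp.single Q' (m' * ((c + 1 : ℕ) : ℤ)) ≤ poleDiv K' (bc F F' f) := by
    intro Q' m' hm' h'
    intro w
    by_cases hw : w = Q'
    · subst hw
      rw [Finsupp.single_eq_same, hle _ m' hm' h']
    · rw [Finsupp.single_eq_of_ne hw]
      exact poleDiv_nonneg _ w
  have hcpos : (0 : ℤ) < ((c + 1 : ℕ) : ℤ) := by positivity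
  constructor
  · have h2 := degree_mono (hsingle P' m hm h)
    rw [degree_single'] at h2
    have h3 : m * ((c + 1 : ℕ) : ℤ) ≤ 1 * ((c + 1 : ℕ) : ℤ) := by linarith
    have := le_of_mul_le_mul_right h3 hcpos
    omega
  · intro Q' m' hm' h'
    by_contra hne
    have h2 : Finsupp.single P' (m * ((c + 1 : ℕ) : ℤ)) + Finsupp.single Q' (m' * ((c + 1 : ℕ) : ℤ)) ≤
        poleDiv K' (bc F F' f) := by
      intro w
      rw [Finsupp.add_apply]
      by_cases hw : w = P'
      · subst hw
        rw [Finsupp.single_eq_same, Finsupp.single_eq_of_ne (Ne.symm hne), add_zero,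
          hle _ m hm h]
      · rw [Finsupp.single_eq_of_ne hw, zero_add]
        exact hsingle Q' m' hm' h' w
    have h3 := degree_mono h2
    rw [map_add, degree_single', degree_single'] at h3
    nlinarith

variable (K' F') in
theorem exists_bcP (P : Place K F) : ∃ P' : Place K' F', ∀ g : F, P'.ord (bc F F' g) = P.ord g := by
  obtain ⟨c, hc⟩ := exists_single_pole P
  obtain ⟨f, hf, hfP⟩ := hc (c + 1) (by omega)
  have hf0 : f ≠ 0 := by rintro rfl; exact hf isAlgebraic_zero
  obtain ⟨P', hP'⟩ := exists_pole (K := K') (bc_transcendental (K' := K') (F' := F') hf)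
  obtain ⟨Q, m, hm, hQ⟩ := exists_restrict_bc (K := K) P' (f := f) (by omega)
  have hQP : Q = P := by
    by_contra hne
    have h1 : Q.ord f < 0 := by
      rw [hQ f hf0] at hP'
      by_contra h2
      push Not at h2
      have := mul_nonneg hm.le h2
      omega
    have h2 := congrArg (fun D : Divisor K F => D Q) hfP
    simp only [poleDiv_apply] at h2
    rw [Finsupp.single_eq_of_ne hne] at h2
    omega
  subst hQP
  obtain ⟨h1, -⟩ := bc_unique Q hm hQ
  refine ⟨P', fun g => ?_⟩
  rcases eq_or_ne g 0 with rfl | hg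
  · simp
  · rw [hQ g hg, h1, one_mul]

variable (K' F') in
/-- the constant place above `P` -/
noncomputable def bcP (P : Place K F) : Place K' F' := (exists_bcP K' F' P).choose

theorem bcP_ord (P : Place K F) (g : F) : (bcP K' F' P).ord (bc F F' g) = P.ord g :=
  (exists_bcP K' F' P).choose_spec g

theorem eq_bcP (P : Place K F) {P' : Place K' F'} {m : ℤ} (hm : 0 < m)
    (h : ∀ g : F, g ≠ 0 → P'.ord (bc F F' g) = m * P.ord g) : P' = bcP K' F' P :=
  (bc_unique P one_pos (P' := bcP K' F' P) (fun g _ => by rw [bcP_ord, one_mul])).2 P' m hm h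

theorem dichotomy (P' : Place K' F') : (∃ P : Place K F, P' = bcP K' F' P) ∨
    ∀ g : F, P'.ord (bc F F' g) = 0 := by
  by_cases h : ∀ g : F, P'.ord (bc F F' g) = 0
  · exact Or.inr h
  · push Not at h
    obtain ⟨f, hf⟩ := h
    obtain ⟨P, m, hm, hP⟩ := exists_restrict_bc (K := K) P' hf
    exact Or.inl ⟨P, eq_bcP P hm hP⟩

theorem bcP_injective : Function.Injective (bcP K' F' : Place K F → Place K' F') := by
  intro P Q h
  apply place_eq_of_le
  intro x hx
  rw [mem_iff_ord_nonneg] at hx ⊢
  rw [← bcP_ord (K' := K') (F' := F') Q, ← h, bcP_ord]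
  exact hx

variable (K' F') in
/-- base change of divisors -/
noncomputable def bcD : Divisor K F →+ Divisor K' F' :=
  Finsupp.mapDomain.addMonoidHom (bcP K' F')

theorem bcD_single (P : Place K F) (n : ℤ) :
    bcD K' F' (Finsupp.single P n) = Finsupp.single (bcP K' F' P) n := by
  exact Finsupp.mapDomain_single

theorem bcD_apply (D : Divisor K F) (P : Place K F) : bcD K' F' D (bcP K' F' P) = D P :=
  Finsupp.mapDomain_apply bcP_injective D P

theorem bcD_apply_of_generic (D : Divisor K F) {P' : Place K' F'}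
    (h : ∀ P : Place K F, P' ≠ bcP K' F' P) : bcD K' F' D P' = 0 := by
  apply Finsupp.mapDomain_of_notMem_range
  rintro ⟨P, hP⟩
  exact h P hP.symm

theorem degree_bcD (D : Divisor K F) : Divisor.degree (bcD K' F' D) = Divisor.degree D := by
  have h : (Divisor.degree (K := K') (F := F')).comp (bcD K' F') = Divisor.degree (K := K) (F := F) := by
    apply Finsupp.addHom_ext
    intro P n
    rw [AddMonoidHom.comp_apply, bcD_single, degree_single', degree_single']
  exact DFunLike.congr_fun h D

theorem divisor_bc (f : F) : divisor K' (bc F F' f) = bcD K' F' (divisor K f) := by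
  ext P'
  rw [divisor_apply]
  rcases dichotomy (K := K) (F := F) P' with ⟨P, rfl⟩ | h
  · rw [bcP_ord, bcD_apply, divisor_apply]
  · by_cases h2 : ∃ P : Place K F, P' = bcP K' F' P
    · obtain ⟨P, rfl⟩ := h2
      rw [bcP_ord, bcD_apply, divisor_apply]
    · push Not at h2
      rw [h, bcD_apply_of_generic _ h2]

theorem bcD_nonneg {D : Divisor K F} (h : 0 ≤ D) : 0 ≤ bcD K' F' D := by
  intro P'
  by_cases h2 : ∃ P : Place K F, P' = bcP K' F' P
  · obtain ⟨P, rfl⟩ := h2
    rw [bcD_apply]
    exact h P
  · push Not at h2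
    rw [bcD_apply_of_generic _ h2]
    exact le_rfl

theorem bcD_le_iff {D E : Divisor K F} : bcD K' F' D ≤ bcD K' F' E ↔ D ≤ E := by
  constructor
  · intro h P
    have := h (bcP K' F' P)
    rwa [bcD_apply, bcD_apply] at this
  · intro h
    have := bcD_nonneg (K' := K') (F' := F') (sub_nonneg.2 h)
    rwa [map_sub, sub_nonneg] at this

theorem bc_mem_L {D : Divisor K F} {f : F} :
    bc F F' f ∈ riemannRochSpace (bcD K' F' D) ↔ f ∈ riemannRochSpace D := by
  rcases eq_or_ne f 0 with rfl | hf0
  · rw [map_zero]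
    exact ⟨fun _ => zero_mem _, fun _ => zero_mem _⟩
  constructor
  · intro h
    rw [mem_L] at h ⊢
    intro v
    have h1 := (h (bcP K' F' v)).le_ord (bc_ne_zero hf0)
    rw [bcP_ord, bcD_apply] at h1
    exact Ge.of_le h1
  · intro h
    rw [mem_L] at h ⊢
    intro v'
    by_cases h2 : ∃ P : Place K F, v' = bcP K' F' P
    · obtain ⟨P, rfl⟩ := h2
      refine Ge.of_le ?_
      rw [bcP_ord, bcD_apply]
      exact (h P).le_ord hf0
    · push Not at h2
      refine Ge.of_le ?_
      rw [bcD_apply_of_generic _ h2]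
      rcases dichotomy (K := K) (F := F) v' with ⟨P, hP⟩ | h3
      · exact absurd hP (h2 P)
      · rw [h3]; simp

end Places

end Fermat.Agent.MW
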