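import Fermat.Agent.MW.BC

/-!
# Riemann-Roch spaces under constant field extension
-/

set_option autoImplicit false
set_option linter.unusedSectionVars false
set_option linter.style.haveILetI false

namespace Fermat.Agent.MW

open AlgebraicCurve Fermat.Agent.RR Fermat.Agent.Curve IntermediateField Module

variable {K K' F F' : Type*} [Field K] [Field K'] [Field F] [Field F']
  [Algebra K F] [Algebra K' F'] [Algebra K K'] [Algebra F F']
  [IsAlgClosed K] [IsAlgClosed K'] [FunField K F] [FunField K' F'] [hC : CExt K K' F F']

variable (K' F') in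
/-- the span of the base change of `L(D)` -/
noncomputable def SL (D : Divisor K F) : Submodule K' F' :=
  Submodule.span K' (bc F F' '' (riemannRochSpace D : Set F))

theorem SL_le (D : Divisor K F) : SL K' F' D ≤ riemannRochSpace (bcD K' F' D) := by
  rw [SL, Submodule.span_le]
  rintro _ ⟨f, hf, rfl⟩
  exact bc_mem_L.2 hf

theorem bc_mem_SL {D : Divisor K F} {f : F} (hf : f ∈ riemannRochSpace D) : bc F F' f ∈ SL K' F' D :=
  Submodule.subset_span ⟨f, hf, rfl⟩

instance (D : Divisor K F) : FiniteDimensional K' (SL K' F' D) :=
  Submodule.finiteDimensional_of_le (SL_le D)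

theorem SL_mono {D E : Divisor K F} (h : D ≤ E) : SL K' F' D ≤ SL K' F' E :=
  Submodule.span_mono (Set.image_mono (L_mono h))

/-- adding a point -/
theorem exists_step (D : Divisor K F) (P : Place K F) :
    riemannRochSpace (D + Finsupp.single P 1) = riemannRochSpace D ∨
    ∃ f : F, f ∉ riemannRochSpace D ∧
      riemannRochSpace (D + Finsupp.single P 1) = riemannRochSpace D ⊔ Submodule.span K {f} := by
  have hle : riemannRochSpace D ≤ riemannRochSpace (D + Finsupp.single P 1) :=
    L_mono (le_add_of_nonneg_right (Spec.single_le_of_nonneg P))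
  by_cases h : riemannRochSpace (D + Finsupp.single P 1) ≤ riemannRochSpace D
  · exact Or.inl (le_antisymm h hle)
  · right
    obtain ⟨f, hf, hf'⟩ := SetLike.not_le_iff_exists.1 h
    refine ⟨f, hf', ?_⟩
    have hle2 : riemannRochSpace D ⊔ Submodule.span K {f} ≤
        riemannRochSpace (D + Finsupp.single P 1) := by
      rw [sup_le_iff]
      exact ⟨hle, by rw [Submodule.span_singleton_le_iff_mem]; exact hf⟩
    symm
    apply Submodule.eq_of_le_of_finrank_le hle2
    have h1 := (finite_add_single D P inferInstance).2
    have h2 : finrank K (riemannRochSpace D) <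
        finrank K (riemannRochSpace D ⊔ Submodule.span K {f} : Submodule K F) := by
      haveI : FiniteDimensional K (riemannRochSpace D ⊔ Submodule.span K {f} : Submodule K F) :=
        Submodule.finiteDimensional_of_le hle2
      apply Submodule.finrank_lt_finrank_of_lt
      refine lt_of_le_of_ne le_sup_left fun h3 => hf' ?_
      rw [h3]
      exact Submodule.mem_sup_right (Submodule.mem_span_singleton_self f)
    change ell (D + Finsupp.single P 1) ≤ _
    have h3 : ell D = finrank K (riemannRochSpace D) := rfl
    omega

theorem SL_step_eq {D E : Divisor K F} (h : riemannRochSpace E = riemannRochSpace D) :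
    SL K' F' E = SL K' F' D := by
  rw [SL, h, SL]

theorem SL_step_sup {D E : Divisor K F} {f : F}
    (h : riemannRochSpace E = riemannRochSpace D ⊔ Submodule.span K {f}) :
    SL K' F' E = SL K' F' D ⊔ Submodule.span K' {bc F F' f} := by
  apply le_antisymm
  · rw [SL, Submodule.span_le]
    rintro _ ⟨g, hg, rfl⟩
    have hg' : g ∈ riemannRochSpace D ⊔ Submodule.span K {f} := h ▸ hg
    rw [Submodule.mem_sup] at hg'
    obtain ⟨a, ha, b, hb, rfl⟩ := hg'
    obtain ⟨c, rfl⟩ := Submodule.mem_span_singleton.1 hb
    rw [map_add]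
    refine add_mem (Submodule.mem_sup_left (bc_mem_SL ha)) (Submodule.mem_sup_right ?_)
    rw [Algebra.smul_def, map_mul, bc, hC.comm, ← Algebra.smul_def]
    exact Submodule.smul_mem _ _ (Submodule.mem_span_singleton_self _)
  · rw [sup_le_iff, Submodule.span_singleton_le_iff_mem]
    refine ⟨Submodule.span_mono (Set.image_mono ?_), bc_mem_SL ?_⟩
    · intro g hg
      have : g ∈ riemannRochSpace D ⊔ Submodule.span K {f} := Submodule.mem_sup_left hg
      rw [← h] at this
      exact this
    · rw [h]
      exact Submodule.mem_sup_right (Submodule.mem_span_singleton_self f)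

theorem finrank_sup_singleton {K V : Type*} [Field K] [AddCommGroup V] [Module K V]
    (W : Submodule K V) [FiniteDimensional K W] {v : V} (hv : v ∉ W) :
    finrank K (W ⊔ Submodule.span K {v} : Submodule K V) = finrank K W + 1 := by
  have h1 := Submodule.finrank_sup_add_finrank_inf_eq W (Submodule.span K {v})
  have h2 : W ⊓ Submodule.span K {v} = ⊥ := by
    rw [eq_bot_iff]
    rintro x ⟨hx, hx'⟩
    obtain ⟨c, rfl⟩ := Submodule.mem_span_singleton.1 hx'
    rcases eq_or_ne c 0 with rfl | hc
    · simp
    · exfalso
      apply hv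
      have := W.smul_mem c⁻¹ hx
      rwa [smul_smul, inv_mul_cancel₀ hc, one_smul] at this
  have hv0 : v ≠ 0 := by rintro rfl; exact hv (zero_mem _)
  rw [h2, finrank_bot, add_zero, finrank_span_singleton hv0] at h1
  exact h1

theorem finrank_SL_aux (n : ℕ) : ∀ D : Divisor K F, Divisor.degree D < n →
    finrank K' (SL K' F' D) = ell D := by
  induction n with
  | zero =>
    intro D hD
    have h1 := L_eq_bot (K := K) hD
    rw [ell, h1, finrank_bot]
    have : SL K' F' D = ⊥ := by
      rw [SL, h1, Submodule.span_eq_bot]
      rintro _ ⟨f, hf, rfl⟩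
      have : f = 0 := hf
      rw [this, map_zero]
    rw [this, finrank_bot]
  | succ n ih =>
    intro D hD
    obtain ⟨t, ht, _⟩ := (inferInstance : FunField K F).out
    obtain ⟨P, -⟩ := exists_pole (K := K) ht
    have hD' : D = (D - Finsupp.single P 1) + Finsupp.single P 1 := by abel
    have h1 := ih (D - Finsupp.single P 1) (by
      rw [map_sub, degree_single']
      push_cast at hD
      omega)
    rcases exists_step (D - Finsupp.single P 1) P with h2 | ⟨f, hf, h2⟩
    · rw [← hD'] at h2
      rw [SL_step_eq h2, h1, ell, ell, h2]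
    · rw [← hD'] at h2
      have h4 : ell D = ell (D - Finsupp.single P 1) + 1 := by
        rw [ell, h2, finrank_sup_singleton _ hf, ell]
      rw [SL_step_sup h2, finrank_sup_singleton, h1, h4]
      intro h3
      exact hf (bc_mem_L.1 (SL_le _ h3))

theorem finrank_SL (D : Divisor K F) : finrank K' (SL K' F' D) = ell D :=
  finrank_SL_aux ((Divisor.degree D).toNat + 1) D (by omega)

theorem ell_le_ell_bcD (D : Divisor K F) : ell D ≤ ell (bcD K' F' D) := by
  rw [← finrank_SL (K' := K') (F' := F')]
  exact Submodule.finrank_mono (SL_le D)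

theorem SL_down {D : Divisor K F} {P : Place K F}
    (h : SL K' F' (D + Finsupp.single P 1) = riemannRochSpace (bcD K' F' (D + Finsupp.single P 1))) :
    SL K' F' D = riemannRochSpace (bcD K' F' D) := by
  apply le_antisymm (SL_le D)
  intro x hx
  have hle : D ≤ D + Finsupp.single P 1 :=
    le_add_of_nonneg_right (Spec.single_le_of_nonneg P)
  have hx' : x ∈ SL K' F' (D + Finsupp.single P 1) := by
    rw [h]
    exact L_mono (bcD_le_iff.2 hle) hx
  rcases exists_step D P with h2 | ⟨f, hf, h2⟩
  · rwa [SL_step_eq h2] at hx'
  · rw [SL_step_sup h2, Submodule.mem_sup] at hx'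
    obtain ⟨a, ha, b, hb, rfl⟩ := hx'
    obtain ⟨c, rfl⟩ := Submodule.mem_span_singleton.1 hb
    rcases eq_or_ne c 0 with rfl | hc
    · rwa [zero_smul, add_zero]
    · exfalso
      apply hf
      rw [← bc_mem_L (K' := K') (F' := F')]
      have h3 := Submodule.sub_mem _ hx (SL_le D ha)
      rw [add_sub_cancel_left] at h3
      have := Submodule.smul_mem _ c⁻¹ h3
      rwa [smul_smul, inv_mul_cancel₀ hc, one_smul] at this

/-- **Riemann-Roch spaces commute with constant field extensions.** -/
theorem SL_eq (hg : rrGenus K F = rrGenus K' F') (D : Divisor K F) :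
    SL K' F' D = riemannRochSpace (bcD K' F' D) := by
  obtain ⟨t, ht, _⟩ := (inferInstance : FunField K F).out
  obtain ⟨P, -⟩ := exists_pole (K := K) ht
  obtain ⟨c, hc⟩ := exists_riemann (K := K) (F := F)
  obtain ⟨c', hc'⟩ := exists_riemann (K := K') (F := F')
  have hlarge : ∀ E : Divisor K F, max c c' ≤ Divisor.degree E →
      SL K' F' E = riemannRochSpace (bcD K' F' E) := by
    intro E hE
    apply Submodule.eq_of_le_of_finrank_eq (SL_le E)
    have h1 := hc E ((le_max_left _ _).trans hE)
    have h2 := hc' (bcD K' F' E) (by rw [degree_bcD]; exact (le_max_right _ _).trans hE)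
    rw [degree_bcD, ← hg, ← h1] at h2
    rw [finrank_SL]
    exact_mod_cast h2.symm
  have key : ∀ n : ℕ, ∀ D : Divisor K F, max c c' ≤ Divisor.degree D + n →
      SL K' F' D = riemannRochSpace (bcD K' F' D) := by
    intro n
    induction n with
    | zero => intro D hD; exact hlarge D (by simpa using hD)
    | succ n ih =>
      intro D hD
      apply SL_down (P := P)
      apply ih
      rw [map_add, degree_single']
      push_cast at hD
      linarith
  exact key (max c c' - Divisor.degree D).toNat D (by
    have := Int.self_le_toNat (max c c' - Divisor.degree D)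
    linarith)

theorem ell_bcD (hg : rrGenus K F = rrGenus K' F') (D : Divisor K F) :
    ell (bcD K' F' D) = ell D := by
  rw [ell, ← SL_eq hg, finrank_SL]

/-- constant field extension is injective on classes -/
theorem isPrincipal_of_bcD (hg : rrGenus K F = rrGenus K' F') {D : Divisor K F} {f : F'}
    (hf : f ≠ 0) (h : divisor K' f = bcD K' F' D) : ∃ g : F, g ≠ 0 ∧ divisor K g = D := by
  have hdeg : Divisor.degree D = 0 := by
    rw [← degree_bcD (K' := K') (F' := F'), ← h, degree_divisor]
  have h1 : 0 < ell (bcD K' F' (-D)) := by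
    haveI : Nontrivial (riemannRochSpace (bcD K' F' (-D))) := by
      refine ⟨⟨⟨f, ?_⟩, 0, fun h0 => hf (congrArg Subtype.val h0)⟩⟩
      rw [mem_L]
      intro v
      refine Ge.of_le ?_
      rw [map_neg, ← h, Finsupp.neg_apply, neg_neg, divisor_apply]
    exact finrank_pos
  rw [ell_bcD hg] at h1
  obtain ⟨z, hz0, hz⟩ := exists_ne_zero_of_ell_pos (K := K) (D := -D) (by exact_mod_cast h1)
  refine ⟨z, hz0, ?_⟩
  have h2 : D ≤ divisor K z := by
    intro v
    have := ((mem_L.1 hz) v).le_ord hz0
    rw [divisor_apply]
    simpa using this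
  exact (Spec.eq_of_le_of_degree h2 (by rw [degree_divisor, hdeg])).symm

end Fermat.Agent.MW
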