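import Fermat.Agent.MW.BCL
import Fermat.Agent.MW.Eval

/-!
# Reduction of a constant curve along a valuation ring with residue field the constants
-/

set_option autoImplicit false
set_option linter.unusedSectionVars false
set_option linter.style.haveILetI false

namespace Fermat.Agent.MW

open AlgebraicCurve Fermat.Agent.RR Fermat.Agent.Curve IntermediateField Module

variable (k Ω F 𝓕 : Type*) [Field k] [Field Ω] [Field F] [Field 𝓕]
  [Algebra k F] [Algebra Ω 𝓕] [Algebra k Ω] [Algebra F 𝓕]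
  [IsAlgClosed k] [IsAlgClosed Ω] [FunField k F] [FunField Ω 𝓕] [hC : CExt k Ω F 𝓕]

/-- The reduction of a constant curve. -/
structure CRed where
  A : ValuationSubring Ω
  ρ : A →+* k
  const_mem : ∀ c : k, algebraMap k Ω c ∈ A
  ρ_const : ∀ c : k, ρ ⟨algebraMap k Ω c, const_mem c⟩ = c
  ρ_eq_zero : ∀ a : A, ρ a = 0 → (a : Ω) ≠ 0 → (a : Ω)⁻¹ ∉ A
  ρ_ne_zero : ∀ a : A, ρ a ≠ 0 → (a : Ω)⁻¹ ∈ A
  W : Subring 𝓕
  π : W →+* F
  bc_mem : ∀ f : F, bc F 𝓕 f ∈ W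
  π_bc : ∀ f : F, π ⟨bc F 𝓕 f, bc_mem f⟩ = f
  scal_mem : ∀ a : A, algebraMap Ω 𝓕 a ∈ W
  π_scal : ∀ a : A, π ⟨algebraMap Ω 𝓕 a, scal_mem a⟩ = algebraMap k F (ρ a)
  prim : ∀ x : 𝓕, x ≠ 0 → ∃ c : Ω, c ≠ 0 ∧ ∃ h : algebraMap Ω 𝓕 c * x ∈ W, π ⟨_, h⟩ ≠ 0
  inv_mem : ∀ x : W, π x ≠ 0 → (x : 𝓕)⁻¹ ∈ W
  rp : Place Ω 𝓕 → Place k F
  map_div : ∀ x : W, π x ≠ 0 → Finsupp.mapDomain rp (divisor Ω (x : 𝓕)) = divisor k (π x)
  rp_bcP : ∀ P : Place k F, rp (bcP Ω 𝓕 P) = P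
  lift : ∀ D : Divisor Ω 𝓕, ∃ x : Fin (ell D) → W, (∀ i, (x i : 𝓕) ∈ riemannRochSpace D) ∧
    LinearIndependent k (fun i => π (x i)) ∧
    ∀ i, π (x i) ∈ riemannRochSpace (Finsupp.mapDomain rp D : Divisor k F)

variable {k Ω F 𝓕}

namespace CRed

variable (R : CRed k Ω F 𝓕)

theorem mapDomain_apply' (D : Divisor Ω 𝓕) (P : Place k F) [DecidableEq (Place k F)] :
    (Finsupp.mapDomain R.rp D : Divisor k F) P = ∑ v ∈ D.support.filter (fun v => R.rp v = P), D v := by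
  rw [Finsupp.mapDomain, Finsupp.sum, Finsupp.finsetSum_apply, Finset.sum_filter]
  refine Finset.sum_congr rfl fun v _ => ?_
  rw [Finsupp.single_apply]

/-- Functions without poles above `P`. -/
def Reg (P : Place k F) (g : 𝓕) : Prop := ∀ v : Place Ω 𝓕, R.rp v = P → Ge v 0 g

theorem ord_red (x : R.W) (hx : R.π x ≠ 0) (P : Place k F) [DecidableEq (Place k F)] :
    P.ord (R.π x) = ∑ v ∈ (divisor Ω (x : 𝓕)).support.filter (fun v => R.rp v = P), v.ord (x : 𝓕) := by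
  have h : (Finsupp.mapDomain R.rp (divisor Ω (x : 𝓕)) : Divisor k F) P = divisor k (R.π x) P := by
    rw [R.map_div x hx]
  rw [R.mapDomain_apply', divisor_apply] at h
  rw [← h]
  exact Finset.sum_congr rfl fun v _ => divisor_apply _ _

theorem ne_zero_of_π {x : R.W} (hx : R.π x ≠ 0) : (x : 𝓕) ≠ 0 := by
  intro h
  apply hx
  have : x = 0 := Subtype.ext h
  rw [this, map_zero]

/-- orders at a point bound the order of the reduction -/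
theorem le_ord_red (x : R.W) (hx : R.π x ≠ 0) {P : Place k F} (hreg : R.Reg P (x : 𝓕))
    {Q : Place Ω 𝓕} (hQ : R.rp Q = P) : Q.ord (x : 𝓕) ≤ P.ord (R.π x) := by
  classical
  have hx0 := R.ne_zero_of_π hx
  rw [R.ord_red x hx P]
  by_cases h : Q ∈ (divisor Ω (x : 𝓕)).support.filter (fun v => R.rp v = P)
  · refine Finset.single_le_sum (f := fun v : Place Ω 𝓕 => v.ord (x : 𝓕)) (fun v hv => ?_) h
    exact (hreg v (Finset.mem_filter.1 hv).2).le_ord hx0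
  · have h1 : Q.ord (x : 𝓕) = 0 := by
      by_contra h2
      apply h
      rw [Finset.mem_filter, Finsupp.mem_support_iff, divisor_apply]
      exact ⟨h2, hQ⟩
    rw [h1]
    exact Finset.sum_nonneg fun v hv => (hreg v (Finset.mem_filter.1 hv).2).le_ord hx0

theorem reg_red_nonneg (x : R.W) {P : Place k F} (hreg : R.Reg P (x : 𝓕)) :
    Ge P 0 (R.π x) := by
  classical
  by_cases hx : R.π x = 0
  · exact Or.inl hx
  refine Ge.of_le ?_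
  rw [R.ord_red x hx P]
  exact Finset.sum_nonneg fun v hv => (hreg v (Finset.mem_filter.1 hv).2).le_ord (R.ne_zero_of_π hx)

theorem reg_const (P : Place k F) (a : Ω) : R.Reg P (algebraMap Ω 𝓕 a) := fun v _ => Ge.algebraMap v a

theorem reg_sub {P : Place k F} {g h : 𝓕} (hg : R.Reg P g) (hh : R.Reg P h) : R.Reg P (g - h) :=
  fun v hv => (hg v hv).sub (hh v hv)

theorem reg_mul {P : Place k F} {g h : 𝓕} (hg : R.Reg P g) (hh : R.Reg P h) : R.Reg P (g * h) :=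
  fun v hv => ((hg v hv).mul (hh v hv)).mono (by norm_num)

/-- **Evaluation and reduction**. -/
theorem ev_mem (x : R.W) {P : Place k F} (hreg : R.Reg P (x : 𝓕)) {Q : Place Ω 𝓕}
    (hQ : R.rp Q = P) : ∃ h : ev Q (x : 𝓕) ∈ R.A, R.ρ ⟨_, h⟩ = ev P (R.π x) := by
  have hreg0 := hreg Q hQ
  have hmem : ev Q (x : 𝓕) ∈ R.A := by
    by_contra hnot
    have ha0 : ev Q (x : 𝓕) ≠ 0 := by
      intro h0
      rw [h0] at hnot
      exact hnot (zero_mem _)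
    have hinv : (ev Q (x : 𝓕))⁻¹ ∈ R.A := (R.A.mem_or_inv_mem _).resolve_left hnot
    have hρ : R.ρ ⟨_, hinv⟩ = 0 := by
      by_contra h1
      have := R.ρ_ne_zero _ h1
      rw [inv_inv] at this
      exact hnot this
    let y : R.W := ⟨_, R.scal_mem ⟨_, hinv⟩⟩ * x - 1
    have hy : R.π y = -1 := by
      rw [map_sub, map_mul, map_one, R.π_scal, hρ, map_zero, zero_mul, zero_sub]
    have hy0 : R.π y ≠ 0 := by rw [hy]; exact neg_ne_zero.2 one_ne_zero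
    have hyreg : R.Reg P (y : 𝓕) := by
      refine R.reg_sub (R.reg_mul (R.reg_const P _) hreg) ?_
      have := R.reg_const P 1
      rwa [map_one] at this
    have h1 := R.le_ord_red y hy0 hyreg hQ
    rw [hy, ord_neg, P.ord_one] at h1
    have h2 : Ge Q 1 (y : 𝓕) := by
      have h3 := ((Ge.algebraMap Q (ev Q (x : 𝓕))⁻¹).mul (ev_spec hreg0)).mono
        (by norm_num : (1 : ℤ) ≤ 0 + 1)
      have h4 : algebraMap Ω 𝓕 (ev Q (x : 𝓕))⁻¹ * ((x : 𝓕) - algebraMap Ω 𝓕 (ev Q (x : 𝓕))) =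
          (y : 𝓕) := by
        change _ = algebraMap Ω 𝓕 (ev Q (x : 𝓕))⁻¹ * (x : 𝓕) - 1
        rw [mul_sub, ← map_mul, inv_mul_cancel₀ ha0, map_one]
      rwa [h4] at h3
    have := h2.le_ord (R.ne_zero_of_π hy0)
    omega
  refine ⟨hmem, ?_⟩
  let y : R.W := x - ⟨_, R.scal_mem ⟨_, hmem⟩⟩
  have hy : R.π y = R.π x - algebraMap k F (R.ρ ⟨_, hmem⟩) := by
    rw [map_sub, R.π_scal]
  symm
  apply ev_unique
  rw [← hy]
  by_cases hy0 : R.π y = 0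
  · exact Or.inl hy0
  · have hyreg : R.Reg P (y : 𝓕) := R.reg_sub hreg (R.reg_const P _)
    refine Ge.of_le (le_trans ?_ (R.le_ord_red y hy0 hyreg hQ))
    exact (ev_spec hreg0).le_ord (R.ne_zero_of_π hy0)

/-- constants functions regular at `P` -/
theorem reg_bc {P : Place k F} {f : F} (hf : Ge P 0 f) : R.Reg P (bc F 𝓕 f) := by
  rcases hf with rfl | hf
  · rw [map_zero]; intro v _; exact Ge.zero v 0
  intro v hv
  rcases dichotomy (K := k) (F := F) v with ⟨P', rfl⟩ | h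
  · rw [R.rp_bcP] at hv
    subst hv
    exact Ge.of_le (by rw [bcP_ord]; exact hf)
  · exact Ge.of_le (by rw [h])

theorem ev_bc {P : Place k F} {f : F} (hf : Ge P 0 f) {Q : Place Ω 𝓕} (hQ : R.rp Q = P) :
    ∃ h : ev Q (bc F 𝓕 f) ∈ R.A, R.ρ ⟨_, h⟩ = ev P f := by
  have := R.ev_mem ⟨_, R.bc_mem f⟩ (R.reg_bc hf) hQ
  rwa [R.π_bc] at this

/-- values at poles: the inverse is in the maximal ideal -/
theorem ev_bc_pole {P : Place k F} {f : F} (hf : P.ord f < 0) {Q : Place Ω 𝓕} (hQ : R.rp Q = P)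
    (hreg : Ge Q 0 (bc F 𝓕 f)) : ev Q (bc F 𝓕 f) ∉ R.A := by
  have hf0 : f ≠ 0 := by rintro rfl; rw [P.ord_zero] at hf; exact lt_irrefl _ hf
  have h1 : Ge P 0 f⁻¹ := Ge.of_le (by rw [P.ord_inv]; omega)
  obtain ⟨h2, h3⟩ := R.ev_bc h1 hQ
  have h4 : ev P f⁻¹ = 0 := (ev_eq_zero_iff h1).2 (Ge.of_le (by rw [P.ord_inv]; omega))
  rw [h4] at h3
  have h5 : Ge Q 0 (bc F 𝓕 f⁻¹) := R.reg_bc h1 Q hQ
  have h6 : ev Q (bc F 𝓕 f) * ev Q (bc F 𝓕 f⁻¹) = 1 := by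
    rw [← ev_mul hreg h5, ← map_mul, mul_inv_cancel₀ hf0, map_one, ev_one]
  have h7 : ev Q (bc F 𝓕 f⁻¹) ≠ 0 := right_ne_zero_of_mul_eq_one h6
  have h8 := R.ρ_eq_zero _ h3 h7
  rwa [← eq_inv_of_mul_eq_one_left h6] at h8

/-- local coordinates separate the points above `P` -/
theorem ord_coord {P : Place k F} {z : F} (hz : P.ord z = 1) {Q : Place Ω 𝓕} (hQ : R.rp Q = P) :
    Q.ord (bc F 𝓕 z - algebraMap Ω 𝓕 (ev Q (bc F 𝓕 z))) = 1 ∧
    bc F 𝓕 z - algebraMap Ω 𝓕 (ev Q (bc F 𝓕 z)) ≠ 0 ∧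
    (∃ h : bc F 𝓕 z - algebraMap Ω 𝓕 (ev Q (bc F 𝓕 z)) ∈ R.W, R.π ⟨_, h⟩ = z) ∧
    ∀ Q' : Place Ω 𝓕, R.rp Q' = P → Q' ≠ Q →
      Q'.ord (bc F 𝓕 z - algebraMap Ω 𝓕 (ev Q (bc F 𝓕 z))) = 0 := by
  classical
  have hz0 : z ≠ 0 := by rintro rfl; rw [P.ord_zero] at hz; norm_num at hz
  have hz1 : Ge P 0 z := Ge.of_le (by omega)
  obtain ⟨hmem, hρ⟩ := R.ev_bc hz1 hQ
  have hev : ev P z = 0 := (ev_eq_zero_iff hz1).2 (Ge.of_le (by omega))
  rw [hev] at hρ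
  let y : R.W := ⟨_, R.bc_mem z⟩ - ⟨_, R.scal_mem ⟨_, hmem⟩⟩
  have hy : R.π y = z := by
    rw [map_sub, R.π_bc, R.π_scal, hρ, map_zero, sub_zero]
  have hy0 : R.π y ≠ 0 := by rwa [hy]
  have hyy : (y : 𝓕) = bc F 𝓕 z - algebraMap Ω 𝓕 (ev Q (bc F 𝓕 z)) := rfl
  have hyne : (y : 𝓕) ≠ 0 := R.ne_zero_of_π hy0
  have hreg : R.Reg P (y : 𝓕) := R.reg_sub (R.reg_bc hz1) (R.reg_const P _)
  have h1 : Ge Q 1 (y : 𝓕) := ev_spec (R.reg_bc hz1 Q hQ)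
  have h2 := h1.le_ord hyne
  have h3 := R.le_ord_red y hy0 hreg hQ
  rw [hy, hz] at h3
  have h4 : Q.ord (y : 𝓕) = 1 := le_antisymm h3 h2
  refine ⟨h4, hyne, ⟨y.2, hy⟩, fun Q' hQ' hne => ?_⟩
  have h5 := R.ord_red y hy0 P
  rw [hy, hz] at h5
  by_contra h6
  rw [← hyy] at h6
  have hsub : ({Q, Q'} : Finset (Place Ω 𝓕)) ⊆
      (divisor Ω (y : 𝓕)).support.filter (fun v => R.rp v = P) := by
    intro v hv
    rw [Finset.mem_insert, Finset.mem_singleton] at hv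
    rw [Finset.mem_filter, Finsupp.mem_support_iff, divisor_apply]
    rcases hv with rfl | rfl
    · exact ⟨by rw [h4]; norm_num, hQ⟩
    · exact ⟨h6, hQ'⟩
  have h7 := Finset.sum_le_sum_of_subset_of_nonneg (f := fun v : Place Ω 𝓕 => v.ord (y : 𝓕)) hsub
    (fun v hv _ => (hreg v (Finset.mem_filter.1 hv).2).le_ord hyne)
  rw [Finset.sum_pair (Ne.symm hne), ← h5, h4] at h7
  have h8 := (hreg Q' hQ').le_ord hyne
  omega

theorem zpow_mem (x : R.W) (hx : R.π x ≠ 0) (m : ℤ) :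
    ∃ h : (x : 𝓕) ^ m ∈ R.W, R.π ⟨_, h⟩ = (R.π x) ^ m := by
  rcases m with m | m
  · refine ⟨by simpa using pow_mem x.2 m, ?_⟩
    have : (⟨(x : 𝓕) ^ (Int.ofNat m), by simpa using pow_mem x.2 m⟩ : R.W) = x ^ m := by
      apply Subtype.ext
      simp
    rw [this, map_pow]
    simp
  · have hx0 := R.ne_zero_of_π hx
    have h1 : (x : 𝓕)⁻¹ ∈ R.W := R.inv_mem x hx
    have h2 : R.π ⟨_, h1⟩ = (R.π x)⁻¹ := by
      apply eq_inv_of_mul_eq_one_left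
      rw [← map_mul]
      have : (⟨(x : 𝓕)⁻¹, h1⟩ * x : R.W) = 1 := Subtype.ext (inv_mul_cancel₀ hx0)
      rw [this, map_one]
    have h3 : (x : 𝓕) ^ (Int.negSucc m) ∈ R.W := by
      rw [zpow_negSucc, ← inv_pow]
      exact pow_mem h1 _
    refine ⟨h3, ?_⟩
    have : (⟨(x : 𝓕) ^ (Int.negSucc m), h3⟩ : R.W) = ⟨_, h1⟩ ^ (m + 1) := by
      apply Subtype.ext
      rw [SubmonoidClass.coe_pow]
      change (x : 𝓕) ^ (Int.negSucc m) = ((x : 𝓕)⁻¹) ^ (m + 1)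
      rw [zpow_negSucc, ← inv_pow]
    rw [this, map_pow, h2, zpow_negSucc, inv_pow]

theorem val_eq_one_of {a : Ω} (h0 : a ≠ 0) (h1 : a ∈ R.A) (h2 : a⁻¹ ∈ R.A) :
    R.A.valuation a = 1 := by
  apply le_antisymm
  · exact (R.A.valuation_le_one_iff a).2 h1
  · have := (R.A.valuation_le_one_iff _).2 h2
    rw [map_inv₀] at this
    have h3 : R.A.valuation a ≠ 0 := (Valuation.ne_zero_iff _).2 h0
    exact (inv_le_one₀ (zero_lt_iff.2 h3)).1 this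

end CRed

/-! ### local coordinates -/

variable (k F) in
/-- a local coordinate -/
noncomputable def zc (P : Place k F) : F := (exists_ord_eq P 1).choose

theorem zc_ne (P : Place k F) : zc k F P ≠ 0 := (exists_ord_eq P 1).choose_spec.1

theorem zc_ord (P : Place k F) : P.ord (zc k F P) = 1 := (exists_ord_eq P 1).choose_spec.2

open Classical in
/-- a global uniformizer at a point -/
noncomputable def U (w : F) (Q : Place Ω 𝓕) : 𝓕 :=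
  if h : ∃ P : Place k F, Q = bcP Ω 𝓕 P then bc F 𝓕 (zc k F h.choose) else
    bc F 𝓕 w - algebraMap Ω 𝓕 (ev Q (bc F 𝓕 w))

theorem U_bcP (w : F) (P : Place k F) :
    U (k := k) w (bcP Ω 𝓕 P) = bc F 𝓕 (zc k F P) := by
  have h : ∃ P' : Place k F, bcP Ω 𝓕 P = bcP Ω 𝓕 P' := ⟨P, rfl⟩
  rw [U, dif_pos h]
  congr 2
  exact (bcP_injective h.choose_spec).symm

theorem U_generic (w : F) {Q : Place Ω 𝓕} (hQ : ∀ P : Place k F, Q ≠ bcP Ω 𝓕 P) :
    U (k := k) w Q = bc F 𝓕 w - algebraMap Ω 𝓕 (ev Q (bc F 𝓕 w)) := by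
  rw [U, dif_neg]
  rintro ⟨P, hP⟩
  exact hQ P hP

/-- `w` is a coordinate at all nonconstant points -/
def Good (k Ω : Type*) {F : Type*} (𝓕 : Type*) [Field k] [Field Ω] [Field F] [Field 𝓕]
    [Algebra k F] [Algebra Ω 𝓕] [Algebra k Ω] [Algebra F 𝓕]
    [IsAlgClosed k] [IsAlgClosed Ω] [FunField k F] [FunField Ω 𝓕] [CExt k Ω F 𝓕] (w : F) : Prop :=
  ∀ Q : Place Ω 𝓕, (∀ P : Place k F, Q ≠ bcP Ω 𝓕 P) →
    Q.ord (bc F 𝓕 w - algebraMap Ω 𝓕 (ev Q (bc F 𝓕 w))) = 1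

theorem ord_U {w : F} (hw : Good k Ω 𝓕 w) (Q : Place Ω 𝓕) : Q.ord (U (k := k) w Q) = 1 := by
  by_cases h : ∃ P : Place k F, Q = bcP Ω 𝓕 P
  · obtain ⟨P, rfl⟩ := h
    rw [U_bcP, bcP_ord, zc_ord]
  · push Not at h
    rw [U_generic w h]
    exact hw Q h

theorem U_ne {w : F} (hw : Good k Ω 𝓕 w) (Q : Place Ω 𝓕) : U (k := k) w Q ≠ 0 := by
  intro h
  have := ord_U hw Q
  rw [h, Q.ord_zero] at this
  norm_num at this

variable (k) in
/-- leading coefficient -/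
noncomputable def lc (w : F) (Q : Place Ω 𝓕) (g : 𝓕) : Ω :=
  ev Q (g * (U (k := k) w Q) ^ (-(Q.ord g)))

theorem ord_mul_U {w : F} (hw : Good k Ω 𝓕 w) (Q : Place Ω 𝓕) {g : 𝓕} (hg : g ≠ 0) (n : ℤ) :
    Q.ord (g * (U (k := k) w Q) ^ n) = Q.ord g + n := by
  rw [Q.ord_mul hg (zpow_ne_zero _ (U_ne hw Q)), Q.ord_zpow, ord_U hw, mul_one]

theorem lc_ne_zero {w : F} (hw : Good k Ω 𝓕 w) (Q : Place Ω 𝓕) {g : 𝓕} (hg : g ≠ 0) :
    lc k w Q g ≠ 0 :=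
  ev_ne_zero (mul_ne_zero hg (zpow_ne_zero _ (U_ne hw Q)))
    (by rw [ord_mul_U hw Q hg]; omega)

theorem lc_smul {w : F} (hw : Good k Ω 𝓕 w) (Q : Place Ω 𝓕) {g : 𝓕} (hg : g ≠ 0) {c : Ω}
    (hc : c ≠ 0) : lc k w Q (algebraMap Ω 𝓕 c * g) = c * lc k w Q g := by
  have hc' : algebraMap Ω 𝓕 c ≠ 0 := (map_ne_zero _).2 hc
  rw [lc, Q.ord_mul hc' hg, ord_algebraMap, zero_add, mul_assoc,
    ev_mul (Ge.algebraMap Q c) (Ge.of_le (by rw [ord_mul_U hw Q hg]; omega)), ev_algebraMap, lc]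

end Fermat.Agent.MW
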