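import Fermat.Agent.MW.Zeros

/-!
# The cheap estimate
-/

set_option autoImplicit false
set_option linter.unusedSectionVars false
set_option linter.unusedVariables false
set_option linter.style.haveILetI false

namespace Fermat.Agent.MW

open AlgebraicCurve Fermat.Agent.RR Fermat.Agent.Curve IntermediateField Module Fermat.Agent

variable {k F : Type*} [Field k] [Field F] [Algebra k F] [IsAlgClosed k] [FunField k F]

theorem const_mem_L {D : Divisor k F} (hD : 0 ≤ D) (a : k) :
    algebraMap k F a ∈ riemannRochSpace D := by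
  rw [mem_L]
  intro v
  exact (Ge.algebraMap v a).mono (neg_nonpos.2 (hD v))

theorem span_fin (D : Divisor k F) :
    Submodule.span k (Set.range fun j => ((Module.finBasis k (riemannRochSpace D)) j : F)) =
      riemannRochSpace D := by
  set s := Module.finBasis k (riemannRochSpace D)
  have h2 : Submodule.map (riemannRochSpace D).subtype (Submodule.span k (Set.range s)) =
      Submodule.map (riemannRochSpace D).subtype ⊤ := by rw [s.span_eq]
  rw [Submodule.map_span, Submodule.map_top, Submodule.range_subtype] at h2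
  refine Eq.trans ?_ h2
  congr 1
  rw [← Set.range_comp]
  rfl

theorem span_sub {D : Divisor k F} (hD : 0 ≤ D) {P : Place k F} (hP : D P = 0) {J : Type*}
    [Fintype J] {u : J → F} (hu : Submodule.span k (Set.range u) = riemannRochSpace D) :
    Submodule.span k (Set.range fun j => u j - algebraMap k F (ev P (u j))) =
      riemannRochSpace (D - Finsupp.single P 1) := by
  classical
  have huD : ∀ j, u j ∈ riemannRochSpace D := fun j => hu ▸ Submodule.subset_span ⟨j, rfl⟩
  have hge : ∀ j, Ge P 0 (u j) := fun j => (mem_L.1 (huD j) P).mono (by omega)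
  apply le_antisymm
  · rw [Submodule.span_le]
    rintro _ ⟨j, rfl⟩
    change _ ∈ riemannRochSpace (D - Finsupp.single P 1)
    rw [mem_L]
    intro v
    by_cases hv : v = P
    · subst hv
      rw [Finsupp.sub_apply, hP, Finsupp.single_eq_same]
      exact (ev_spec (hge j)).mono (by norm_num)
    · rw [Finsupp.sub_apply, Finsupp.single_eq_of_ne hv, sub_zero]
      exact (mem_L.1 (huD j) v).sub (mem_L.1 (const_mem_L hD _) v)
  · intro g hg
    have hgD : g ∈ riemannRochSpace D := L_mono (by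
      rw [sub_le_self_iff]; exact Spec.single_le_of_nonneg _) hg
    have hgP : ev P g = 0 := by
      have h1 := mem_L.1 hg P
      rw [Finsupp.sub_apply, hP, Finsupp.single_eq_same] at h1
      have h2 : Ge P 1 g := h1.mono (by norm_num)
      exact (ev_eq_zero_iff (h2.mono (by norm_num))).2 h2
    rw [← hu] at hgD
    obtain ⟨c, hc⟩ := (Submodule.mem_span_range_iff_exists_fun k).1 hgD
    have h1 := (ev_sum (v := P) Finset.univ (fun j => c j • u j)
      (fun j _ => Ge.smul _ (hge j))).1
    rw [hc, hgP] at h1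
    have h2 : g = ∑ j, c j • (u j - algebraMap k F (ev P (u j))) := by
      simp only [smul_sub, Finset.sum_sub_distrib]
      rw [hc]
      have h3 : ∑ j, c j • algebraMap k F (ev P (u j)) = 0 := by
        have h4 : ∀ j, c j • algebraMap k F (ev P (u j)) = algebraMap k F (ev P (c j • u j)) := by
          intro j
          rw [Algebra.smul_def, Algebra.smul_def, ev_mul (Ge.algebraMap P _) (hge j),
            ev_algebraMap, map_mul]
        rw [Finset.sum_congr rfl (fun j _ => h4 j), ← map_sum, ← h1, map_zero]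
      rw [h3, sub_zero]
    rw [h2]
    exact sum_mem fun j _ => Submodule.smul_mem _ _ (Submodule.subset_span ⟨j, rfl⟩)

/-- the spanning family of products -/
theorem span_prod {P₀ : Place k F} {A₀ B₀ : ℕ} (hA₀ : rc k F + 2 ≤ A₀)
    (hB₀ : rc k F + A₀ ≤ B₀) {J J' : Type*} [Fintype J] [Fintype J'] {u : J → F}
    (hu : Submodule.span k (Set.range u) = riemannRochSpace (Finsupp.single P₀ (A₀ : ℤ)))
    {z : J' → F}
    (hz : Submodule.span k (Set.range z) = riemannRochSpace (Finsupp.single P₀ (B₀ : ℤ)))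
    (d : ℕ) : ∀ P : Fin d → Place k F, (∀ i, P i ≠ P₀) →
      Submodule.span k (Set.range fun q : (Fin d → J) × J' =>
        (∏ a, (u (q.1 a) - algebraMap k F (ev (P a) (u (q.1 a))))) * z q.2) =
      riemannRochSpace (Finsupp.single P₀ ((d * A₀ + B₀ : ℕ) : ℤ) -
        ∑ a, Finsupp.single (P a) 1) := by
  classical
  induction d with
  | zero =>
    intro P _
    rw [zero_mul, zero_add, Finset.univ_eq_empty, Finset.sum_empty, sub_zero, ← hz]
    congr 1
    ext x
    constructor
    · rintro ⟨q, rfl⟩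
      exact ⟨q.2, by simp⟩
    · rintro ⟨j, rfl⟩
      exact ⟨(Fin.elim0, j), by simp⟩
  | succ d ih =>
    intro P hP
    have h1 := ih (fun a => P a.succ) (fun a => hP _)
    have hrc0 := rc_nonneg (K := k) (F := F)
    have hA0 : (0 : Divisor k F) ≤ Finsupp.single P₀ (A₀ : ℤ) := by
      intro v
      rw [Finsupp.single_apply]
      split_ifs <;> simp
    have h2 := span_sub hA0 (P := P 0) (by rw [Finsupp.single_eq_of_ne (hP 0)]) hu
    have hbase : IsBase (riemannRochSpace (Finsupp.single P₀ (A₀ : ℤ) - Finsupp.single (P 0) 1))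
        (Finsupp.single P₀ (A₀ : ℤ) - Finsupp.single (P 0) 1) := by
      apply isBase_L
      rw [map_sub, degree_single', degree_single']
      omega
    have h3 := mul_L hbase (E := Finsupp.single P₀ ((d * A₀ + B₀ : ℕ) : ℤ) -
        ∑ a : Fin d, Finsupp.single (P a.succ) 1) (by
      rw [map_sub, map_sub, degree_single', degree_single', degree_single', map_sum]
      simp only [degree_single', Finset.sum_const, Finset.card_univ, Fintype.card_fin,
        nsmul_eq_mul, mul_one]
      push_cast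
      have h4 : (0 : ℤ) ≤ (d : ℤ) * ((A₀ : ℤ) - 1) := by
        apply mul_nonneg (Int.natCast_nonneg _)
        omega
      nlinarith)
    rw [← h2, ← h1, Submodule.span_mul_span] at h3
    have h4 : (Finsupp.single P₀ (A₀ : ℤ) - Finsupp.single (P 0) 1 +
        (Finsupp.single P₀ ((d * A₀ + B₀ : ℕ) : ℤ) - ∑ a : Fin d, Finsupp.single (P a.succ) 1) :
        Divisor k F) = Finsupp.single P₀ (((d + 1) * A₀ + B₀ : ℕ) : ℤ) -
        ∑ a, Finsupp.single (P a) 1 := by
      rw [Fin.sum_univ_succ]
      have h5 : (Finsupp.single P₀ (((d + 1) * A₀ + B₀ : ℕ) : ℤ) : Divisor k F) =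
          Finsupp.single P₀ (A₀ : ℤ) + Finsupp.single P₀ ((d * A₀ + B₀ : ℕ) : ℤ) := by
        rw [← Finsupp.single_add]
        congr 1
        push_cast
        ring
      rw [h5]
      abel
    rw [h4] at h3
    rw [← h3]
    congr 1
    ext x
    constructor
    · rintro ⟨q, rfl⟩
      refine ⟨_, ⟨q.1 0, rfl⟩, _, ⟨(fun a => q.1 a.succ, q.2), rfl⟩, ?_⟩
      simp only
      rw [Fin.prod_univ_succ, mul_assoc]
    · rintro ⟨_, ⟨j, rfl⟩, _, ⟨q, rfl⟩, rfl⟩
      refine ⟨(Fin.cons j q.1, q.2), ?_⟩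
      simp only
      rw [Fin.prod_univ_succ, Fin.cons_zero, mul_assoc]
      simp only [Fin.cons_succ]

theorem prod_mem_L {D : Divisor k F} (hD : 0 ≤ D) {d : ℕ} (f : Fin d → F)
    (hf : ∀ a, f a ∈ riemannRochSpace D) : ∏ a, f a ∈ riemannRochSpace (d • D) := by
  induction d with
  | zero =>
    rw [Finset.univ_eq_empty, Finset.prod_empty, zero_smul]
    have := const_mem_L (k := k) (F := F) (D := 0) le_rfl 1
    rwa [map_one] at this
  | succ d ih =>
    rw [Fin.prod_univ_succ, succ_nsmul']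
    exact L_mul_mem (hf 0) (ih _ fun a => hf a.succ)

theorem arith1 {c₁ K₁ K₂ K₃ K₄ H gc X y x b : ℝ} (hc₁ : 0 ≤ c₁) (hK₁ : 0 ≤ K₁) (hK₂ : 0 ≤ K₂)
    (hK₃ : 0 ≤ K₃) (hK₄ : 0 ≤ K₄) (hH : 0 ≤ H) (e1 : gc ≤ K₁ + X) (e2 : X ≤ K₄ * (H + 1))
    (e3 : b ≤ K₂ + gc) (e4 : y ≤ c₁ * (b + 1)) (e5 : x ≤ K₃ + gc + y) :
    x + 1 ≤ (K₃ + c₁ * (K₂ + K₁ + K₄ + 1) + K₁ + K₄ + 1) * (H + 1) := by
  have e6 : gc ≤ (K₁ + K₄) * (H + 1) := by nlinarith
  have e7 : b + 1 ≤ (K₂ + K₁ + K₄ + 1) * (H + 1) := by nlinarith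
  have e8 : y ≤ c₁ * ((K₂ + K₁ + K₄ + 1) * (H + 1)) :=
    e4.trans (mul_le_mul_of_nonneg_left e7 hc₁)
  have e9 : K₃ ≤ K₃ * (H + 1) := by nlinarith
  nlinarith

theorem arith2 {H A d c K : ℝ} (hH : 0 ≤ H) (hA : 0 ≤ A) (hd : 0 ≤ d * c) (hK : K = A + d * c) :
    A * H + d * c ≤ K * (H + 1) := by
  rw [hK]; nlinarith

variable [CharZero k] [Algebra.IsAlgebraic ℚ k]

set_option maxHeartbeats 2000000 in
/-- **The cheap estimate.** -/
theorem cheap_bound {w : F} {P₀ : Place k F} {a : ℕ} (ha0 : 1 ≤ a)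
    (hw : poleDiv k w = Finsupp.single P₀ (a : ℤ)) (hwt : Transcendental k w) (d n₀ : ℕ) :
    ∃ c : ℝ, 0 ≤ c ∧ ∀ P : Fin d → Place k F, (∀ i, P i ≠ P₀) → ∀ f : F, f ≠ 0 →
      f ∈ riemannRochSpace (Finsupp.single P₀ (n₀ : ℤ) - ∑ i, Finsupp.single (P i) 1) →
      ell (Finsupp.single P₀ (n₀ : ℤ) - ∑ i, Finsupp.single (P i) 1) = 1 →
      ∀ Q : Place k F, Q ≠ P₀ → Ge Q 1 f →
        h1 (ev Q w) ≤ c * ((∑ i, h1 (ev (P i) w)) + 1) := by
  classical
  have hrc := Int.self_le_toNat (rc k F)
  have hrc0 := rc_nonneg (K := k) (F := F)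
  set A₀ : ℕ := (rc k F).toNat + 2 with hA₀
  set B₀ : ℕ := (rc k F).toNat + A₀ + n₀ + rrGenus k F with hB₀
  set N : ℕ := d * A₀ + B₀ with hN
  set DA : Divisor k F := Finsupp.single P₀ (A₀ : ℤ) with hDA
  set DB : Divisor k F := Finsupp.single P₀ (B₀ : ℤ) with hDB
  set DN : Divisor k F := Finsupp.single P₀ (N : ℤ) with hDN
  have hDA0 : 0 ≤ DA := by
    intro v
    rw [hDA, Finsupp.single_apply]
    split_ifs <;> simp
  let J := Fin (finrank k (riemannRochSpace DA))
  let J' := Fin (finrank k (riemannRochSpace DB))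
  let u : J → F := fun j => (Module.finBasis k (riemannRochSpace DA) j : F)
  let z : J' → F := fun j => (Module.finBasis k (riemannRochSpace DB) j : F)
  have hu : Submodule.span k (Set.range u) = riemannRochSpace DA := span_fin DA
  have hz : Submodule.span k (Set.range z) = riemannRochSpace DB := span_fin DB
  have huD : ∀ j, u j ∈ riemannRochSpace DA := fun j => hu ▸ Submodule.subset_span ⟨j, rfl⟩
  have hzD : ∀ j, z j ∈ riemannRochSpace DB := fun j => hz ▸ Submodule.subset_span ⟨j, rfl⟩
  -- heights of the values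
  obtain ⟨cu, hcu⟩ := hb_le_poles hwt A₀ (fun o : Option J => o.elim 1 u) (by
    intro o
    have h1 : DA ≤ A₀ • poleDiv k w := by
      intro v
      rw [hw, hDA, Finsupp.smul_apply, Finsupp.single_apply, Finsupp.single_apply]
      split_ifs
      · rw [nsmul_eq_mul]
        have h2 : (1 : ℤ) ≤ a := by exact_mod_cast ha0
        have h3 : (0 : ℤ) ≤ A₀ := Int.natCast_nonneg _
        nlinarith
      · simp
    rcases o with _ | j
    · have := const_mem_L (k := k) (F := F) (D := A₀ • poleDiv k w)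
        (nsmul_nonneg (poleDiv_nonneg w) _) 1
      rwa [map_one] at this
    · exact L_mono h1 (huD j))
  -- the universal elements
  let τ : J → Option J → F := fun j o => o.elim (u j) (fun j' => if j' = j then -1 else 0)
  have hτ : ∀ j o, τ j o ∈ riemannRochSpace DA := by
    intro j o
    rcases o with _ | j'
    · exact huD j
    · change (if j' = j then (-1 : F) else 0) ∈ riemannRochSpace DA
      split_ifs
      · have := const_mem_L (k := k) (F := F) hDA0 (-1)
        rwa [map_neg, map_one] at this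
      · exact zero_mem _
  let Idx := (Fin d → J) × J'
  have hTmem : ∀ (q : Idx) (κ : Fin d → Option J), (∏ i, τ (q.1 i) (κ i)) * z q.2 ∈
      riemannRochSpace DN := by
    intro q κ
    have h1 := L_mul_mem (prod_mem_L hDA0 (fun i => τ (q.1 i) (κ i)) (fun i => hτ _ _)) (hzD q.2)
    have h2 : d • DA + DB = DN := by
      rw [hDA, hDB, hDN, Finsupp.smul_single, ← Finsupp.single_add, hN]
      congr 1
    rwa [h2] at h1
  let t := Module.finBasis k (riemannRochSpace DN)
  let s := finrank k (riemannRochSpace DN)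
  let T : Idx → (Fin d → Option J) → riemannRochSpace DN := fun q κ => ⟨_, hTmem q κ⟩
  -- the quotient
  let U₀ : Submodule k (riemannRochSpace DN) :=
    (riemannRochSpace (Finsupp.single P₀ (n₀ : ℤ) : Divisor k F)).comap (riemannRochSpace DN).subtype
  let bq := Module.finBasis k (riemannRochSpace DN ⧸ U₀)
  let Λ : Fin (finrank k (riemannRochSpace DN ⧸ U₀)) → Fin s → k := fun r' r =>
    bq.repr (U₀.mkQ (t r)) r'
  set n₁ : ℕ := N - d + 1 - rrGenus k F with hn₁
  -- constants
  obtain ⟨c₁, hc₁0, hc₁⟩ := small_solution' (C := k)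
    (Fin (finrank k (riemannRochSpace DN ⧸ U₀))) (Fin n₁)
  obtain ⟨c₂, hc₂0, hc₂⟩ := zeros_bound ha0 hw N (fun r => (t r : F))
    (t.linearIndependent.map' (riemannRochSpace _).subtype (Submodule.ker_subtype _))
    (fun r => (t r).2)
  let A1 : Option (Idx × Fin s) × (Fin d → Option J) → k := fun p =>
    p.1.elim (if p.2 = fun _ => none then 1 else 0) (fun qr => t.repr (T qr.1 p.2) qr.2)
  let A2 : Option (Fin (finrank k (riemannRochSpace DN ⧸ U₀)) × Idx) ×
      Option (Idx × Fin s) → k := fun p =>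
    p.1.elim (if p.2 = none then 1 else 0) (fun rq => p.2.elim 0 (fun qr =>
      if qr.1 = rq.2 then Λ rq.1 qr.2 else 0))
  set K₁ : ℝ := Real.log (Nat.card (Fin d → Option J)) + hb A1 with hK₁
  set K₂ : ℝ := Real.log (Nat.card (Option (Idx × Fin s))) + hb A2 with hK₂
  set K₃ : ℝ := Real.log (Nat.card (Fin n₁)) with hK₃
  have hK₁0 : 0 ≤ K₁ := add_nonneg (Real.log_natCast_nonneg _) (hb_nonneg _)
  have hK₂0 : 0 ≤ K₂ := add_nonneg (Real.log_natCast_nonneg _) (hb_nonneg _)
  have hK₃0 : 0 ≤ K₃ := Real.log_natCast_nonneg _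
  set K₄ : ℝ := A₀ + d * |cu| with hK₄
  have hK₄0 : 0 ≤ K₄ := by positivity
  refine ⟨c₂ * (K₃ + c₁ * (K₂ + K₁ + K₄ + 1) + K₁ + K₄ + 1), by positivity, ?_⟩
  intro P hP f hf0 hf hell Q hQ hfQ
  -- the family
  let G : Idx → F := fun q => (∏ i, (u (q.1 i) - algebraMap k F (ev (P i) (u (q.1 i))))) * z q.2
  have hGspan := span_prod (A₀ := A₀) (B₀ := B₀) (by omega) (by omega) hu hz d P hP
  have hGmem : ∀ q, G q ∈ riemannRochSpace (DN - ∑ i, Finsupp.single (P i) 1) := fun q =>
    hGspan ▸ Submodule.subset_span ⟨q, rfl⟩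
  have hGN : ∀ q, G q ∈ riemannRochSpace DN := fun q => L_mono (by
    rw [sub_le_self_iff]
    exact Finset.sum_nonneg fun j _ => Spec.single_le_of_nonneg _) (hGmem q)
  let X : (Fin d → Option J) → k := fun κ => ∏ i, (κ i).elim 1 (fun j => ev (P i) (u j))
  have hGX : ∀ q, (⟨G q, hGN q⟩ : riemannRochSpace DN) = ∑ κ, X κ • T q κ := by
    intro q
    apply Subtype.ext
    rw [Submodule.coe_sum]
    change G q = ∑ κ, X κ • ((∏ i, τ (q.1 i) (κ i)) * z q.2)
    have h1 : ∀ i, u (q.1 i) - algebraMap k F (ev (P i) (u (q.1 i))) =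
        ∑ o : Option J, (o.elim (1 : k) (fun j => ev (P i) (u j))) • τ (q.1 i) o := by
      intro i
      rw [Fintype.sum_option]
      simp only [Option.elim_none, one_smul, Option.elim_some, τ]
      rw [Finset.sum_eq_single (q.1 i)]
      · rw [if_pos rfl, smul_neg, Algebra.smul_def, mul_one, sub_eq_add_neg]
      · intro b _ hb'
        rw [if_neg hb', smul_zero]
      · intro h; exact absurd (Finset.mem_univ _) h
    change (∏ i, (u (q.1 i) - algebraMap k F (ev (P i) (u (q.1 i))))) * z q.2 = _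
    rw [Finset.prod_congr rfl (fun i _ => h1 i), Finset.prod_univ_sum, Fintype.piFinset_univ,
      Finset.sum_mul]
    refine Finset.sum_congr rfl fun κ _ => ?_
    have h2 : ∏ i, (κ i).elim (1 : k) (fun j => ev (P i) (u j)) • τ (q.1 i) (κ i) =
        X κ • ∏ i, τ (q.1 i) (κ i) := Finset.prod_smul _ _ _
    rw [h2, smul_mul_assoc]
  let Gc : Idx × Fin s → k := fun p => t.repr ⟨G p.1, hGN p.1⟩ p.2
  have hXheight : hb X ≤ K₄ * ((∑ i, h1 (ev (P i) w)) + 1) := by
    have h1 : hb X = ∑ i, hb (fun o : Option J => o.elim (1 : k) (fun j => ev (P i) (u j))) :=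
      hb_prod (x := fun (i : Fin d) (o : Option J) => o.elim (1 : k) (fun j => ev (P i) (u j)))
        (fun i => aff_ne (fun j => ev (P i) (u j)))
    rw [h1]
    have h2 : ∀ i, hb (fun o : Option J => o.elim (1 : k) (fun j => ev (P i) (u j))) ≤
        A₀ * MW.h1 (ev (P i) w) + |cu| := by
      intro i
      have h3 := hcu (P i) (w_ge hw (hP i))
      have h4 : (fun o : Option J => ev (P i) (o.elim (1 : F) u)) =
          fun o : Option J => o.elim (1 : k) (fun j => ev (P i) (u j)) := by
        funext o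
        cases o with
        | none => exact ev_one _
        | some j => rfl
      rw [h4] at h3
      have := le_abs_self cu
      linarith
    refine (Finset.sum_le_sum fun i _ => h2 i).trans ?_
    rw [Finset.sum_add_distrib, ← Finset.mul_sum, Finset.sum_const, Finset.card_univ,
      Fintype.card_fin, nsmul_eq_mul]
    have h3 : 0 ≤ ∑ i, MW.h1 (ev (P i) w) := Finset.sum_nonneg fun i _ => h1_nonneg _
    have h4 : 0 ≤ (d : ℝ) * |cu| := by positivity
    exact arith2 h3 (Nat.cast_nonneg _) h4 hK₄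
  have hX0 : X (fun _ => none) = 1 := Finset.prod_eq_one fun i _ => rfl
  have hGc : ha Gc ≤ K₁ + hb X := by
    have h := hb_linear A1 X
    refine le_of_eq_of_le ?_ h
    unfold ha
    congr 1
    funext o
    rcases o with _ | ⟨q, r⟩
    · simp only [Option.elim_none, A1]
      rw [Finset.sum_eq_single (fun _ => none)]
      · rw [if_pos rfl, hX0, mul_one]
      · intro b _ hb'
        rw [if_neg hb', zero_mul]
      · intro h; exact absurd (Finset.mem_univ _) h
    · simp only [Option.elim_some, A1, Gc]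
      rw [hGX q, map_sum, Finsupp.finsetSum_apply]
      refine Finset.sum_congr rfl fun κ _ => ?_
      rw [map_smul, Finsupp.smul_apply, smul_eq_mul, mul_comm]
  let B : Fin (finrank k (riemannRochSpace DN ⧸ U₀)) × Idx → k := fun p =>
    ∑ r, Λ p.1 r * Gc (p.2, r)
  have hB : ha B ≤ K₂ + ha Gc := by
    have h := hb_linear A2 (fun o : Option (Idx × Fin s) => o.elim 1 Gc)
    refine le_of_eq_of_le ?_ h
    unfold ha
    congr 1
    funext o
    rcases o with _ | ⟨r', q⟩
    · simp only [Option.elim_none, A2]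
      rw [Finset.sum_eq_single none]
      · simp
      · intro b _ hb'
        rw [if_neg hb', zero_mul]
      · intro h; exact absurd (Finset.mem_univ _) h
    · simp only [Option.elim_some, A2, Fintype.sum_option, Option.elim_none, zero_mul, zero_add, B]
      rw [← Finset.univ_product_univ, Finset.sum_product, Finset.sum_eq_single q]
      · simp
      · intro b _ hb'
        apply Finset.sum_eq_zero
        intro r _
        rw [if_neg hb', zero_mul]
      · intro h; exact absurd (Finset.mem_univ _) h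
  -- coordinates of an element in the quotient
  have hquot : ∀ v : riemannRochSpace DN, (v : F) ∈ riemannRochSpace (Finsupp.single P₀ (n₀ : ℤ) :
      Divisor k F) ↔ ∀ r', ∑ r, Λ r' r * t.repr v r = 0 := by
    intro v
    have h1 : (v : F) ∈ riemannRochSpace (Finsupp.single P₀ (n₀ : ℤ) : Divisor k F) ↔
        U₀.mkQ v = 0 := by
      rw [Submodule.mkQ_apply, Submodule.Quotient.mk_eq_zero]
      rfl
    have h2 : ∀ r', bq.repr (U₀.mkQ v) r' = ∑ r, Λ r' r * t.repr v r := by
      intro r'
      conv_lhs => rw [← t.sum_repr v]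
      rw [map_sum, map_sum, Finsupp.finsetSum_apply]
      refine Finset.sum_congr rfl fun r _ => ?_
      rw [map_smul, map_smul, Finsupp.smul_apply, smul_eq_mul, mul_comm]
    rw [h1, ← bq.repr.map_eq_zero_iff, Finsupp.ext_iff]
    simp only [h2, Finsupp.coe_zero, Pi.zero_apply]
  -- a basis
  have hdeg : Divisor.degree (DN - ∑ i, Finsupp.single (P i) 1) = N - d := by
    rw [map_sub, map_sum, hDN, degree_single']
    simp only [degree_single', Finset.sum_const, Finset.card_univ, Fintype.card_fin,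
      nsmul_eq_mul, mul_one]
  have hNd : d + (rc k F).toNat + n₀ + 1 + rrGenus k F ≤ N := by
    rw [hN]
    nlinarith
  have hdim : finrank k (riemannRochSpace (DN - ∑ i, Finsupp.single (P i) 1)) = n₁ := by
    have h1 := ell_eq_of_le (K := k) (F := F) (D := DN - ∑ i, Finsupp.single (P i) 1) (by
      rw [hdeg]; omega)
    rw [hdeg] at h1
    have h2 : ell (DN - ∑ i, Finsupp.single (P i) 1) =
      finrank k (riemannRochSpace (DN - ∑ i, Finsupp.single (P i) 1)) := rfl
    omega
  obtain ⟨bs, hbs1, hbs2, hbs3⟩ := exists_linearIndependent k (Set.range G)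
  have hbsfin : bs.Finite := (Set.finite_range G).subset hbs1
  haveI := hbsfin.fintype
  have hcard : Fintype.card bs = n₁ := by
    have h1 := finrank_span_eq_card hbs3
    have h2 : Submodule.span k (Set.range G) =
      riemannRochSpace (DN - ∑ i, Finsupp.single (P i) 1) := hGspan
    rw [Subtype.range_coe, hbs2, h2] at h1
    rw [← h1, hdim]
  let eb : Fin n₁ ≃ bs := (Fintype.equivFinOfCardEq hcard).symm
  have hσ : ∀ a : Fin n₁, ∃ q, G q = (eb a : F) := fun a => hbs1 (eb a).2
  choose σ hσ using hσ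
  have hσli : LinearIndependent k (fun a => G (σ a)) := by
    have h1 : (fun a => G (σ a)) = (Subtype.val : bs → F) ∘ eb := funext hσ
    rw [h1]
    exact hbs3.comp _ eb.injective
  have hσspan : Submodule.span k (Set.range fun a => G (σ a)) =
      riemannRochSpace (DN - ∑ i, Finsupp.single (P i) 1) := by
    rw [← hGspan, ← hbs2]
    congr 1
    have h1 : (fun a => G (σ a)) = (Subtype.val : bs → F) ∘ eb := funext hσ
    rw [h1, Set.range_comp, eb.surjective.range_eq, Set.image_univ, Subtype.range_coe]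
  -- solutions of the system
  have hsys : ∀ y : Fin n₁ → k, (∀ r', ∑ a, B (r', σ a) * y a = 0) ↔
      ∑ a, y a • G (σ a) ∈ riemannRochSpace (Finsupp.single P₀ (n₀ : ℤ) : Divisor k F) := by
    intro y
    have h1 := hquot (∑ a, y a • (⟨G (σ a), hGN (σ a)⟩ : riemannRochSpace DN))
    have h2 : ((∑ a, y a • (⟨G (σ a), hGN (σ a)⟩ : riemannRochSpace DN) : riemannRochSpace DN) : F)
        = ∑ a, y a • G (σ a) := by
      rw [Submodule.coe_sum]; rfl
    rw [h2] at h1
    rw [h1]
    refine forall_congr' fun r' => ?_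
    have h3 : ∑ r, Λ r' r * t.repr (∑ a, y a • (⟨G (σ a), hGN (σ a)⟩ : riemannRochSpace DN)) r =
        ∑ a, B (r', σ a) * y a := by
      have h4 : ∀ r, t.repr (∑ a, y a • (⟨G (σ a), hGN (σ a)⟩ : riemannRochSpace DN)) r =
          ∑ a, y a * Gc (σ a, r) := by
        intro r
        rw [map_sum, Finsupp.finsetSum_apply]
        refine Finset.sum_congr rfl fun a _ => ?_
        rw [map_smul, Finsupp.smul_apply, smul_eq_mul]
      simp only [h4, Finset.mul_sum]
      rw [Finset.sum_comm]
      refine Finset.sum_congr rfl fun a _ => ?_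
      simp only [B, Finset.sum_mul]
      refine Finset.sum_congr rfl fun r _ => ?_
      ring
    rw [h3]
  -- `n₀ ≤ N`
  have hn₀N : (Finsupp.single P₀ (n₀ : ℤ) - ∑ i, Finsupp.single (P i) 1 : Divisor k F) ≤
      DN - ∑ i, Finsupp.single (P i) 1 := by
    apply sub_le_sub_right
    intro v
    rw [hDN, Finsupp.single_apply, Finsupp.single_apply]
    split_ifs
    · exact_mod_cast (by omega : n₀ ≤ N)
    · exact le_rfl
  obtain ⟨y₀, hy₀⟩ := (Submodule.mem_span_range_iff_exists_fun k).1
    (show f ∈ Submodule.span k (Set.range fun a => G (σ a)) by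
      rw [hσspan]; exact L_mono hn₀N hf)
  have hfn₀ : f ∈ riemannRochSpace (Finsupp.single P₀ (n₀ : ℤ) : Divisor k F) := L_mono (by
    rw [sub_le_self_iff]
    exact Finset.sum_nonneg fun j _ => Spec.single_le_of_nonneg _) hf
  obtain ⟨y, hy0, hy, hby⟩ := hc₁ (fun p => B (p.1, σ p.2)) ⟨y₀, by
    rintro rfl
    apply hf0
    rw [← hy₀]
    simp, (hsys y₀).2 (by rw [hy₀]; exact hfn₀)⟩
  set f' : F := ∑ a, y a • G (σ a) with hf'
  have hf'0 : f' ≠ 0 := fun h => hy0 (funext (Fintype.linearIndependent_iff.1 hσli y h))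
  have hf'n₀ := (hsys y).1 hy
  have hf'N : f' ∈ riemannRochSpace (DN - ∑ i, Finsupp.single (P i) 1) := by
    rw [← hσspan]
    exact sum_mem fun a _ => Submodule.smul_mem _ _ (Submodule.subset_span ⟨a, rfl⟩)
  have hf'mem : f' ∈ riemannRochSpace
      (Finsupp.single P₀ (n₀ : ℤ) - ∑ i, Finsupp.single (P i) 1) := by
    rw [mem_L] at hf'n₀ hf'N ⊢
    intro v
    by_cases hv : v = P₀
    · subst hv
      refine (hf'n₀ v).mono ?_
      rw [Finsupp.sub_apply, Finsupp.finsetSum_apply, Finset.sum_eq_zero, sub_zero]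
      intro i _
      rw [Finsupp.single_eq_of_ne (Ne.symm (hP i))]
    · refine (hf'N v).mono ?_
      rw [Finsupp.sub_apply, Finsupp.sub_apply, hDN, Finsupp.single_eq_of_ne hv,
        Finsupp.single_eq_of_ne hv]
  -- one-dimensionality
  have hprop : ∃ lam : k, f' = lam • f := by
    have h1 := (finrank_eq_one_iff_of_nonzero' (⟨f, hf⟩ : riemannRochSpace
      (Finsupp.single P₀ (n₀ : ℤ) - ∑ i, Finsupp.single (P i) 1)) (by
        intro h; exact hf0 (congrArg Subtype.val h))).1 hell
    obtain ⟨c, hc⟩ := h1 ⟨f', hf'mem⟩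
    exact ⟨c, (congrArg Subtype.val hc).symm⟩
  obtain ⟨lam, hlam⟩ := hprop
  have hf'Q : Ge Q 1 f' := by
    rw [hlam]
    exact Ge.smul _ hfQ
  -- the coordinates
  let x : Fin s → k := fun r => ∑ a, Gc (σ a, r) * y a
  have hfx : f' = ∑ r, x r • (t r : F) := by
    have h1 : ∀ a, G (σ a) = ∑ r, Gc (σ a, r) • (t r : F) := by
      intro a
      have h2 := t.sum_repr ⟨G (σ a), hGN (σ a)⟩
      have h3 := congrArg Subtype.val h2
      rw [Submodule.coe_sum] at h3
      exact h3.symm
    rw [hf']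
    rw [Finset.sum_congr rfl (fun a _ => by rw [h1 a])]
    simp only [Finset.smul_sum]
    rw [Finset.sum_comm]
    refine Finset.sum_congr rfl fun r _ => ?_
    simp only [x, Finset.sum_smul, smul_smul]
    refine Finset.sum_congr rfl fun a _ => ?_
    rw [mul_comm]
  have hx0 : x ≠ 0 := by
    intro h
    apply hf'0
    rw [hfx]
    apply Finset.sum_eq_zero
    intro r _
    have : x r = 0 := congrFun h r
    rw [this, zero_smul]
  have hxh : hb x ≤ K₃ + ha Gc + hb y := by
    have h1 := hb_linear (fun p : Fin s × Fin n₁ => Gc (σ p.2, p.1)) y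
    have h2 : hb (fun p : Fin s × Fin n₁ => Gc (σ p.2, p.1)) ≤ ha Gc :=
      (hb_comp_le (C := k) (fun p : Fin s × Fin n₁ => (σ p.2, p.1)) Gc).trans (hb_le_ha Gc)
    have h3 : hb x ≤ _ := h1
    linarith
  have hBσ : ha (fun p : Fin (finrank k (riemannRochSpace DN ⧸ U₀)) × Fin n₁ => B (p.1, σ p.2)) ≤
      ha B := by
    have h1 := hb_comp_le (C := k) (fun o : Option (Fin (finrank k (riemannRochSpace DN ⧸ U₀)) ×
      Fin n₁) => o.map (fun p => (p.1, σ p.2))) (fun o => o.elim 1 B)
    refine le_of_eq_of_le ?_ h1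
    unfold ha
    congr 1
    funext o
    cases o <;> rfl
  have hfinal := hc₂ x hx0 Q hQ (by rw [← hfx]; exact hf'Q)
  set H : ℝ := ∑ i, MW.h1 (ev (P i) w) with hH
  have hH0 : 0 ≤ H := Finset.sum_nonneg fun i _ => h1_nonneg _
  have hBσ' := hBσ.trans hB
  have e3 := arith1 hc₁0 hK₁0 hK₂0 hK₃0 hK₄0 hH0 hGc hXheight hBσ' hby hxh
  calc MW.h1 (ev Q w) ≤ c₂ * (hb x + 1) := hfinal
    _ ≤ c₂ * ((K₃ + c₁ * (K₂ + K₁ + K₄ + 1) + K₁ + K₄ + 1) * (H + 1)) :=
      mul_le_mul_of_nonneg_left e3 hc₂0
    _ = _ := by ring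

end Fermat.Agent.MW
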