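import Fermat.Agent.MW.BCL
import Fermat.Agent.Spec.TorsInj

/-!
# Divisor classes relative to a base point, minimal representatives
-/

set_option autoImplicit false
set_option linter.unusedSectionVars false
set_option linter.style.haveILetI false

noncomputable section

namespace Fermat.Agent.MW

open AlgebraicCurve Fermat.Agent.RR Fermat.Agent.Curve IntermediateField Module

section

variable {k F : Type*} [Field k] [IsAlgClosed k] [Field F] [Algebra k F] [FunField k F]
  (P₀ : Place k F)

theorem degree_sub_single (D : Divisor k F) :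
    D - Finsupp.single P₀ (Divisor.degree D) ∈ Divisor.degZero (K := k) (F := F) := by
  rw [Divisor.mem_degZero, map_sub, degree_single', sub_self]

/-- the class of a divisor relative to the base point -/
def cl : Divisor k F →+ Pic0 k F where
  toFun D := Pic0.mk ⟨D - Finsupp.single P₀ (Divisor.degree D), degree_sub_single P₀ D⟩
  map_zero' := by
    rw [← Pic0.mk_zero]
    congr 1
    apply Subtype.ext
    simp
  map_add' D E := by
    rw [← Pic0.mk_add]
    congr 1
    apply Subtype.ext
    change D + E - Finsupp.single P₀ (Divisor.degree (D + E)) =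
      (D - Finsupp.single P₀ (Divisor.degree D)) + (E - Finsupp.single P₀ (Divisor.degree E))
    rw [map_add, Finsupp.single_add]
    abel

theorem cl_eq_zero {D : Divisor k F} :
    cl P₀ D = 0 ↔ (D - Finsupp.single P₀ (Divisor.degree D)).IsPrincipal :=
  Spec.pic0_mk_eq_zero

theorem cl_eq_cl {D E : Divisor k F} : cl P₀ D = cl P₀ E ↔
    (D - E - Finsupp.single P₀ (Divisor.degree D - Divisor.degree E)).IsPrincipal := by
  rw [← sub_eq_zero, ← map_sub, cl_eq_zero, map_sub]

theorem cl_eq_of_degree {D E : Divisor k F} (h : Divisor.degree D = Divisor.degree E) :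
    cl P₀ D = cl P₀ E ↔ (D - E).IsPrincipal := by
  rw [cl_eq_cl, h, sub_self, Finsupp.single_zero, sub_zero]

theorem cl_single_self (n : ℤ) : cl P₀ (Finsupp.single P₀ n) = 0 := by
  rw [cl_eq_zero, degree_single', sub_self]
  exact Spec.isPrincipal_iff.2 ⟨1, one_ne_zero, by ext v; simp⟩

theorem cl_surjective : Function.Surjective (cl P₀) := by
  intro x
  obtain ⟨⟨D, hD⟩, rfl⟩ := Pic0.mk_surjective x
  refine ⟨D, ?_⟩
  change Pic0.mk _ = Pic0.mk _
  congr 1
  apply Subtype.ext
  change D - Finsupp.single P₀ (Divisor.degree D) = D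
  rw [Divisor.mem_degZero.1 hD, Finsupp.single_zero, sub_zero]

theorem cl_principal {D : Divisor k F} (h : D.IsPrincipal) : cl P₀ D = 0 := by
  rw [cl_eq_zero]
  obtain ⟨f, hf, rfl⟩ := Spec.isPrincipal_iff.1 h
  rw [degree_divisor, Finsupp.single_zero, sub_zero]
  exact h

theorem cl_divisor {f : F} (hf : f ≠ 0) : cl P₀ (divisor k f) = 0 :=
  cl_principal P₀ (Spec.isPrincipal_divisor hf)

theorem ell_add_divisor' {D : Divisor k F} {f : F} (hf : f ≠ 0) :
    ell (D + divisor k f) = ell D := by
  have := ell_sub_divisor hf (D + divisor k f)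
  rw [add_sub_cancel_right] at this
  exact this.symm

/-- effective divisors which are minimal in their class -/
structure IsMin (E : Divisor k F) : Prop where
  nonneg : 0 ≤ E
  apply_eq : E P₀ = 0
  ell_eq : ell E = 1

theorem exists_min (x : Pic0 k F) : ∃ E : Divisor k F, IsMin P₀ E ∧ cl P₀ E = x ∧
    Divisor.degree E ≤ rrGenus k F := by
  classical
  obtain ⟨⟨D, hD⟩, rfl⟩ := Pic0.mk_surjective x
  have hD0 : Divisor.degree D = 0 := Divisor.mem_degZero.1 hD
  have hex : ∃ e : ℕ, 1 ≤ ell (D + Finsupp.single P₀ (e : ℤ)) := by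
    refine ⟨rrGenus k F, ?_⟩
    have := riemann (D + Finsupp.single P₀ (rrGenus k F : ℤ))
    rw [map_add, hD0, degree_single'] at this
    omega
  have hle : Nat.find hex ≤ rrGenus k F := by
    apply Nat.find_min'
    have := riemann (D + Finsupp.single P₀ (rrGenus k F : ℤ))
    rw [map_add, hD0, degree_single'] at this
    omega
  obtain ⟨e, he⟩ : ∃ e, e = Nat.find hex := ⟨_, rfl⟩
  have h1 := Nat.find_spec hex
  rw [← he] at h1 hle
  have hL : ell (D + Finsupp.single P₀ (e : ℤ)) ≤ 1 := by
    rcases Nat.eq_zero_or_pos e with h0 | h0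
    · rw [h0] at h1 ⊢
      rw [Nat.cast_zero, Finsupp.single_zero, add_zero] at h1 ⊢
      haveI : Nontrivial (riemannRochSpace D) := Module.nontrivial_of_finrank_pos
        (R := k) (by change 0 < ell D; omega)
      obtain ⟨f, hf⟩ := exists_ne (0 : riemannRochSpace D)
      have hf0 : (f : F) ≠ 0 := fun h => hf (Subtype.ext h)
      have h2 := (Spec.mem_L_of_divisor hf0).1 f.2
      rw [add_comm] at h2
      have h3 : 0 = divisor k (f : F) + D := Spec.eq_of_le_of_degree h2 (by
        rw [map_zero, map_add, degree_divisor, hD0, add_zero])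
      have h4 : D = divisor k ((f : F)⁻¹) := by
        have : divisor k ((f : F)⁻¹) = -divisor k (f : F) := by
          ext v
          rw [Finsupp.neg_apply, divisor_apply, divisor_apply, v.ord_inv]
        rw [this, eq_neg_iff_add_eq_zero, add_comm]
        exact h3.symm
      have h5 := ell_le_degree_add_one (D := (0 : Divisor k F)) le_rfl
      have h6 := ell_add_divisor' (D := (0 : Divisor k F)) (inv_ne_zero hf0)
      rw [zero_add, ← h4] at h6
      rw [h6]
      simp at h5
      exact h5
    · have h2 : ell (D + Finsupp.single P₀ ((e - 1 : ℕ) : ℤ)) = 0 := by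
        by_contra h3
        have := Nat.find_min hex (m := e - 1) (by omega)
        apply this
        omega
      have h3 : D + Finsupp.single P₀ ((e - 1 : ℕ) : ℤ) ≤ D + Finsupp.single P₀ (e : ℤ) := by
        gcongr
        omega
      have h4 := ell_le_of_le h3
      rw [h2, map_add, map_add, degree_single', degree_single'] at h4
      omega
  have hell : ell (D + Finsupp.single P₀ (e : ℤ)) = 1 := le_antisymm hL h1
  haveI : Nontrivial (riemannRochSpace (D + Finsupp.single P₀ (e : ℤ))) :=
    Module.nontrivial_of_finrank_pos (R := k) (by change 0 < ell _; omega)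
  obtain ⟨f, hf⟩ := exists_ne (0 : riemannRochSpace (D + Finsupp.single P₀ (e : ℤ)))
  have hf0 : (f : F) ≠ 0 := fun h => hf (Subtype.ext h)
  have h2 := (Spec.mem_L_of_divisor hf0).1 f.2
  rw [add_comm] at h2
  set E : Divisor k F := divisor k (f : F) + (D + Finsupp.single P₀ (e : ℤ)) with hE
  have hEd : Divisor.degree E = e := by
    rw [hE, map_add, degree_divisor, map_add, hD0, degree_single']; ring
  refine ⟨E, ⟨h2, ?_, ?_⟩, ?_, ?_⟩
  · by_contra hne
    have hpos : 1 ≤ E P₀ := by
      have h3 : (0 : ℤ) ≤ E P₀ := h2 P₀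
      omega
    have he0 : 0 < e := by
      rcases Nat.eq_zero_or_pos e with h0 | h0
      · have h3 : 0 = E := Spec.eq_of_le_of_degree h2 (by rw [map_zero, hEd, h0]; rfl)
        rw [← h3] at hpos
        simp at hpos
      · exact h0
    apply Nat.find_min hex (m := e - 1) (by omega)
    have h3 : (f : F) ∈ riemannRochSpace (D + Finsupp.single P₀ ((e - 1 : ℕ) : ℤ)) := by
      rw [Spec.mem_L_of_divisor hf0, add_comm]
      have h4 : divisor k (f : F) + (D + Finsupp.single P₀ ((e - 1 : ℕ) : ℤ)) =
          E - Finsupp.single P₀ 1 := by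
        rw [hE, Nat.cast_sub (by omega), Finsupp.single_sub]
        push_cast
        abel
      rw [h4]
      intro v
      rcases eq_or_ne v P₀ with rfl | hv
      · rw [Finsupp.sub_apply, Finsupp.single_eq_same]
        simp only [Finsupp.coe_zero, Pi.zero_apply]
        omega
      · rw [Finsupp.sub_apply, Finsupp.single_eq_of_ne hv, sub_zero]
        exact h2 v
    haveI : Nontrivial (riemannRochSpace (D + Finsupp.single P₀ ((e - 1 : ℕ) : ℤ))) :=
      ⟨⟨_, h3⟩, 0, fun h => hf0 (congrArg Subtype.val h)⟩
    exact Module.finrank_pos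
  · rw [hE, add_comm, ell_add_divisor' hf0, hell]
  · have h3 : cl P₀ E = cl P₀ D := by
      rw [hE, map_add, map_add, cl_divisor P₀ hf0, cl_single_self, zero_add, add_zero]
    rw [h3]
    change Pic0.mk _ = Pic0.mk _
    congr 1
    apply Subtype.ext
    change D - Finsupp.single P₀ (Divisor.degree D) = D
    rw [hD0, Finsupp.single_zero, sub_zero]
  · rw [hEd]
    exact_mod_cast hle

/-- effective divisors in the class of a divisor with `ell = 1` -/
theorem eq_of_ell_eq_one {E E' : Divisor k F} (hE : 0 ≤ E) (hE' : 0 ≤ E') (hell : ell E = 1)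
    (h : (E' - E).IsPrincipal) : E' = E := by
  obtain ⟨f, hf, hfd⟩ := Spec.isPrincipal_iff.1 h
  have h1 : f ∈ riemannRochSpace E := by
    rw [Spec.mem_L_of_divisor hf, ← hfd, add_sub_cancel]
    exact hE'
  have h2 : (1 : F) ∈ riemannRochSpace E := Spec.DivRed.one_mem_L.2 hE
  obtain ⟨v, hv⟩ := finrank_eq_one_iff_of_nonzero' (⟨1, h2⟩ : riemannRochSpace E)
    (fun h => one_ne_zero (congrArg Subtype.val h)) |>.1 hell ⟨f, h1⟩
  have h3 : f = algebraMap k F v := by
    have := congrArg Subtype.val hv
    rw [Algebra.algebraMap_eq_smul_one]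
    exact this.symm
  rw [← sub_eq_zero, hfd]
  ext w
  rw [divisor_apply, h3, ord_algebraMap]
  rfl

theorem IsMin.unique {E E' : Divisor k F} (h : IsMin P₀ E) (h' : IsMin P₀ E')
    (hcl : cl P₀ E = cl P₀ E') : E = E' := by
  -- the case of smaller degree
  have key : ∀ {E E' : Divisor k F}, IsMin P₀ E → IsMin P₀ E' → cl P₀ E = cl P₀ E' →
      Divisor.degree E ≤ Divisor.degree E' → E = E' := by
    intro E E' h h' hcl hle
    rw [cl_eq_cl] at hcl
    have h1 : (E + Finsupp.single P₀ (Divisor.degree E' - Divisor.degree E)) = E' := by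
      apply eq_of_ell_eq_one h'.nonneg (add_nonneg h.nonneg
        (Finsupp.single_nonneg.2 (sub_nonneg.2 hle))) h'.ell_eq
      have : E + Finsupp.single P₀ (Divisor.degree E' - Divisor.degree E) - E' =
          E - E' - Finsupp.single P₀ (Divisor.degree E - Divisor.degree E') := by
        rw [Finsupp.single_sub, Finsupp.single_sub]; abel
      rw [this]
      exact hcl
    have h2 := DFunLike.congr_fun h1 P₀
    rw [Finsupp.add_apply, Finsupp.single_eq_same, h.apply_eq, h'.apply_eq, zero_add] at h2
    rw [h2, Finsupp.single_zero, add_zero] at h1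
    exact h1
  rcases le_total (Divisor.degree E) (Divisor.degree E') with hle | hle
  · exact key h h' hcl hle
  · exact (key h' h hcl.symm hle).symm

/-- the minimal effective divisor of a class -/
def minD (x : Pic0 k F) : Divisor k F := (exists_min P₀ x).choose

theorem isMin_minD (x : Pic0 k F) : IsMin P₀ (minD P₀ x) := (exists_min P₀ x).choose_spec.1

theorem cl_minD (x : Pic0 k F) : cl P₀ (minD P₀ x) = x := (exists_min P₀ x).choose_spec.2.1

theorem degree_minD_le (x : Pic0 k F) : Divisor.degree (minD P₀ x) ≤ rrGenus k F :=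
  (exists_min P₀ x).choose_spec.2.2

theorem minD_eq {E : Divisor k F} (h : IsMin P₀ E) {x : Pic0 k F} (hx : cl P₀ E = x) :
    minD P₀ x = E :=
  (isMin_minD P₀ x).unique P₀ h (by rw [cl_minD, hx])

theorem minD_injective : Function.Injective (minD P₀) := by
  intro x y h
  rw [← cl_minD P₀ x, h, cl_minD]

/-! ### semilinear automorphisms -/

theorem ell_smul (σ : SemilinearAut k F) (D : Divisor k F) : ell (σ • D) = ell D := by
  let j : riemannRochSpace D ≃+ riemannRochSpace (σ • D) :=
    { toFun := fun x => ⟨σ • (x : F), Spec.smul_mem_L σ x.2⟩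
      invFun := fun x => ⟨σ⁻¹ • (x : F), by
        have := Spec.smul_mem_L σ⁻¹ x.2
        rwa [inv_smul_smul] at this⟩
      left_inv := fun x => Subtype.ext (inv_smul_smul σ (x : F))
      right_inv := fun x => Subtype.ext (smul_inv_smul σ (x : F))
      map_add' := fun x y => Subtype.ext (smul_add σ (x : F) (y : F)) }
  have := rank_eq_of_equiv_equiv (R := k) (R' := k) (SemilinearAut.baseAut σ) j
    (SemilinearAut.baseAut σ).bijective (by
      intro r m
      apply Subtype.ext
      change σ • (r • (m : F)) = (SemilinearAut.baseAut σ r) • (σ • (m : F))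
      rw [Algebra.smul_def, smul_mul', SemilinearAut.smul_algebraMap, ← Algebra.smul_def])
  rw [ell, ell, Module.finrank, Module.finrank, this]

theorem smul_nonneg' (σ : SemilinearAut k F) {D : Divisor k F} (h : 0 ≤ D) : 0 ≤ σ • D := by
  intro v
  rw [SemilinearAut.divisor_smul_apply]
  exact h _

theorem cl_smul {σ : SemilinearAut k F} (hσ : σ • P₀ = P₀) (D : Divisor k F) :
    cl P₀ (σ • D) = σ • cl P₀ D := by
  change Pic0.mk _ = σ • Pic0.mk _
  rw [SemilinearAut.pic0_smul_mk]
  congr 1
  apply Subtype.ext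
  rw [SemilinearAut.coe_degZeroSMulHom]
  change σ • D - Finsupp.single P₀ (Divisor.degree (σ • D)) =
    σ • (D - Finsupp.single P₀ (Divisor.degree D))
  rw [smul_sub, SemilinearAut.smul_single, hσ, SemilinearAut.degree_smul]

theorem IsMin.smul {σ : SemilinearAut k F} (hσ : σ • P₀ = P₀) {E : Divisor k F}
    (h : IsMin P₀ E) : IsMin P₀ (σ • E) where
  nonneg := smul_nonneg' σ h.nonneg
  apply_eq := by
    have := SemilinearAut.divisor_smul_apply_smul σ E P₀
    rw [hσ] at this
    rw [this, h.apply_eq]
  ell_eq := by rw [ell_smul, h.ell_eq]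

theorem minD_smul {σ : SemilinearAut k F} (hσ : σ • P₀ = P₀) (x : Pic0 k F) :
    minD P₀ (σ • x) = σ • minD P₀ x :=
  minD_eq P₀ ((isMin_minD P₀ x).smul P₀ hσ) (by rw [cl_smul P₀ hσ, cl_minD])

end

end Fermat.Agent.MW
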