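import Fermat.Agent.MW.PtQ

/-!
# The descent inequality
-/

set_option autoImplicit false
set_option linter.unusedSectionVars false
set_option linter.style.haveILetI false

noncomputable section

namespace Fermat.Agent.MW

open AlgebraicCurve Fermat.Agent.RR Fermat.Agent.Curve IntermediateField Module

variable {k F : Type*} [Field k] [IsAlgClosed k] [CharZero k] [Algebra.IsAlgebraic ℚ k]
  [Field F] [Algebra k F] [FunField k F]

/-- effective divisors are sums of points -/
theorem exists_points (n : ℕ) : ∀ {D : Divisor k F}, 0 ≤ D → Divisor.degree D = n →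
    ∃ P : Fin n → Place k F, D = ∑ i, Finsupp.single (P i) 1 := by
  classical
  induction n with
  | zero =>
    intro D hD hd
    refine ⟨Fin.elim0, ?_⟩
    rw [Finset.univ_eq_empty, Finset.sum_empty]
    exact (Spec.eq_of_le_of_degree hD (by rw [map_zero, hd]; rfl)).symm
  | succ n ih =>
    intro D hD hd
    have hne : D ≠ 0 := by
      rintro rfl
      rw [map_zero] at hd
      have : (0 : ℤ) < ((n + 1 : ℕ) : ℤ) := by positivity
      omega
    obtain ⟨Q, hQ⟩ := Finsupp.ne_iff.1 hne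
    rw [Finsupp.coe_zero, Pi.zero_apply] at hQ
    have hQ1 : 1 ≤ D Q := by
      have := hD Q
      rw [Finsupp.coe_zero, Pi.zero_apply] at this
      omega
    have hD' : 0 ≤ D - Finsupp.single Q 1 := by
      intro v
      rw [Finsupp.sub_apply, Finsupp.coe_zero, Pi.zero_apply]
      rcases eq_or_ne v Q with rfl | hv
      · rw [Finsupp.single_eq_same]; omega
      · rw [Finsupp.single_eq_of_ne hv, sub_zero]
        exact hD v
    obtain ⟨P, hP⟩ := ih hD' (by rw [map_sub, hd, degree_single']; push_cast; ring)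
    refine ⟨Fin.cons Q P, ?_⟩
    rw [Fin.sum_univ_succ]
    simp only [Fin.cons_zero, Fin.cons_succ]
    rw [← hP, add_sub_cancel]

variable {w : F} {P₁ : Place k F} {a : ℕ}

theorem cheap_neg (ha0 : 1 ≤ a) (hw : poleDiv k w = Finsupp.single P₁ (a : ℤ))
    (hwt : Transcendental k w) (d : ℕ) : ∃ c : ℝ, 0 ≤ c ∧ ∀ D : Divisor k F, 0 ≤ D →
      Divisor.degree D ≤ d → hD w (minD P₁ (-cl P₁ D)) ≤ c * (hD w D + 1) := by
  classical
  set g := rrGenus k F with hgdef
  choose c hc0 hc using fun d n₀ => cheap_bound ha0 hw hwt d n₀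
  refine ⟨g * ∑ i ∈ Finset.range (d + 1), ∑ j ∈ Finset.range (d + g + 1), c i j,
    mul_nonneg (by positivity) (Finset.sum_nonneg fun i _ => Finset.sum_nonneg fun j _ => hc0 i j),
    ?_⟩
  intro D hD0 hDd
  have hP₁ : h1 (ev P₁ w) = 0 := by
    have h5 : ev P₁ w = 0 := by
      apply Fam.ev_pole
      have h5 := DFunLike.congr_fun hw P₁
      rw [poleDiv_apply, Finsupp.single_eq_same] at h5
      have ha' : (0 : ℤ) < a := by exact_mod_cast ha0
      omega
    rw [h5]
    exact h1_zero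
  set E₁ := minD P₁ (-cl P₁ D) with hE₁
  have hmin := isMin_minD P₁ (-cl P₁ D)
  rw [← hE₁] at hmin
  have hE₁d := degree_minD_le P₁ (-cl P₁ D)
  rw [← hE₁] at hE₁d
  have hE₁0 := degree_nonneg hmin.nonneg
  obtain ⟨e, he⟩ := Int.eq_ofNat_of_zero_le hE₁0
  -- remove the base point from `D`
  set D' : Divisor k F := D - Finsupp.single P₁ (D P₁) with hD'
  have hD'P : D' P₁ = 0 := by rw [hD', Finsupp.sub_apply, Finsupp.single_eq_same, sub_self]
  have hD'0 : 0 ≤ D' := by
    intro v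
    rw [Finsupp.coe_zero, Pi.zero_apply]
    rcases eq_or_ne v P₁ with rfl | hv
    · rw [hD'P]
    · rw [hD', Finsupp.sub_apply, Finsupp.single_eq_of_ne hv, sub_zero]
      exact hD0 v
  obtain ⟨d', hd'⟩ := Int.eq_ofNat_of_zero_le (degree_nonneg hD'0)
  have hd'd : d' ≤ d := by
    have h1 : Divisor.degree D' = Divisor.degree D - D P₁ := by
      rw [hD', map_sub, degree_single']
    have h2 := hD0 P₁
    rw [Finsupp.coe_zero, Pi.zero_apply] at h2
    omega
  obtain ⟨P, hP⟩ := exists_points d' hD'0 hd'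
  have hPne : ∀ i, P i ≠ P₁ := by
    intro i hi
    have h1 : D' P₁ = ∑ j, (Finsupp.single (P j) (1 : ℤ)) P₁ := by
      rw [hP, Finsupp.finsetSum_apply]
    rw [hD'P] at h1
    have h2 : (Finsupp.single (P i) (1 : ℤ)) P₁ ≤ ∑ j, (Finsupp.single (P j) (1 : ℤ)) P₁ :=
      Finset.single_le_sum (f := fun j => (Finsupp.single (P j) (1 : ℤ)) P₁)
        (fun j _ => Spec.single_le_of_nonneg (P j) P₁) (Finset.mem_univ i)
    rw [← h1, hi, Finsupp.single_eq_same] at h2
    omega
  have hclD' : cl P₁ D' = cl P₁ D := by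
    rw [hD', map_sub, cl_single_self, sub_zero]
  -- the function
  have hcl : cl P₁ (E₁ + D') = 0 := by
    rw [map_add, hclD', hE₁, cl_minD, neg_add_cancel]
  rw [cl_eq_zero] at hcl
  obtain ⟨f, hf, hfd⟩ := Spec.isPrincipal_iff.1 hcl
  have hdeg : Divisor.degree (E₁ + D') = ((e + d' : ℕ) : ℤ) := by
    rw [map_add, he, hd']; push_cast; rfl
  rw [hdeg] at hfd
  have hL : divisor k f + (Finsupp.single P₁ ((e + d' : ℕ) : ℤ) - ∑ i, Finsupp.single (P i) 1) =
      E₁ := by
    rw [← hfd, ← hP]; abel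
  have hfL : f ∈ riemannRochSpace (Finsupp.single P₁ ((e + d' : ℕ) : ℤ) -
      ∑ i, Finsupp.single (P i) 1) := by
    rw [Spec.mem_L_of_divisor hf, add_comm, hL]
    exact hmin.nonneg
  have hell : ell (Finsupp.single P₁ ((e + d' : ℕ) : ℤ) - ∑ i, Finsupp.single (P i) 1) = 1 := by
    rw [← ell_add_divisor' hf, add_comm, hL]
    exact hmin.ell_eq
  have hbd : ∀ Q, E₁ Q ≠ 0 → h1 (ev Q w) ≤ c d' (e + d') * (hD w D + 1) := by
    intro Q hQ
    have hQP : Q ≠ P₁ := by
      rintro rfl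
      exact hQ hmin.apply_eq
    have h1 := hc d' (e + d') P hPne f hf hfL hell Q hQP (by
      refine Ge.of_le ?_
      have h2 := DFunLike.congr_fun hfd Q
      rw [Finsupp.sub_apply, Finsupp.add_apply, Finsupp.single_eq_of_ne hQP, sub_zero,
        divisor_apply] at h2
      rw [← h2]
      have h3 := hmin.nonneg Q
      have h4 := hD'0 Q
      rw [Finsupp.coe_zero, Pi.zero_apply] at h3 h4
      omega)
    refine h1.trans (mul_le_mul_of_nonneg_left ?_ (hc0 _ _))
    have h5 : ∑ i, MW.h1 (ev (P i) w) = hD w D' := by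
      rw [hP, map_sum]
      refine Finset.sum_congr rfl fun i _ => ?_
      rw [hD_single, Int.cast_one, one_mul]
    have h6 : hD w D' = hD w D := by
      rw [hD', map_sub, hD_single, hP₁, mul_zero, sub_zero]
    rw [h5, h6]
  have hcle : c d' (e + d') ≤ ∑ i ∈ Finset.range (d + 1), ∑ j ∈ Finset.range (d + g + 1), c i j := by
    have h1 : c d' (e + d') ≤ ∑ j ∈ Finset.range (d + g + 1), c d' j :=
      Finset.single_le_sum (f := fun j => c d' j) (fun j _ => hc0 _ _)
        (Finset.mem_range.2 (by omega))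
    refine h1.trans (Finset.single_le_sum
      (f := fun i => ∑ j ∈ Finset.range (d + g + 1), c i j) (fun i _ =>
        Finset.sum_nonneg fun j _ => hc0 _ _) (Finset.mem_range.2 (by omega)))
  have hDnn : 0 ≤ hD w D + 1 := add_nonneg (hD_nonneg w hD0) zero_le_one
  have hsum0 : 0 ≤ ∑ i ∈ Finset.range (d + 1), ∑ j ∈ Finset.range (d + g + 1), c i j :=
    Finset.sum_nonneg fun i _ => Finset.sum_nonneg fun j _ => hc0 i j
  rw [hD_apply]
  calc ∑ Q ∈ E₁.support, ((E₁ Q : ℤ) : ℝ) * h1 (ev Q w)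
      ≤ ∑ Q ∈ E₁.support, ((E₁ Q : ℤ) : ℝ) *
        ((∑ i ∈ Finset.range (d + 1), ∑ j ∈ Finset.range (d + g + 1), c i j) * (hD w D + 1)) := by
        refine Finset.sum_le_sum fun Q hQ => mul_le_mul_of_nonneg_left ?_ ?_
        · exact (hbd Q (Finsupp.mem_support_iff.1 hQ)).trans
            (mul_le_mul_of_nonneg_right hcle hDnn)
        · exact_mod_cast hmin.nonneg Q
    _ = (Divisor.degree E₁ : ℝ) *
        ((∑ i ∈ Finset.range (d + 1), ∑ j ∈ Finset.range (d + g + 1), c i j) * (hD w D + 1)) := by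
        rw [← Finset.sum_mul, RR.degree_eq E₁, Int.cast_sum]
    _ ≤ (g : ℝ) *
        ((∑ i ∈ Finset.range (d + 1), ∑ j ∈ Finset.range (d + g + 1), c i j) * (hD w D + 1)) := by
        refine mul_le_mul_of_nonneg_right ?_ (mul_nonneg hsum0 hDnn)
        exact_mod_cast hE₁d
    _ = _ := by ring

/-- **The cheap estimate.** -/
theorem cheap_class (ha0 : 1 ≤ a) (hw : poleDiv k w = Finsupp.single P₁ (a : ℤ))
    (hwt : Transcendental k w) (d : ℕ) : ∃ c : ℝ, 0 ≤ c ∧ ∀ D : Divisor k F, 0 ≤ D →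
      Divisor.degree D ≤ d → hD w (minD P₁ (cl P₁ D)) ≤ c * (hD w D + 1) := by
  obtain ⟨c, hc0, hc⟩ := cheap_neg ha0 hw hwt d
  obtain ⟨c', hc'0, hc'⟩ := cheap_neg ha0 hw hwt (rrGenus k F)
  refine ⟨c' * (c + 1), mul_nonneg hc'0 (by linarith), fun D hD0 hDd => ?_⟩
  have h1 := hc D hD0 hDd
  have h2 := hc' (minD P₁ (-cl P₁ D)) (isMin_minD _ _).nonneg (degree_minD_le _ _)
  rw [cl_minD, neg_neg] at h2
  refine h2.trans ?_
  rw [mul_assoc]
  refine mul_le_mul_of_nonneg_left ?_ hc'0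
  have := hD_nonneg w hD0
  nlinarith

end Fermat.Agent.MW
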