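import Fermat.Agent.MW.Descent

/-!
# The descent inequality, II
-/

set_option autoImplicit false
set_option linter.unusedSectionVars false
set_option linter.style.haveILetI false

noncomputable section

namespace Fermat.Agent.MW

open AlgebraicCurve Fermat.Agent.RR Fermat.Agent.Curve IntermediateField Module

variable {k F : Type*} [Field k] [IsAlgClosed k] [CharZero k] [Algebra.IsAlgebraic ℚ k]
  [Field F] [Algebra k F] [FunField k F] {w : F} {P₁ : Place k F} {a : ℕ}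

theorem descent_ineq (ha0 : 1 ≤ a) (hw : poleDiv k w = Finsupp.single P₁ (a : ℤ))
    (hwt : Transcendental k w)
    (hpt : ∀ m : ℕ, m ≠ 0 → ∃ (B : Divisor k F) (C : ℝ), Divisor.degree B = rrGenus k F ∧
      ∀ P : Place k F, ∃ D : Divisor k F, 0 ≤ D ∧
        Divisor.degree D = rrGenus k F ∧
        m • cl P₁ (D - B) = cl P₁ (Finsupp.single P 1) ∧
        (m : ℝ) ^ 2 * hD w D ≤ rrGenus k F * (rrGenus k F + 1) * h1 (ev P w) + C)
    (hdiv : ∀ m : ℕ, m ≠ 0 → ∀ x : Pic0 k F, ∃ y, m • y = x)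
    (htors : ∀ m : ℕ, m ≠ 0 → {x : Pic0 k F | m • x = 0}.Finite)
    {p : ℕ} (hp : 2 ≤ p) :
    ∃ n : ℕ, ∀ R : Set (Pic0 k F), R.Finite → ∃ C' : ℝ, ∀ x r y, r ∈ R →
      p ^ n • y = x - r → hD w (minD P₁ y) ≤ 1 / 2 * hD w (minD P₁ x) + C' := by
  classical
  set g := rrGenus k F with hgdef
  obtain ⟨c₀, hc₀0, hc₀⟩ := cheap_class ha0 hw hwt (g * g + g)
  -- the power
  obtain ⟨n, hn⟩ : ∃ n : ℕ, 2 * c₀ * (g * (g + 1)) ≤ (p ^ n : ℕ) := by
    obtain ⟨n, hn⟩ := pow_unbounded_of_one_lt (2 * c₀ * (g * (g + 1)))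
      (by exact_mod_cast hp : (1 : ℝ) < p)
    exact ⟨n, by push_cast; exact hn.le⟩
  refine ⟨n, fun R hR => ?_⟩
  set m := p ^ n with hm
  have hm0 : m ≠ 0 := pow_ne_zero _ (by omega)
  have hm1 : (1 : ℝ) ≤ m := by exact_mod_cast Nat.one_le_iff_ne_zero.2 hm0
  obtain ⟨B, C, hB, hBP⟩ := hpt m hm0
  choose D hD0 hDd hDcl hDh using hBP
  choose r' hr' using hdiv m hm0
  -- the finite set of corrections
  let U : Set (Pic0 k F) := (fun q : ℕ × Pic0 k F × Pic0 k F => -(q.1 • cl P₁ B) - r' q.2.1 - q.2.2) ''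
    ((Finset.range (g + 1) : Set ℕ) ×ˢ (R ×ˢ {x : Pic0 k F | m • x = 0}))
  have hU : U.Finite := ((Finset.finite_toSet _).prod (hR.prod (htors m hm0))).image _
  obtain ⟨KU, hKU⟩ : ∃ KU : ℝ, ∀ u ∈ U, hD w (minD P₁ u) ≤ KU := by
    obtain ⟨KU, hKU⟩ := (hU.image fun u => hD w (minD P₁ u)).bddAbove
    exact ⟨KU, fun u hu => hKU ⟨u, hu, rfl⟩⟩
  refine ⟨c₀ * (g * |C| + KU + 1), fun x r y hr hy => ?_⟩
  set E := minD P₁ x with hE
  have hmin := isMin_minD P₁ x
  rw [← hE] at hmin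
  have hEd := degree_minD_le P₁ x
  rw [← hE] at hEd
  obtain ⟨e, he⟩ := Int.eq_ofNat_of_zero_le (degree_nonneg hmin.nonneg)
  have heg : e ≤ g := by omega
  obtain ⟨P, hP⟩ := exists_points e hmin.nonneg he
  have hsum : ∑ i, m • cl P₁ (D (P i) - B) = x := by
    simp only [hDcl]
    rw [← map_sum, ← hP, hE, cl_minD]
  set τ := ∑ i, cl P₁ (D (P i) - B) - r' r - y with hτ
  have hτ0 : m • τ = 0 := by
    rw [hτ, nsmul_sub, nsmul_sub, Finset.smul_sum, hsum, hr', hy, sub_self]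
  set u := -(e • cl P₁ B) - r' r - τ with hu
  have huU : u ∈ U := ⟨(e, r, τ), ⟨by simp; omega, hr, hτ0⟩, rfl⟩
  have hyu : y = cl P₁ (∑ i, D (P i) + minD P₁ u) := by
    rw [map_add, cl_minD, map_sum, hu, hτ]
    simp only [map_sub, Finset.sum_sub_distrib, Finset.sum_const, Finset.card_univ,
      Fintype.card_fin]
    abel
  have hnn : 0 ≤ ∑ i, D (P i) + minD P₁ u :=
    add_nonneg (Finset.sum_nonneg fun i _ => hD0 _) (isMin_minD _ _).nonneg
  have hdeg : Divisor.degree (∑ i, D (P i) + minD P₁ u) ≤ ((g * g + g : ℕ) : ℤ) := by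
    rw [map_add, map_sum]
    simp only [hDd, Finset.sum_const, Finset.card_univ, Fintype.card_fin]
    have h1 := degree_minD_le P₁ u
    rw [← hgdef] at h1
    have h2 : (e : ℤ) * g ≤ g * g := by
      have : (e : ℤ) ≤ g := by exact_mod_cast heg
      have h3 : (0 : ℤ) ≤ g := Int.natCast_nonneg _
      nlinarith
    rw [nsmul_eq_mul]
    push_cast
    linarith
  have h1 := hc₀ _ hnn hdeg
  rw [← hyu, map_add, map_sum] at h1
  have h2 : ∑ i, hD w (D (P i)) ≤ ((g : ℝ) * (g + 1) * hD w E) / m ^ 2 + g * |C| := by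
    have hm2 : (0 : ℝ) < (m : ℝ) ^ 2 := by positivity
    have h3 : ∀ i, hD w (D (P i)) ≤ (g * (g + 1) * MW.h1 (ev (P i) w)) / m ^ 2 + |C| := by
      intro i
      have h4 := hDh (P i)
      have h5 : hD w (D (P i)) ≤ (g * (g + 1) * MW.h1 (ev (P i) w) + C) / m ^ 2 := by
        rw [le_div_iff₀ hm2, mul_comm]
        exact h4
      refine h5.trans ?_
      rw [add_div]
      gcongr
      refine (div_le_div_of_nonneg_right (le_abs_self C) hm2.le).trans ?_
      refine div_le_self (abs_nonneg _) ?_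
      nlinarith
    refine (Finset.sum_le_sum fun i _ => h3 i).trans ?_
    rw [Finset.sum_add_distrib, Finset.sum_const, Finset.card_univ, Fintype.card_fin,
      ← Finset.sum_div, ← Finset.mul_sum]
    have h4 : ∑ i, MW.h1 (ev (P i) w) = hD w E := by
      rw [hP, map_sum]
      refine Finset.sum_congr rfl fun i _ => ?_
      rw [hD_single, Int.cast_one, one_mul]
    rw [h4, nsmul_eq_mul]
    gcongr
  have h3 := hKU u huU
  have hEnn := hD_nonneg w hmin.nonneg
  have h4 : c₀ * (((g : ℝ) * (g + 1) * hD w E) / m ^ 2) ≤ 1 / 2 * hD w E := by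
    have hm2 : (0 : ℝ) < (m : ℝ) ^ 2 := by positivity
    rw [← mul_div_assoc, div_le_iff₀ hm2]
    have h5 : 2 * c₀ * (g * (g + 1)) ≤ (m : ℝ) ^ 2 := by
      refine hn.trans ?_
      nlinarith
    nlinarith
  calc hD w (minD P₁ y) ≤ c₀ * (∑ i, hD w (D (P i)) + hD w (minD P₁ u) + 1) := h1
    _ ≤ c₀ * ((((g : ℝ) * (g + 1) * hD w E) / m ^ 2 + g * |C|) + KU + 1) := by gcongr
    _ = c₀ * (((g : ℝ) * (g + 1) * hD w E) / m ^ 2) + c₀ * (g * |C| + KU + 1) := by ring
    _ ≤ _ := by gcongr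

/-- **The abstract descent.** -/
theorem fg_of_descent (G : AddSubgroup (Pic0 k F)) {m : ℕ} {R : Set (Pic0 k F)} (hR : R.Finite)
    (hRG : R ⊆ G) (hdec : ∀ x ∈ G, ∃ r ∈ R, ∃ y ∈ G, m • y = x - r) {C' : ℝ}
    (hC : ∀ x r y, r ∈ R → m • y = x - r → hD w (minD P₁ y) ≤ 1 / 2 * hD w (minD P₁ x) + C')
    (hN : ∀ M : ℝ, {x : Pic0 k F | x ∈ G ∧ hD w (minD P₁ x) ≤ M}.Finite) : AddGroup.FG G := by
  classical
  set S : Set (Pic0 k F) := R ∪ {x | x ∈ G ∧ hD w (minD P₁ x) ≤ 2 * C' + 1} with hS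
  have hSfin : S.Finite := hR.union (hN _)
  have hSG : S ⊆ G := by
    rintro x (hx | hx)
    · exact hRG hx
    · exact hx.1
  have key : ∀ n : ℕ, ∀ x ∈ G, hD w (minD P₁ x) ≤ 2 * C' + 2 ^ n →
      x ∈ AddSubgroup.closure S := by
    intro n
    induction n with
    | zero =>
      intro x hx hh
      rw [pow_zero] at hh
      exact AddSubgroup.subset_closure (Or.inr ⟨hx, hh⟩)
    | succ n ih =>
      intro x hx hh
      obtain ⟨r, hr, y, hy, hxy⟩ := hdec x hx
      have h1 := hC x r y hr hxy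
      have h2 := ih y hy (by rw [pow_succ] at hh; linarith)
      have h3 : x = m • y + r := by rw [hxy, sub_add_cancel]
      rw [h3]
      exact add_mem (nsmul_mem h2 m) (AddSubgroup.subset_closure (Or.inl hr))
  have hcl : AddSubgroup.closure S = G := by
    apply le_antisymm
    · rw [AddSubgroup.closure_le]
      exact hSG
    · intro x hx
      obtain ⟨n, hn⟩ := pow_unbounded_of_one_lt (hD w (minD P₁ x) - 2 * C') (one_lt_two)
      exact key n x hx (by linarith)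
  rw [AddGroup.fg_iff_addSubgroup_fg]
  exact (AddSubgroup.fg_iff G).2 ⟨S, hcl, hSfin⟩

end Fermat.Agent.MW
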