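import Fermat.Agent.MW.Global

/-!
# The determinant argument (positivity of theta)
-/

set_option autoImplicit false
set_option linter.unusedSectionVars false
set_option linter.unusedVariables false
set_option linter.style.haveILetI false

namespace Fermat.Agent.MW

open AlgebraicCurve Fermat.Agent.RR Fermat.Agent.Curve IntermediateField Module

/-! ### a greedy choice -/

theorem greedy {K V : Type*} [Field K] [AddCommGroup V] [Module K V] :
    ∀ (n : ℕ) (X : Fin n → Set V),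
      (∀ i : Fin n, ∃ m : ℕ, n - (i : ℕ) ≤ m ∧ ∃ x : Fin m → V, LinearIndependent K x ∧
        ∀ a, x a ∈ X i) → ∃ u : Fin n → V, LinearIndependent K u ∧ ∀ i, u i ∈ X i := by
  intro n
  induction n with
  | zero =>
    intro X _
    exact ⟨Fin.elim0, linearIndependent_empty_type, fun i => i.elim0⟩
  | succ n ih =>
    intro X hX
    obtain ⟨u, hu, huX⟩ := ih (fun i => X i.succ) (fun i => by
      obtain ⟨m, hm, hx⟩ := hX i.succ
      refine ⟨m, ?_, hx⟩
      rw [Fin.val_succ] at hm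
      omega)
    obtain ⟨m, hm, x, hx, hxX⟩ := hX 0
    have h1 : ∃ a, x a ∉ Submodule.span K (Set.range u) := by
      by_contra hcon
      push Not at hcon
      have h2 : Submodule.span K (Set.range x) ≤ Submodule.span K (Set.range u) := by
        rw [Submodule.span_le]
        rintro _ ⟨a, rfl⟩
        exact hcon a
      have h3 : finrank K (Submodule.span K (Set.range x)) = m := by
        rw [finrank_span_eq_card hx, Fintype.card_fin]
      have h4 : finrank K (Submodule.span K (Set.range u)) = n := by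
        rw [finrank_span_eq_card hu, Fintype.card_fin]
      haveI : FiniteDimensional K (Submodule.span K (Set.range u)) :=
        FiniteDimensional.span_of_finite K (Set.finite_range u)
      have h5 := Submodule.finrank_mono h2
      rw [h3, h4] at h5
      rw [Fin.val_zero] at hm
      omega
    obtain ⟨a, ha⟩ := h1
    refine ⟨Fin.cons (x a) u, linearIndependent_finCons.2 ⟨hu, ha⟩, fun i => ?_⟩
    refine Fin.cases ?_ (fun j => ?_) i
    · rw [Fin.cons_zero]; exact hxX a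
    · rw [Fin.cons_succ]; exact huX j

variable {k Ω F 𝓕 : Type*} [Field k] [Field Ω] [Field F] [Field 𝓕]
  [Algebra k F] [Algebra Ω 𝓕] [Algebra k Ω] [Algebra F 𝓕]
  [IsAlgClosed k] [IsAlgClosed Ω] [FunField k F] [FunField Ω 𝓕] [hC : CExt k Ω F 𝓕]

namespace CRed

variable (R : CRed k Ω F 𝓕)

theorem ρ_zero_of_inv {c : Ω} (hc : c ∉ R.A) : ∃ h : c⁻¹ ∈ R.A, R.ρ ⟨_, h⟩ = 0 := by
  have hinv : c⁻¹ ∈ R.A := (R.A.mem_or_inv_mem _).resolve_left hc
  refine ⟨hinv, ?_⟩
  by_contra h1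
  have := R.ρ_ne_zero _ h1
  rw [inv_inv] at this
  exact hc this

theorem coord_aux {ι : Type*} [Fintype ι] (b : ι → F) (c : ι → Ω) (hc : ∀ i, c i ∈ R.A)
    (h : ∑ i, algebraMap Ω 𝓕 (c i) * bc F 𝓕 (b i) ∈ R.W) :
    R.π ⟨_, h⟩ = ∑ i, algebraMap k F (R.ρ ⟨c i, hc i⟩) * b i := by
  have h1 : (⟨_, h⟩ : R.W) = ∑ i, ⟨_, R.scal_mem ⟨c i, hc i⟩⟩ * ⟨_, R.bc_mem (b i)⟩ := by
    apply Subtype.ext
    have : ((∑ i, (⟨_, R.scal_mem ⟨c i, hc i⟩⟩ : R.W) * ⟨_, R.bc_mem (b i)⟩ : R.W) : 𝓕) =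
        ∑ i, (((⟨_, R.scal_mem ⟨c i, hc i⟩⟩ : R.W) * ⟨_, R.bc_mem (b i)⟩ : R.W) : 𝓕) :=
      map_sum R.W.subtype _ _
    rw [this]
    rfl
  rw [h1, map_sum]
  refine Finset.sum_congr rfl fun i _ => ?_
  rw [map_mul, R.π_scal, R.π_bc]

/-- integrality of coordinates -/
theorem coord {ι : Type*} [Fintype ι] {b : ι → F} (hb : LinearIndependent k b) (c : ι → Ω)
    (h : ∑ i, algebraMap Ω 𝓕 (c i) * bc F 𝓕 (b i) ∈ R.W) : ∀ i, c i ∈ R.A := by
  classical
  by_contra hcon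
  push Not at hcon
  obtain ⟨i₀, hi₀⟩ := hcon
  obtain ⟨j, -, hj⟩ := Finset.exists_max_image Finset.univ (fun i => R.A.valuation (c i))
    ⟨i₀, Finset.mem_univ _⟩
  have hj0 : c j ∉ R.A := by
    intro h1
    apply hi₀
    rw [← R.A.valuation_le_one_iff] at h1 ⊢
    exact (hj i₀ (Finset.mem_univ _)).trans h1
  have hcj : c j ≠ 0 := by
    intro h0
    rw [h0] at hj0
    exact hj0 (zero_mem _)
  obtain ⟨hinv, hρ⟩ := R.ρ_zero_of_inv hj0
  have hmem : ∀ i, (c j)⁻¹ * c i ∈ R.A := by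
    intro i
    rw [← R.A.valuation_le_one_iff, map_mul, map_inv₀]
    have h1 : R.A.valuation (c j) ≠ 0 := (Valuation.ne_zero_iff _).2 hcj
    have h2 := hj i (Finset.mem_univ _)
    calc (R.A.valuation (c j))⁻¹ * R.A.valuation (c i) ≤
        (R.A.valuation (c j))⁻¹ * R.A.valuation (c j) := by gcongr
      _ = 1 := inv_mul_cancel₀ h1
  have hW : ∑ i, algebraMap Ω 𝓕 ((c j)⁻¹ * c i) * bc F 𝓕 (b i) ∈ R.W := by
    have h1 : ∑ i, algebraMap Ω 𝓕 ((c j)⁻¹ * c i) * bc F 𝓕 (b i) =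
        algebraMap Ω 𝓕 (c j)⁻¹ * ∑ i, algebraMap Ω 𝓕 (c i) * bc F 𝓕 (b i) := by
      rw [Finset.mul_sum]
      refine Finset.sum_congr rfl fun i _ => ?_
      rw [map_mul, mul_assoc]
    rw [h1]
    exact mul_mem (R.scal_mem ⟨_, hinv⟩) h
  have h2 := R.coord_aux b _ hmem hW
  have h3 : R.π ⟨_, hW⟩ = 0 := by
    have h4 : (⟨_, hW⟩ : R.W) = ⟨_, R.scal_mem ⟨_, hinv⟩⟩ * ⟨_, h⟩ := by
      apply Subtype.ext
      change _ = algebraMap Ω 𝓕 (c j)⁻¹ * ∑ i, algebraMap Ω 𝓕 (c i) * bc F 𝓕 (b i)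
      rw [Finset.mul_sum]
      refine Finset.sum_congr rfl fun i _ => ?_
      rw [map_mul, mul_assoc]
    rw [h4, map_mul, R.π_scal, hρ, map_zero, zero_mul]
  rw [h3] at h2
  have h5 : ∑ i, R.ρ ⟨_, hmem i⟩ • b i = 0 := by
    rw [h2]
    refine Finset.sum_congr rfl fun i _ => ?_
    rw [Algebra.smul_def]
  have h6 := Fintype.linearIndependent_iff.1 hb _ h5 j
  have h7 : (⟨_, hmem j⟩ : R.A) = 1 := Subtype.ext (inv_mul_cancel₀ hcj)
  rw [h7, map_one] at h6
  exact one_ne_zero h6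

theorem mapDomain_bcD (D : Divisor k F) :
    (Finsupp.mapDomain R.rp (bcD Ω 𝓕 D) : Divisor k F) = D := by
  change Finsupp.mapDomain R.rp (Finsupp.mapDomain (bcP Ω 𝓕) D) = D
  rw [← Finsupp.mapDomain_comp]
  have : (R.rp ∘ bcP Ω 𝓕) = id := by
    funext P
    exact R.rp_bcP P
  rw [this, Finsupp.mapDomain_id]

end CRed

theorem ev_sum {K F : Type*} [Field K] [IsAlgClosed K] [Field F] [Algebra K F] [FunField K F]
    {v : Place K F} {ι : Type*} (s : Finset ι) (f : ι → F)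
    (hf : ∀ i ∈ s, Ge v 0 (f i)) : ev v (∑ i ∈ s, f i) = ∑ i ∈ s, ev v (f i) ∧
      Ge v 0 (∑ i ∈ s, f i) := by
  classical
  induction s using Finset.induction_on with
  | empty => exact ⟨by rw [Finset.sum_empty, Finset.sum_empty, ev_zero], by
      rw [Finset.sum_empty]; exact Ge.zero _ _⟩
  | insert a s ha ih =>
    obtain ⟨h1, h2⟩ := ih fun i hi => hf i (Finset.mem_insert_of_mem hi)
    have h3 := hf a (Finset.mem_insert_self a s)
    rw [Finset.sum_insert ha, Finset.sum_insert ha, ev_add h3 h2, h1]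
    exact ⟨rfl, h3.add h2⟩

theorem SL_span {D : Divisor k F} {ι : Type*} [Fintype ι] {b : ι → F}
    (hb : Submodule.span k (Set.range b) = riemannRochSpace D) :
    SL Ω 𝓕 D = Submodule.span Ω (Set.range fun i => bc F 𝓕 (b i)) := by
  apply le_antisymm
  · rw [SL, Submodule.span_le]
    rintro _ ⟨f, hf, rfl⟩
    rw [← hb] at hf
    obtain ⟨c, hc⟩ := (Submodule.mem_span_range_iff_exists_fun k).1 hf
    rw [← hc, map_sum]
    refine sum_mem fun i _ => ?_
    rw [Algebra.smul_def, map_mul, bc, hC.comm, ← Algebra.smul_def]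
    exact Submodule.smul_mem _ _ (Submodule.subset_span ⟨i, rfl⟩)
  · rw [Submodule.span_le]
    rintro _ ⟨i, rfl⟩
    exact bc_mem_SL (hb ▸ Submodule.subset_span ⟨i, rfl⟩)

theorem bc_independent {D : Divisor k F} {ι : Type*} [Fintype ι] {b : ι → F}
    (hli : LinearIndependent k b) (hb : Submodule.span k (Set.range b) = riemannRochSpace D) :
    LinearIndependent Ω (fun i => bc F 𝓕 (b i)) := by
  rw [linearIndependent_iff_card_le_finrank_span, Set.finrank, ← SL_span hb, finrank_SL, ell, ← hb,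
    finrank_span_eq_card hli]

/-- cutting down by points -/
noncomputable def cut {n : ℕ} (𝔞 : Divisor k F) (P : Fin n → Place Ω 𝓕) (T : Finset (Fin n)) :
    Divisor Ω 𝓕 := bcD Ω 𝓕 𝔞 - ∑ j ∈ T, Finsupp.single (P j) 1

/-- cutting down by points -/
noncomputable def cutk {n : ℕ} (𝔞 : Divisor k F) (p : Fin n → Place k F) (T : Finset (Fin n)) :
    Divisor k F := 𝔞 - ∑ j ∈ T, Finsupp.single (p j) 1

section
variable {n : ℕ} {𝔞 : Divisor k F} {P : Fin n → Place Ω 𝓕}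

theorem cut_le (T : Finset (Fin n)) : cut 𝔞 P T ≤ bcD Ω 𝓕 𝔞 := by
  rw [cut, sub_le_self_iff]
  exact Finset.sum_nonneg fun j _ => Spec.single_le_of_nonneg (P j)

theorem le_ell_cut (hg : rrGenus k F = rrGenus Ω 𝓕) (T : Finset (Fin n)) :
    ell 𝔞 - T.card ≤ ell (cut 𝔞 P T) := by
  have h1 := ell_le_of_le (cut_le (𝔞 := 𝔞) (P := P) T)
  have h2 : Divisor.degree (cut 𝔞 P T) = Divisor.degree (bcD Ω 𝓕 𝔞) - T.card := by
    rw [cut, map_sub, map_sum]
    simp only [degree_single', Finset.sum_const, nsmul_eq_mul, mul_one]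
  rw [ell_bcD hg] at h1
  omega

theorem cut_apply [DecidableEq (Place Ω 𝓕)] (T : Finset (Fin n)) (Q : Place Ω 𝓕) :
    cut 𝔞 P T Q = bcD Ω 𝓕 𝔞 Q - ∑ j ∈ T, if P j = Q then 1 else 0 := by
  rw [cut, Finsupp.sub_apply, Finsupp.finsetSum_apply]
  simp only [Finsupp.single_apply]

theorem cutk_mono {p : Fin n → Place k F} {S T : Finset (Fin n)} (h : S ⊆ T) :
    cutk 𝔞 p T ≤ cutk 𝔞 p S := by
  rw [cutk, cutk]
  apply sub_le_sub_left
  exact Finset.sum_le_sum_of_subset_of_nonneg h fun j _ _ => Spec.single_le_of_nonneg (p j)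

theorem CRed.mapDomain_cut (R : CRed k Ω F 𝓕) (T : Finset (Fin n)) :
    (Finsupp.mapDomain R.rp (cut 𝔞 P T) : Divisor k F) = cutk 𝔞 (fun j => R.rp (P j)) T := by
  have h := map_sub (Finsupp.mapDomain.addMonoidHom (M := ℤ) R.rp) (bcD Ω 𝓕 𝔞)
    (∑ j ∈ T, Finsupp.single (P j) 1)
  change Finsupp.mapDomain R.rp (cut 𝔞 P T) = Finsupp.mapDomain R.rp (bcD Ω 𝓕 𝔞) -
    (Finsupp.mapDomain.addMonoidHom (M := ℤ) R.rp) (∑ j ∈ T, Finsupp.single (P j) 1) at h
  rw [h, R.mapDomain_bcD, map_sum, cutk]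
  congr 1
  refine Finset.sum_congr rfl fun j _ => ?_
  exact Finsupp.mapDomain_single

end

end Fermat.Agent.MW
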