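import Fermat.Agent.MW.Det

/-!
# The determinant argument: local factors
-/

set_option autoImplicit false
set_option linter.unusedSectionVars false
set_option linter.unusedVariables false
set_option linter.style.haveILetI false

namespace Fermat.Agent.MW

open AlgebraicCurve Fermat.Agent.RR Fermat.Agent.Curve IntermediateField Module

variable {k Ω F 𝓕 : Type*} [Field k] [Field Ω] [Field F] [Field 𝓕]
  [Algebra k F] [Algebra Ω 𝓕] [Algebra k Ω] [Algebra F 𝓕]
  [IsAlgClosed k] [IsAlgClosed Ω] [FunField k F] [FunField Ω 𝓕] [hC : CExt k Ω F 𝓕]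

variable {L : Type*} [Field L] [Algebra k L] [Algebra L Ω] [IsScalarTower k L Ω] [FunField k L]

/-- indices before `i` -/
abbrev bef {n : ℕ} (i : Fin n) : Finset (Fin n) := Finset.univ.filter (· < i)

/-- indices up to `i` -/
abbrev beq' {n : ℕ} (i : Fin n) : Finset (Fin n) := Finset.univ.filter (· ≤ i)

namespace Fam

variable (𝔽 : Fam k Ω F 𝓕 L)

variable {n : ℕ} {𝔞 : Divisor k F} {P : Fin n → Place Ω 𝓕}

open Classical in
theorem local_factor (w : F) (v : Place k L) (hinj : Function.Injective P)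
    (hrat : ∀ i, Rat F L (P i)) (h𝔞 : 0 ≤ 𝔞) (hdisj : ∀ p, 𝔞 p ≠ 0 → ∀ i, P i ≠ bcP Ω 𝓕 p)
    (i : Fin n) :
    ∃ l : L, l ≠ 0 ∧ v.ord l = (∑ j ∈ bef i, 𝔽.Bv w v (P j) (P i)) -
        ∑ p ∈ 𝔞.support, 𝔞 p * 𝔽.Bv w v (P i) (bcP Ω 𝓕 p) ∧
      ∀ x : (𝔽.R v).W, (x : 𝓕) ∈ riemannRochSpace (cut 𝔞 P (bef i)) →
        ∃ a : Ω, ∃ ha : a ∈ (𝔽.R v).A, ev (P i) (x : 𝓕) = a * algebraMap L Ω l ∧
          ((𝔽.R v).π x ∈ riemannRochSpace (cutk 𝔞 (fun j => 𝔽.rp v (P j)) (beq' i)) →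
            (𝔽.R v).ρ ⟨a, ha⟩ = 0) := by
  set R := 𝔽.R v with hR
  set p := 𝔽.rp v (P i) with hp
  set z := zc k F p with hz
  have hzord : p.ord z = 1 := zc_ord p
  have hz0 : z ≠ 0 := zc_ne p
  have hzge : Ge p 0 z := Ge.of_le (by omega)
  set T := (bef i).filter (fun j => 𝔽.rp v (P j) = p) with hT
  have hTm : ∀ j ∈ T, j < i ∧ 𝔽.rp v (P j) = p := by
    intro j hj
    rw [hT, Finset.mem_filter, Finset.mem_filter] at hj
    exact ⟨hj.1.2, hj.2⟩
  have hPi : ∀ j, P j = P i → j = i := fun j h => hinj h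
  have hzi : 𝔞 p ≠ 0 → ev (P i) (bc F 𝓕 z) ≠ 0 := by
    intro h0
    have h1 : (𝔽.R v).rp (bcP Ω 𝓕 p) = p := (𝔽.R v).rp_bcP p
    have h2 := R.sub_ne_zero' (rfl : R.rp (P i) = p) h1 (hdisj p h0 i)
    rwa [ev_bcP p hzge, (ev_eq_zero_iff hzge).2 (Ge.of_le (by omega)), map_zero, sub_zero] at h2
  let zL : Fin n → L := fun j => prL (hrat j) z
  have hzL : ∀ j, algebraMap L Ω (zL j) = ev (P j) (bc F 𝓕 z) := fun j => algebraMap_prL (hrat j) z
  have hzLi : 𝔞 p ≠ 0 → zL i ≠ 0 := by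
    intro h0 h1
    apply hzi h0
    rw [← hzL, h1, map_zero]
  have hd : ∀ j ∈ T, zL i - zL j ≠ 0 := by
    intro j hj h0
    have h1 := R.sub_ne_zero' (rfl : R.rp (P i) = p) (hTm j hj).2
      (fun h => (hTm j hj).1.ne (hinj h).symm)
    apply h1
    rw [← hzL, ← hzL, ← map_sub, h0, map_zero]
  have hzLpow : zL i ^ (-(𝔞 p)) ≠ 0 := by
    by_cases h0 : 𝔞 p = 0
    · rw [h0, neg_zero, zpow_zero]; exact one_ne_zero
    · exact zpow_ne_zero _ (hzLi h0)
  have hprod0 : ∏ j ∈ T, (zL i - zL j) ≠ 0 := Finset.prod_ne_zero_iff.2 hd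
  refine ⟨zL i ^ (-(𝔞 p)) * ∏ j ∈ T, (zL i - zL j), mul_ne_zero hzLpow hprod0, ?_, ?_⟩
  · rw [v.ord_mul hzLpow hprod0, v.ord_zpow, ord_prod _ _ hd]
    have h1 : ∑ j ∈ bef i, 𝔽.Bv w v (P j) (P i) = ∑ j ∈ T, v.ord (zL i - zL j) := by
      rw [hT, Finset.sum_filter (fun j => 𝔽.rp v (P j) = p)]
      refine Finset.sum_congr rfl fun j hj => ?_
      have hji : j < i := (Finset.mem_filter.1 hj).2
      have hne : P j ≠ P i := fun h => hji.ne (hinj h)
      split_ifs with h2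
      · rw [𝔽.Bv_eq w v hne (h2.trans hp), h2, ← hz, ← hzL, ← hzL, ← map_sub, oL_map, ← ord_neg,
          neg_sub]
      · exact 𝔽.Bv_ne w v hne (by rwa [← hp])
    have h2 : ∑ p' ∈ 𝔞.support, 𝔞 p' * 𝔽.Bv w v (P i) (bcP Ω 𝓕 p') = 𝔞 p * v.ord (zL i) := by
      have h3 : ∀ p' ∈ 𝔞.support, 𝔞 p' * 𝔽.Bv w v (P i) (bcP Ω 𝓕 p') =
          if p' = p then 𝔞 p * v.ord (zL i) else 0 := by
        intro p' hp'
        rw [Finsupp.mem_support_iff] at hp'
        have h4 : 𝔽.rp v (bcP Ω 𝓕 p') = p' := (𝔽.R v).rp_bcP p'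
        split_ifs with h5
        · subst h5
          rw [𝔽.Bv_eq w v (hdisj _ hp' i) (by rw [h4]), ← hp, ← hz, ev_bcP _ hzge,
            (ev_eq_zero_iff hzge).2 (Ge.of_le (by omega)), map_zero, sub_zero, ← hzL, oL_map]
        · rw [𝔽.Bv_ne w v (hdisj _ hp' i) (by rw [h4]; exact fun h => h5 h.symm), mul_zero]
      rw [Finset.sum_congr rfl h3, Finset.sum_ite_eq']
      split_ifs with h5
      · rfl
      · rw [Finsupp.notMem_support_iff] at h5
        rw [h5, zero_mul]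
    rw [h1, h2]
    ring
  · intro x hx
    set e := (𝔞 p).toNat with he
    have hee : (e : ℤ) = 𝔞 p := Int.toNat_of_nonneg (h𝔞 p)
    -- the function `G`
    let y : Fin n → R.W := fun j => if h : R.rp (P j) = p then
      ⟨(hh 𝓕 p (P j))⁻¹, R.inv_mem ⟨_, (R.hh_spec h).2.2.1.choose⟩ (by
        rw [(R.hh_spec h).2.2.1.choose_spec]; exact hz0)⟩ else 1
    have hy : ∀ j, R.rp (P j) = p → ((y j : R.W) : 𝓕) = (hh 𝓕 p (P j))⁻¹ := by
      intro j h
      simp only [y, dif_pos h]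
    have hyπ : ∀ j, R.rp (P j) = p → R.π (y j) = z⁻¹ := by
      intro j h
      apply eq_inv_of_mul_eq_one_left
      have h1 := (R.hh_spec h).2.2.1.choose_spec
      rw [hz, ← h1, ← map_mul]
      have h2 : (y j * ⟨_, (R.hh_spec h).2.2.1.choose⟩ : R.W) = 1 := by
        apply Subtype.ext
        change ((y j : R.W) : 𝓕) * hh 𝓕 p (P j) = 1
        rw [hy j h, inv_mul_cancel₀ (R.hh_spec h).2.1]
      rw [h2, map_one]
    let G : R.W := x * ⟨_, R.bc_mem z⟩ ^ e * ∏ j ∈ T, y j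
    have hGe : (G : 𝓕) = (x : 𝓕) * bc F 𝓕 z ^ e * ∏ j ∈ T, (hh 𝓕 p (P j))⁻¹ := by
      change ((x * ⟨_, R.bc_mem z⟩ ^ e * ∏ j ∈ T, y j : R.W) : 𝓕) = _
      rw [Subring.coe_mul, Subring.coe_mul]
      congr 1
      have : ((∏ j ∈ T, y j : R.W) : 𝓕) = ∏ j ∈ T, ((y j : R.W) : 𝓕) := map_prod R.W.subtype _ _
      rw [this]
      exact Finset.prod_congr rfl fun j hj => hy j (hTm j hj).2
    have hGπ : R.π G = R.π x * z ^ e * (z⁻¹) ^ T.card := by
      rw [map_mul, map_mul, map_pow, R.π_bc, map_prod, Finset.prod_congr rfl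
        (fun j hj => hyπ j (hTm j hj).2), Finset.prod_const]
    have hxge := mem_L.1 hx
    have hreg : R.Reg p (G : 𝓕) := by
      intro Q hQ
      rw [hGe]
      have h1 : Ge Q (-(bcD Ω 𝓕 𝔞 Q - ∑ j ∈ bef i, if P j = Q then (1 : ℤ) else 0)) (x : 𝓕) := by
        rw [← cut_apply]; exact hxge Q
      have h2 : Ge Q (bcD Ω 𝓕 𝔞 Q) (bc F 𝓕 z ^ e) := by
        by_cases h3 : ∃ P' : Place k F, Q = bcP Ω 𝓕 P'
        · obtain ⟨P', rfl⟩ := h3
          rw [R.rp_bcP] at hQ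
          subst hQ
          rw [bcD_apply]
          refine Ge.of_le ?_
          rw [Curve.ord_pow, bcP_ord, hzord, ← hee, mul_one]
        · push Not at h3
          rw [bcD_apply_of_generic _ h3]
          exact (R.reg_bc hzge Q hQ).pow e |>.mono (by simp)
      have h3 : Ge Q (-(∑ j ∈ T, if P j = Q then (1 : ℤ) else 0)) (∏ j ∈ T, (hh 𝓕 p (P j))⁻¹) := by
        refine Ge.of_le ?_
        rw [ord_prod _ _ (fun j hj => inv_ne_zero (R.hh_spec (hTm j hj).2).2.1),
          ← Finset.sum_neg_distrib]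
        apply le_of_eq
        refine Finset.sum_congr rfl fun j hj => ?_
        rw [Q.ord_inv]
        split_ifs with h4
        · rw [← h4, (R.hh_spec (hTm j hj).2).1]
        · rw [(R.hh_spec (hTm j hj).2).2.2.2 Q hQ (fun h => h4 h.symm)]
      have h4 : ∑ j ∈ T, (if P j = Q then (1 : ℤ) else 0) =
          ∑ j ∈ bef i, if P j = Q then (1 : ℤ) else 0 := by
        rw [hT, Finset.sum_filter (fun j => 𝔽.rp v (P j) = p)]
        refine Finset.sum_congr rfl fun j hj => ?_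
        by_cases h5 : P j = Q
        · rw [if_pos (by rw [h5]; exact hQ)]
        · rw [if_neg h5]
          split_ifs <;> rfl
      rw [h4] at h3
      exact ((h1.mul h2).mul h3).mono (by ring_nf; exact le_refl _)
    obtain ⟨hmem, hρ⟩ := R.ev_mem G hreg (rfl : R.rp (P i) = p)
    refine ⟨_, hmem, ?_, ?_⟩
    · -- evaluation
      have hPigen : bcD Ω 𝓕 𝔞 (P i) = 0 := by
        by_cases h3 : ∃ P' : Place k F, P i = bcP Ω 𝓕 P'
        · obtain ⟨P', hP'⟩ := h3
          rw [hP', bcD_apply]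
          by_contra h4
          exact hdisj P' h4 i hP'
        · push Not at h3
          exact bcD_apply_of_generic _ h3
      have h1 : Ge (P i) 0 (x : 𝓕) := by
        refine (hxge (P i)).mono ?_
        rw [cut_apply, hPigen, zero_sub, neg_neg]
        exact Finset.sum_nonneg fun j _ => by split_ifs <;> norm_num
      have h2 : Ge (P i) 0 (bc F 𝓕 z) := R.reg_bc hzge _ rfl
      have h2e : Ge (P i) 0 (bc F 𝓕 z ^ e) := (h2.pow e).mono (by simp)
      have h3 : ∀ j ∈ T, (P i).ord (hh 𝓕 p (P j)) = 0 := fun j hj =>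
        (R.hh_spec (hTm j hj).2).2.2.2 (P i) rfl (fun h => (hTm j hj).1.ne (hinj h).symm)
      have h4 : ∀ j ∈ T, Ge (P i) 0 (hh 𝓕 p (P j))⁻¹ := fun j hj =>
        Ge.of_le (by rw [Place.ord_inv, h3 j hj, neg_zero])
      have h5 : Ge (P i) 0 (∏ j ∈ T, (hh 𝓕 p (P j))⁻¹) := by
        refine Ge.of_le ?_
        rw [ord_prod _ _ (fun j hj => inv_ne_zero (R.hh_spec (hTm j hj).2).2.1)]
        exact Finset.sum_nonneg fun j hj => by rw [Place.ord_inv, h3 j hj, neg_zero]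
      have h6 : ev (P i) (G : 𝓕) = ev (P i) (x : 𝓕) * algebraMap L Ω (zL i) ^ e *
          ∏ j ∈ T, (algebraMap L Ω (zL i - zL j))⁻¹ := by
        rw [hGe, ev_mul ((h1.mul h2e).mono (by norm_num)) h5, ev_mul h1 h2e, ev_pow h2,
          ev_prod _ _ h4, hzL]
        congr 1
        refine Finset.prod_congr rfl fun j hj => ?_
        rw [ev_inv (R.hh_spec (hTm j hj).2).2.1 (h3 j hj), R.ev_hh (rfl : R.rp (P i) = p), map_sub,
          hzL, hzL]
      rw [h6, map_mul, map_zpow₀, map_prod, zpow_neg, ← hee, zpow_natCast]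
      have h7 : algebraMap L Ω (zL i) ^ e * (algebraMap L Ω (zL i) ^ e)⁻¹ = 1 := by
        apply mul_inv_cancel₀
        by_cases h0 : e = 0
        · rw [h0, pow_zero]; exact one_ne_zero
        · refine pow_ne_zero _ ((map_ne_zero _).2 (hzLi ?_))
          rw [← hee]; exact_mod_cast h0
      have h8 : (∏ j ∈ T, (algebraMap L Ω (zL i - zL j))⁻¹) *
          ∏ j ∈ T, algebraMap L Ω (zL i - zL j) = 1 := by
        rw [← Finset.prod_mul_distrib]
        exact Finset.prod_eq_one fun j hj => inv_mul_cancel₀ ((map_ne_zero _).2 (hd j hj))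
      calc ev (P i) (x : 𝓕) = ev (P i) (x : 𝓕) * (algebraMap L Ω (zL i) ^ e *
            (algebraMap L Ω (zL i) ^ e)⁻¹) * ((∏ j ∈ T, (algebraMap L Ω (zL i - zL j))⁻¹) *
          ∏ j ∈ T, algebraMap L Ω (zL i - zL j)) := by rw [h7, h8, mul_one, mul_one]
        _ = _ := by ring
    · intro hπ
      rw [hρ]
      have h1 := mem_L.1 hπ p
      have h2 : cutk 𝔞 (fun j => 𝔽.rp v (P j)) (beq' i) p = 𝔞 p - (T.card + 1) := by
        rw [cutk, Finsupp.sub_apply, Finsupp.finsetSum_apply]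
        simp only [Finsupp.single_apply]
        rw [← Finset.sum_filter, Finset.sum_const, nsmul_eq_mul, mul_one]
        have h3 : (beq' i).filter (fun j => 𝔽.rp v (P j) = p) = insert i T := by
          ext j
          rw [Finset.mem_filter, Finset.mem_filter, Finset.mem_insert, hT, Finset.mem_filter,
            Finset.mem_filter]
          constructor
          · rintro ⟨⟨-, h4⟩, h5⟩
            rcases h4.lt_or_eq with h6 | h6
            · exact Or.inr ⟨⟨Finset.mem_univ _, h6⟩, h5⟩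
            · exact Or.inl h6
          · rintro (h4 | ⟨⟨-, h4⟩, h5⟩)
            · rw [h4]; exact ⟨⟨Finset.mem_univ _, le_refl _⟩, rfl⟩
            · exact ⟨⟨Finset.mem_univ _, h4.le⟩, h5⟩
        rw [h3, Finset.card_insert_of_notMem (fun h => (hTm i h).1.ne rfl)]
        push_cast
        ring
      have h3 : Ge p 1 (R.π G) := by
        rw [hGπ]
        have h4 : Ge p (e : ℤ) (z ^ e) := Ge.of_le (by rw [Curve.ord_pow, hzord, mul_one])
        have h5 : Ge p (-(T.card : ℤ)) ((z⁻¹) ^ T.card) := Ge.of_le (by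
          rw [Curve.ord_pow, Place.ord_inv, hzord]; simp)
        rw [h2] at h1
        exact ((h1.mul h4).mul h5).mono (by rw [hee]; ring_nf; exact le_refl _)
      exact (ev_eq_zero_iff (h3.mono (by norm_num))).2 h3

end Fam

end Fermat.Agent.MW
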