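import Fermat.Agent.MW.Det2

/-!
# The determinant argument: the determinant
-/

set_option autoImplicit false
set_option linter.unusedSectionVars false
set_option linter.unusedVariables false
set_option linter.style.haveILetI false

namespace Fermat.Agent.MW

open AlgebraicCurve Fermat.Agent.RR Fermat.Agent.Curve IntermediateField Module

variable {k Ω F 𝓕 : Type*} [Field k] [Field Ω] [Field F] [Field 𝓕]
  [Algebra k F] [Algebra Ω 𝓕] [Algebra k Ω] [Algebra F 𝓕]
  [IsAlgClosed k] [IsAlgClosed Ω] [FunField k F] [FunField Ω 𝓕] [hC : CExt k Ω F 𝓕]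

variable {L : Type*} [Field L] [Algebra k L] [Algebra L Ω] [IsScalarTower k L Ω] [FunField k L]

theorem det_ne_zero_of_li {K V : Type*} [Field K] [AddCommGroup V] [Module K V] {n : ℕ}
    {b u : Fin n → V} (C : Matrix (Fin n) (Fin n) K) (hu : LinearIndependent K u)
    (h : ∀ i, u i = ∑ j, C i j • b j) : C.det ≠ 0 := by
  intro h0
  obtain ⟨t, ht0, ht⟩ := Matrix.exists_vecMul_eq_zero_iff.2 h0
  apply ht0
  have h1 : ∑ i, t i • u i = 0 := by
    have h2 : ∀ i, t i • u i = ∑ j, (t i * C i j) • b j := by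
      intro i
      rw [h i, Finset.smul_sum]
      exact Finset.sum_congr rfl fun j _ => smul_smul _ _ _
    rw [Finset.sum_congr rfl (fun i _ => h2 i), Finset.sum_comm]
    apply Finset.sum_eq_zero
    intro j _
    rw [← Finset.sum_smul]
    have h3 : ∑ i, t i * C i j = 0 := congrFun ht j
    rw [h3, zero_smul]
  funext i
  exact Fintype.linearIndependent_iff.1 hu t h1 i

/-- finding the step where an extra zero appears -/
theorem exists_step' {K V : Type*} [Field K] [AddCommGroup V] [Module K V] {n : ℕ}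
    {u : Fin n → V} (hu : LinearIndependent K u) (X : Fin n → Submodule K V)
    (Y : Submodule K V) (hY : Y ≤ Submodule.span K (Set.range u)) (hYX : ∀ i, Y ≤ X i)
    (huX : ∀ i j, i < j → u j ∈ X i) (hne : Y ≠ ⊥) : ∃ i, u i ∈ X i := by
  classical
  obtain ⟨t, htY, ht0⟩ := (Submodule.ne_bot_iff _).1 hne
  obtain ⟨c, hc⟩ := (Submodule.mem_span_range_iff_exists_fun K).1 (hY htY)
  have h1 : (Finset.univ.filter (fun i => c i ≠ 0)).Nonempty := by
    by_contra hcon
    rw [Finset.not_nonempty_iff_eq_empty] at hcon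
    apply ht0
    rw [← hc]
    apply Finset.sum_eq_zero
    intro i _
    have : c i = 0 := by
      by_contra h2
      have : i ∈ Finset.univ.filter (fun i => c i ≠ 0) :=
        Finset.mem_filter.2 ⟨Finset.mem_univ i, h2⟩
      rw [hcon] at this
      exact Finset.notMem_empty _ this
    rw [this, zero_smul]
  set i₀ := (Finset.univ.filter (fun i => c i ≠ 0)).min' h1 with hi₀
  have h2 : c i₀ ≠ 0 := (Finset.mem_filter.1 (Finset.min'_mem _ h1)).2
  have h3 : ∀ i, i < i₀ → c i = 0 := by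
    intro i hi
    by_contra h4
    have h5 : i ∈ Finset.univ.filter (fun i => c i ≠ 0) :=
      Finset.mem_filter.2 ⟨Finset.mem_univ i, h4⟩
    exact absurd (Finset.min'_le _ i h5) (not_le.2 hi)
  refine ⟨i₀, ?_⟩
  have h4 : c i₀ • u i₀ = t - ∑ i ∈ Finset.univ.erase i₀, c i • u i := by
    rw [← hc, ← Finset.add_sum_erase _ _ (Finset.mem_univ i₀)]
    abel
  have h5 : c i₀ • u i₀ ∈ X i₀ := by
    rw [h4]
    refine sub_mem (hYX i₀ htY) (sum_mem fun i hi => ?_)
    rcases lt_trichotomy i i₀ with h6 | h6 | h6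
    · rw [h3 i h6, zero_smul]; exact zero_mem _
    · exact absurd h6 (Finset.mem_erase.1 hi).1
    · exact Submodule.smul_mem _ _ (huX i₀ i h6)
  have h6 := Submodule.smul_mem (X i₀) (c i₀)⁻¹ h5
  rwa [smul_smul, inv_mul_cancel₀ h2, one_smul] at h6

namespace Fam

variable (𝔽 : Fam k Ω F 𝓕 L)

variable {n : ℕ} {𝔞 : Divisor k F} {P : Fin n → Place Ω 𝓕} {b : Fin n → F}

open Classical in
theorem local_det (hg : rrGenus k F = rrGenus Ω 𝓕) (w : F) (v : Place k L)
    (hinj : Function.Injective P)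
    (hrat : ∀ i, Rat F L (P i)) (h𝔞 : 0 ≤ 𝔞) (hdisj : ∀ p, 𝔞 p ≠ 0 → ∀ i, P i ≠ bcP Ω 𝓕 p)
    (hb : LinearIndependent k b) (hspan : Submodule.span k (Set.range b) = riemannRochSpace 𝔞) :
    ∃ l : L, l ≠ 0 ∧ v.ord l = ∑ i, ((∑ j ∈ bef i, 𝔽.Bv w v (P j) (P i)) -
        ∑ p ∈ 𝔞.support, 𝔞 p * 𝔽.Bv w v (P i) (bcP Ω 𝓕 p)) ∧
      ∃ a : Ω, ∃ ha : a ∈ (𝔽.R v).A,
        (Matrix.of fun i j => ev (P j) (bc F 𝓕 (b i))).det = a * algebraMap L Ω l ∧
          (riemannRochSpace (cutk 𝔞 (fun j => 𝔽.rp v (P j)) Finset.univ) ≠ ⊥ →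
            (𝔽.R v).ρ ⟨a, ha⟩ = 0) := by
  have hell : ell 𝔞 = n := by
    rw [ell, ← hspan, finrank_span_eq_card hb, Fintype.card_fin]
  set R := 𝔽.R v with hR
  -- the adapted basis
  obtain ⟨u, hu, huX⟩ := greedy (K := k) n (fun i => {f : F | ∃ x : R.W,
      (x : 𝓕) ∈ riemannRochSpace (cut 𝔞 P (bef i)) ∧ R.π x = f ∧
      f ∈ riemannRochSpace (cutk 𝔞 (fun j => R.rp (P j)) (bef i))}) (fun i => by
    obtain ⟨x, hx1, hx2, hx3⟩ := R.lift (cut 𝔞 P (bef i))
    refine ⟨_, ?_, fun a => R.π (x a), hx2, fun a => ⟨x a, hx1 a, rfl, ?_⟩⟩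
    · have h1 := le_ell_cut (Ω := Ω) (𝓕 := 𝓕) (P := P) (𝔞 := 𝔞) hg (bef i)
      have h2 : (bef i).card = i := by
        have : bef i = Finset.Iio i := by
          ext j; simp
        rw [this, Fin.card_Iio]
      rwa [h2, hell] at h1
    · have := hx3 a
      rwa [R.mapDomain_cut] at this)
  choose x hx1 hx2 hx3 using huX
  -- coordinates
  have hxSL : ∀ i, ∃ c : Fin n → Ω, ∑ j, algebraMap Ω 𝓕 (c j) * bc F 𝓕 (b j) = (x i : 𝓕) := by
    intro i
    have h1 : (x i : 𝓕) ∈ SL Ω 𝓕 𝔞 := by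
      rw [SL_eq hg]
      exact L_mono (cut_le _) (hx1 i)
    rw [SL_span hspan] at h1
    obtain ⟨c, hc⟩ := (Submodule.mem_span_range_iff_exists_fun Ω).1 h1
    refine ⟨c, ?_⟩
    rw [← hc]
    exact Finset.sum_congr rfl fun j _ => (Algebra.smul_def _ _).symm
  choose C hC' using hxSL
  have hCA : ∀ i j, C i j ∈ R.A := fun i => R.coord hb (C i) (by rw [hC' i]; exact (x i).2)
  let CA : Matrix (Fin n) (Fin n) R.A := Matrix.of fun i j => ⟨C i j, hCA i j⟩
  have hCdet : (Matrix.of C).det = ((CA.det : R.A) : Ω) := by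
    have h1 := RingHom.map_det R.A.subtype CA
    rw [show ((CA.det : R.A) : Ω) = R.A.subtype CA.det from rfl, h1]
    congr 1
  have hρdet : R.ρ CA.det ≠ 0 := by
    rw [RingHom.map_det]
    refine det_ne_zero_of_li (b := b) (u := u) _ hu fun i => ?_
    have h1 := R.coord_aux b (C i) (hCA i) (by rw [hC' i]; exact (x i).2)
    have h2 : (⟨∑ j, algebraMap Ω 𝓕 (C i j) * bc F 𝓕 (b j), by rw [hC' i]; exact (x i).2⟩ : R.W) =
        x i := Subtype.ext (hC' i)
    rw [h2, hx2 i] at h1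
    rw [h1]
    refine Finset.sum_congr rfl fun j _ => ?_
    rw [Algebra.smul_def]
    rfl
  have hCdet0 : ((CA.det : R.A) : Ω) ≠ 0 := by
    intro h0
    apply hρdet
    have : CA.det = 0 := Subtype.ext h0
    rw [this, map_zero]
  have hCinv : ((CA.det : R.A) : Ω)⁻¹ ∈ R.A := R.ρ_ne_zero _ hρdet
  -- values
  have hPgen : ∀ i, bcD Ω 𝓕 𝔞 (P i) = 0 := by
    intro i
    by_cases h3 : ∃ P' : Place k F, P i = bcP Ω 𝓕 P'
    · obtain ⟨P', hP'⟩ := h3
      rw [hP', bcD_apply]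
      by_contra h4
      exact hdisj P' h4 i hP'
    · push Not at h3
      exact bcD_apply_of_generic _ h3
  have hbge : ∀ i j, Ge (P j) 0 (bc F 𝓕 (b i)) := by
    intro i j
    have h1 : b i ∈ riemannRochSpace 𝔞 := hspan ▸ Submodule.subset_span ⟨i, rfl⟩
    have h2 := mem_L.1 ((bc_mem_L (K' := Ω) (F' := 𝓕)).2 h1) (P j)
    rwa [hPgen, neg_zero] at h2
  have hval : ∀ i j, ev (P j) (x i : 𝓕) = ∑ l, C i l * ev (P j) (bc F 𝓕 (b l)) := by
    intro i j
    rw [← hC' i, (ev_sum Finset.univ _ (fun l _ => ((Ge.algebraMap (P j) (C i l)).mul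
      (hbge l j)).mono (by norm_num))).1]
    refine Finset.sum_congr rfl fun l _ => ?_
    rw [ev_mul (Ge.algebraMap _ _) (hbge l j), ev_algebraMap]
  have hmat : (Matrix.of fun i j => ev (P j) (x i : 𝓕)) =
      (Matrix.of C) * (Matrix.of fun i j => ev (P j) (bc F 𝓕 (b i))) := by
    ext i j
    rw [Matrix.mul_apply, Matrix.of_apply, hval]
    rfl
  have htri : (Matrix.of fun i j => ev (P j) (x i : 𝓕)).det = ∏ i, ev (P i) (x i : 𝓕) := by
    rw [Matrix.det_of_isUpperTriangular]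
    · rfl
    · intro i j hij
      change j < i at hij
      rw [Matrix.of_apply]
      have h1 := mem_L.1 (hx1 i) (P j)
      have h2 : cut 𝔞 P (bef i) (P j) = -1 := by
        rw [cut_apply, hPgen, zero_sub]
        congr 1
        rw [Finset.sum_eq_single j]
        · rw [if_pos rfl]
        · intro l _ hl
          rw [if_neg (fun h => hl (hinj h))]
        · intro h
          exact absurd (Finset.mem_filter.2 ⟨Finset.mem_univ j, hij⟩ : j ∈ bef i) h
      rw [h2, neg_neg] at h1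
      exact (ev_eq_zero_iff (h1.mono (by norm_num))).2 h1
  have hloc := fun i => 𝔽.local_factor w v hinj hrat h𝔞 hdisj i
  choose l hl0 hlord hl using hloc
  have hl' := fun i => hl i (x i) (hx1 i)
  choose a ha hal hρa using hl'
  refine ⟨∏ i, l i, Finset.prod_ne_zero_iff.2 fun i _ => hl0 i, ?_, ?_⟩
  · rw [ord_prod _ _ (fun i _ => hl0 i)]
    exact Finset.sum_congr rfl fun i _ => hlord i
  have hprodmem : ∀ s : Finset (Fin n), ∏ i ∈ s, a i ∈ R.A := fun s => prod_mem fun i _ => ha i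
  refine ⟨((CA.det : R.A) : Ω)⁻¹ * ∏ i, a i, mul_mem hCinv (hprodmem _), ?_, ?_⟩
  · have h1 : (Matrix.of C).det * (Matrix.of fun i j => ev (P j) (bc F 𝓕 (b i))).det =
        (∏ i, a i) * algebraMap L Ω (∏ i, l i) := by
      rw [← Matrix.det_mul, ← hmat, htri, map_prod, ← Finset.prod_mul_distrib]
      exact Finset.prod_congr rfl fun i _ => hal i
    rw [hCdet] at h1
    rw [mul_assoc, ← h1, ← mul_assoc, inv_mul_cancel₀ hCdet0, one_mul]
  · intro hne
    obtain ⟨i, hi⟩ := exists_step' hu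
      (fun i => riemannRochSpace (cutk 𝔞 (fun j => R.rp (P j)) (beq' i)))
      (riemannRochSpace (cutk 𝔞 (fun j => R.rp (P j)) Finset.univ))
      (by
        have h1 : riemannRochSpace 𝔞 = Submodule.span k (Set.range u) := by
          symm
          apply Submodule.eq_of_le_of_finrank_eq
          · rw [Submodule.span_le]
            rintro _ ⟨i, rfl⟩
            refine L_mono ?_ (hx3 i)
            rw [cutk, sub_le_self_iff]
            exact Finset.sum_nonneg fun j _ => Spec.single_le_of_nonneg _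
          · rw [finrank_span_eq_card hu, Fintype.card_fin]
            exact hell.symm
        rw [← h1]
        apply L_mono
        rw [cutk, sub_le_self_iff]
        exact Finset.sum_nonneg fun j _ => Spec.single_le_of_nonneg _)
      (fun i => L_mono (cutk_mono (Finset.subset_univ _)))
      (fun i j hij => L_mono (cutk_mono (by
        intro m hm
        rw [Finset.mem_filter] at hm ⊢
        exact ⟨hm.1, lt_of_le_of_lt hm.2 hij⟩)) (hx3 j))
      hne
    have h1 : R.ρ ⟨a i, ha i⟩ = 0 := hρa i (by rw [hx2 i]; exact hi)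
    have h2 : (⟨((CA.det : R.A) : Ω)⁻¹ * ∏ i, a i, mul_mem hCinv (hprodmem _)⟩ : R.A) =
        ⟨_, hCinv⟩ * (⟨a i, ha i⟩ * ⟨∏ j ∈ Finset.univ.erase i, a j, hprodmem _⟩) := by
      apply Subtype.ext
      change _ = _ * (a i * ∏ j ∈ Finset.univ.erase i, a j)
      rw [Finset.mul_prod_erase _ _ (Finset.mem_univ i)]
    rw [h2, map_mul, map_mul, h1, zero_mul, mul_zero]

theorem det_ne (hg : rrGenus k F = rrGenus Ω 𝓕)
    (hinj : Function.Injective P) (h𝔞 : 0 ≤ 𝔞)
    (hdisj : ∀ p, 𝔞 p ≠ 0 → ∀ i, P i ≠ bcP Ω 𝓕 p)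
    (hb : LinearIndependent k b) (hspan : Submodule.span k (Set.range b) = riemannRochSpace 𝔞)
    (hL : riemannRochSpace (cut 𝔞 P Finset.univ) = ⊥) :
    (Matrix.of fun i j => ev (P j) (bc F 𝓕 (b i))).det ≠ 0 := by
  classical
  intro h0
  obtain ⟨t, ht0, ht⟩ := Matrix.exists_vecMul_eq_zero_iff.2 h0
  have hPgen : ∀ i, bcD Ω 𝓕 𝔞 (P i) = 0 := by
    intro i
    by_cases h3 : ∃ P' : Place k F, P i = bcP Ω 𝓕 P'
    · obtain ⟨P', hP'⟩ := h3
      rw [hP', bcD_apply]
      by_contra h4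
      exact hdisj P' h4 i hP'
    · push Not at h3
      exact bcD_apply_of_generic _ h3
  have hbL : ∀ i, bc F 𝓕 (b i) ∈ riemannRochSpace (bcD Ω 𝓕 𝔞) := fun i =>
    bc_mem_L.2 (hspan ▸ Submodule.subset_span ⟨i, rfl⟩)
  have hbge : ∀ i j, Ge (P j) 0 (bc F 𝓕 (b i)) := by
    intro i j
    have h2 := mem_L.1 (hbL i) (P j)
    rwa [hPgen, neg_zero] at h2
  set x : 𝓕 := ∑ i, t i • bc F 𝓕 (b i) with hx
  have hxL : x ∈ riemannRochSpace (bcD Ω 𝓕 𝔞) := sum_mem fun i _ => Submodule.smul_mem _ _ (hbL i)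
  have hxev : ∀ j, Ge (P j) 1 x := by
    intro j
    have h1 : ∀ l ∈ Finset.univ, Ge (P j) 0 (t l • bc F 𝓕 (b l)) := fun l _ =>
      (Ge.smul (t l) (hbge l j))
    obtain ⟨h2, h3⟩ := ev_sum Finset.univ _ h1
    rw [← ev_eq_zero_iff h3, h2]
    have h4 : ∀ l, ev (P j) (t l • bc F 𝓕 (b l)) = t l * ev (P j) (bc F 𝓕 (b l)) := by
      intro l
      rw [Algebra.smul_def, ev_mul (Ge.algebraMap _ _) (hbge l j), ev_algebraMap]
    rw [Finset.sum_congr rfl (fun l _ => h4 l)]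
    exact congrFun ht j
  have hx0 : x = 0 := by
    have h1 : x ∈ riemannRochSpace (cut 𝔞 P Finset.univ) := by
      rw [mem_L]
      intro Q
      by_cases h2 : ∃ j, P j = Q
      · obtain ⟨j, rfl⟩ := h2
        refine (hxev j).mono ?_
        rw [cut_apply, hPgen, zero_sub, neg_neg]
        rw [Finset.sum_eq_single j (fun l _ hl => if_neg (fun h => hl (hinj h)))
          (fun h => absurd (Finset.mem_univ _) h), if_pos rfl]
      · push Not at h2
        refine (mem_L.1 hxL Q).mono ?_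
        rw [cut_apply, Finset.sum_eq_zero (fun l _ => if_neg (h2 l)), sub_zero]
    rw [hL] at h1
    exact (Submodule.mem_bot _).1 h1
  have h1 := Fintype.linearIndependent_iff.1 (bc_independent (𝓕 := 𝓕) hb hspan) t hx0
  exact ht0 (funext h1)

/-- **The main inequality.** -/
theorem card_le (hg : rrGenus k F = rrGenus Ω 𝓕) {w : F} (hw : Good k Ω 𝓕 w)
    {Kw : Divisor k F} (hK : IsDw w Kw)
    (hinj : Function.Injective P)
    (hrat : ∀ i, Rat F L (P i)) (h𝔞 : 0 ≤ 𝔞) (hdisj : ∀ p, 𝔞 p ≠ 0 → ∀ i, P i ≠ bcP Ω 𝓕 p)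
    (hb : LinearIndependent k b) (hspan : Submodule.span k (Set.range b) = riemannRochSpace 𝔞)
    (hL : riemannRochSpace (cut 𝔞 P Finset.univ) = ⊥) (S : Finset (Place k L))
    (hS : ∀ v ∈ S, riemannRochSpace (cutk 𝔞 (fun j => 𝔽.rp v (P j)) Finset.univ) ≠ ⊥) :
    (S.card : ℤ) ≤ ∑ i, ((∑ p ∈ 𝔞.support, 𝔞 p * 𝔽.B w (P i) (bcP Ω 𝓕 p)) -
      ∑ j ∈ bef i, 𝔽.B w (P j) (P i)) := by
  classical
  let M : Matrix (Fin n) (Fin n) L := Matrix.of fun i j => prL (hrat j) (b i)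
  have hM : algebraMap L Ω M.det = (Matrix.of fun i j => ev (P j) (bc F 𝓕 (b i))).det := by
    rw [RingHom.map_det]
    congr 1
    ext i j
    exact algebraMap_prL (hrat j) (b i)
  have hM0 : M.det ≠ 0 := by
    intro h0
    apply det_ne hg hinj h𝔞 hdisj hb hspan hL
    rw [← hM, h0, map_zero]
  -- the local contributions
  let f : Place k L → ℤ := fun v => ∑ i, ((∑ j ∈ bef i, 𝔽.Bv w v (P j) (P i)) -
        ∑ p ∈ 𝔞.support, 𝔞 p * 𝔽.Bv w v (P i) (bcP Ω 𝓕 p))
  have hloc : ∀ v, f v ≤ v.ord M.det ∧ (v ∈ S → f v + 1 ≤ v.ord M.det) := by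
    intro v
    obtain ⟨l, hl0, hlord, a, ha, hdet, hρ⟩ := 𝔽.local_det hg w v hinj hrat h𝔞 hdisj hb hspan
    have h1 : algebraMap L Ω (M.det * l⁻¹) = a := by
      rw [map_mul, hM, hdet, map_inv₀, mul_assoc, mul_inv_cancel₀ ((map_ne_zero _).2 hl0), mul_one]
    have h2 : v.ord (M.det * l⁻¹) = v.ord M.det - f v := by
      rw [v.ord_mul hM0 (inv_ne_zero hl0), v.ord_inv, hlord]
      ring
    have hne : M.det * l⁻¹ ≠ 0 := mul_ne_zero hM0 (inv_ne_zero hl0)
    constructor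
    · have h3 : algebraMap L Ω (M.det * l⁻¹) ∈ (𝔽.R v).A := by rw [h1]; exact ha
      rw [𝔽.mem_iff, h2] at h3
      omega
    · intro hv
      have h3 : algebraMap L Ω (M.det * l⁻¹) ∈ (𝔽.R v).A := by rw [h1]; exact ha
      have h4 : (𝔽.R v).ρ ⟨_, h3⟩ = 0 := by
        have h5 : (⟨_, h3⟩ : (𝔽.R v).A) = ⟨a, ha⟩ := Subtype.ext h1
        rw [h5]
        exact hρ (hS v hv)
      have h5 := 𝔽.ord_pos_of_ρ hne h3 h4
      rw [h2] at h5
      omega
  have hrb : ∀ p : Place k F, Rat F L (bcP Ω 𝓕 p) := fun p => rat_bcP p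
  have hfin1 : ∀ i j, (Function.support fun v : Place k L => 𝔽.Bv w v (P j) (P i)).Finite :=
    fun i j => 𝔽.finite_Bv hg hw hK (hrat j) (hrat i)
  have hfin2 : ∀ i p, (Function.support fun v : Place k L =>
      𝔞 p * 𝔽.Bv w v (P i) (bcP Ω 𝓕 p)).Finite := fun i p =>
    (𝔽.finite_Bv hg hw hK (hrat i) (hrb p)).subset (fun v hv h0 => hv (by
      change 𝔞 p * 𝔽.Bv w v (P i) (bcP Ω 𝓕 p) = 0
      rw [show 𝔽.Bv w v (P i) (bcP Ω 𝓕 p) = 0 from h0, mul_zero]))
  have hfs1 : ∀ i, (Function.support fun v : Place k L =>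
      ∑ j ∈ bef i, 𝔽.Bv w v (P j) (P i)).Finite := fun i =>
    ((bef i).finite_toSet.biUnion (fun j _ => hfin1 i j)).subset (fun v hv => by
      obtain ⟨j, hj, h⟩ := Finset.exists_ne_zero_of_sum_ne_zero hv
      exact Set.mem_biUnion hj h)
  have hfs2 : ∀ i, (Function.support fun v : Place k L =>
      ∑ p ∈ 𝔞.support, 𝔞 p * 𝔽.Bv w v (P i) (bcP Ω 𝓕 p)).Finite := fun i =>
    (𝔞.support.finite_toSet.biUnion (fun p _ => hfin2 i p)).subset (fun v hv => by
      obtain ⟨j, hj, h⟩ := Finset.exists_ne_zero_of_sum_ne_zero hv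
      exact Set.mem_biUnion hj h)
  have hfs3 : ∀ i, (Function.support fun v : Place k L =>
      ((∑ j ∈ bef i, 𝔽.Bv w v (P j) (P i)) -
        ∑ p ∈ 𝔞.support, 𝔞 p * 𝔽.Bv w v (P i) (bcP Ω 𝓕 p))).Finite := fun i =>
    ((hfs1 i).union (hfs2 i)).subset (Function.support_sub _ _)
  have hffin : (Function.support f).Finite :=
    (Finset.univ.finite_toSet.biUnion (fun i _ => hfs3 i)).subset (fun v hv => by
      obtain ⟨j, hj, h⟩ := Finset.exists_ne_zero_of_sum_ne_zero hv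
      exact Set.mem_biUnion hj h)
  have hfsum : ∑ᶠ v, f v = ∑ i, ((∑ j ∈ bef i, 𝔽.B w (P j) (P i)) -
      ∑ p ∈ 𝔞.support, 𝔞 p * 𝔽.B w (P i) (bcP Ω 𝓕 p)) := by
    rw [finsum_sum_comm _ _ (fun i _ => hfs3 i)]
    refine Finset.sum_congr rfl fun i _ => ?_
    rw [finsum_sub_distrib (hfs1 i) (hfs2 i), finsum_sum_comm _ _ (fun j _ => hfin1 i j),
      finsum_sum_comm _ _ (fun p _ => hfin2 i p)]
    congr 1
    refine Finset.sum_congr rfl fun p _ => ?_
    rw [← mul_finsum' _ _ (𝔽.finite_Bv hg hw hK (hrat i) (hrb p)), B]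
  -- sum up
  have hdet0 := finsum_ord (k := k) hM0
  let T : Finset (Place k L) := (finite_ord_support (k := k) hM0).toFinset ∪ hffin.toFinset ∪ S
  have h1 : ∑ᶠ v : Place k L, v.ord M.det = ∑ v ∈ T, v.ord M.det :=
    finsum_eq_sum_of_support_subset _ (fun v hv => by
      rw [Finset.mem_coe, Finset.mem_union, Finset.mem_union]
      exact Or.inl (Or.inl ((Set.Finite.mem_toFinset _).2 hv)))
  have h2 : ∑ᶠ v : Place k L, f v = ∑ v ∈ T, f v :=
    finsum_eq_sum_of_support_subset _ (fun v hv => by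
      rw [Finset.mem_coe, Finset.mem_union, Finset.mem_union]
      exact Or.inl (Or.inr ((Set.Finite.mem_toFinset _).2 hv)))
  have h3 : ∑ v ∈ T, (f v + if v ∈ S then 1 else 0) ≤ ∑ v ∈ T, v.ord M.det := by
    refine Finset.sum_le_sum fun v _ => ?_
    split_ifs with h4
    · exact (hloc v).2 h4
    · rw [add_zero]; exact (hloc v).1
  have h4 : ∑ v ∈ T, (if v ∈ S then (1 : ℤ) else 0) = S.card := by
    rw [← Finset.sum_filter]
    have : T.filter (fun v => v ∈ S) = S := by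
      ext v
      rw [Finset.mem_filter]
      exact ⟨fun h => h.2, fun h => ⟨Finset.mem_union_right _ h, h⟩⟩
    rw [this, Finset.sum_const, nsmul_eq_mul, mul_one]
  rw [Finset.sum_add_distrib, h4, ← h1, ← h2, hdet0, hfsum] at h3
  have h5 : ∑ i, ((∑ p ∈ 𝔞.support, 𝔞 p * 𝔽.B w (P i) (bcP Ω 𝓕 p)) -
      ∑ j ∈ bef i, 𝔽.B w (P j) (P i)) = -∑ i, ((∑ j ∈ bef i, 𝔽.B w (P j) (P i)) -
      ∑ p ∈ 𝔞.support, 𝔞 p * 𝔽.B w (P i) (bcP Ω 𝓕 p)) := by
    rw [← Finset.sum_neg_distrib]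
    exact Finset.sum_congr rfl fun i _ => by ring
  rw [h5]
  linarith

end Fam

end Fermat.Agent.MW
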