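import Fermat.Agent.MW.GalC

/-!
# Divisibility of the Jacobian over `ℂ`
-/

set_option autoImplicit false
set_option linter.unusedSectionVars false
set_option linter.style.haveILetI false

noncomputable section

namespace Fermat.Agent.MW

open AlgebraicCurve ModularCurve Fermat.Agent.RR Fermat.Agent.Curve IntermediateField Module
open Fermat.Agent.ModPoly Fermat.Agent.Spec

section Bad

variable {k F : Type*} [Field k] [IsAlgClosed k] [Field F] [Algebra k F] [FunField k F]

theorem ell_add_single_of_mem {D : Divisor k F} {P : Place k F} {f : F}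
    (hf : f ∈ riemannRochSpace (D + Finsupp.single P 1)) (hf' : f ∉ riemannRochSpace D) :
    ell D + 1 ≤ ell (D + Finsupp.single P 1) := by
  have h1 : riemannRochSpace D < riemannRochSpace (D + Finsupp.single P 1) := by
    refine lt_of_le_of_ne (L_mono (le_add_of_nonneg_right (Spec.single_le_of_nonneg P))) ?_
    intro h
    exact hf' (h ▸ hf)
  exact Submodule.finrank_lt_finrank_of_lt h1

theorem exists_mem_notMem {D : Divisor k F} {P : Place k F}
    (h : ell D < ell (D + Finsupp.single P 1)) :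
    ∃ f ∈ riemannRochSpace (D + Finsupp.single P 1), f ∉ riemannRochSpace D := by
  by_contra hcon
  push Not at hcon
  have : riemannRochSpace (D + Finsupp.single P 1) ≤ riemannRochSpace D := hcon
  have := Submodule.finrank_mono this
  change ell _ ≤ ell _ at this
  omega

theorem finite_bad {D : Divisor k F} (hell : ell D = 1)
    (hdeg : Divisor.degree D < rrGenus k F) :
    {P : Place k F | ell (D + Finsupp.single P 1) ≠ 1}.Finite := by
  classical
  by_contra hinf
  obtain ⟨c, hc⟩ := exists_riemann (K := k) (F := F)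
  obtain ⟨S, hS, hcard⟩ := Set.Infinite.exists_subset_card_eq hinf
    (c - Divisor.degree D).toNat
  have key : ∀ S : Finset (Place k F), ((S : Set (Place k F)) ⊆
      {P : Place k F | ell (D + Finsupp.single P 1) ≠ 1}) →
      S.card + 1 ≤ ell (D + ∑ P ∈ S, Finsupp.single P 1) := by
    intro S
    induction S using Finset.induction_on with
    | empty => intro _; simp [hell]
    | insert P S hP ih =>
      intro hS
      have h1 := ih (fun Q hQ => hS (Finset.mem_insert_of_mem hQ))
      have h2 : ell (D + Finsupp.single P 1) ≠ 1 := hS (Finset.mem_insert_self P S)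
      have h3 := ell_mono (le_add_of_nonneg_right (a := D) (Spec.single_le_of_nonneg P))
      obtain ⟨f, hf, hf'⟩ := exists_mem_notMem (D := D) (P := P) (by omega)
      rw [Finset.sum_insert hP, Finset.card_insert_of_notMem hP]
      have h4 : D + (Finsupp.single P 1 + ∑ Q ∈ S, Finsupp.single Q 1) =
          (D + ∑ Q ∈ S, Finsupp.single Q 1) + Finsupp.single P 1 := by abel
      rw [h4]
      refine (add_le_add_left h1 1).trans (ell_add_single_of_mem (f := f) ?_ ?_)
      · refine L_mono ?_ hf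
        have : (0 : Divisor k F) ≤ ∑ Q ∈ S, Finsupp.single Q 1 :=
          Finset.sum_nonneg fun Q _ => Spec.single_le_of_nonneg Q
        gcongr
        exact le_add_of_nonneg_right this
      · intro h5
        apply hf'
        rw [mem_L] at hf h5 ⊢
        intro v
        rcases eq_or_ne v P with rfl | hv
        · have h6 := h5 v
          rw [Finsupp.add_apply, Finsupp.finsetSum_apply, Finset.sum_eq_zero, add_zero] at h6
          · exact h6
          · intro Q hQ
            rw [Finsupp.single_eq_of_ne]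
            rintro rfl
            exact hP hQ
        · have h6 := hf v
          rwa [Finsupp.add_apply, Finsupp.single_eq_of_ne hv, add_zero] at h6
  have h1 := key S hS
  have h2 : Divisor.degree (D + ∑ P ∈ S, Finsupp.single P 1 : Divisor k F) =
      Divisor.degree D + S.card := by
    rw [map_add, map_sum]
    simp only [degree_single']
    simp
  have h3 := hc (D + ∑ P ∈ S, Finsupp.single P 1) (by
    rw [h2, hcard]
    have := Int.self_le_toNat (c - Divisor.degree D)
    linarith)
  rw [h2] at h3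
  omega

theorem finite_fiber' [CharZero k] {f : F} (htr : Transcendental k f) (t : k) :
    {P : Place k F | ev P f = t}.Finite := by
  haveI := fd (K := k) htr
  have h2 : f - algebraMap k F t ≠ 0 := by
    intro h
    apply transcendental_sub htr t
    rw [h]
    exact isAlgebraic_zero
  have h1 : {v : Place k F | v.ord f < 0}.Finite := (poles_sum _ htr).choose
  refine (h1.union (divisor k (f - algebraMap k F t)).support.finite_toSet).subset ?_
  intro P hP
  by_cases h3 : P.ord f < 0
  · exact Or.inl h3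
  · right
    have h4 := (ev_spec (Ge.of_le (not_lt.1 h3) : Ge P 0 f))
    have h5 : ev P f = t := hP
    rw [h5] at h4
    have h6 := h4.le_ord h2
    rw [Finset.mem_coe, Finsupp.mem_support_iff, divisor_apply]
    omega

theorem cl_fiber {P₀ : Place k F} {f : F} (hf : Transcendental k f) {R : Place k F} {n : ℕ}
    (hpole : poleDiv k f = Finsupp.single R (n : ℤ)) (α : k) :
    ∃ Z : Divisor k F, 0 ≤ Z ∧ Divisor.degree Z = n ∧ (∀ Q, Z Q ≠ 0 → ev Q f = α) ∧
      cl P₀ Z = n • cl P₀ (Finsupp.single R 1) := by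
  have h0 : f - algebraMap k F α ≠ 0 := by
    intro h
    apply hf
    rw [sub_eq_zero.1 h]
    exact isAlgebraic_algebraMap _
  have hp : ∀ v : Place k F, max (-v.ord f) 0 = Finsupp.single R (n : ℤ) v := fun v => by
    rw [← hpole, poleDiv_apply]
  have hneg : ∀ v : Place k F, v.ord f < 0 → v.ord (f - algebraMap k F α) = v.ord f := by
    intro v hv
    have hf0 : f ≠ 0 := by rintro rfl; exact hf isAlgebraic_zero
    have h1 : Ge v (v.ord f + 1) (f - (f - algebraMap k F α)) := by
      rw [sub_sub_cancel]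
      exact (Ge.algebraMap v α).mono (by omega)
    exact (h1.ord_eq hf0).2
  refine ⟨divisor k (f - algebraMap k F α) + Finsupp.single R (n : ℤ), ?_, ?_, ?_, ?_⟩
  · intro v
    rw [Finsupp.add_apply, divisor_apply, ← hp v, Finsupp.coe_zero, Pi.zero_apply]
    by_cases hv : v.ord f < 0
    · rw [hneg v hv]
      have := le_max_left (-v.ord f) 0
      omega
    · have h1 : Ge v 0 f := Ge.of_le (not_lt.1 hv)
      have h2 := (h1.sub (Ge.algebraMap v α)).le_ord h0
      have := le_max_right (-v.ord f) 0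
      omega
  · rw [map_add, degree_divisor, degree_single', zero_add]
  · intro Q hQ
    rw [Finsupp.add_apply, divisor_apply, ← hp Q] at hQ
    by_cases hv : Q.ord f < 0
    · exfalso
      apply hQ
      rw [hneg Q hv, max_eq_left (by omega)]
      ring
    · have h1 : Ge Q 0 f := Ge.of_le (not_lt.1 hv)
      rw [max_eq_right (by omega), add_zero] at hQ
      have h2 := (h1.sub (Ge.algebraMap Q α)).le_ord h0
      exact ev_unique (Ge.of_le (by omega))
  · rw [map_add, cl_divisor P₀ h0, zero_add, ← map_nsmul]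
    congr 1
    rw [Finsupp.smul_single, nsmul_eq_mul, mul_one]

theorem cl_sub_mem {P₀ Q₁ : Place k F} (H : AddSubgroup (Pic0 k F)) (Z : Divisor k F)
    (hZ : ∀ Q, Z Q ≠ 0 → cl P₀ (Finsupp.single Q 1) - cl P₀ (Finsupp.single Q₁ 1) ∈ H) :
    cl P₀ Z - Divisor.degree Z • cl P₀ (Finsupp.single Q₁ 1) ∈ H := by
  classical
  have h1 : Z = ∑ v ∈ Z.support, Z v • (Finsupp.single v 1 : Divisor k F) := by
    conv_lhs => rw [← Finsupp.sum_single Z]
    rw [Finsupp.sum]
    refine Finset.sum_congr rfl fun v _ => ?_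
    rw [Finsupp.smul_single, smul_eq_mul, mul_one]
  have h2 : cl P₀ Z - Divisor.degree Z • cl P₀ (Finsupp.single Q₁ 1) =
      ∑ v ∈ Z.support, Z v • (cl P₀ (Finsupp.single v 1) - cl P₀ (Finsupp.single Q₁ 1)) := by
    simp only [zsmul_sub]
    rw [Finset.sum_sub_distrib, ← Finset.sum_smul, ← RR.degree_eq]
    congr 1
    conv_lhs => rw [h1]
    rw [map_sum]
    exact Finset.sum_congr rfl fun v _ => map_zsmul _ _ _
  rw [h2]
  refine sum_mem fun v hv => ?_
  exact H.zsmul_mem (hZ v (Finsupp.mem_support_iff.1 hv)) _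

end Bad

attribute [local instance] ffAlg ffCExt funField_ff

variable {N : ℕ} [NeZero N]

theorem exists_tv_eq (t : ℂ) : ∃ P : Place ℂ (FF ℂ N), tv N P = t := by
  have htr := transcendental_jF (k := ℂ) N
  have h2 : Transcendental ℂ (jF' ℂ N - algebraMap ℂ (FF ℂ N) t) := transcendental_sub htr t
  obtain ⟨v, hv⟩ := exists_zero' h2
  exact ⟨v, ev_unique (Ge.of_le (by omega))⟩

theorem finite_fiber (t : ℂ) : {P : Place ℂ (FF ℂ N) | tv N P = t}.Finite :=
  finite_fiber' (transcendental_jF (k := ℂ) N) t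

theorem kr_KS {S : Set ℂ} {P : Place ℂ (FF ℂ N)} : Kr (KS S) P ↔ tv N P ∈ KS S := by
  constructor
  · rintro ⟨a, ha⟩
    rw [← ha]
    exact a.2
  · intro h
    exact ⟨⟨_, h⟩, rfl⟩

/-- successively generic points -/
theorem exists_generic {P₀ : Place ℂ (FF ℂ N)} (n : ℕ) (hn : n ≤ rrGenus ℂ (FF ℂ N)) :
    ∃ (T : Finset ℂ) (D : Divisor ℂ (FF ℂ N)), T.card = n ∧
      (AlgebraicIndependent.matroid ℚ ℂ).Indep (T : Set ℂ) ∧ 0 ≤ D ∧ Divisor.degree D = n ∧
      ell D = 1 ∧ D P₀ = 0 ∧ ∀ t ∈ T, ∃ P, D P ≠ 0 ∧ tv N P = t := by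
  classical
  induction n with
  | zero =>
    refine ⟨∅, 0, rfl, ?_, le_rfl, by simp, ell_zero, rfl, by simp⟩
    rw [Finset.coe_empty]
    exact Matroid.empty_indep _
  | succ n ih =>
    obtain ⟨T, D, h1, h2, h3, h4, h5, h6, h7⟩ := ih (by omega)
    have hbad := finite_bad h5 (by rw [h4]; exact_mod_cast hn)
    let B : Set ℂ := (T : Set ℂ) ∪ (tv N '' {P | ell (D + Finsupp.single P 1) ≠ 1}) ∪ {tv N P₀}
    have hB : B.Finite := (T.finite_toSet.union (hbad.image _)).union (Set.finite_singleton _)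
    haveI : Countable B := hB.countable.to_subtype
    obtain ⟨t, ht⟩ := exists_notMem_KS B
    obtain ⟨P, hP⟩ := exists_tv_eq (N := N) t
    have hPP : P ≠ P₀ := by
      rintro rfl
      apply ht
      rw [← hP]
      exact subset_KS B (Or.inr rfl)
    have hell : ell (D + Finsupp.single P 1) = 1 := by
      by_contra h
      apply ht
      rw [← hP]
      exact subset_KS B (Or.inl (Or.inr ⟨P, h, rfl⟩))
    have htT : t ∉ (AlgebraicIndependent.matroid ℚ ℂ).closure (T : Set ℂ) := by
      intro h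
      rw [← mem_KS_iff_closure] at h
      exact ht (KS_mono (fun x hx => Or.inl (Or.inl hx)) h)
    have htT' : t ∉ T := by
      intro h
      exact htT ((AlgebraicIndependent.matroid ℚ ℂ).subset_closure _ (by simp) h)
    refine ⟨insert t T, D + Finsupp.single P 1, ?_, ?_, ?_, ?_, hell, ?_, ?_⟩
    · rw [Finset.card_insert_of_notMem htT', h1]
    · rw [Finset.coe_insert]
      exact ((h2.notMem_closure_iff (e := t) (by simp)).1 htT).1
    · exact add_nonneg h3 (Spec.single_le_of_nonneg P)
    · rw [map_add, h4, degree_single']; push_cast; ring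
    · rw [Finsupp.add_apply, h6, Finsupp.single_eq_of_ne hPP.symm, add_zero]
    · intro s hs
      rw [Finset.mem_insert] at hs
      rcases hs with rfl | hs
      · refine ⟨P, ?_, hP⟩
        rw [Finsupp.add_apply, Finsupp.single_eq_same]
        have := h3 P
        rw [Finsupp.coe_zero, Pi.zero_apply] at this
        omega
      · obtain ⟨Q, hQ, hQ'⟩ := h7 s hs
        refine ⟨Q, ?_, hQ'⟩
        rw [Finsupp.add_apply]
        have h8 := h3 Q
        have h9 := Spec.single_le_of_nonneg P Q
        rw [Finsupp.coe_zero, Pi.zero_apply] at h8 h9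
        omega

theorem exists_one_lt {P₀ : Place ℂ (FF ℂ N)} (hP₀ : tv N P₀ ∈ KS ∅)
    (hg : 1 ≤ rrGenus ℂ (FF ℂ N)) {m : ℕ} (hm : m ≠ 0) :
    ∃ (S : Set ℂ) (Q₁ : Place ℂ (FF ℂ N)), S.Countable ∧ tv N Q₁ ∉ KS S ∧
      ∀ Q : Place ℂ (FF ℂ N), tv N Q ∉ KS S → ∃ z : Pic0 ℂ (FF ℂ N),
        m • z = cl P₀ (Finsupp.single Q 1) - cl P₀ (Finsupp.single Q₁ 1) := by
  classical
  obtain ⟨T, D, h1, h2, h3, h4, h5, h6, h7⟩ := exists_generic (N := N) (P₀ := P₀) _ le_rfl
  have hkrP₀ : ∀ S : Set ℂ, Kr (KS S) P₀ := fun S =>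
    kr_KS.2 (KS_mono (Set.empty_subset _) hP₀)
  set y := cl P₀ D with hy
  set x := m • y with hx
  have hDmin : minD P₀ y = D := minD_eq P₀ ⟨h3, h6, h5⟩ rfl
  set E := minD P₀ x with hE
  have hEmin := isMin_minD P₀ x
  rw [← hE] at hEmin
  set T' : Finset ℂ := E.support.image (tv N) with hT'
  -- `T ⊆ cl T'`
  have hTT' : (T : Set ℂ) ⊆ (AlgebraicIndependent.matroid ℚ ℂ).closure (T' : Set ℂ) := by
    intro t ht
    obtain ⟨P, hP, rfl⟩ := h7 t ht
    rw [← mem_KS_iff_closure, ← kr_KS]
    refine kr_of_nsmul (K := KS (T' : Set ℂ)) (hkrP₀ _) hm (x := x) (y := y) rfl ?_ P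
      (by rw [hDmin]; exact hP)
    intro Q hQ
    rw [kr_KS]
    apply subset_KS
    rw [hT', Finset.mem_coe, Finset.mem_image]
    exact ⟨Q, Finsupp.mem_support_iff.2 hQ, rfl⟩
  have hrk : ((T.card : ℕ) : ℕ∞) ≤ (AlgebraicIndependent.matroid ℚ ℂ).eRk (T' : Set ℂ) := by
    have := h2.encard_le_eRk_of_subset hTT'
    rw [Matroid.eRk_closure_eq, Set.encard_coe_eq_coe_finsetCard] at this
    exact this
  have hcard1 : T'.card ≤ E.support.card := Finset.card_image_le
  have hcard2 : (E.support.card : ℤ) ≤ Divisor.degree E := by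
    have : Divisor.degree E = ∑ v ∈ E.support, E v := RR.degree_eq E
    rw [this, Finset.card_eq_sum_ones, Nat.cast_sum]
    refine Finset.sum_le_sum fun v hv => ?_
    have h8 := hEmin.nonneg v
    rw [Finsupp.mem_support_iff] at hv
    rw [Finsupp.coe_zero, Pi.zero_apply] at h8
    push_cast
    omega
  have hdegE := degree_minD_le P₀ x
  rw [← hE] at hdegE
  have hT'le : T.card ≤ T'.card := by
    have := hrk.trans ((AlgebraicIndependent.matroid ℚ ℂ).eRk_le_encard _)
    rw [Set.encard_coe_eq_coe_finsetCard] at this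
    exact_mod_cast this
  have hT'card : T'.card = rrGenus ℂ (FF ℂ N) := by omega
  have hsupp : E.support.card = rrGenus ℂ (FF ℂ N) := by omega
  have hdeg : Divisor.degree E = rrGenus ℂ (FF ℂ N) := by omega
  have hT'ind : (AlgebraicIndependent.matroid ℚ ℂ).Indep (T' : Set ℂ) := by
    rw [Matroid.indep_iff_eRk_eq_encard_of_finite T'.finite_toSet]
    apply le_antisymm (Matroid.eRk_le_encard _ _)
    rw [Set.encard_coe_eq_coe_finsetCard, hT'card, ← h1]
    exact hrk
  have hinj : Set.InjOn (tv N) E.support := by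
    apply Finset.card_image_iff.1
    rw [← hT', hT'card, hsupp]
  have hmult : ∀ v ∈ E.support, E v = 1 := by
    by_contra hcon
    push Not at hcon
    obtain ⟨v, hv, hv1⟩ := hcon
    have h8 : ∀ w ∈ E.support, (1 : ℤ) ≤ E w := by
      intro w hw
      have h9 := hEmin.nonneg w
      rw [Finsupp.mem_support_iff] at hw
      rw [Finsupp.coe_zero, Pi.zero_apply] at h9
      omega
    have h10 : (E.support.card : ℤ) < Divisor.degree E := by
      have : Divisor.degree E = ∑ v ∈ E.support, E v := RR.degree_eq E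
      rw [this, Finset.card_eq_sum_ones, Nat.cast_sum]
      refine Finset.sum_lt_sum (fun w hw => by have := h8 w hw; push_cast; exact this)
        ⟨v, hv, ?_⟩
      have := h8 v hv
      push_cast
      omega
    omega
  obtain ⟨Q₁, hQ₁⟩ : E.support.Nonempty := by
    rw [← Finset.card_pos, hsupp]
    omega
  set E' : Divisor ℂ (FF ℂ N) := E - Finsupp.single Q₁ 1 with hE'
  set S : Set ℂ := (((E.support.erase Q₁).image (tv N) : Finset ℂ) : Set ℂ) with hS
  have hQ₁S : tv N Q₁ ∉ KS S := by
    rw [mem_KS_iff_closure]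
    have h8 : (T' : Set ℂ) = insert (tv N Q₁) S := by
      rw [hT', hS, ← Finset.coe_insert, ← Finset.image_insert, Finset.insert_erase hQ₁]
    have h9 : tv N Q₁ ∉ S := by
      rw [hS, Finset.mem_coe, Finset.mem_image]
      rintro ⟨R, hR, hRQ⟩
      rw [Finset.mem_erase] at hR
      exact hR.1 (hinj hR.2 hQ₁ hRQ)
    have h10 : (AlgebraicIndependent.matroid ℚ ℂ).Indep S :=
      hT'ind.subset (by rw [h8]; exact Set.subset_insert _ _)
    rw [h8] at hT'ind
    exact ((h10.insert_indep_iff_of_notMem h9).1 hT'ind).2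
  have hSc : S.Countable := Finset.countable_toSet _
  haveI : Countable S := hSc.to_subtype
  refine ⟨S, Q₁, hSc, hQ₁S, ?_⟩
  intro Q hQ
  obtain ⟨σ, hσ, hσQ⟩ := exists_conj_place (K := KS S) (P := Q₁) (Q := Q)
    (fun h => hQ₁S (kr_KS.1 h)) (fun h => hQ (kr_KS.1 h))
  refine ⟨coeffAut N σ • y - y, ?_⟩
  rw [nsmul_smul_sub m _ hx.symm]
  have h8 : coeffAut N σ • E' = E' := by
    ext v
    rw [SemilinearAut.divisor_smul_apply]
    have h9 : ∀ w, E' w ≠ 0 → Kr (KS S) w := by
      intro w hw
      rw [kr_KS]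
      apply subset_KS
      rw [hS, Finset.mem_coe, Finset.mem_image]
      refine ⟨w, ?_, rfl⟩
      rw [Finset.mem_erase]
      have hne : w ≠ Q₁ := by
        rintro rfl
        apply hw
        rw [hE', Finsupp.sub_apply, Finsupp.single_eq_same, hmult w hQ₁, sub_self]
      refine ⟨hne, ?_⟩
      rw [hE', Finsupp.sub_apply, Finsupp.single_eq_of_ne hne, sub_zero] at hw
      exact Finsupp.mem_support_iff.2 hw
    by_cases hv : E' v = 0
    · rw [hv]
      by_contra h10
      have h11 := (h9 _ h10).smul_eq hσ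
      rw [smul_inv_smul] at h11
      rw [← h11] at h10
      exact h10 hv
    · have h11 := (h9 _ hv).smul_eq hσ
      rw [inv_smul_eq_iff.2 h11.symm]
  have h9 : cl P₀ E = x := cl_minD P₀ x
  have h10 : E = E' + Finsupp.single Q₁ 1 := by rw [hE', sub_add_cancel]
  rw [← h9, ← cl_smul P₀ ((hkrP₀ S).smul_eq hσ), ← map_sub, ← map_sub]
  congr 1
  rw [h10, smul_add, h8, SemilinearAut.smul_single, hσQ]
  abel

/-- **Divisibility over `ℂ`.** -/
theorem divisible_C {m : ℕ} (hm : m ≠ 0) (x : Pic0 ℂ (FF ℂ N)) : ∃ y, m • y = x := by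
  classical
  -- a base point
  obtain ⟨P₀, hP₀⟩ := exists_tv_eq (N := N) 0
  have hP₀' : tv N P₀ ∈ KS ∅ := by rw [hP₀]; exact zero_mem _
  rcases Nat.eq_zero_or_pos (rrGenus ℂ (FF ℂ N)) with hg | hg
  · have h1 := degree_minD_le P₀ x
    rw [hg, Nat.cast_zero] at h1
    have h2 := (isMin_minD P₀ x).nonneg
    have h3 : 0 = minD P₀ x := Spec.eq_of_le_of_degree h2 (by
      rw [map_zero]
      exact h1)
    refine ⟨0, ?_⟩
    rw [smul_zero, ← cl_minD P₀ x, ← h3, map_zero]
  obtain ⟨S, Q₁, hS, hQ₁, h⟩ := exists_one_lt hP₀' hg hm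
  let H : AddSubgroup (Pic0 ℂ (FF ℂ N)) := (nsmulAddMonoidHom (α := Pic0 ℂ (FF ℂ N)) m).range
  have hH : ∀ z, z ∈ H ↔ ∃ y, m • y = z := fun z => Iff.rfl
  haveI : Countable S := hS.to_subtype
  have hcount : {Q : Place ℂ (FF ℂ N) | tv N Q ∈ KS S}.Countable := by
    have : {Q : Place ℂ (FF ℂ N) | tv N Q ∈ KS S} ⊆
        ⋃ t ∈ (KS S : Set ℂ), {P : Place ℂ (FF ℂ N) | tv N P = t} := by
      intro Q hQ
      simp only [Set.mem_iUnion]
      exact ⟨_, hQ, rfl⟩
    refine Set.Countable.mono this ?_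
    refine Set.Countable.biUnion ?_ fun t _ => (finite_fiber t).countable
    exact (inferInstance : Countable (KS S))
  have key : ∀ R : Place ℂ (FF ℂ N),
      cl P₀ (Finsupp.single R 1) - cl P₀ (Finsupp.single Q₁ 1) ∈ H := by
    intro R
    obtain ⟨c, hc⟩ := exists_single_pole R
    have hn : ∀ n : ℕ, c ≤ n →
        n • (cl P₀ (Finsupp.single R 1) - cl P₀ (Finsupp.single Q₁ 1)) ∈ H := by
      intro n hn
      obtain ⟨f, hf, hfp⟩ := hc n hn
      obtain ⟨α, hα⟩ : ∃ α : ℂ, α ∉ (fun Q => ev Q f) '' {Q : Place ℂ (FF ℂ N) | tv N Q ∈ KS S} := by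
        by_contra hcon
        push Not at hcon
        exact not_countable_complex ((hcount.image _).mono fun x _ => hcon x)
      obtain ⟨Z, -, hZd, hZ, hcl⟩ := cl_fiber (P₀ := P₀) hf hfp α
      have h1 := cl_sub_mem (P₀ := P₀) (Q₁ := Q₁) H Z (by
        intro Q hQ
        rw [hH]
        apply h
        intro hQ'
        exact hα ⟨Q, hQ', hZ Q hQ⟩)
      rw [hcl, hZd, natCast_zsmul, ← nsmul_sub] at h1
      exact h1
    have h1 := hn c le_rfl
    have h2 := hn (c + 1) (Nat.le_succ c)
    have h3 := H.sub_mem h2 h1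
    rw [succ_nsmul, add_sub_cancel_left] at h3
    exact h3
  have hQ₁H : cl P₀ (Finsupp.single Q₁ 1) ∈ H := by
    have := H.neg_mem (key P₀)
    rwa [cl_single_self, zero_sub, neg_neg] at this
  have h1 := cl_sub_mem (P₀ := P₀) (Q₁ := Q₁) H (minD P₀ x) (fun Q _ => key Q)
  rw [cl_minD] at h1
  have h2 := H.add_mem h1 (H.zsmul_mem hQ₁H (Divisor.degree (minD P₀ x)))
  rw [sub_add_cancel, hH] at h2
  exact h2

end Fermat.Agent.MW
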