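import Fermat.Agent.MW.DivC

/-!
# Divisibility of the Jacobian over algebraically closed subfields of `ℂ`
-/

set_option autoImplicit false
set_option linter.unusedSectionVars false
set_option linter.style.haveILetI false

noncomputable section

namespace Fermat.Agent.MW

open AlgebraicCurve ModularCurve Fermat.Agent.RR Fermat.Agent.Curve IntermediateField Module
open Fermat.Agent.ModPoly Fermat.Agent.Spec

section

variable {k Ω F 𝓕 : Type*} [Field k] [Field Ω] [Field F] [Field 𝓕]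
  [Algebra k F] [Algebra Ω 𝓕] [Algebra k Ω] [Algebra F 𝓕]
  [IsAlgClosed k] [IsAlgClosed Ω] [FunField k F] [FunField Ω 𝓕] [hC : CExt k Ω F 𝓕]

/-- divisors supported on constant points are constant -/
theorem exists_bcD (D : Divisor Ω 𝓕) (h : ∀ P, D P ≠ 0 → ∃ Q : Place k F, P = bcP Ω 𝓕 Q) :
    ∃ E : Divisor k F, bcD Ω 𝓕 E = D := by
  classical
  haveI : Nonempty (Place k F) := Spec.exists_place k F
  choose! q hq using h
  refine ⟨∑ P ∈ D.support, Finsupp.single (q P) (D P), ?_⟩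
  rw [map_sum]
  conv_rhs => rw [← Finsupp.sum_single D]
  rw [Finsupp.sum]
  refine Finset.sum_congr rfl fun P hP => ?_
  rw [bcD_single, ← hq P (Finsupp.mem_support_iff.1 hP)]

theorem cl_bcD_eq_zero (hg : rrGenus k F = rrGenus Ω 𝓕) {P₁ : Place k F} {D : Divisor k F} :
    cl (bcP Ω 𝓕 P₁) (bcD Ω 𝓕 D) = 0 ↔ cl P₁ D = 0 := by
  rw [cl_eq_zero, cl_eq_zero, degree_bcD, ← bcD_single, ← map_sub]
  constructor
  · intro h
    obtain ⟨f, hf, hfd⟩ := Spec.isPrincipal_iff.1 h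
    obtain ⟨f', hf', h'⟩ := isPrincipal_of_bcD hg hf hfd.symm
    exact Spec.isPrincipal_iff.2 ⟨f', hf', h'.symm⟩
  · intro h
    obtain ⟨f, hf, hfd⟩ := Spec.isPrincipal_iff.1 h
    rw [hfd, ← divisor_bc]
    exact Spec.isPrincipal_divisor (bc_ne_zero hf)

end

attribute [local instance] ffAlg ffCExt funField_ff

variable {N : ℕ} [NeZero N]

/-- **Divisibility.** -/
theorem divisible (K : Type) [Field K] [IsAlgClosed K] [CharZero K] [Algebra K ℂ] {m : ℕ}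
    (hm : m ≠ 0) (x : Pic0 K (FF K N)) : ∃ y, m • y = x := by
  classical
  letI : Algebra ℚ K := DivisionRing.toRatAlgebra
  have hg : rrGenus K (FF K N) = rrGenus ℂ (FF ℂ N) := genus_ff (RingHom.id ℂ)
  obtain ⟨P₁, -⟩ := exists_place_avoid (K := K) (F := FF K N) ∅
  obtain ⟨D, rfl⟩ := cl_surjective P₁ x
  obtain ⟨P₀, hP₀⟩ : ∃ P₀, P₀ = bcP ℂ (FF ℂ N) P₁ := ⟨_, rfl⟩
  have hkr : Kr K P₀ := (kr_iff P₀).2 ⟨P₁, hP₀⟩
  obtain ⟨y, hy⟩ := divisible_C (N := N) hm (cl P₀ (bcD ℂ (FF ℂ N) D))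
  have h1 : ∀ P, minD P₀ (cl P₀ (bcD ℂ (FF ℂ N) D)) P ≠ 0 → Kr K P := by
    apply kr_of_finite_orbit hkr
    refine (Set.finite_singleton (cl P₀ (bcD ℂ (FF ℂ N) D))).subset ?_
    rintro _ ⟨σ, hσ, rfl⟩
    rw [Set.mem_singleton_iff, ← cl_smul P₀ (hkr.smul_eq hσ), hσ.fixF.smul_bcD]
  have h2 := kr_of_nsmul hkr hm hy h1
  obtain ⟨E, hE⟩ := exists_bcD (k := K) (F := FF K N) (minD P₀ y) (fun P hP => (kr_iff P).1 (h2 P hP))
  refine ⟨cl P₁ E, ?_⟩
  rw [← sub_eq_zero, ← map_nsmul, ← map_sub]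
  apply (cl_bcD_eq_zero hg).1
  rw [← hP₀, map_sub, map_sub, map_nsmul, map_nsmul, hE, cl_minD, hy, sub_self]

end Fermat.Agent.MW
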