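import Fermat.Agent.MW.MkCRed

/-!
# The divisor of a differential
-/

set_option autoImplicit false
set_option linter.unusedSectionVars false
set_option linter.style.haveILetI false

noncomputable section

namespace Fermat.Agent.MW

open AlgebraicCurve Fermat.Agent.RR Fermat.Agent.Curve IntermediateField Module

section

variable {k F : Type*} [Field k] [IsAlgClosed k] [CharZero k] [Field F] [Algebra k F] [FunField k F]

theorem D_ne_zero' {w : F} (hw : Transcendental k w) : KaehlerDifferential.D k F w ≠ 0 := by
  haveI := fd (K := k) hw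
  obtain ⟨P⟩ := Spec.exists_place k F
  haveI := nontrivial_kaehler w P
  intro h0
  have h1 : Submodule.span F {KaehlerDifferential.D k F w} = (⊤ : Submodule F _) :=
    kaehler_span w
  rw [h0, Submodule.span_zero_singleton] at h1
  exact bot_ne_top h1

theorem exists_dw {w : F} (hw : Transcendental k w) : ∃ Kw : Divisor k F,
    (∀ v : Place k F, Kw v = v.ordDifferential (KaehlerDifferential.D k F w)) ∧ IsDw w Kw := by
  classical
  haveI := fd (K := k) hw
  have hpole : ∀ v : Place k F, v.ord w < 0 →
      v.ordDifferential (KaehlerDifferential.D k F w) = v.ord w - 1 := by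
    intro v hv
    have := ordDifferential_smul_D w v (g := 1) (x := w) one_ne_zero hv.ne
    rw [one_smul, v.ord_one, zero_add] at this
    exact this
  have hfin : ∀ v : Place k F, Ge v 0 w → v.ordDifferential (KaehlerDifferential.D k F w) =
      v.ord (w - algebraMap k F (ev v w)) - 1 := by
    intro v hv
    have h0 : w - algebraMap k F (ev v w) ≠ 0 := by
      intro h
      apply hw
      rw [sub_eq_zero.1 h]
      exact isAlgebraic_algebraMap _
    have h1 := (ev_spec hv).le_ord h0
    have := ordDifferential_smul_D w v (g := 1) (x := w - algebraMap k F (ev v w)) one_ne_zero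
      (by omega)
    rw [one_smul, v.ord_one, zero_add, map_sub, Derivation.map_algebraMap, sub_zero] at this
    exact this
  have hS : {v : Place k F | v.ordDifferential (KaehlerDifferential.D k F w) ≠ 0}.Finite := by
    have h1 : {v : Place k F | v.ord w < 0}.Finite := (poles_sum w hw).choose
    refine (h1.union (finite_ram hw)).subset ?_
    intro v hv
    by_cases h : v.ord w < 0
    · exact Or.inl h
    · right
      have h2 : Ge v 0 w := Ge.of_le (not_lt.1 h)
      refine ⟨h2, fun h3 => hv ?_⟩
      rw [hfin v h2, h3]
      norm_num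
  refine ⟨Finsupp.ofSupportFinite (fun v => v.ordDifferential (KaehlerDifferential.D k F w)) hS,
    fun v => rfl, ?_⟩
  intro P
  have ht : Transcendental k (zc k F P) :=
    transcendental_of_ord_ne_zero P (by rw [zc_ord]; norm_num)
  haveI := fd (K := k) ht
  have hmem : KaehlerDifferential.D k F w ∈
      Submodule.span F {KaehlerDifferential.D k F (zc k F P)} := by
    rw [kaehler_span]; trivial
  obtain ⟨g, hg⟩ := Submodule.mem_span_singleton.1 hmem
  have hg0 : g ≠ 0 := by
    rintro rfl
    rw [zero_smul] at hg
    haveI := nontrivial_kaehler w P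
    have h1 : Submodule.span F {KaehlerDifferential.D k F w} = (⊤ : Submodule F _) :=
      kaehler_span w
    rw [← hg, Submodule.span_zero_singleton] at h1
    exact bot_ne_top h1
  refine ⟨g, hg0, ?_, hg.symm⟩
  have h1 := ordDifferential_smul_D (zc k F P) P (g := g) (x := zc k F P) hg0
    (by rw [zc_ord]; norm_num)
  rw [hg, zc_ord] at h1
  change P.ord g = P.ordDifferential _
  rw [h1]
  ring

end

section

open ModularCurve Fermat.Agent.ModPoly Fermat.Agent.RedMod Fermat.Agent.X0Genus

variable {K : Type*} [Field K] [IsAlgClosed K] [CharZero K] (N : ℕ) [NeZero N]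

theorem degree_canonical_of_eq [Algebra ℚ K] (ι : K →+* ℂ)
    (E : IntermediateField K (LaurentSeries K))
    (hE : laurentBaseChange K (modularFunctionFieldFull N) = E)
    {ω : Ω[E⁄K]} (hω : ω ≠ 0) (D : Divisor K E) (hD : ∀ v, D v = v.ordDifferential ω) :
    ((Divisor.degree D : ℤ) : ℚ) = 2 * genusFormula N - 2 := by
  subst hE
  exact degree_canonical_X0 K N ι hω D hD

theorem degree_dw (ι : K →+* ℂ) [FunField K (FF K N)] {w : FF K N} (hw : Transcendental K w)
    {Kw : Divisor K (FF K N)}
    (hK : ∀ v : Place K (FF K N), Kw v = v.ordDifferential (KaehlerDifferential.D K (FF K N) w)) :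
    Divisor.degree Kw = 2 * (rrGenus K (FF K N) : ℤ) - 2 := by
  letI : Algebra ℚ K := DivisionRing.toRatAlgebra
  have hω : KaehlerDifferential.D K (FF K N) w ≠ 0 := D_ne_zero' hw
  have h1 := degree_canonical_of_eq N ι (FF K N) (baseChange_eq K N) hω Kw hK
  rw [← rrGenus_K (K := K) (N := N) ι] at h1
  exact_mod_cast h1

end

end Fermat.Agent.MW
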