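import Fermat.Agent.MW.Local
import Fermat.Agent.MW.Ram

/-!
# Families of reductions over a curve; local intersection numbers
-/

set_option autoImplicit false
set_option linter.unusedSectionVars false
set_option linter.style.haveILetI false

namespace Fermat.Agent.MW

open AlgebraicCurve Fermat.Agent.RR Fermat.Agent.Curve IntermediateField Module

variable {k Ω F 𝓕 : Type*} [Field k] [Field Ω] [Field F] [Field 𝓕]
  [Algebra k F] [Algebra Ω 𝓕] [Algebra k Ω] [Algebra F 𝓕]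
  [IsAlgClosed k] [IsAlgClosed Ω] [FunField k F] [FunField Ω 𝓕] [hC : CExt k Ω F 𝓕]

/-! ### generic points -/

variable (k F) in
/-- a nonconstant point -/
def Gen (Q : Place Ω 𝓕) : Prop := ∀ P : Place k F, Q ≠ bcP Ω 𝓕 P

theorem Gen.ord {Q : Place Ω 𝓕} (hQ : Gen k F Q) (f : F) : Q.ord (bc F 𝓕 f) = 0 := by
  rcases dichotomy (K := k) (F := F) Q with ⟨P, hP⟩ | h
  · exact absurd hP (hQ P)
  · exact h f

theorem Gen.ge {Q : Place Ω 𝓕} (hQ : Gen k F Q) (f : F) : Ge Q 0 (bc F 𝓕 f) :=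
  Ge.of_le (hQ.ord f).ge

/-- values of constant functions at a nonconstant point -/
noncomputable def psi {Q : Place Ω 𝓕} (hQ : Gen k F Q) : F →+* Ω where
  toFun f := ev Q (bc F 𝓕 f)
  map_one' := by rw [map_one, ev_one]
  map_zero' := by rw [map_zero, ev_zero]
  map_add' f g := by rw [map_add, ev_add (hQ.ge f) (hQ.ge g)]
  map_mul' f g := by rw [map_mul, ev_mul (hQ.ge f) (hQ.ge g)]

theorem psi_apply {Q : Place Ω 𝓕} (hQ : Gen k F Q) (f : F) : psi hQ f = ev Q (bc F 𝓕 f) := rfl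

/-! ### differentials -/

section Der

/-- `Ω` as a module over `F`. -/
def OMod (_h : F →+* Ω) : Type _ := Ω

noncomputable instance (h : F →+* Ω) : AddCommGroup (OMod h) :=
  inferInstanceAs (AddCommGroup Ω)

noncomputable instance (h : F →+* Ω) : Module F (OMod h) :=
  Module.compHom Ω h

noncomputable instance (h : F →+* Ω) : Module k (OMod h) :=
  Module.compHom Ω (h.comp (algebraMap k F))

instance (h : F →+* Ω) : IsScalarTower k F (OMod h) where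
  smul_assoc a f x := by
    let x' : Ω := x
    change h (a • f) * x' = h (algebraMap k F a) * (h f * x')
    rw [Algebra.smul_def, map_mul, mul_assoc]

/-- the tangent derivation at a nonconstant point -/
noncomputable def tder {Q : Place Ω 𝓕} (hQ : Gen k F Q) {u : 𝓕} (hu : Q.ord u = 1) (hu0 : u ≠ 0) :
    Derivation k F (OMod (psi hQ)) where
  toFun f := (ev Q ((bc F 𝓕 f - algebraMap Ω 𝓕 (ev Q (bc F 𝓕 f))) * u⁻¹) : Ω)
  map_add' f g := by
    have hf := ((ev_spec (hQ.ge f)).mul (Ge.of_le (le_refl (Q.ord u⁻¹)))).mono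
      (by rw [Q.ord_inv, hu]; norm_num : (0 : ℤ) ≤ 1 + Q.ord u⁻¹)
    have hg := ((ev_spec (hQ.ge g)).mul (Ge.of_le (le_refl (Q.ord u⁻¹)))).mono
      (by rw [Q.ord_inv, hu]; norm_num : (0 : ℤ) ≤ 1 + Q.ord u⁻¹)
    change ev Q _ = ev Q _ + ev Q _
    rw [← ev_add hf hg]
    congr 1
    rw [map_add, ev_add (hQ.ge f) (hQ.ge g), map_add]
    ring
  map_smul' a f := by
    have hf := ((ev_spec (hQ.ge f)).mul (Ge.of_le (le_refl (Q.ord u⁻¹)))).mono
      (by rw [Q.ord_inv, hu]; norm_num : (0 : ℤ) ≤ 1 + Q.ord u⁻¹)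
    change ev Q _ = psi hQ (algebraMap k F a) * ev Q _
    rw [psi_apply, bc, hC.comm, ev_algebraMap]
    have h0 : algebraMap k Ω a * ev Q ((bc F 𝓕 f - algebraMap Ω 𝓕 (ev Q (bc F 𝓕 f))) * u⁻¹) =
        ev Q (algebraMap Ω 𝓕 (algebraMap k Ω a) *
          ((bc F 𝓕 f - algebraMap Ω 𝓕 (ev Q (bc F 𝓕 f))) * u⁻¹)) := by
      rw [ev_mul (Ge.algebraMap Q _) hf, ev_algebraMap]
    refine Eq.trans ?_ h0.symm
    congr 1
    have h1 : algebraMap F 𝓕 (a • f) = algebraMap Ω 𝓕 (algebraMap k Ω a) * algebraMap F 𝓕 f := by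
      rw [Algebra.smul_def, map_mul, hC.comm]
    rw [h1, ev_mul (Ge.algebraMap Q _) (hQ.ge f), ev_algebraMap, map_mul]
    ring
  map_one_eq_zero' := by
    change ev Q _ = 0
    rw [map_one, ev_one, map_one, sub_self, zero_mul, ev_zero]
  leibniz' f g := by
    have hf := ((ev_spec (hQ.ge f)).mul (Ge.of_le (le_refl (Q.ord u⁻¹)))).mono
      (by rw [Q.ord_inv, hu]; norm_num : (0 : ℤ) ≤ 1 + Q.ord u⁻¹)
    have hg := ((ev_spec (hQ.ge g)).mul (Ge.of_le (le_refl (Q.ord u⁻¹)))).mono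
      (by rw [Q.ord_inv, hu]; norm_num : (0 : ℤ) ≤ 1 + Q.ord u⁻¹)
    change ev Q _ = psi hQ f * ev Q _ + psi hQ g * ev Q _
    rw [psi_apply, psi_apply]
    have h1 : ev Q (bc F 𝓕 g) * ev Q ((bc F 𝓕 f - algebraMap Ω 𝓕 (ev Q (bc F 𝓕 f))) * u⁻¹) =
        ev Q (bc F 𝓕 g * ((bc F 𝓕 f - algebraMap Ω 𝓕 (ev Q (bc F 𝓕 f))) * u⁻¹)) :=
      (ev_mul (hQ.ge g) hf).symm
    have h2 : ev Q (bc F 𝓕 f) * ev Q ((bc F 𝓕 g - algebraMap Ω 𝓕 (ev Q (bc F 𝓕 g))) * u⁻¹) =
        ev Q (algebraMap Ω 𝓕 (ev Q (bc F 𝓕 f)) *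
          ((bc F 𝓕 g - algebraMap Ω 𝓕 (ev Q (bc F 𝓕 g))) * u⁻¹)) := by
      rw [ev_mul (Ge.algebraMap Q _) hg, ev_algebraMap]
    rw [h1, h2, ← ev_add (((Ge.algebraMap Q _).mul hg).mono (by norm_num))
      (((hQ.ge g).mul hf).mono (by norm_num))]
    congr 1
    rw [map_mul, ev_mul (hQ.ge f) (hQ.ge g), map_mul]
    ring

/-- the value of the tangent derivation -/
noncomputable def tdv (Q : Place Ω 𝓕) (u : 𝓕) (f : F) : Ω :=
  ev Q ((bc F 𝓕 f - algebraMap Ω 𝓕 (ev Q (bc F 𝓕 f))) * u⁻¹)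

theorem tdv_smul {Q : Place Ω 𝓕} (hQ : Gen k F Q) {u : 𝓕} (hu : Q.ord u = 1) (hu0 : u ≠ 0)
    {w z g : F} (h : KaehlerDifferential.D k F w = g • KaehlerDifferential.D k F z) :
    tdv Q u w = ev Q (bc F 𝓕 g) * tdv Q u z := by
  have h1 := congrArg (tder hQ hu hu0).liftKaehlerDifferential h
  rw [map_smul, Derivation.liftKaehlerDifferential_comp_D,
    Derivation.liftKaehlerDifferential_comp_D] at h1
  exact h1

end Der

theorem kap_eq (R : CRed k Ω F 𝓕) {w : F} (hw : Good k Ω 𝓕 w) {P : Place k F} {Q : Place Ω 𝓕}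
    (hQ : R.rp Q = P) (hgen : Gen k F Q) {g : F}
    (hg : KaehlerDifferential.D k F w = g • KaehlerDifferential.D k F (zc k F P)) :
    kap w P Q = ev Q (bc F 𝓕 g) := by
  obtain ⟨h1, h2, -, -⟩ := R.hh_spec hQ
  have h3 := tdv_smul hgen h1 h2 hg
  have h4 : tdv Q (hh 𝓕 P Q) (zc k F P) = 1 := by
    change ev Q (hh 𝓕 P Q * (hh 𝓕 P Q)⁻¹) = 1
    rw [mul_inv_cancel₀ h2, ev_one]
  rw [h4, mul_one] at h3
  rw [← h3, tdv, kap, U_generic w hgen]

theorem kap_const (w : F) (P : Place k F) : kap w P (bcP Ω 𝓕 P) = 1 := by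
  have h0 : ev (bcP Ω 𝓕 P) (bc F 𝓕 (zc k F P)) = 0 := by
    rw [ev_eq_zero_iff (Ge.of_le (by rw [bcP_ord, zc_ord]; norm_num))]
    exact Ge.of_le (by rw [bcP_ord, zc_ord])
  rw [kap, U_bcP, hh, h0, map_zero, sub_zero, mul_inv_cancel₀ (bc_ne_zero (zc_ne P)), ev_one]

/-! ### separating points -/

/-- there are many constant places -/
theorem exists_place_avoid {K F : Type*} [Field K] [IsAlgClosed K] [Field F] [Algebra K F]
    [FunField K F] (S : Finset (Place K F)) : ∃ P : Place K F, P ∉ S := by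
  classical
  obtain ⟨t, ht, _⟩ := (inferInstance : FunField K F).out
  by_contra hcon
  push Not at hcon
  -- finitely many values
  haveI : Infinite K := IsAlgClosed.instInfinite
  obtain ⟨a, ha⟩ := Infinite.exists_notMem_finset (S.image fun v => ev v t)
  have h1 : t - algebraMap K F a ≠ 0 := by
    intro h0
    apply ht
    rw [sub_eq_zero.1 h0]
    exact isAlgebraic_algebraMap a
  have h2 : Transcendental K (t - algebraMap K F a) := by
    intro h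
    apply ht
    have := h.add (isAlgebraic_algebraMap (A := F) a)
    simpa using this
  obtain ⟨v, hv⟩ := exists_zero' h2
  apply ha
  rw [Finset.mem_image]
  exact ⟨v, hcon v, ev_unique (Ge.of_le (by omega))⟩

theorem exists_sep (hg : rrGenus k F = rrGenus Ω 𝓕) {Q Q' : Place Ω 𝓕} (hne : Q ≠ Q')
    {P₀ : Place k F} (h1 : Q ≠ bcP Ω 𝓕 P₀) (h2 : Q' ≠ bcP Ω 𝓕 P₀) :
    ∃ f : F, (∀ P : Place k F, P ≠ P₀ → Ge P 0 f) ∧ Ge Q 0 (bc F 𝓕 f) ∧ Ge Q' 0 (bc F 𝓕 f) ∧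
      ev Q (bc F 𝓕 f) ≠ ev Q' (bc F 𝓕 f) := by
  classical
  obtain ⟨c, hc⟩ := Spec.exists_tight Ω 𝓕
  let n : ℕ := c.toNat + 1
  obtain ⟨x, hx, hx0, hxv⟩ := hc (Finsupp.single (bcP Ω 𝓕 P₀) (n : ℤ) - Finsupp.single Q 1) (by
    rw [map_sub, degree_single', degree_single']; omega) {Q'}
  have hxQ' := hxv Q' (Finset.mem_singleton_self Q')
  rw [Finsupp.sub_apply, Finsupp.single_eq_of_ne h2, Finsupp.single_eq_of_ne hne.symm] at hxQ'
  have hxQ : Ge Q 1 x := by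
    have := (mem_L.1 hx) Q
    rw [Finsupp.sub_apply, Finsupp.single_eq_of_ne h1, Finsupp.single_eq_same] at this
    simpa using this
  have hxL : x ∈ SL Ω 𝓕 (Finsupp.single P₀ (n : ℤ)) := by
    rw [SL_eq hg, bcD_single]
    refine L_mono ?_ hx
    rw [sub_le_self_iff]
    exact Spec.single_le_of_nonneg Q
  by_contra hcon
  push Not at hcon
  have key : ∀ f ∈ riemannRochSpace (Finsupp.single P₀ (n : ℤ) : Divisor k F),
      (∀ P : Place k F, P ≠ P₀ → Ge P 0 f) ∧ Ge Q 0 (bc F 𝓕 f) ∧ Ge Q' 0 (bc F 𝓕 f) := by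
    intro f hf
    have hf' := bc_mem_L (K' := Ω) (F' := 𝓕).2 hf
    rw [bcD_single] at hf'
    refine ⟨fun P hP => ?_, ?_, ?_⟩
    · have := (mem_L.1 hf) P
      rwa [Finsupp.single_eq_of_ne hP, neg_zero] at this
    · have := (mem_L.1 hf') Q
      rwa [Finsupp.single_eq_of_ne h1, neg_zero] at this
    · have := (mem_L.1 hf') Q'
      rwa [Finsupp.single_eq_of_ne h2, neg_zero] at this
  have key2 : ∀ y ∈ SL Ω 𝓕 (Finsupp.single P₀ (n : ℤ)), Ge Q 0 y ∧ Ge Q' 0 y ∧ ev Q y = ev Q' y := by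
    intro y hy
    rw [SL] at hy
    induction hy using Submodule.span_induction with
    | mem y hy =>
      obtain ⟨f, hf, rfl⟩ := hy
      obtain ⟨h3, h4, h5⟩ := key f hf
      exact ⟨h4, h5, hcon f h3 h4 h5⟩
    | zero => exact ⟨Ge.zero _ _, Ge.zero _ _, by rw [ev_zero, ev_zero]⟩
    | add y z _ _ hy hz =>
      exact ⟨hy.1.add hz.1, hy.2.1.add hz.2.1, by
        rw [ev_add hy.1 hz.1, ev_add hy.2.1 hz.2.1, hy.2.2, hz.2.2]⟩
    | smul a y _ hy =>
      refine ⟨hy.1.smul a, hy.2.1.smul a, ?_⟩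
      rw [Algebra.smul_def, ev_mul (Ge.algebraMap Q a) hy.1, ev_mul (Ge.algebraMap Q' a) hy.2.1,
        ev_algebraMap, ev_algebraMap, hy.2.2]
  obtain ⟨h3, h4, h5⟩ := key2 x hxL
  rw [(ev_eq_zero_iff h3).2 hxQ] at h5
  exact ev_ne_zero hx0 (by simpa using hxQ') h5.symm

end Fermat.Agent.MW
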