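import Fermat.Agent.MW.KumInf

/-!
# The weak Mordell-Weil theorem, abstract form
-/

set_option autoImplicit false
set_option linter.unusedSectionVars false
set_option linter.style.haveILetI false

noncomputable section

namespace Fermat.Agent.MW

attribute [-instance] DivisionRing.toRatAlgebra

variable {L : Type*} [Field L] [CharZero L] [Algebra ℚ L] [IsGalois ℚ L] [IsAlgClosed L]
variable {J : Type*} [AddCommGroup J] [DistribMulAction (L ≃ₐ[ℚ] L) J]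

/-- finite support -/
def Smooth (y : J) : Prop :=
  ∃ B : Set L, B.Finite ∧ ∀ σ : L ≃ₐ[ℚ] L, (∀ b ∈ B, σ b = b) → σ • y = y

theorem exists_dual {p : ℕ} [Fact p.Prime] {V : Type*} [AddCommGroup V] (hV : ∀ v : V, p • v = 0)
    {v : V} (hv : ∀ φ : V →+ ZMod p, φ v = 0) : v = 0 := by
  letI i1 : Module (ZMod p) V := AddCommGroup.zmodModule hV
  have i2 : @Module.Free (ZMod p) V _ _ i1 := @Module.Free.of_divisionRing (ZMod p) V _ _ i1
  have i3 : @Module.Projective (ZMod p) _ V _ i1 := @Module.Projective.of_free (ZMod p) _ V _ i1 i2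
  have h := @Module.forall_dual_apply_eq_zero_iff V _ (ZMod p) _ i1 i3 v
  exact h.1 fun φ => hv φ.toAddMonoidHom

theorem weak_mw {p : ℕ} [Fact p.Prime]
    (htors : {x : J | p • x = 0}.Finite)
    (hdiv : ∀ x : J, ∃ y, p • y = x)
    (hsm : ∀ y : J, Smooth (L := L) y)
    {S : Set ℕ} (hS : S.Finite) (hS0 : 0 ∉ S)
    (hI : ∀ ℓ : ℕ, ℓ.Prime → ℓ ∉ S → ∀ A : ValuationSubring L, A.LiesOverPrime ℓ →
        ∀ σ ∈ A.inertiaSubgroupIn ℚ, ∀ y : J, σ • (p • y) = p • y → σ • y = y) :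
    ∃ R : Set J, R.Finite ∧ (∀ r ∈ R, ∀ σ : L ≃ₐ[ℚ] L, σ • r = r) ∧
      ∀ x : J, (∀ σ : L ≃ₐ[ℚ] L, σ • x = x) → ∃ r ∈ R, ∃ y : J,
        (∀ σ : L ≃ₐ[ℚ] L, σ • y = y) ∧ p • y = x - r := by
  classical
  haveI : NeZero p := ⟨(Fact.out : p.Prime).ne_zero⟩
  haveI : NeZero (p : L) := ⟨Nat.cast_ne_zero.2 (NeZero.ne p)⟩
  let V : AddSubgroup J := (nsmulAddMonoidHom p : J →+ J).ker
  have hV : ∀ v : V, p • v = 0 := fun v => Subtype.ext v.2
  haveI : Finite V := htors.to_subtype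
  obtain ⟨ζ, hζ⟩ := HasEnoughRootsOfUnity.exists_primitiveRoot L p
  choose B hB hBσ using hsm
  have hB₀ : (insert ζ (⋃ v : V, B v)).Finite := (Set.finite_iUnion fun v : V => hB v).insert ζ
  obtain ⟨K₀, hK₀fin, -, -, hK₀⟩ := exists_big (⊥ : IntermediateField ℚ L) hB₀
  have hζK : ζ ∈ K₀ := hK₀ (Set.mem_insert _ _)
  have hKV : ∀ σ ∈ K₀.fixingSubgroup, ∀ v : V, σ • (v : J) = v := by
    intro σ hσ v
    refine hBσ v σ fun b hb => hσ ⟨b, hK₀ (Set.mem_insert_of_mem _ (Set.mem_iUnion.2 ⟨v, hb⟩))⟩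
  obtain ⟨T', hT'fin, hT'⟩ := kummer_finite K₀ hζ hζK hS hS0
  obtain ⟨K', hK'fin, -, hK₀K', hT'K'⟩ := exists_big K₀ hT'fin
  choose d hd using hdiv
  -- the cocycle
  have hc : ∀ x : J, (∀ σ : L ≃ₐ[ℚ] L, σ • x = x) → ∀ σ : L ≃ₐ[ℚ] L, σ • d x - d x ∈ V := by
    intro x hx σ
    change p • (σ • d x - d x) = 0
    have h0 : σ • (p • d x) = p • (σ • d x) :=
      (DistribSMul.toAddMonoidHom J σ).map_nsmul _ _
    rw [nsmul_sub, ← h0, hd, hx, sub_self]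
  have htriv : ∀ x : J, (∀ σ : L ≃ₐ[ℚ] L, σ • x = x) → ∀ σ : L ≃ₐ[ℚ] L,
      (∀ b : K', σ b = b) → σ • d x = d x := by
    intro x hx σ hσ
    have hσ0 : σ ∈ K₀.fixingSubgroup := fun b => hσ ⟨b, hK₀K' b.2⟩
    rw [← sub_eq_zero]
    let c : (L ≃ₐ[ℚ] L) → V := fun τ => ⟨τ • d x - d x, hc x hx τ⟩
    suffices h : c σ = 0 from congrArg Subtype.val h
    refine exists_dual hV fun φ => ?_
    refine hT' (fun τ => φ (c τ)) ?_ ?_ ?_ σ hσ0 fun b hb => hσ ⟨b, hT'K' hb⟩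
    · intro σ hσ τ hτ
      rw [← map_add]
      congr 1
      apply Subtype.ext
      change (σ * τ) • d x - d x = (σ • d x - d x) + (τ • d x - d x)
      have h1 := hKV σ hσ (c τ)
      change σ • (τ • d x - d x) = τ • d x - d x at h1
      rw [smul_sub] at h1
      rw [mul_smul, ← h1]
      abel
    · refine ⟨B (d x), hB _, fun σ _ h => ?_⟩
      have h1 : c σ = 0 := Subtype.ext (by
        change σ • d x - d x = 0
        rw [hBσ (d x) σ h, sub_self])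
      rw [h1, map_zero]
    · intro ℓ hℓ hℓS A hA σ hσ _
      have h1 : c σ = 0 := Subtype.ext (by
        change σ • d x - d x = 0
        rw [hI ℓ hℓ hℓS A hA σ hσ (d x) (by rw [hd, hx]), sub_self])
      rw [h1, map_zero]
  -- finitely many classes
  let e : (L ≃ₐ[ℚ] L) → (K' →ₐ[ℚ] L) := fun σ => (σ : L →ₐ[ℚ] L).comp K'.val
  have he : ∀ x : J, (∀ σ : L ≃ₐ[ℚ] L, σ • x = x) → ∀ σ τ : L ≃ₐ[ℚ] L, e σ = e τ →
      σ • d x = τ • d x := by
    intro x hx σ τ h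
    have h1 : (τ⁻¹ * σ) • d x = d x := htriv x hx _ fun b => by
      have h2 : σ b = τ b := DFunLike.congr_fun h b
      change τ⁻¹ (σ b) = b
      rw [h2]
      exact τ.symm_apply_apply _
    rw [mul_smul, inv_smul_eq_iff] at h1
    exact h1
  haveI : Finite (K' →ₐ[ℚ] L) := inferInstance
  choose s hs using fun φ : Set.range e => φ.2
  let f : J → (Set.range e → Option V) := fun x φ =>
    if hx : ∀ σ : L ≃ₐ[ℚ] L, σ • x = x then some ⟨s φ • d x - d x, hc x hx (s φ)⟩ else none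
  obtain ⟨R, hRs, hR, hRf⟩ := exists_reps_fun f {x : J | ∀ σ : L ≃ₐ[ℚ] L, σ • x = x}
  refine ⟨R, hR, fun r hr => hRs hr, fun x hx => ?_⟩
  obtain ⟨r, hr, hfr⟩ := hRf x hx
  have hrx : ∀ σ : L ≃ₐ[ℚ] L, σ • r = r := hRs hr
  refine ⟨r, hr, d x - d r, fun σ => ?_, by rw [nsmul_sub, hd, hd]⟩
  have h1 := congrFun hfr ⟨e σ, σ, rfl⟩
  simp only [f, dif_pos hx, dif_pos hrx, Option.some.injEq, Subtype.mk.injEq] at h1
  have h2 : ∀ x : J, (∀ σ : L ≃ₐ[ℚ] L, σ • x = x) →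
      s ⟨e σ, σ, rfl⟩ • d x = σ • d x := fun x hx => he x hx _ _ (hs _)
  rw [h2 x hx, h2 r hrx] at h1
  rw [smul_sub]
  have h3 : σ • d x = σ • d r - d r + d x := by rw [← h1]; abel
  rw [h3]
  abel

/-- iteration -/
theorem weak_mw_pow {J : Type*} [AddCommGroup J] {G : AddSubgroup J} {p : ℕ} {R : Set J}
    (hR : R.Finite) (hRG : R ⊆ G) (h : ∀ x ∈ G, ∃ r ∈ R, ∃ y ∈ G, p • y = x - r) (n : ℕ) :
    ∃ R' : Set J, R'.Finite ∧ R' ⊆ G ∧ ∀ x ∈ G, ∃ r ∈ R', ∃ y ∈ G, p ^ n • y = x - r := by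
  induction n with
  | zero =>
    exact ⟨{0}, Set.finite_singleton _, by simp [G.zero_mem], fun x hx => ⟨0, rfl, x, hx, by simp⟩⟩
  | succ n ih =>
    obtain ⟨R', hR', hR'G, h'⟩ := ih
    refine ⟨(fun q : J × J => q.1 + p • q.2) '' (R ×ˢ R'), (hR.prod hR').image _, ?_, ?_⟩
    · rintro _ ⟨⟨r, s⟩, ⟨hr, hs⟩, rfl⟩
      exact G.add_mem (hRG hr) (G.nsmul_mem (hR'G hs) _)
    · intro x hx
      obtain ⟨r, hr, y, hy, hxy⟩ := h x hx
      obtain ⟨s, hs, z, hz, hyz⟩ := h' y hy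
      refine ⟨_, ⟨(r, s), ⟨hr, hs⟩, rfl⟩, z, hz, ?_⟩
      have h1 : x = p • y + r := by rw [hxy]; abel
      have h2 : y = p ^ n • z + s := by rw [hyz]; abel
      change _ = x - (r + p • s)
      rw [h1, h2, pow_succ', mul_nsmul', nsmul_add]
      abel

end Fermat.Agent.MW
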