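import Fermat.Agent.MW.NC
import Fermat.Agent.MW.Descent2
import Fermat.Agent.MW.WeakMW

/-!
# The Mordell-Weil theorem
-/

set_option autoImplicit false
set_option linter.unusedSectionVars false
set_option linter.style.haveILetI false

noncomputable section

namespace Fermat.Agent.MW

open AlgebraicCurve Fermat.Agent.RR Fermat.Agent.Curve IntermediateField Module ModularCurve
open Fermat.Agent.ModPoly Fermat.Agent.Spec Fermat.Agent.Cusp Polynomial

attribute [local instance] funField_ff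

variable {N : ℕ} [NeZero N]

theorem coeffAut_unique {K : Type*} [Field K] {s : SemilinearAut K (FF K N)} {σ : K ≃+* K}
    (hs : ∀ x : FF K N, ((s • x : FF K N) : LaurentSeries K) =
      coeffMap (σ : K →+* K) (x : LaurentSeries K)) : s = coeffAut N σ := by
  have h1 : ∀ x : FF K N, s • x = coeffAut N σ • x := fun x =>
    Subtype.ext ((hs x).trans (coe_coeffAut_smul N σ x).symm)
  apply Subtype.ext
  apply Prod.ext
  · apply RingEquiv.ext
    exact h1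
  · apply RingEquiv.ext
    intro a
    have h2 := h1 (algebraMap K (FF K N) a)
    rw [SemilinearAut.smul_algebraMap, SemilinearAut.smul_algebraMap] at h2
    exact (algebraMap K (FF K N)).injective h2

theorem mw_FF (K : Type) [Field K] [IsAlgClosed K] [CharZero K] [Algebra.IsAlgebraic ℚ K]
    (ι : K →+* ℂ) (act : (K ≃ₐ[ℚ] K) →* SemilinearAut K (FF K N))
    (hact : ∀ (σ : K ≃ₐ[ℚ] K) (x : FF K N), ((act σ • x : FF K N) : LaurentSeries K) =
      coeffMap (σ : K →+* K) (x : LaurentSeries K))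
    {S : Set ℕ} (hS : S.Finite) (hS0 : 0 ∉ S)
    (hI : ∀ ℓ : ℕ, ℓ.Prime → ℓ ∉ S → ∀ A : ValuationSubring K, A.LiesOverPrime ℓ →
      ∀ σ ∈ A.inertiaSubgroupIn ℚ, ∀ y : Pic0 K (FF K N), act σ • (2 • y) = 2 • y →
        act σ • y = y) :
    ∃ G : AddSubgroup (Pic0 K (FF K N)), (∀ x, x ∈ G ↔ ∀ σ, act σ • x = x) ∧
      AddGroup.FG G := by
  classical
  letI : Algebra K ℂ := ι.toAlgebra
  have hcoe : ∀ σ : K ≃ₐ[ℚ] K, act σ = coeffAut N σ.toRingEquiv := fun σ =>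
    coeffAut_unique fun x => hact σ x
  have hcoe' : ∀ σ : K ≃+* K, ∃ τ : K ≃ₐ[ℚ] K, coeffAut N σ = act τ := fun σ =>
    ⟨AlgEquiv.ofRingEquiv (f := σ) (fun q => by simp), by rw [hcoe]; rfl⟩
  letI : DistribMulAction (K ≃ₐ[ℚ] K) (Pic0 K (FF K N)) := DistribMulAction.compHom _ act
  have hdef : ∀ (σ : K ≃ₐ[ℚ] K) (x : Pic0 K (FF K N)), σ • x = act σ • x := fun _ _ => rfl
  have hdiv : ∀ m : ℕ, m ≠ 0 → ∀ x : Pic0 K (FF K N), ∃ y, m • y = x := fun m hm x =>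
    divisible K hm x
  have htors : ∀ m : ℕ, m ≠ 0 → {x : Pic0 K (FF K N) | m • x = 0}.Finite := fun m hm =>
    haveI : NeZero m := ⟨hm⟩
    finite_torsion ι m
  haveI : Fact (Nat.Prime 2) := ⟨Nat.prime_two⟩
  haveI : IsAlgClosure ℚ K := ⟨inferInstance, inferInstance⟩
  haveI : IsGalois ℚ K := ⟨⟩
  obtain ⟨R, hR, hRinv, hRdec⟩ := weak_mw (L := K) (J := Pic0 K (FF K N)) (p := 2)
    (htors 2 two_ne_zero) (hdiv 2 two_ne_zero) (fun y => by
      obtain ⟨B, hB, h⟩ := smooth_pic y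
      refine ⟨B, hB, fun σ hσ => ?_⟩
      rw [hdef, hcoe]
      exact h _ hσ) hS hS0 hI
  let G : AddSubgroup (Pic0 K (FF K N)) :=
    { carrier := {x | ∀ σ, act σ • x = x}
      add_mem' := fun {x y} hx hy σ => by rw [smul_add, hx σ, hy σ]
      zero_mem' := fun σ => smul_zero _
      neg_mem' := fun {x} hx σ => by rw [smul_neg, hx σ] }
  have hG : ∀ x, x ∈ G ↔ ∀ σ, act σ • x = x := fun x => Iff.rfl
  refine ⟨G, hG, ?_⟩
  -- the height function
  obtain ⟨P₁, hP₁⟩ : ∃ P₁, P₁ = cuspInf K N := ⟨_, rfl⟩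
  have hP₁σ : ∀ σ : K ≃+* K, coeffAut N σ • P₁ = P₁ := fun σ => by rw [hP₁, smul_cuspInf]
  obtain ⟨c, hc⟩ := exists_single_pole P₁
  obtain ⟨w, hwt, hw⟩ := hc (c + 1) (Nat.le_succ c)
  obtain ⟨n, hn⟩ := descent_ineq (a := c + 1) (Nat.le_add_left 1 c) hw hwt
    (fun m hm => pt_est_Q K hwt (Nat.le_add_left 1 c) hw hm) hdiv htors (p := 2) le_rfl
  obtain ⟨R', hR', hR'G, hdec⟩ := weak_mw_pow (G := G) (p := 2) hR (fun r hr σ => hRinv r hr σ)
    (fun x hx => by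
      obtain ⟨r, hr, y, hy, hxy⟩ := hRdec x hx
      exact ⟨r, hr, y, hy, hxy⟩) n
  obtain ⟨C', hC'⟩ := hn R' hR'
  refine fg_of_descent G hR' hR'G hdec hC' fun M => ?_
  refine (finite_rational hwt hP₁σ M).subset ?_
  rintro x ⟨hx, hxM⟩
  refine ⟨fun σ => ?_, hxM⟩
  obtain ⟨τ, hτ⟩ := hcoe' σ
  rw [hτ]
  exact hx τ

theorem mw_generic (K : Type) [Field K] [IsAlgClosed K] [CharZero K] [inst : Algebra ℚ K]
    [Algebra.IsAlgebraic ℚ K] (ι : K →+* ℂ)
    (E : IntermediateField K (LaurentSeries K)) (hE : E = FF K N)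
    (act : (K ≃ₐ[ℚ] K) →* SemilinearAut K E)
    (hact : ∀ (σ : K ≃ₐ[ℚ] K) (x : E), ((act σ • x : E) : LaurentSeries K) =
      coeffMap (σ : K →+* K) (x : LaurentSeries K))
    {S : Set ℕ} (hS : S.Finite) (hS0 : 0 ∉ S)
    (hI : ∀ ℓ : ℕ, ℓ.Prime → ℓ ∉ S → ∀ A : ValuationSubring K, A.LiesOverPrime ℓ →
      ∀ σ ∈ A.inertiaSubgroupIn ℚ, ∀ y : Pic0 K E, act σ • (2 • y) = 2 • y →
        act σ • y = y) :
    ∃ G : AddSubgroup (Pic0 K E), (∀ x, x ∈ G ↔ ∀ σ, act σ • x = x) ∧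
      AddGroup.FG G := by
  subst hE
  obtain rfl : inst = DivisionRing.toRatAlgebra := Subsingleton.elim _ _
  exact mw_FF K ι act hact hS hS0 hI

end Fermat.Agent.MW
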