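import Fermat.Agent.MW.Fin

/-!
# The geometric estimate
-/

set_option autoImplicit false
set_option linter.unusedSectionVars false
set_option linter.unusedVariables false
set_option linter.style.haveILetI false

namespace Fermat.Agent.MW

open AlgebraicCurve Fermat.Agent.RR Fermat.Agent.Curve IntermediateField Module Fermat.Agent

section
variable {k F L M : Type*} [Field k] [IsAlgClosed k] [Field F] [Field L] [Field M]
  [Algebra k F] [Algebra k L] [Algebra k M] [FunField k F] [FunField k L] [FunField k M]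

theorem dg_comp (φ : F →ₐ[k] L) (ψ : L →ₐ[k] M) : dg (ψ.comp φ) = dg ψ * dg φ := by
  obtain ⟨f, hf, _⟩ := (inferInstance : FunField k F).out
  have h1 := degree_poleDiv_map φ hf
  have h2 := degree_poleDiv_map ψ (map_transcendental φ hf)
  have h3 := degree_poleDiv_map (ψ.comp φ) hf
  haveI := fd (K := k) hf
  have h4 : (0 : ℤ) < Divisor.degree (poleDiv k f) := by
    rw [degree_poleDiv hf]
    exact_mod_cast Module.finrank_pos
  rw [h1] at h2
  have h5 : ((ψ.comp φ) f) = ψ (φ f) := rfl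
  rw [h5, h2] at h3
  have h6 : ((dg ψ : ℤ) * dg φ) * Divisor.degree (poleDiv k f) =
      dg (ψ.comp φ) * Divisor.degree (poleDiv k f) := by rw [← h3]; ring
  have h7 := mul_right_cancel₀ h4.ne' h6
  exact_mod_cast h7.symm

theorem finite_re_ne_one [CharZero k] (φ : F →ₐ[k] L) :
    {P : Place k F | ∃ v, rs φ v = P ∧ re φ v ≠ 1}.Finite := by
  classical
  obtain ⟨f, hf, _⟩ := (inferInstance : FunField k F).out
  have hf' := map_transcendental φ hf
  have hf0 : φ f ≠ 0 := by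
    intro h
    rw [h] at hf'
    exact hf' isAlgebraic_zero
  refine (((finite_ram hf').union (finite_ord (K := k) hf0)).image (rs φ)).subset ?_
  rintro P ⟨v, hv, hne⟩
  refine ⟨v, ?_, hv⟩
  by_cases h : v.ord (φ f) = 0
  · left
    refine ⟨Ge.of_le h.ge, fun h1 => hne ?_⟩
    have h3 : φ f - algebraMap k L (ev v (φ f)) = φ (f - algebraMap k F (ev v (φ f))) := by
      rw [map_sub, AlgHom.commutes]
    rw [h3, ord_map] at h1
    have h4 := re_pos φ v
    have h5 : (rs φ v).ord (f - algebraMap k F (ev v (φ f))) > 0 := by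
      by_contra h6
      rw [gt_iff_lt, not_lt] at h6
      nlinarith
    nlinarith
  · exact Or.inr h

end

variable {k Ω F 𝓕 : Type*} [Field k] [Field Ω] [Field F] [Field 𝓕]
  [Algebra k F] [Algebra Ω 𝓕] [Algebra k Ω] [Algebra F 𝓕]
  [IsAlgClosed k] [IsAlgClosed Ω] [FunField k F] [FunField Ω 𝓕] [hC : CExt k Ω F 𝓕]

/-- evaluation at a generic point -/
noncomputable def evA {Q : Place Ω 𝓕} (hQ : Gen k F Q) : F →ₐ[k] Ω where
  toFun f := ev Q (bc F 𝓕 f)
  map_one' := by rw [map_one, ev_one]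
  map_zero' := by rw [map_zero, ev_zero]
  map_add' f g := by rw [map_add, ev_add (hQ.ge f) (hQ.ge g)]
  map_mul' f g := by rw [map_mul, ev_mul (hQ.ge f) (hQ.ge g)]
  commutes' a := by rw [bc, hC.comm, ev_algebraMap]

/-- points are rational over finitely generated fields -/
theorem exists_rat_set (Q : Place Ω 𝓕) :
    ∃ S : Set Ω, S.Finite ∧ ∀ L : IntermediateField k Ω, S ⊆ L → Rat F L Q := by
  classical
  by_cases hQ : Gen k F Q
  · obtain ⟨t, ht, hfin⟩ := (inferInstance : FunField k F).out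
    haveI := hfin
    let b := Module.finBasis k⟮t⟯ F
    refine ⟨insert (evA hQ t) (Set.range fun i => evA hQ (b i)), (Set.finite_range _).insert _, ?_⟩
    intro L hL f
    have h1 : ∀ x ∈ k⟮t⟯, x ∈ L.comap (evA hQ) := by
      intro x hx
      have h2 : k⟮t⟯ ≤ L.comap (evA hQ) := by
        rw [adjoin_simple_le_iff]
        exact hL (Set.mem_insert _ _)
      exact h2 hx
    have h2 : f ∈ L.comap (evA hQ) := by
      rw [← b.sum_repr f]
      refine sum_mem fun i _ => ?_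
      rw [Algebra.smul_def]
      refine mul_mem (h1 _ (b.repr f i).2) ?_
      exact hL (Set.mem_insert_of_mem _ ⟨i, rfl⟩)
    exact ⟨⟨evA hQ f, h2⟩, rfl⟩
  · refine ⟨∅, Set.finite_empty, fun L _ => ?_⟩
    rw [Gen] at hQ
    push Not at hQ
    obtain ⟨P, rfl⟩ := hQ
    intro f
    by_cases hf : Ge P 0 f
    · refine ⟨algebraMap k L (ev P f), ?_⟩
      rw [Fam.ev_bcP P hf, ← IsScalarTower.algebraMap_apply]
    · refine ⟨0, ?_⟩
      rw [map_zero, Fam.ev_pole]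
      rw [bcP_ord]
      by_contra h
      exact hf (Ge.of_le (not_lt.1 h))

theorem Rat.mono {L M : IntermediateField k Ω} (h : L ≤ M) {Q : Place Ω 𝓕} (hr : Rat F L Q) :
    Rat F M Q := by
  intro f
  obtain ⟨x, hx⟩ := hr f
  exact ⟨⟨x, h x.2⟩, hx⟩

theorem dg_phi_mono {L M : IntermediateField k Ω} [FunField k L] [FunField k M] (h : L ≤ M)
    {Q : Place Ω 𝓕} (hQ : Gen k F Q) (hr : Rat F L Q) :
    dg (phi hQ (hr.mono h)) = dg (IntermediateField.inclusion h) * dg (phi hQ hr) := by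
  rw [← dg_comp]
  congr 1
  apply AlgHom.ext
  intro f
  apply (algebraMap M Ω).injective
  rw [algebraMap_phi]
  change _ = algebraMap M Ω ((IntermediateField.inclusion h) (phi hQ hr f))
  have h1 := algebraMap_phi (L := L) hQ hr f
  rw [← h1]
  rfl

/-- **The geometric estimate.** -/
theorem G6 [CharZero k] [CharZero Ω] (hg : rrGenus k F = rrGenus Ω 𝓕) {w : F}
    (hw : Good k Ω 𝓕 w)
    {Kw : Divisor k F} (hK : IsDw w Kw) (hKd : Divisor.degree Kw = 2 * (rrGenus k F : ℤ) - 2)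
    {t : Ω} (ht : Transcendental k t) (halg : ∀ x : Ω, IsIntegral k⟮t⟯ x)
    (hFam : ∀ (L : IntermediateField k Ω), FunField k L → Nonempty (Fam k Ω F 𝓕 L))
    {E : Divisor Ω 𝓕} (hE : 0 ≤ E) (hEd : Divisor.degree E = rrGenus k F) (hEell : ell E = 1)
    {Bd : Divisor k F} (hBd : Divisor.degree Bd = rrGenus k F)
    {η : Place Ω 𝓕} {P₀ : Place k F} {m : ℤ} {x₀ : 𝓕} (hx₀ : x₀ ≠ 0)
    (hrel : m • (E - bcD Ω 𝓕 Bd) - (Finsupp.single η 1 - Finsupp.single (bcP Ω 𝓕 P₀) 1) =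
      divisor Ω x₀) (hη : Gen k F η) {Q : Place Ω 𝓕} (hQ : Gen k F Q) (hEQ : E Q ≠ 0)
    (M : IntermediateField k Ω) [FunField k M] (hrQ : Rat F M Q) (hrη : Rat F M η) :
    m ^ 2 * (dg (phi hQ hrQ) : ℤ) ≤ rrGenus k F * dg (phi hη hrη) := by
  classical
  obtain ⟨c₁, hc₁⟩ := exists_reduced (k := Ω) (F := 𝓕)
  obtain ⟨c₂, hc₂⟩ := exists_reduced (k := k) (F := F)
  obtain ⟨c₃, hc₃⟩ := exists_riemann (K := k) (F := F)
  set g : ℤ := (rrGenus k F : ℤ) with hgdef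
  have hg0 : 0 ≤ g := Int.natCast_nonneg _
  obtain ⟨n, hn⟩ : ∃ n : ℕ, c₁ ≤ n ∧ c₂ ≤ n + g - 1 ∧ c₃ ≤ n + g - 1 := by
    refine ⟨(max c₁ (max c₂ c₃) + 1).toNat, ?_⟩
    have h1 := Int.self_le_toNat (max c₁ (max c₂ c₃) + 1)
    have h2 := le_max_left c₁ (max c₂ c₃)
    have h3 := le_max_right c₁ (max c₂ c₃)
    have h4 := le_max_left c₂ c₃
    have h5 := le_max_right c₂ c₃
    omega
  -- `D`
  set D₀ : Divisor Ω 𝓕 := (n : ℤ) • Finsupp.single (bcP Ω 𝓕 P₀) 1 + bcD Ω 𝓕 Bd - E with hD₀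
  have hD₀d : Divisor.degree D₀ = n := by
    rw [hD₀, map_sub, map_add, map_zsmul, degree_single', degree_bcD, hBd, hEd]
    simp
  obtain ⟨x₁, hx₁, hred, -⟩ := hc₁ D₀ (by rw [hD₀d]; exact hn.1) ∅
  obtain ⟨P, hinj, hsum, hPne⟩ := exists_sumD hred (n := n) (by
    rw [map_add, hD₀d, degree_divisor, add_zero])
  -- the field `L`
  set x : 𝓕 := x₁ ^ m * x₀⁻¹ with hxdef
  set a : Divisor Ω 𝓕 := Fam.sumD P - (n : ℤ) • Finsupp.single (bcP Ω 𝓕 P₀) 1 with ha
  set b : Divisor Ω 𝓕 := Finsupp.single η 1 - Finsupp.single (bcP Ω 𝓕 P₀) 1 with hb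
  choose SQ hSQ1 hSQ2 using fun i => exists_rat_set (k := k) (F := F) (P i)
  obtain ⟨Sη, hSη1, hSη2⟩ := exists_rat_set (k := k) (F := F) η
  obtain ⟨tM, htM, hfinM⟩ := (inferInstance : FunField k M).out
  haveI := hfinM
  let bM := Module.finBasis k⟮tM⟯ M
  let S₀ : Set Ω := (⋃ i, SQ i) ∪ {∏ Q ∈ a.support, lc k w Q x ^ (a Q),
    ∏ Q ∈ b.support, lc k w Q x ^ (b Q), (tM : Ω)} ∪ Set.range fun i => (bM i : Ω)
  have hS₀ : S₀.Finite := ((Set.finite_iUnion hSQ1).union (Set.toFinite _)).union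
    (Set.finite_range _)
  obtain ⟨L, hL, hSL⟩ := exists_funField ht halg S₀ hS₀
  have hML : M ≤ L := by
    intro y hy
    have h1 : ∀ z ∈ k⟮tM⟯, (z : Ω) ∈ L := by
      intro z hz
      have h2 : k⟮tM⟯ ≤ L.comap M.val := by
        rw [adjoin_simple_le_iff]
        exact hSL (Or.inl (Or.inr (by simp)))
      exact h2 hz
    have h2 : ∀ z : M, (z : Ω) ∈ L := by
      intro z
      have h3 : z ∈ L.comap M.val := by
        rw [← bM.sum_repr z]
        refine sum_mem fun i _ => ?_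
        rw [Algebra.smul_def]
        exact mul_mem (h1 _ (bM.repr z i).2) (hSL (Or.inr ⟨i, rfl⟩))
      exact h3
    exact h2 ⟨y, hy⟩
  obtain ⟨𝔽⟩ := hFam L hL
  have hratP : ∀ i, Rat F L (P i) := fun i => hSQ2 i L (fun y hy =>
    hSL (Or.inl (Or.inl (Set.mem_iUnion.2 ⟨i, hy⟩))))
  have hratη : Rat F L η := hrη.mono hML
  have hratQ : Rat F L Q := hrQ.mono hML
  -- `Q₀`
  obtain ⟨Q₀, hQ₀⟩ := exists_place_avoid (K := k) (F := F)
    ((finite_re_ne_one (phi (k := k) (L := L) hQ hratQ)).toFinset ∪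
      (E.support.preimage (bcP Ω 𝓕) (bcP_injective.injOn)))
  rw [Finset.mem_union, not_or, Set.Finite.mem_toFinset, Finset.mem_preimage,
    Finsupp.mem_support_iff, not_not] at hQ₀
  obtain ⟨hQ₀1, hQ₀2⟩ := hQ₀
  have hunr : ∀ v, rs (phi (k := k) (L := L) hQ hratQ) v = Q₀ → re (phi (k := k) (L := L) hQ hratQ) v = 1 := by
    intro v hv
    by_contra h
    exact hQ₀1 ⟨v, hv, h⟩
  -- `𝔞`
  set A₀ : Divisor k F := (n : ℤ) • Finsupp.single P₀ 1 + Bd - Finsupp.single Q₀ 1 with hA₀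
  have hA₀d : Divisor.degree A₀ = n + g - 1 := by
    rw [hA₀, map_sub, map_add, map_zsmul, degree_single', degree_single', hBd]
    simp
  obtain ⟨f₀, hf₀, h𝔞red, h𝔞S⟩ := hc₂ A₀ (by rw [hA₀d]; exact hn.2.1)
    ((Finset.univ.image P).preimage (bcP Ω 𝓕) (bcP_injective.injOn))
  set 𝔞 := A₀ + divisor k f₀ with h𝔞
  have h𝔞0 : 0 ≤ 𝔞 := by
    intro p
    change 0 ≤ 𝔞 p
    rcases h𝔞red p with h | h <;> rw [h] <;> norm_num
  have h𝔞d : Divisor.degree 𝔞 = n + g - 1 := by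
    rw [h𝔞, map_add, hA₀d, degree_divisor, add_zero]
  have hell : ell 𝔞 = n := by
    have h1 := hc₃ 𝔞 (by rw [h𝔞d]; exact hn.2.2)
    rw [h𝔞d] at h1
    omega
  have hdisj : ∀ p, 𝔞 p ≠ 0 → ∀ i, P i ≠ bcP Ω 𝓕 p := by
    intro p hp i hi
    apply hp
    apply h𝔞S
    rw [Finset.mem_preimage, Finset.mem_image]
    exact ⟨i, Finset.mem_univ _, hi⟩
  -- the set of places
  obtain ⟨T, hT, hTsum⟩ := sum_re (phi (k := k) (L := L) hQ hratQ) Q₀
  have hTcard : (T.card : ℤ) = dg (phi (k := k) (L := L) hQ hratQ) := by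
    rw [← hTsum, Finset.sum_congr rfl (fun v hv => hunr v ((hT v).1 hv))]
    simp
  have hS : ∀ v ∈ T, ∃ Q, E Q ≠ 0 ∧ 𝔽.rp v Q = Q₀ := by
    intro v hv
    refine ⟨Q, hEQ, ?_⟩
    rw [← 𝔽.rs_phi hQ hratQ]
    exact (hT v).1 hv
  have hΛa : ∃ Λ : L, algebraMap L Ω Λ = ∏ Q ∈ a.support, lc k w Q x ^ (a Q) :=
    ⟨⟨_, hSL (Or.inl (Or.inr (Set.mem_insert _ _)))⟩, rfl⟩
  have hΛb : ∃ Λ : L, algebraMap L Ω Λ = ∏ Q ∈ b.support, lc k w Q x ^ (b Q) :=
    ⟨⟨_, hSL (Or.inl (Or.inr (Set.mem_insert_of_mem _ (Set.mem_insert _ _))))⟩, rfl⟩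
  have hmain := 𝔽.sq_card_le hg hw hK hKd hE hEell hBd hx₀ hrel hinj hx₁ (by
    rw [Fam.sumD, hsum]) hQ₀2 h𝔞0 hf₀ h𝔞 hell hdisj hratP hratη hΛa hΛb T hS
  rw [hTcard, Fam.ht, dif_pos hη] at hmain
  have e1 := dg_phi_mono hML hQ hrQ
  have e2 := dg_phi_mono hML hη hrη
  have hpos : 0 < dg (IntermediateField.inclusion hML) := dg_pos _
  rw [e1, e2] at hmain
  push_cast at hmain
  have hpos' : (0 : ℤ) < dg (IntermediateField.inclusion hML) := by exact_mod_cast hpos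
  refine le_of_mul_le_mul_left ?_ hpos'
  calc _ = m ^ 2 * ((dg (IntermediateField.inclusion hML) : ℤ) * dg (phi hQ hrQ)) := by ring
    _ ≤ _ := hmain
    _ = _ := by ring

end Fermat.Agent.MW
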