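import Fermat.Agent.MW.MkCRed

/-!
# Families of reductions
-/

set_option autoImplicit false
set_option linter.unusedSectionVars false
set_option linter.style.haveILetI false

noncomputable section

namespace Fermat.Agent.MW

open AlgebraicCurve Fermat.Agent.RR Fermat.Agent.Curve IntermediateField Module

section Alg

variable {k Ω : Type*} [Field k] [Field Ω] [Algebra k Ω]

theorem isAlgebraic_of_adjoin {t : Ω} (halg : ∀ x : Ω, IsIntegral k⟮t⟯ x) {t' : Ω}
    (ht' : Transcendental k t') : ∀ x : Ω, IsAlgebraic k⟮t'⟯ x := by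
  haveI h1 : Algebra.IsAlgebraic (Algebra.adjoin k {t}) Ω := by
    constructor
    intro x
    have := (halg x).isAlgebraic
    exact isAlgebraic_adjoin_iff.1 this
  have h2 : Algebra.trdeg k Ω ≤ 1 := by
    have := Algebra.IsAlgebraic.trdeg_le_cardinalMk k ({t} : Set Ω)
    simpa using this
  have h3 : AlgebraicIndependent k (fun _ : Unit => t') :=
    algebraicIndependent_unique_type_iff.2 ht'
  have h4 : IsTranscendenceBasis k (fun _ : Unit => t') := by
    refine h3.isTranscendenceBasis_of_lift_trdeg_le_of_finite ?_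
    simpa using h2
  intro x
  have h5 := h4.isAlgebraic_field
  have h6 : Set.range (fun _ : Unit => t') = {t'} := by simp
  rw [h6] at h5
  exact h5.isAlgebraic x

theorem isAlgebraic_funField {t : Ω} (halg : ∀ x : Ω, IsIntegral k⟮t⟯ x)
    (L : IntermediateField k Ω) [FunField k L] : Algebra.IsAlgebraic L Ω := by
  obtain ⟨t', ht', -⟩ := (inferInstance : FunField k L).out
  have ht'' : Transcendental k (t' : Ω) := by
    intro h
    exact ht' ((isAlgebraic_algHom_iff L.val L.val.injective).1 h)
  have h1 := isAlgebraic_of_adjoin halg ht''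
  have h2 : k⟮(t' : Ω)⟯ ≤ L := by
    rw [adjoin_simple_le_iff]
    exact t'.2
  letI : Algebra k⟮(t' : Ω)⟯ L := (IntermediateField.inclusion h2).toAlgebra
  haveI : IsScalarTower k⟮(t' : Ω)⟯ L Ω := IsScalarTower.of_algebraMap_eq fun _ => rfl
  constructor
  intro x
  exact (h1 x).tower_top L

end Alg

section Val

variable {k L Ω : Type*} [Field k] [Field L] [Field Ω] [Algebra k L] [Algebra L Ω] [Algebra k Ω]
  [IsScalarTower k L Ω] [IsAlgClosed k] [FunField k L] [Algebra.IsAlgebraic L Ω]

/-- places extend to the algebraic closure -/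
theorem exists_val (v : Place k L) : ∃ A : ValuationSubring Ω,
    (∀ x : L, algebraMap L Ω x ∈ A ↔ 0 ≤ v.ord x) ∧ ∃ (hc : ∀ c : k, algebraMap k Ω c ∈ A)
      (ρ : A →+* k), (∀ c, ρ ⟨_, hc c⟩ = c) ∧ ∀ a, ρ a = 0 ↔ ¬ IsUnit a := by
  classical
  obtain ⟨A, hA, hloc⟩ := IsLocalRing.exists_factor_valuationRing
    ((algebraMap L Ω).comp v.toValuationSubring.subtype)
  have hmem : ∀ x : L, 0 ≤ v.ord x → algebraMap L Ω x ∈ A := fun x hx =>
    hA ⟨x, mem_of_ord_nonneg v hx⟩
  have hnonunit : ∀ (x : L) (h : algebraMap L Ω x ∈ A), x = 0 ∨ 0 < v.ord x →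
      ¬ IsUnit (⟨_, h⟩ : A) := by
    intro x h hx hu
    rcases hx with rfl | hx
    · have : (⟨_, h⟩ : A) = 0 := Subtype.ext (map_zero _)
      rw [this] at hu
      exact not_isUnit_zero hu
    · have h1 : (⟨x, mem_of_ord_nonneg v hx.le⟩ : v.toValuationSubring) ∈
          IsLocalRing.maximalIdeal v.toValuationSubring :=
        (mem_nonunits_iff_ord_pos v _).2 (Or.inr hx)
      rw [IsLocalRing.mem_maximalIdeal, mem_nonunits_iff] at h1
      apply h1
      exact hloc.map_nonunit _ hu
  have hiff : ∀ x : L, algebraMap L Ω x ∈ A ↔ 0 ≤ v.ord x := by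
    intro x
    refine ⟨fun h => ?_, hmem x⟩
    by_contra hneg
    push Not at hneg
    have hx0 : x ≠ 0 := by
      rintro rfl
      rw [v.ord_zero] at hneg
      exact lt_irrefl _ hneg
    have h1 : 0 < v.ord x⁻¹ := by rw [v.ord_inv]; omega
    refine hnonunit x⁻¹ (hmem _ h1.le) (Or.inr h1) ?_
    have h2 : algebraMap L Ω x⁻¹ * algebraMap L Ω x = 1 := by
      rw [← map_mul, inv_mul_cancel₀ hx0, map_one]
    exact IsUnit.of_mul_eq_one (⟨_, h⟩ : A) (Subtype.ext h2)
  have hc : ∀ c : k, algebraMap k Ω c ∈ A := by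
    intro c
    rw [IsScalarTower.algebraMap_apply k L Ω]
    apply hmem
    rw [ord_algebraMap]
  -- constants in the residue field
  let s : k →+* A :=
    { toFun := fun c => ⟨algebraMap k Ω c, hc c⟩
      map_one' := Subtype.ext (map_one _)
      map_mul' := fun _ _ => Subtype.ext (map_mul _ _ _)
      map_zero' := Subtype.ext (map_zero _)
      map_add' := fun _ _ => Subtype.ext (map_add _ _ _) }
  let κ := IsLocalRing.ResidueField A
  let sκ : k →+* κ := (IsLocalRing.residue A).comp s
  letI : Algebra k κ := sκ.toAlgebra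
  have hres0 : ∀ a : A, IsLocalRing.residue A a = 0 ↔ ¬ IsUnit a := by
    intro a
    rw [IsLocalRing.residue_eq_zero_iff, IsLocalRing.mem_maximalIdeal, mem_nonunits_iff]
  -- the residues of elements of `L`
  have hL : ∀ (x : L) (h : algebraMap L Ω x ∈ A), ∃ c : k, IsLocalRing.residue A ⟨_, h⟩ = sκ c := by
    intro x h
    have hx := (hiff x).1 h
    have h1 : Ge v 0 x := Ge.of_le hx
    have h2 := MW.ev_spec h1
    refine ⟨ev v x, ?_⟩
    have h3 : algebraMap L Ω (x - algebraMap k L (ev v x)) ∈ A := by
      rw [map_sub, ← IsScalarTower.algebraMap_apply]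
      exact sub_mem h (hc _)
    have h4 := hnonunit _ h3 (by
      rcases h2 with h2 | h2
      · exact Or.inl h2
      · exact Or.inr (by omega))
    rw [← hres0] at h4
    rw [← sub_eq_zero]
    change IsLocalRing.residue A ⟨_, h⟩ - IsLocalRing.residue A (s (ev v x)) = 0
    rw [← map_sub, ← h4]
    congr 1
    apply Subtype.ext
    change algebraMap L Ω x - algebraMap k Ω (ev v x) =
      algebraMap L Ω (x - algebraMap k L (ev v x))
    rw [map_sub, ← IsScalarTower.algebraMap_apply]
  have hsurj : Function.Surjective sκ := by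
    intro z
    obtain ⟨a, rfl⟩ := IsLocalRing.residue_surjective z
    have halg : IsAlgebraic k (IsLocalRing.residue A a) := by
      obtain ⟨p, hp0, hp⟩ := Algebra.IsAlgebraic.isAlgebraic (R := L) (a : Ω)
      -- the coefficient of minimal order
      obtain ⟨i, hi, hmin⟩ := Finset.exists_min_image p.support (fun i => v.ord (p.coeff i))
        (Polynomial.support_nonempty.2 hp0)
      have hci : p.coeff i ≠ 0 := Polynomial.mem_support_iff.1 hi
      have hmemc : ∀ j, algebraMap L Ω (p.coeff j * (p.coeff i)⁻¹) ∈ A := by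
        intro j
        rcases eq_or_ne (p.coeff j) 0 with h0 | h0
        · rw [h0, zero_mul, map_zero]; exact zero_mem _
        apply hmem
        rw [v.ord_mul h0 (inv_ne_zero hci), v.ord_inv]
        have := hmin j (Polynomial.mem_support_iff.2 h0)
        omega
      choose c hcc using fun j => hL _ (hmemc j)
      let q : Polynomial k := ∑ j ∈ p.support, Polynomial.monomial j (c j)
      refine ⟨q, ?_, ?_⟩
      · intro hq
        have h1 : q.coeff i = c i := by
          rw [Polynomial.finsetSum_coeff, Finset.sum_eq_single i]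
          · rw [Polynomial.coeff_monomial, if_pos rfl]
          · intro j _ hj
            rw [Polynomial.coeff_monomial, if_neg hj]
          · intro h; exact absurd hi h
        rw [hq, Polynomial.coeff_zero] at h1
        have h2 := hcc i
        rw [← h1, map_zero, hres0] at h2
        apply h2
        have h3 : (⟨_, hmemc i⟩ : A) = 1 := by
          apply Subtype.ext
          change algebraMap L Ω (p.coeff i * (p.coeff i)⁻¹) = 1
          rw [mul_inv_cancel₀ hci, map_one]
        rw [h3]
        exact isUnit_one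
      · have h1 : ∑ j ∈ p.support, (⟨_, hmemc j⟩ : A) * a ^ j = 0 := by
          apply Subtype.ext
          rw [AddSubmonoidClass.coe_finsetSum]
          change ∑ j ∈ p.support, (algebraMap L Ω (p.coeff j * (p.coeff i)⁻¹)) * (a : Ω) ^ j = 0
          rw [Polynomial.aeval_def, Polynomial.eval₂_eq_sum, Polynomial.sum] at hp
          have : ∀ j ∈ p.support, (algebraMap L Ω (p.coeff j * (p.coeff i)⁻¹)) * (a : Ω) ^ j =
              algebraMap L Ω (p.coeff i)⁻¹ * (algebraMap L Ω (p.coeff j) * (a : Ω) ^ j) := by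
            intro j _
            rw [map_mul]; ring
          rw [Finset.sum_congr rfl this, ← Finset.mul_sum]
          rw [hp, mul_zero]
        have h2 := congrArg (IsLocalRing.residue A) h1
        rw [map_sum, map_zero] at h2
        rw [map_sum, ← h2]
        refine Finset.sum_congr rfl fun j _ => ?_
        rw [Polynomial.aeval_monomial, map_mul, map_pow, hcc]
        rfl
    obtain ⟨c, hc'⟩ := mem_range_of_isAlgebraic halg
    exact ⟨c, hc'⟩
  let e : k ≃+* κ := RingEquiv.ofBijective sκ ⟨sκ.injective, hsurj⟩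
  refine ⟨A, hiff, hc, (e.symm : κ →+* k).comp (IsLocalRing.residue A), ?_, ?_⟩
  · intro c
    exact e.symm_apply_apply c
  · intro a
    rw [← hres0]
    exact map_eq_zero_iff e.symm e.symm.injective

end Val

section Fam

open ModularCurve Fermat.Agent.ModPoly

attribute [local instance] ffAlg ffCExt

variable {k Ω : Type*} [Field k] [Field Ω] [Algebra k Ω] [IsAlgClosed k] [IsAlgClosed Ω]
  [CharZero k] [CharZero Ω] {N : ℕ} [NeZero N] [FunField k (FF k N)] [FunField Ω (FF Ω N)]

theorem exists_fam (ι : Ω →+* ℂ) (L : IntermediateField k Ω) [FunField k L]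
    [Algebra.IsAlgebraic L Ω] : Nonempty (Fam k Ω (FF k N) (FF Ω N) L) := by
  have h : ∀ v : Place k L, ∃ R : CRed k Ω (FF k N) (FF Ω N),
      ∀ x : L, algebraMap L Ω x ∈ R.A ↔ 0 ≤ v.ord x := by
    intro v
    obtain ⟨A, hA, hc, ρ, hρ, hloc⟩ := exists_val (Ω := Ω) v
    letI : Algebra A k := ρ.toAlgebra
    obtain ⟨R, hR⟩ := exists_cred (N := N) ι A hc hρ hloc
    refine ⟨R, fun x => ?_⟩
    rw [hR]
    exact hA x
  choose R hR using h
  exact ⟨⟨R, hR⟩⟩

end Fam

end Fermat.Agent.MW
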