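import Fermat.Agent.MW.GalGen
import Fermat.Agent.MW.TorsFin
import Fermat.Agent.MW.MkFam
import Fermat.Agent.MW.AutC

/-!
# Action of the automorphisms of `ℂ` on the points of the modular curve
-/

set_option autoImplicit false
set_option linter.unusedSectionVars false
set_option linter.style.haveILetI false

noncomputable section

namespace Fermat.Agent.MW

open AlgebraicCurve ModularCurve Fermat.Agent.RR Fermat.Agent.Curve IntermediateField Module
open Fermat.Agent.ModPoly Fermat.Agent.Spec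

attribute [local instance] ffAlg ffCExt

theorem countable_funField (K F : Type) [Field K] [IsAlgClosed K] [Field F] [Algebra K F]
    [FunField K F] [Countable K] : Countable F := by
  obtain ⟨t, ht, hfin⟩ := (inferInstance : FunField K F).out
  haveI := hfin
  have h1 : Cardinal.mk K⟮t⟯ ≤ Cardinal.aleph0 := by
    refine (IntermediateField.cardinalMk_adjoin_le K {t}).trans ?_
    exact max_le (max_le Cardinal.mk_le_aleph0 Cardinal.mk_le_aleph0) le_rfl
  have h2 := (Algebra.IsAlgebraic.cardinalMk_le_max K⟮t⟯ F).trans (max_le h1 le_rfl)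
  exact Cardinal.mk_le_aleph0_iff.1 h2

theorem nsmul_smul_sub {K F : Type*} [Field K] [IsAlgClosed K] [Field F] [Algebra K F]
    [FunField K F] (m : ℕ) (σ : SemilinearAut K F) {x y : Pic0 K F} (h : m • y = x) :
    m • (σ • y - y) = σ • x - x := by
  rw [nsmul_sub, h, sub_left_inj, ← h]
  exact (map_nsmul (DistribSMul.toAddMonoidHom (Pic0 K F) σ) m y).symm

variable (N : ℕ) [NeZero N]

theorem funField_ff (K : Type*) [Field K] [IsAlgClosed K] [CharZero K] : FunField K (FF K N) :=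
  funField_FF (Nat.cast_ne_zero.2 (NeZero.ne N))

attribute [local instance] funField_ff

theorem coe_jF'' (k : Type*) [Field k] : ((jF' k N : FF k N) : LaurentSeries k) = jqModC k := by
  exact Jc_one_one

theorem bc_jF (k Ω : Type*) [Field k] [Field Ω] [Algebra k Ω] :
    bc (FF k N) (FF Ω N) (jF' k N) = jF' Ω N := by
  apply Subtype.ext
  rw [bc, coe_ffAlg, coe_jF'', coe_jF'', coeffMap_jqModC]

/-- the value of `j` -/
def tv (P : Place ℂ (FF ℂ N)) : ℂ := ev P (jF' ℂ N)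

variable {N}

theorem tv_smul (σ : ℂ ≃+* ℂ) (P : Place ℂ (FF ℂ N)) : tv N (coeffAut N σ • P) = σ (tv N P) := by
  have h1 := MW.ev_smul (coeffAut N σ) P (jF' ℂ N)
  have h2 : coeffAut N σ • jF' ℂ N = jF' ℂ N := by
    apply Subtype.ext
    rw [coe_coeffAut_smul, coe_jF'', coeffMap_jqModC]
  rw [h2] at h1
  exact h1

section

variable (K : Type) [Field K] [IsAlgClosed K] [CharZero K] [Algebra K ℂ]

/-- automorphisms of `ℂ` over `K` -/
def GK (σ : ℂ ≃+* ℂ) : Prop := ∀ c : K, σ (algebraMap K ℂ c) = algebraMap K ℂ c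

/-- points defined over `K` -/
def Kr (P : Place ℂ (FF ℂ N)) : Prop := tv N P ∈ Set.range (algebraMap K ℂ)

variable {K}

theorem GK.fixF {σ : ℂ ≃+* ℂ} (h : GK K σ) : FixF (FF K N) (coeffAut N σ) := by
  intro f
  apply Subtype.ext
  rw [coe_coeffAut_smul, bc, coe_ffAlg]
  ext n
  rw [coeffMap_coeff, coeffMap_coeff]
  exact h _

theorem kr_iff (P : Place ℂ (FF ℂ N)) : Kr K P ↔ ∃ Q : Place K (FF K N), P = bcP ℂ (FF ℂ N) Q := by
  rw [rational_iff (transcendental_jF (k := K) N) P, bc_jF]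
  rfl

theorem not_kr_iff (P : Place ℂ (FF ℂ N)) : ¬ Kr K P ↔ Gen K (FF K N) P := by
  rw [kr_iff, Gen]
  push Not
  rfl

theorem Kr.smul_eq {P : Place ℂ (FF ℂ N)} (hP : Kr K P) {σ : ℂ ≃+* ℂ} (hσ : GK K σ) :
    coeffAut N σ • P = P := by
  obtain ⟨Q, rfl⟩ := (kr_iff P).1 hP
  exact hσ.fixF.smul_bcP Q

theorem kr_of_finite {P : Place ℂ (FF ℂ N)}
    (h : {Q | ∃ σ : ℂ ≃+* ℂ, GK K σ ∧ coeffAut N σ • P = Q}.Finite) : Kr K P := by
  have h1 : {b : ℂ | ∃ σ : ℂ ≃+* ℂ, (∀ c : K, σ (algebraMap K ℂ c) = algebraMap K ℂ c) ∧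
      σ (tv N P) = b}.Finite := by
    refine (h.image (tv N)).subset ?_
    rintro b ⟨σ, hσ, rfl⟩
    exact ⟨_, ⟨σ, hσ, rfl⟩, tv_smul σ P⟩
  obtain ⟨a, ha⟩ := Curve.mem_range_of_isAlgebraic (MW.isAlgebraic_of_finite K h1)
  exact ⟨a, ha⟩

theorem exists_conj_place [Countable K] {P Q : Place ℂ (FF ℂ N)} (hP : ¬ Kr K P) (hQ : ¬ Kr K Q) :
    ∃ σ : ℂ ≃+* ℂ, GK K σ ∧ coeffAut N σ • P = Q := by
  rw [not_kr_iff] at hP hQ
  haveI : Countable (FF K N) := countable_funField K _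
  obtain ⟨σ, hσ⟩ := exists_conj (evA hP).toRingHom (evA hQ).toRingHom
  have hGK : GK K σ := by
    intro c
    have h1 := hσ (algebraMap K (FF K N) c)
    have h2 : (evA hP).toRingHom (algebraMap K (FF K N) c) = algebraMap K ℂ c := (evA hP).commutes c
    have h3 : (evA hQ).toRingHom (algebraMap K (FF K N) c) = algebraMap K ℂ c := (evA hQ).commutes c
    rw [h2, h3] at h1
    exact h1
  refine ⟨σ, hGK, ?_⟩
  letI : Algebra ℚ K := DivisionRing.toRatAlgebra
  refine hGK.fixF.smul_eq (genus_ff (RingHom.id ℂ)) hP hQ ?_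
  intro f
  exact (hσ f).symm

/-! ### rationality of divisor classes -/

variable {P₀ : Place ℂ (FF ℂ N)} (hP₀ : Kr K P₀)

include hP₀ in
theorem kr_of_finite_orbit {x : Pic0 ℂ (FF ℂ N)}
    (h : {y | ∃ σ : ℂ ≃+* ℂ, GK K σ ∧ coeffAut N σ • x = y}.Finite) :
    ∀ P, minD P₀ x P ≠ 0 → Kr K P := by
  classical
  intro P hP
  apply kr_of_finite
  have h1 : (⋃ y ∈ {y | ∃ σ : ℂ ≃+* ℂ, GK K σ ∧ coeffAut N σ • x = y},
      {Q | minD P₀ y Q ≠ 0}).Finite := by
    refine h.biUnion fun y _ => ?_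
    refine (minD P₀ y).support.finite_toSet.subset fun Q hQ => ?_
    exact Finsupp.mem_support_iff.2 hQ
  refine h1.subset ?_
  rintro _ ⟨σ, hσ, rfl⟩
  simp only [Set.mem_iUnion]
  refine ⟨_, ⟨σ, hσ, rfl⟩, ?_⟩
  change minD P₀ (coeffAut N σ • x) (coeffAut N σ • P) ≠ 0
  rw [minD_smul P₀ (hP₀.smul_eq hσ), SemilinearAut.divisor_smul_apply_smul]
  exact hP

include hP₀ in
theorem smul_eq_of_kr {x : Pic0 ℂ (FF ℂ N)} (h : ∀ P, minD P₀ x P ≠ 0 → Kr K P)
    {σ : ℂ ≃+* ℂ} (hσ : GK K σ) : coeffAut N σ • x = x := by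
  apply minD_injective P₀
  rw [minD_smul P₀ (hP₀.smul_eq hσ)]
  ext P
  rw [SemilinearAut.divisor_smul_apply]
  by_cases hP : minD P₀ x P = 0
  · rw [hP]
    by_contra h1
    have h2 := (h _ h1).smul_eq hσ
    rw [smul_inv_smul] at h2
    rw [← h2] at h1
    exact h1 hP
  · have h2 := (h _ hP).smul_eq hσ
    rw [inv_smul_eq_iff.2 h2.symm]

include hP₀ in
theorem kr_of_nsmul {m : ℕ} (hm : m ≠ 0) {x y : Pic0 ℂ (FF ℂ N)} (hxy : m • y = x)
    (h : ∀ P, minD P₀ x P ≠ 0 → Kr K P) : ∀ P, minD P₀ y P ≠ 0 → Kr K P := by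
  haveI : NeZero m := ⟨hm⟩
  apply kr_of_finite_orbit hP₀
  have h1 := finite_torsion (K := ℂ) (RingHom.id ℂ) (N := N) m
  refine (h1.image (fun t => t + y)).subset ?_
  rintro _ ⟨σ, hσ, rfl⟩
  refine ⟨coeffAut N σ • y - y, ?_, sub_add_cancel _ _⟩
  change m • (coeffAut N σ • y - y) = 0
  rw [nsmul_smul_sub m _ hxy, smul_eq_of_kr hP₀ h hσ, sub_self]

end

end Fermat.Agent.MW
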