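import Fermat.Agent.MW.Cls
import Fermat.Agent.MW.G6

/-!
# Semilinear automorphisms and generic points
-/

set_option autoImplicit false
set_option linter.unusedSectionVars false
set_option linter.style.haveILetI false

noncomputable section

namespace Fermat.Agent.MW

open AlgebraicCurve Fermat.Agent.RR Fermat.Agent.Curve IntermediateField Module

section

variable {K F : Type*} [Field K] [IsAlgClosed K] [Field F] [Algebra K F] [FunField K F]

theorem ge_smul (σ : SemilinearAut K F) {v : Place K F} {n : ℤ} {f : F} (h : Ge v n f) :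
    Ge (σ • v) n (σ • f) := by
  rcases h with rfl | h
  · left; exact smul_zero σ
  · right; rwa [SemilinearAut.ord_smul]

theorem ev_smul (σ : SemilinearAut K F) (v : Place K F) (f : F) :
    ev (σ • v) (σ • f) = SemilinearAut.baseAut σ (ev v f) := by
  by_cases h : Ge v 0 f
  · apply ev_unique
    have h1 := ge_smul σ (ev_spec h)
    rwa [smul_sub, SemilinearAut.smul_algebraMap] at h1
  · have h1 : v.ord f < 0 := by
      by_contra h2
      exact h (Ge.of_le (not_lt.1 h2))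
    rw [Fam.ev_pole h1, map_zero, Fam.ev_pole]
    rwa [SemilinearAut.ord_smul]

end

variable {k Ω F 𝓕 : Type*} [Field k] [Field Ω] [Field F] [Field 𝓕]
  [Algebra k F] [Algebra Ω 𝓕] [Algebra k Ω] [Algebra F 𝓕]
  [IsAlgClosed k] [IsAlgClosed Ω] [FunField k F] [FunField Ω 𝓕] [hC : CExt k Ω F 𝓕]

section Rational

theorem rational_iff {w : F} (hw : Transcendental k w) (Q : Place Ω 𝓕) :
    (∃ P : Place k F, Q = bcP Ω 𝓕 P) ↔ ∃ a : k, algebraMap k Ω a = ev Q (bc F 𝓕 w) := by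
  constructor
  · rintro ⟨P, rfl⟩
    by_cases h : Ge P 0 w
    · exact ⟨_, (Fam.ev_bcP P h).symm⟩
    · refine ⟨0, ?_⟩
      rw [map_zero, Fam.ev_pole]
      rw [bcP_ord]
      by_contra h2
      exact h (Ge.of_le (not_lt.1 h2))
  · rintro ⟨a, ha⟩
    by_contra hcon
    push Not at hcon
    have hQ : Gen k F Q := hcon
    have h1 : w - algebraMap k F a ≠ 0 := by
      intro h
      apply hw
      rw [sub_eq_zero.1 h]
      exact isAlgebraic_algebraMap _
    have h2 : bc F 𝓕 (w - algebraMap k F a) ≠ 0 := bc_ne_zero h1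
    have h3 := ev_ne_zero h2 (hQ.ord _)
    apply h3
    rw [map_sub, bc, hC.comm, ev_sub (hQ.ge w) (Ge.algebraMap Q _), ev_algebraMap, ha, sub_self]

theorem gen_iff {w : F} (hw : Transcendental k w) (Q : Place Ω 𝓕) :
    Gen k F Q ↔ ∀ a : k, algebraMap k Ω a ≠ ev Q (bc F 𝓕 w) := by
  have := rational_iff (k := k) (Ω := Ω) (𝓕 := 𝓕) hw Q
  rw [Gen]
  constructor
  · intro h a ha
    obtain ⟨P, hP⟩ := this.2 ⟨a, ha⟩
    exact h P hP
  · intro h P hP
    obtain ⟨a, ha⟩ := this.1 ⟨P, hP⟩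
    exact h a ha

end Rational

/-- the automorphism fixes the functions defined over the small field -/
def FixF (F : Type*) {Ω 𝓕 : Type*} [Field F] [Field Ω] [Field 𝓕] [Algebra F 𝓕] [Algebra Ω 𝓕]
    (σ : SemilinearAut Ω 𝓕) : Prop := ∀ f : F, σ • bc F 𝓕 f = bc F 𝓕 f

theorem FixF.inv {σ : SemilinearAut Ω 𝓕} (h : FixF F σ) : FixF F σ⁻¹ := by
  intro f
  rw [inv_smul_eq_iff, h f]

theorem FixF.smul_bcP {σ : SemilinearAut Ω 𝓕} (h : FixF F σ) (P : Place k F) :
    σ • bcP Ω 𝓕 P = bcP Ω 𝓕 P := by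
  apply eq_bcP P one_pos
  intro g _
  have h1 := SemilinearAut.ord_smul σ (bcP Ω 𝓕 P) (bc F 𝓕 g)
  rw [h g] at h1
  rw [h1, bcP_ord, one_mul]

theorem FixF.smul_bcD {σ : SemilinearAut Ω 𝓕} (h : FixF F σ) (D : Divisor k F) :
    σ • bcD Ω 𝓕 D = bcD Ω 𝓕 D := by
  induction D using Finsupp.induction_linear with
  | zero => rw [map_zero, smul_zero]
  | add D E hD hE => rw [map_add, smul_add, hD, hE]
  | single P n => rw [bcD_single, SemilinearAut.smul_single, h.smul_bcP]

theorem FixF.ev_bc {σ : SemilinearAut Ω 𝓕} (h : FixF F σ) (Q : Place Ω 𝓕) (f : F) :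
    ev (σ • Q) (bc F 𝓕 f) = SemilinearAut.baseAut σ (ev Q (bc F 𝓕 f)) := by
  rw [← ev_smul, h f]

/-- generic points are determined by their coordinates -/
theorem FixF.smul_eq (hg : rrGenus k F = rrGenus Ω 𝓕) {σ : SemilinearAut Ω 𝓕} (h : FixF F σ)
    {Q Q' : Place Ω 𝓕} (hQ : Gen k F Q) (hQ' : Gen k F Q')
    (he : ∀ f : F, ev Q' (bc F 𝓕 f) = SemilinearAut.baseAut σ (ev Q (bc F 𝓕 f))) :
    σ • Q = Q' := by
  by_contra hne
  have hσQ : Gen k F (σ • Q) := by
    intro P hP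
    have := (h.inv).smul_bcP (Ω := Ω) (𝓕 := 𝓕) P
    rw [← hP, inv_smul_smul] at this
    exact hQ P (this.trans hP)
  obtain ⟨P₀, -⟩ := exists_place_avoid (K := k) (F := F) ∅
  obtain ⟨f, -, -, -, hf⟩ := exists_sep hg hne (hσQ P₀) (hQ' P₀)
  apply hf
  rw [h.ev_bc, he]

end Fermat.Agent.MW
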