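import Fermat.Agent.MW.Inter

/-!
# Global intersection numbers
-/

set_option autoImplicit false
set_option linter.unusedSectionVars false
set_option linter.unusedVariables false
set_option linter.style.haveILetI false

namespace Fermat.Agent.MW

open AlgebraicCurve Fermat.Agent.RR Fermat.Agent.Curve IntermediateField Module

variable {k Ω F 𝓕 : Type*} [Field k] [Field Ω] [Field F] [Field 𝓕]
  [Algebra k F] [Algebra Ω 𝓕] [Algebra k Ω] [Algebra F 𝓕]
  [IsAlgClosed k] [IsAlgClosed Ω] [FunField k F] [FunField Ω 𝓕] [hC : CExt k Ω F 𝓕]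

variable {L : Type*} [Field L] [Algebra k L] [Algebra L Ω] [IsScalarTower k L Ω] [FunField k L]

theorem exists_const_avoid (S : Finset (Place Ω 𝓕)) :
    ∃ P : Place k F, bcP Ω 𝓕 P ∉ S := by
  classical
  obtain ⟨P, hP⟩ := exists_place_avoid (K := k) (F := F)
    (S.preimage (bcP Ω 𝓕) (bcP_injective.injOn))
  exact ⟨P, fun h => hP (Finset.mem_preimage.2 h)⟩

theorem finsum_ord {x : L} (hx : x ≠ 0) : ∑ᶠ v : Place k L, v.ord x = 0 := by
  have h1 := degree_divisor (K := k) x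
  rw [degree_eq] at h1
  rw [← h1]
  rw [finsum_eq_sum_of_support_subset (s := (divisor k x).support)]
  · exact Finset.sum_congr rfl fun v _ => (divisor_apply _ _).symm
  · intro v hv
    rw [Finset.mem_coe, Finsupp.mem_support_iff, divisor_apply]
    exact hv

theorem finite_ord_support {x : L} (hx : x ≠ 0) :
    (Function.support fun v : Place k L => v.ord x).Finite := finite_ord (K := k) hx

namespace Fam

variable (𝔽 : Fam k Ω F 𝓕 L)

theorem finite_rp_eq (hg : rrGenus k F = rrGenus Ω 𝓕) {Q Q' : Place Ω 𝓕} (hne : Q ≠ Q')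
    (hr : Rat F L Q) (hr' : Rat F L Q') : {v : Place k L | 𝔽.rp v Q = 𝔽.rp v Q'}.Finite := by
  classical
  obtain ⟨P₀, hP₀⟩ := exists_const_avoid (k := k) (F := F) ({Q, Q'} : Finset (Place Ω 𝓕))
  simp only [Finset.mem_insert, Finset.mem_singleton, not_or] at hP₀
  obtain ⟨f, hf1, hf2, hf3, hf4⟩ := exists_sep (k := k) (F := F) hg hne (Ne.symm hP₀.1) (Ne.symm hP₀.2)
  have hd : prL hr f - prL hr' f ≠ 0 := by
    intro h
    apply hf4
    rw [← algebraMap_prL (L := L) hr, ← algebraMap_prL (L := L) hr', sub_eq_zero.1 h]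
  have hfin0 : {v : Place k L | 𝔽.rp v Q = P₀}.Finite := by
    by_cases hQ : Gen k F Q
    · obtain ⟨T, hT, -⟩ := sum_re (phi (L := L) hQ hr) P₀
      refine T.finite_toSet.subset ?_
      intro v hv
      rw [Set.mem_ofPred_eq, ← 𝔽.rs_phi hQ hr] at hv
      exact (hT v).2 hv
    · rw [Gen] at hQ
      push Not at hQ
      obtain ⟨P, rfl⟩ := hQ
      refine Set.finite_empty.subset ?_
      intro v hv
      rw [Set.mem_ofPred_eq, rp, (𝔽.R v).rp_bcP] at hv
      exact hP₀.1 (by rw [hv])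
  refine ((finite_ord (K := k) hd).union hfin0).subset ?_
  intro v hv
  by_cases hP : 𝔽.rp v Q = P₀
  · exact Or.inr hP
  · left
    rw [Set.mem_ofPred_eq] at hv
    obtain ⟨h1, h2⟩ := (𝔽.R v).ev_bc (hf1 _ hP) (rfl : (𝔽.R v).rp Q = 𝔽.rp v Q)
    obtain ⟨h3, h4⟩ := (𝔽.R v).ev_bc (hf1 _ hP) (hv.symm : (𝔽.R v).rp Q' = 𝔽.rp v Q)
    have h5 : algebraMap L Ω (prL hr f - prL hr' f) ∈ (𝔽.R v).A := by
      rw [map_sub, algebraMap_prL, algebraMap_prL]
      exact sub_mem h1 h3
    have h6 : (𝔽.R v).ρ ⟨_, h5⟩ = 0 := by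
      have : (⟨_, h5⟩ : (𝔽.R v).A) = ⟨_, h1⟩ - ⟨_, h3⟩ := by
        apply Subtype.ext
        change algebraMap L Ω (prL hr f - prL hr' f) = ev Q (bc F 𝓕 f) - ev Q' (bc F 𝓕 f)
        rw [map_sub, algebraMap_prL, algebraMap_prL]
      rw [this, map_sub, h2, h4, sub_self]
    exact (𝔽.ord_pos_of_ρ hd h5 h6).ne'

theorem finite_Bv (hg : rrGenus k F = rrGenus Ω 𝓕) {w : F} (hw : Good k Ω 𝓕 w)
    {Kw : Divisor k F} (hK : IsDw w Kw) {Q Q' : Place Ω 𝓕}
    (hr : Rat F L Q) (hr' : Rat F L Q') :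
    (Function.support fun v : Place k L => 𝔽.Bv w v Q Q').Finite := by
  classical
  by_cases hne : Q = Q'
  · subst hne
    by_cases hQ : Gen k F Q
    · have hT := fun P => (sum_re (phi (L := L) hQ hr) P).choose_spec.1
      refine ((Kw.support.biUnion fun P => (sum_re (phi (L := L) hQ hr) P).choose).finite_toSet).subset ?_
      intro v hv
      rw [Function.mem_support, 𝔽.Bv_gen_self hw hK v hQ hr] at hv
      rw [Finset.mem_coe, Finset.mem_biUnion]
      refine ⟨rs (phi (L := L) hQ hr) v, ?_, (hT _ v).2 rfl⟩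
      rw [Finsupp.mem_support_iff]
      intro h0
      rw [h0, mul_zero, neg_zero] at hv
      exact hv rfl
    · rw [Gen] at hQ
      push Not at hQ
      obtain ⟨P, rfl⟩ := hQ
      refine Set.finite_empty.subset ?_
      intro v hv
      rw [Function.mem_support, 𝔽.Bv_const_self] at hv
      exact hv rfl
  · refine (𝔽.finite_rp_eq hg hne hr hr').subset ?_
    intro v hv
    by_contra h
    exact hv (𝔽.Bv_ne w v hne h)

/-- global intersection number -/
noncomputable def B (w : F) (Q Q' : Place Ω 𝓕) : ℤ := ∑ᶠ v : Place k L, 𝔽.Bv w v Q Q'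

theorem B_symm (w : F) {Q Q' : Place Ω 𝓕} (hr : Rat F L Q) (hr' : Rat F L Q') :
    𝔽.B w Q Q' = 𝔽.B w Q' Q :=
  finsum_congr fun v => 𝔽.Bv_symm w v hr hr'

theorem B_const (w : F) (P P' : Place k F) : 𝔽.B w (bcP Ω 𝓕 P) (bcP Ω 𝓕 P') = 0 := by
  rw [B, finsum_congr (fun v => 𝔽.Bv_const w v P P'), finsum_zero]

theorem B_gen_const (w : F) {Q : Place Ω 𝓕} (hQ : Gen k F Q) (hr : Rat F L Q) (P : Place k F) :
    𝔽.B w Q (bcP Ω 𝓕 P) = dg (phi (L := L) hQ hr) := by
  classical
  obtain ⟨T, hT, hsum⟩ := sum_re (phi (L := L) hQ hr) P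
  rw [← hsum, B, finsum_eq_sum_of_support_subset (s := T)]
  · refine Finset.sum_congr rfl fun v hv => ?_
    rw [𝔽.Bv_gen_const w v hQ hr, if_pos ((hT v).1 hv)]
  · intro v hv
    rw [Function.mem_support, 𝔽.Bv_gen_const w v hQ hr] at hv
    rw [Finset.mem_coe, hT]
    by_contra h
    rw [if_neg h] at hv
    exact hv rfl

/-- summing the pullback of a divisor -/
theorem finsum_re_mul (φ : F →ₐ[k] L) (K : Divisor k F) :
    (Function.support fun v : Place k L => re φ v * K (rs φ v)).Finite ∧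
    ∑ᶠ v : Place k L, re φ v * K (rs φ v) = dg φ * Divisor.degree K := by
  classical
  have hT := fun P => (sum_re φ P).choose_spec
  induction K using Finsupp.induction_linear with
  | zero =>
    constructor
    · refine Set.finite_empty.subset ?_
      intro v hv
      rw [Function.mem_support, Finsupp.coe_zero, Pi.zero_apply, mul_zero] at hv
      exact hv rfl
    · simp
  | add D E hD hE =>
    have h1 : (fun v : Place k L => re φ v * (D + E) (rs φ v)) =
        fun v => re φ v * D (rs φ v) + re φ v * E (rs φ v) := by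
      funext v
      rw [Finsupp.add_apply, mul_add]
    constructor
    · rw [h1]
      exact (hD.1.union hE.1).subset (Function.support_add _ _)
    · rw [h1, finsum_add_distrib hD.1 hE.1, hD.2, hE.2, map_add, mul_add]
  | single P n =>
    have h1 : ∀ v : Place k L, re φ v * (Finsupp.single P n : Divisor k F) (rs φ v) =
        if rs φ v = P then re φ v * n else 0 := by
      intro v
      rw [Finsupp.single_apply]
      simp only [eq_comm (a := P)]
      split_ifs
      · rfl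
      · rw [mul_zero]
    have h2 : (Function.support fun v : Place k L =>
        re φ v * (Finsupp.single P n : Divisor k F) (rs φ v)) ⊆ ((sum_re φ P).choose : Set _) := by
      intro v hv
      rw [Function.mem_support, h1] at hv
      rw [Finset.mem_coe, (hT P).1]
      by_contra h
      rw [if_neg h] at hv
      exact hv rfl
    refine ⟨(Finset.finite_toSet _).subset h2, ?_⟩
    rw [finsum_eq_sum_of_support_subset _ h2, degree_single']
    refine Eq.trans ?_ (congrArg (· * n) (hT P).2)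
    change _ = (∑ v ∈ _, re φ v) * n
    rw [Finset.sum_mul]
    refine Finset.sum_congr rfl fun v hv => ?_
    rw [h1, if_pos (((hT P).1 v).1 hv)]

theorem B_gen_self {w : F} (hw : Good k Ω 𝓕 w) {Kw : Divisor k F} (hK : IsDw w Kw)
    {Q : Place Ω 𝓕} (hQ : Gen k F Q) (hr : Rat F L Q) :
    𝔽.B w Q Q = -(dg (phi (L := L) hQ hr) * Divisor.degree Kw) := by
  rw [B, finsum_congr (fun v => 𝔽.Bv_gen_self hw hK v hQ hr), finsum_neg_distrib,
    (finsum_re_mul _ _).2]

/-- the intersection pairing -/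
noncomputable def BB (w : F) : (Place Ω 𝓕 →₀ ℤ) →ₗ[ℤ] (Place Ω 𝓕 →₀ ℤ) →ₗ[ℤ] ℤ :=
  Finsupp.linearCombination ℤ (fun Q => Finsupp.linearCombination ℤ (fun Q' => 𝔽.B w Q Q'))

theorem BB_single (w : F) (Q Q' : Place Ω 𝓕) (n m : ℤ) :
    𝔽.BB w (Finsupp.single Q n) (Finsupp.single Q' m) = n * m * 𝔽.B w Q Q' := by
  rw [BB, Finsupp.linearCombination_single, LinearMap.smul_apply, Finsupp.linearCombination_single,
    smul_eq_mul, smul_eq_mul]
  ring

theorem BB_apply (w : F) (D E : Divisor Ω 𝓕) :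
    𝔽.BB w D E = ∑ Q ∈ D.support, ∑ Q' ∈ E.support, D Q * E Q' * 𝔽.B w Q Q' := by
  rw [BB, Finsupp.linearCombination_apply, Finsupp.sum, LinearMap.sum_apply]
  refine Finset.sum_congr rfl fun Q _ => ?_
  rw [LinearMap.smul_apply, Finsupp.linearCombination_apply, Finsupp.sum, smul_eq_mul,
    Finset.mul_sum]
  refine Finset.sum_congr rfl fun Q' _ => ?_
  rw [smul_eq_mul]
  ring

theorem BB_symm (w : F) {D E : Divisor Ω 𝓕} (hD : ∀ Q ∈ D.support, Rat F L Q)
    (hE : ∀ Q ∈ E.support, Rat F L Q) : 𝔽.BB w D E = 𝔽.BB w E D := by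
  rw [BB_apply, BB_apply, Finset.sum_comm]
  refine Finset.sum_congr rfl fun Q hQ => Finset.sum_congr rfl fun Q' hQ' => ?_
  rw [𝔽.B_symm w (hD Q' hQ') (hE Q hQ)]
  ring

/-- **Invariance under linear equivalence.** -/
theorem BB_divisor (hg : rrGenus k F = rrGenus Ω 𝓕) {w : F} (hw : Good k Ω 𝓕 w)
    {Kw : Divisor k F} (hK : IsDw w Kw)
    {x : 𝓕} (hx : x ≠ 0) {b : Divisor Ω 𝓕} (hb : Divisor.degree b = 0)
    (hrx : ∀ Q ∈ (divisor Ω x).support, Rat F L Q) (hrb : ∀ Q ∈ b.support, Rat F L Q)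
    (hΛ : ∃ Λ : L, algebraMap L Ω Λ = ∏ Q ∈ b.support, lc k w Q x ^ (b Q)) :
    𝔽.BB w (divisor Ω x) b = 0 := by
  obtain ⟨Λ, hΛ⟩ := hΛ
  have hΛ0 : Λ ≠ 0 := by
    rintro rfl
    rw [map_zero] at hΛ
    exact Finset.prod_ne_zero_iff.2 (fun Q (_ : Q ∈ b.support) =>
      zpow_ne_zero (b Q) (lc_ne_zero hw Q hx)) hΛ.symm
  have h1 := finsum_ord (k := k) hΛ0
  rw [finsum_congr (fun v => 𝔽.ord_value hw hK hx hb hrx hrb hΛ v)] at h1
  have hfin : ∀ Q ∈ b.support, ∀ Q' ∈ (divisor Ω x).support,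
      (Function.support fun v : Place k L => b Q * divisor Ω x Q' * 𝔽.Bv w v Q' Q).Finite := by
    intro Q hQ Q' hQ'
    refine (𝔽.finite_Bv hg hw hK (hrx Q' hQ') (hrb Q hQ)).subset ?_
    intro v hv h0
    apply hv
    change b Q * divisor Ω x Q' * 𝔽.Bv w v Q' Q = 0
    have h0' : 𝔽.Bv w v Q' Q = 0 := h0
    rw [h0', mul_zero]
  rw [finsum_sum_comm] at h1
  · rw [BB_apply, Finset.sum_comm]
    refine Eq.trans (Finset.sum_congr rfl fun Q hQ => ?_) h1
    rw [finsum_sum_comm _ _ (hfin Q hQ)]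
    refine Finset.sum_congr rfl fun Q' hQ' => ?_
    rw [← mul_finsum' _ _ (𝔽.finite_Bv hg hw hK (hrx Q' hQ') (hrb Q hQ)), B]
    ring
  · intro Q hQ
    have h2 := Set.Finite.biUnion (divisor Ω x).support.finite_toSet (fun Q' hQ' => hfin Q hQ Q' hQ')
    refine h2.subset ?_
    intro v hv
    rw [Function.mem_support] at hv
    obtain ⟨Q', hQ', h3⟩ := Finset.exists_ne_zero_of_sum_ne_zero hv
    exact Set.mem_biUnion hQ' h3

end Fam

end Fermat.Agent.MW
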