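import Fermat.Agent.MW.G6
import Fermat.Agent.Curve.Hurwitz

/-!
# Nonconstant functions are coordinates at nonconstant points
-/

set_option autoImplicit false
set_option linter.unusedSectionVars false
set_option linter.style.haveILetI false

namespace Fermat.Agent.MW

open AlgebraicCurve Fermat.Agent.RR Fermat.Agent.Curve IntermediateField Module

variable {k Ω F 𝓕 : Type*} [Field k] [Field Ω] [Field F] [Field 𝓕]
  [Algebra k F] [Algebra Ω 𝓕] [Algebra k Ω] [Algebra F 𝓕]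
  [IsAlgClosed k] [IsAlgClosed Ω] [FunField k F] [FunField Ω 𝓕] [hC : CExt k Ω F 𝓕]

theorem single_le_single {K F : Type*} [Field K] [Field F] [Algebra K F] (v : Place K F) {a b : ℤ}
    (h : a ≤ b) : (Finsupp.single v a : Divisor K F) ≤ Finsupp.single v b := by
  intro w
  rcases eq_or_ne w v with rfl | hw
  · simpa using h
  · rw [Finsupp.single_eq_of_ne hw, Finsupp.single_eq_of_ne hw]

theorem good_of_transcendental [CharZero k] (hg : rrGenus k F = rrGenus Ω 𝓕) {w : F}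
    (hw : Transcendental k w) : Good k Ω 𝓕 w := by
  classical
  intro Q hQ
  have hQg : Gen k F Q := hQ
  have hne : bc F 𝓕 w - algebraMap Ω 𝓕 (ev Q (bc F 𝓕 w)) ≠ 0 := by
    intro h0
    obtain ⟨a, ha⟩ := hC.tr w ⟨_, (sub_eq_zero.1 h0).symm⟩
    exact hw (ha ▸ isAlgebraic_algebraMap a)
  have h1 : Ge Q 1 (bc F 𝓕 w - algebraMap Ω 𝓕 (ev Q (bc F 𝓕 w))) := ev_spec (hQg.ge w)
  by_contra hcon
  have h2 : 2 ≤ Q.ord (bc F 𝓕 w - algebraMap Ω 𝓕 (ev Q (bc F 𝓕 w))) := by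
    have := h1.le_ord hne
    omega
  obtain ⟨P₀, -⟩ := exists_place_avoid (K := k) (F := F) ∅
  have hQP : Q ≠ bcP Ω 𝓕 P₀ := hQ P₀
  obtain ⟨c, hc⟩ := Spec.exists_tight Ω 𝓕
  let n : ℕ := c.toNat + 1
  obtain ⟨x, hx, hx0, hxv⟩ := hc (Finsupp.single (bcP Ω 𝓕 P₀) (n : ℤ) - Finsupp.single Q 1) (by
    rw [map_sub, degree_single', degree_single']; omega) {Q}
  have hxQ := hxv Q (Finset.mem_singleton_self Q)
  rw [Finsupp.sub_apply, Finsupp.single_eq_of_ne hQP, Finsupp.single_eq_same] at hxQ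
  have hxQ1 : Q.ord x = 1 := by omega
  have hxL : x ∈ SL Ω 𝓕 (Finsupp.single P₀ (n : ℤ)) := by
    rw [SL_eq hg, bcD_single]
    refine L_mono ?_ hx
    rw [sub_le_self_iff]
    exact Spec.single_le_of_nonneg Q
  haveI := fd (K := k) hw
  -- the tangent derivation vanishes
  have hw0 : tdv Q x w = 0 := by
    have : Ge Q 1 ((bc F 𝓕 w - algebraMap Ω 𝓕 (ev Q (bc F 𝓕 w))) * x⁻¹) := by
      refine Ge.of_le ?_
      rw [Q.ord_mul hne (inv_ne_zero hx0), Q.ord_inv, hxQ1]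
      omega
    exact (ev_eq_zero_iff (this.mono (by norm_num))).2 this
  have hall : ∀ f : F, tdv Q x f = 0 := by
    intro f
    have : KaehlerDifferential.D k F f ∈ Submodule.span F {KaehlerDifferential.D k F w} := by
      rw [kaehler_span]; trivial
    obtain ⟨g, hg'⟩ := Submodule.mem_span_singleton.1 this
    rw [tdv_smul hQg hxQ1 hx0 hg'.symm, hw0, mul_zero]
  have hall2 : ∀ f : F, Ge Q 2 (bc F 𝓕 f - algebraMap Ω 𝓕 (ev Q (bc F 𝓕 f))) := by
    intro f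
    rcases eq_or_ne (bc F 𝓕 f - algebraMap Ω 𝓕 (ev Q (bc F 𝓕 f))) 0 with h0 | h0
    · exact Or.inl h0
    have h3 := hall f
    have h4 := (ev_spec (hQg.ge f)).le_ord h0
    have h5 : Ge Q 0 ((bc F 𝓕 f - algebraMap Ω 𝓕 (ev Q (bc F 𝓕 f))) * x⁻¹) := by
      refine Ge.of_le ?_
      rw [Q.ord_mul h0 (inv_ne_zero hx0), Q.ord_inv, hxQ1]
      omega
    have h6 := ((ev_eq_zero_iff h5).1 h3).le_ord (mul_ne_zero h0 (inv_ne_zero hx0))
    rw [Q.ord_mul h0 (inv_ne_zero hx0), Q.ord_inv, hxQ1] at h6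
    exact Ge.of_le (by omega)
  have key : ∀ y ∈ SL Ω 𝓕 (Finsupp.single P₀ (n : ℤ)), Ge Q 0 y ∧
      Ge Q 2 (y - algebraMap Ω 𝓕 (ev Q y)) := by
    intro y hy
    rw [SL] at hy
    induction hy using Submodule.span_induction with
    | mem y hy =>
      obtain ⟨f, hf, rfl⟩ := hy
      exact ⟨hQg.ge f, hall2 f⟩
    | zero => exact ⟨Ge.zero _ _, by rw [ev_zero, map_zero, sub_zero]; exact Ge.zero _ _⟩
    | add y z _ _ hy hz =>
      refine ⟨hy.1.add hz.1, ?_⟩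
      rw [ev_add hy.1 hz.1, map_add, add_sub_add_comm]
      exact hy.2.add hz.2
    | smul a y _ hy =>
      refine ⟨hy.1.smul a, ?_⟩
      rw [Algebra.smul_def, ev_mul (Ge.algebraMap Q a) hy.1, ev_algebraMap, map_mul, ← mul_sub]
      exact ((Ge.algebraMap Q a).mul hy.2).mono (by norm_num)
  obtain ⟨h7, h8⟩ := key x hxL
  have h9 : ev Q x = 0 := (ev_eq_zero_iff h7).2 (Ge.of_le (by omega))
  rw [h9, map_zero, sub_zero] at h8
  have := h8.le_ord hx0
  omega

end Fermat.Agent.MW
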