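import Mathlib

/-!
# Absolute heights
-/

set_option autoImplicit false
set_option linter.unusedSectionVars false
set_option linter.unusedVariables false
set_option linter.style.haveILetI false

namespace Fermat.Agent.MW

open NumberField Module Height IntermediateField

section fixed
variable {K : Type*} [Field K] [NumberField K]

theorem prod_inf_eq (f : InfinitePlace K → ℝ) :
    ∏ v : InfinitePlace K, f v ^ v.mult = ∏ φ : K →+* ℂ, f (InfinitePlace.mk φ) := by
  classical
  rw [← Finset.prod_fiberwise Finset.univ InfinitePlace.mk (fun φ => f (InfinitePlace.mk φ))]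
  refine Finset.prod_congr rfl fun v _ => ?_
  have h1 : ∀ φ ∈ (Finset.univ.filter (fun φ : K →+* ℂ => InfinitePlace.mk φ = v)),
      f (InfinitePlace.mk φ) = f v := by
    intro φ hφ
    rw [(Finset.mem_filter.1 hφ).2]
  rw [Finset.prod_congr rfl h1, Finset.prod_const]
  congr 1
  convert! (InfinitePlace.card_filter_mk_eq v).symm

variable {ι : Type*} [Finite ι]

theorem mulHeight_integral {x : ι → 𝓞 K} (hx : x ≠ 0) :
    mulHeight (fun i => (x i : K)) = (∏ φ : K →+* ℂ, ⨆ i, ‖φ (x i)‖) *
      ((Ideal.span (Set.range x)).absNorm : ℝ)⁻¹ := by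
  have hx' : (fun i => (x i : K)) ≠ 0 := by
    intro h
    apply hx
    funext i
    exact RingOfIntegers.coe_injective (congrFun h i)
  rw [NumberField.mulHeight_eq hx', prod_inf_eq (fun v => ⨆ i, v (x i : K))]
  have h1 := NumberField.absNorm_mul_finprod_finitePlace_eq_one hx
  have h2 : ((Ideal.span (Set.range x)).absNorm : ℝ) ≠ 0 := by
    intro h0
    rw [h0, zero_mul] at h1
    exact zero_ne_one h1
  rw [← eq_inv_of_mul_eq_one_right h1]
  congr 1

end fixed

section ext
variable {K K' : Type*} [Field K] [NumberField K] [Field K'] [NumberField K'] [Algebra K K']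
variable {ι : Type*} [Finite ι]

theorem prod_embeddings_ext (f : (K →+* ℂ) → ℝ) :
    ∏ φ : K' →+* ℂ, f (φ.comp (algebraMap K K')) = (∏ φ : K →+* ℂ, f φ) ^ finrank K K' := by
  classical
  rw [← Finset.prod_fiberwise Finset.univ (fun φ : K' →+* ℂ => φ.comp (algebraMap K K'))
    (fun φ => f (φ.comp (algebraMap K K'))), ← Finset.prod_pow]
  refine Finset.prod_congr rfl fun ψ _ => ?_
  have h1 : ∀ φ ∈ (Finset.univ.filter (fun φ : K' →+* ℂ => φ.comp (algebraMap K K') = ψ)),
      f (φ.comp (algebraMap K K')) = f ψ := by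
    intro φ hφ
    rw [(Finset.mem_filter.1 hφ).2]
  rw [Finset.prod_congr rfl h1, Finset.prod_const]
  congr 1
  letI : Algebra K ℂ := ψ.toAlgebra
  rw [← AlgHom.card K K' ℂ, ← Fintype.card_subtype]
  refine Fintype.card_congr
    { toFun := fun φ => { toRingHom := φ.1, commutes' := fun r => RingHom.congr_fun φ.2 r }
      invFun := fun φ => ⟨φ.toRingHom, RingHom.ext fun r => φ.commutes r⟩
      left_inv := fun φ => rfl
      right_inv := fun φ => rfl }

theorem mulHeight_ext_integral {x : ι → 𝓞 K} (hx : x ≠ 0) :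
    mulHeight (fun i => algebraMap K K' (x i : K)) =
      mulHeight (fun i => (x i : K)) ^ finrank K K' := by
  have hinj : Function.Injective (algebraMap (𝓞 K) (𝓞 K')) := by
    intro a b h
    apply RingOfIntegers.coe_injective
    apply (algebraMap K K').injective
    exact congrArg (fun z : 𝓞 K' => (z : K')) h
  let y : ι → 𝓞 K' := fun i => algebraMap (𝓞 K) (𝓞 K') (x i)
  have hy : y ≠ 0 := by
    intro h
    apply hx
    funext i
    apply hinj
    rw [Pi.zero_apply, map_zero]
    exact congrFun h i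
  have e1 : (fun i => algebraMap K K' (x i : K)) = fun i => (y i : K') := rfl
  rw [e1, mulHeight_integral hy, mulHeight_integral hx, mul_pow, inv_pow]
  congr 1
  · rw [← prod_embeddings_ext (K := K) (K' := K') (fun φ => ⨆ i, ‖φ (x i)‖)]
    rfl
  · congr 1
    have h1 : Ideal.span (Set.range y) = (Ideal.span (Set.range x)).map (algebraMap (𝓞 K) (𝓞 K')) := by
      rw [Ideal.map_span, ← Set.range_comp]
      rfl
    haveI : Module.IsTorsionFree (𝓞 K) (𝓞 K') := inferInstance
    rw [h1, Ideal.absNorm_algebraMap]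
    rw [IsFractionRing.finrank_eq (𝓞 K) K (𝓞 K') K']
    push_cast
    rfl

theorem mulHeight_ext (x : ι → K) :
    mulHeight (fun i => algebraMap K K' (x i)) = mulHeight x ^ finrank K K' := by
  by_cases hx : x = 0
  · subst hx
    have : (fun i : ι => algebraMap K K' ((0 : ι → K) i)) = 0 := by
      funext i
      simp
    rw [this, mulHeight_zero, mulHeight_zero, one_pow]
  · obtain ⟨b, hb⟩ := IsLocalization.exist_integer_multiples_of_finite (nonZeroDivisors (𝓞 K)) x
    choose y hy using hb
    have hb0 : ((b : 𝓞 K) : K) ≠ 0 := by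
      intro h
      exact nonZeroDivisors.ne_zero b.2 (RingOfIntegers.coe_injective h)
    have hy' : (fun i => (y i : K)) = ((b : 𝓞 K) : K) • x := by
      funext i
      exact hy i
    have hy0 : y ≠ 0 := by
      rintro rfl
      apply hx
      funext i
      have := congrFun hy' i
      rw [Pi.smul_apply, smul_eq_mul] at this
      have h2 : (((0 : ι → 𝓞 K) i : 𝓞 K) : K) = 0 := by simp
      rw [h2] at this
      exact (mul_eq_zero.1 this.symm).resolve_left hb0
    have h1 := mulHeight_ext_integral (K' := K') hy0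
    have h2 : (fun i => algebraMap K K' (y i : K)) =
        (algebraMap K K' ((b : 𝓞 K) : K)) • (fun i => algebraMap K K' (x i)) := by
      funext i
      have := congrFun hy' i
      rw [Pi.smul_apply, smul_eq_mul] at this
      rw [Pi.smul_apply, smul_eq_mul, ← map_mul, ← this]
    rw [h2, hy', mulHeight_smul_eq_mulHeight _ ((map_ne_zero _).2 hb0),
      mulHeight_smul_eq_mulHeight _ hb0] at h1
    exact h1

end ext

section abs
variable {C : Type*} [Field C] [CharZero C] [Algebra.IsAlgebraic ℚ C]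

theorem numberField_adjoin {ι : Type*} [Finite ι] (x : ι → C) :
    NumberField (adjoin ℚ (Set.range x)) := by
  haveI : FiniteDimensional ℚ (adjoin ℚ (Set.range x)) :=
    finiteDimensional_adjoin fun y _ => (Algebra.IsAlgebraic.isAlgebraic y).isIntegral
  exact { to_charZero := inferInstance, to_finiteDimensional := this }

/-- **The absolute logarithmic height of a tuple.** -/
noncomputable def hb {ι : Type*} [Finite ι] (x : ι → C) : ℝ :=
  letI := numberField_adjoin x
  logHeight (fun i => (⟨x i, subset_adjoin ℚ _ ⟨i, rfl⟩⟩ : adjoin ℚ (Set.range x))) /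
    finrank ℚ (adjoin ℚ (Set.range x))

theorem hb_eq {ι : Type*} [Finite ι] {K : Type*} [Field K] [NumberField K] (φ : K →+* C)
    (x : ι → K) : hb (fun i => φ (x i)) = logHeight x / finrank ℚ K := by
  set x' : ι → C := fun i => φ (x i) with hx'
  letI := numberField_adjoin x'
  let φ' : K →ₐ[ℚ] C := φ.toRatAlgHom
  have hle : adjoin ℚ (Set.range x') ≤ φ'.fieldRange := by
    rw [adjoin_le_iff]
    rintro _ ⟨i, rfl⟩
    exact ⟨x i, rfl⟩
  let j : adjoin ℚ (Set.range x') →+* K :=
    ((AlgEquiv.ofInjectiveField φ').symm.toAlgHom.comp (IntermediateField.inclusion hle)).toRingHom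
  have hj : ∀ y : adjoin ℚ (Set.range x'), φ (j y) = (y : C) := by
    intro y
    have h1 := (AlgEquiv.ofInjectiveField φ').apply_symm_apply (IntermediateField.inclusion hle y)
    exact congrArg (fun z : φ'.fieldRange => (z : C)) h1
  letI : Algebra (adjoin ℚ (Set.range x')) K := j.toAlgebra
  let x₀ : ι → adjoin ℚ (Set.range x') := fun i => ⟨x' i, subset_adjoin ℚ _ ⟨i, rfl⟩⟩
  have h1 : x = fun i => algebraMap (adjoin ℚ (Set.range x')) K (x₀ i) := by
    funext i
    apply φ.injective
    exact (hj (x₀ i)).symm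
  have h2 := mulHeight_ext (K' := K) x₀
  rw [← h1] at h2
  haveI : IsScalarTower ℚ (adjoin ℚ (Set.range x')) K := IsScalarTower.of_algebraMap_eq' (Subsingleton.elim _ _)
  have h3 : finrank ℚ K = finrank ℚ (adjoin ℚ (Set.range x')) *
      finrank (adjoin ℚ (Set.range x')) K := (finrank_mul_finrank _ _ _).symm
  have h4 : 0 < finrank (adjoin ℚ (Set.range x')) K := by
    haveI : FiniteDimensional (adjoin ℚ (Set.range x')) K := FiniteDimensional.right ℚ _ _
    exact finrank_pos
  have h5 : logHeight x = finrank (adjoin ℚ (Set.range x')) K * logHeight x₀ := by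
    rw [logHeight_eq_log_mulHeight, h2, Real.log_pow, logHeight_eq_log_mulHeight]
  rw [h5, h3]
  push_cast
  have h4' : (0 : ℝ) < finrank (adjoin ℚ (Set.range x')) K := by exact_mod_cast h4
  rw [mul_comm (finrank ℚ (adjoin ℚ (Set.range x')) : ℝ), mul_div_mul_left _ _ h4'.ne']
  rfl

theorem exists_lift {ι ι' : Type*} [Finite ι] [Finite ι'] (x : ι → C) (y : ι' → C) :
    ∃ K : IntermediateField ℚ C, ∃ _ : NumberField K, ∃ x' : ι → K, ∃ y' : ι' → K,
      (x = fun i => K.val.toRingHom (x' i)) ∧ (y = fun i => K.val.toRingHom (y' i)) := by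
  let z : ι ⊕ ι' → C := Sum.elim x y
  letI := numberField_adjoin z
  exact ⟨adjoin ℚ (Set.range z), this, fun i => ⟨x i, subset_adjoin ℚ _ ⟨Sum.inl i, rfl⟩⟩,
    fun i => ⟨y i, subset_adjoin ℚ _ ⟨Sum.inr i, rfl⟩⟩, rfl, rfl⟩

variable {ι ι' : Type*} [Finite ι] [Finite ι']

theorem hb_nonneg (x : ι → C) : 0 ≤ hb x := by
  obtain ⟨K, _, x', -, rfl, -⟩ := exists_lift x x
  rw [hb_eq]
  exact div_nonneg (logHeight_nonneg _) (Nat.cast_nonneg _)

theorem hb_smul (x : ι → C) {c : C} (hc : c ≠ 0) : hb (fun i => c * x i) = hb x := by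
  obtain ⟨K, _, x', c', rfl, hc'⟩ := exists_lift x (fun _ : Unit => c)
  have h1 : c = K.val.toRingHom (c' ()) := congrFun hc' ()
  have h2 : (fun i => c * K.val.toRingHom (x' i)) =
      fun i => K.val.toRingHom ((c' () • x') i) := by
    funext i
    rw [Pi.smul_apply, smul_eq_mul, map_mul, ← h1]
  rw [h2, hb_eq, hb_eq, logHeight_smul_eq_logHeight]
  intro h0
  apply hc
  rw [h1, h0, map_zero]

theorem hb_mul {x : ι → C} (hx : x ≠ 0) {y : ι' → C} (hy : y ≠ 0) :
    hb (fun ij : ι × ι' => x ij.1 * y ij.2) = hb x + hb y := by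
  obtain ⟨K, _, x', y', rfl, rfl⟩ := exists_lift x y
  have h2 : (fun ij : ι × ι' => K.val.toRingHom (x' ij.1) * K.val.toRingHom (y' ij.2)) =
      fun ij => K.val.toRingHom (x' ij.1 * y' ij.2) := by
    funext ij
    rw [map_mul]
  have hx' : x' ≠ 0 := by
    rintro rfl
    apply hx
    funext i
    simp
  have hy' : y' ≠ 0 := by
    rintro rfl
    apply hy
    funext i
    simp
  rw [h2, hb_eq, hb_eq, hb_eq, logHeight_fun_mul_eq hx' hy', add_div]

theorem hb_comp_le (f : ι → ι') (x : ι' → C) : hb (fun i => x (f i)) ≤ hb x := by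
  obtain ⟨K, _, x', -, rfl, -⟩ := exists_lift x x
  have h2 : (fun i => K.val.toRingHom (x' (f i))) =
      fun i => K.val.toRingHom ((x' ∘ f) i) := rfl
  rw [h2, hb_eq, hb_eq]
  exact div_le_div_of_nonneg_right (logHeight_comp_le f x') (Nat.cast_nonneg _)

theorem hb_linear [Fintype ι] (A : ι' × ι → C) (x : ι → C) :
    hb (fun j => ∑ i, A (j, i) * x i) ≤ Real.log (Nat.card ι) + hb A + hb x := by
  obtain ⟨K, _, x', A', rfl, rfl⟩ := exists_lift x A
  have h2 : (fun j => ∑ i, K.val.toRingHom (A' (j, i)) * K.val.toRingHom (x' i)) =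
      fun j => K.val.toRingHom (∑ i, A' (j, i) * x' i) := by
    funext j
    rw [map_sum]
    exact Finset.sum_congr rfl fun i _ => (map_mul _ _ _).symm
  rw [h2, hb_eq, hb_eq, hb_eq]
  have h3 := logHeight_linearMap_apply_le A' x'
  rw [NumberField.totalWeight_eq_finrank] at h3
  have h4 : (0 : ℝ) < finrank ℚ K := by exact_mod_cast finrank_pos
  rw [div_le_iff₀ h4, add_mul, add_mul, div_mul_cancel₀ _ h4.ne', div_mul_cancel₀ _ h4.ne']
  linarith

/-- Galois invariance -/
theorem hb_map (σ : C →+* C) (x : ι → C) : hb (fun i => σ (x i)) = hb x := by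
  obtain ⟨K, _, x', -, rfl, -⟩ := exists_lift x x
  exact (hb_eq (σ.comp K.val.toRingHom) x').trans (hb_eq K.val.toRingHom x').symm

theorem hb_zero : hb (0 : ι → C) = 0 := by
  have h : (0 : ι → C) = fun i => (algebraMap ℚ C) ((0 : ι → ℚ) i) := by
    funext i; simp
  rw [h, hb_eq, logHeight_zero, zero_div]

end abs

end Fermat.Agent.MW
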