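import Fermat.Agent.MW.Height

/-!
# Absolute heights: integral linear maps, powers, roots, Northcott
-/

set_option autoImplicit false
set_option linter.unusedSectionVars false
set_option linter.unusedVariables false
set_option linter.style.haveILetI false

namespace Fermat.Agent.MW

open NumberField Module Height IntermediateField

variable {C : Type*} [Field C] [CharZero C] [Algebra.IsAlgebraic ℚ C]

section
variable {ι ι' : Type*} [Finite ι] [Finite ι']

theorem hb_int_le (n : ι → ℤ) {M : ℕ} (hM : 1 ≤ M) (hn : ∀ i, |n i| ≤ M) :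
    hb (fun i => (n i : C)) ≤ Real.log M := by
  classical
  haveI := Fintype.ofFinite ι
  have hlog : 0 ≤ Real.log M := Real.log_natCast_nonneg M
  by_cases h0 : n = 0
  · subst h0
    have h1 : (fun i : ι => (((0 : ι → ℤ) i : ℤ) : C)) = 0 := by
      funext i; simp
    rw [h1, hb_zero]
    exact hlog
  · have hne : Nonempty ι := by
      by_contra hcon
      rw [not_nonempty_iff] at hcon
      exact h0 (funext fun i => hcon.elim i)
    obtain ⟨g, hg1, hg2⟩ := Finset.extract_gcd (s := (Finset.univ : Finset ι)) n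
      Finset.univ_nonempty
    set d := Finset.univ.gcd n with hd
    have hd0 : d ≠ 0 := by
      intro h
      apply h0
      funext i
      rw [hg1 i (Finset.mem_univ i), h, zero_mul]
      rfl
    have h1 : (fun i => (n i : C)) = fun i => (d : C) * (g i : C) := by
      funext i
      rw [hg1 i (Finset.mem_univ i)]
      push_cast
      rfl
    rw [h1, hb_smul _ (Int.cast_ne_zero.2 hd0)]
    have h2 : (fun i => (g i : C)) = fun i => (algebraMap ℚ C) ((((↑) : ℤ → ℚ) ∘ g) i) := by
      funext i
      simp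
    rw [h2, hb_eq, Rat.logHeight_eq_max_abs_of_gcd_eq_one hg2, finrank_self, Nat.cast_one, div_one]
    have h3 : ∀ i, |g i| ≤ M := by
      intro i
      refine le_trans ?_ (hn i)
      rw [hg1 i (Finset.mem_univ i), abs_mul]
      have : 1 ≤ |d| := Int.one_le_abs hd0
      nlinarith [abs_nonneg (g i)]
    obtain ⟨i, hi⟩ := exists_eq_ciSup_of_finite (f := fun i => |g i|)
    rw [← hi]
    have h4 : 0 < |g i| := by
      by_contra h5
      have h6 : ∀ j, g j = 0 := by
        intro j
        have h7 : |g j| ≤ ⨆ i, |g i| := Finite.le_ciSup (fun i => |g i|) j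
        rw [← hi] at h7
        have := abs_nonneg (g j)
        exact abs_eq_zero.1 (by omega)
      have h7 : (Finset.univ : Finset ι).gcd g = 0 := by
        rw [Finset.gcd_eq_zero_iff]
        exact fun j _ => h6 j
      rw [h7] at hg2
      exact zero_ne_one hg2
    apply Real.log_le_log
    · exact_mod_cast h4
    · exact_mod_cast h3 i

theorem hb_comb [Fintype ι] (n : ι' × ι → ℤ) {M : ℕ} (hM : 1 ≤ M) (hn : ∀ i, |n i| ≤ M)
    (x : ι → C) :
    hb (fun j => ∑ i, (n (j, i) : C) * x i) ≤ Real.log (Nat.card ι) + Real.log M + hb x := by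
  have h1 := hb_linear (fun ji => (n ji : C)) x
  have h2 := hb_int_le (C := C) n hM hn
  linarith

/-- each entry is plus or minus an entry or zero or a sum of such -/
theorem hb_comb' [Fintype ι] {y : ι' → C} {x : ι → C}
    (h : ∀ j, ∃ n : ι → ℤ, (∀ i, |n i| ≤ 1) ∧ y j = ∑ i, (n i : C) * x i) :
    hb y ≤ Real.log (Nat.card ι) + hb x := by
  choose n hn hy using h
  have h1 := hb_comb (fun ji : ι' × ι => n ji.1 ji.2) (M := 1) le_rfl (fun ji => by
    exact_mod_cast hn ji.1 ji.2) x
  rw [Nat.cast_one, Real.log_one, add_zero] at h1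
  have h2 : y = fun j => ∑ i, (n j i : C) * x i := funext hy
  rw [h2]
  exact h1

theorem exists_lift_fam {α : Type*} [Finite α] (x : α → ι → C) :
    ∃ K : IntermediateField ℚ C, ∃ _ : NumberField K, ∃ x' : α → ι → K,
      ∀ a, x a = fun i => K.val.toRingHom (x' a i) := by
  let z : α × ι → C := fun p => x p.1 p.2
  letI := numberField_adjoin z
  exact ⟨adjoin ℚ (Set.range z), this, fun a i => ⟨x a i, subset_adjoin ℚ _ ⟨(a, i), rfl⟩⟩,
    fun a => rfl⟩

theorem hb_prod {α : Type*} [Fintype α] {x : α → ι → C} (hx : ∀ a, x a ≠ 0) :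
    hb (fun I : α → ι => ∏ a, x a (I a)) = ∑ a, hb (x a) := by
  obtain ⟨K, _, x', hx'⟩ := exists_lift_fam x
  have h1 : ∀ a, x' a ≠ 0 := by
    intro a h0
    apply hx a
    rw [hx' a, h0]
    funext i
    simp
  have h2 : (fun I : α → ι => ∏ a, x a (I a)) =
      fun I => K.val.toRingHom (∏ a, x' a (I a)) := by
    funext I
    rw [map_prod]
    exact Finset.prod_congr rfl fun a _ => congrFun (hx' a) (I a)
  rw [h2, hb_eq, logHeight_fun_prod_eq h1, Finset.sum_div]
  refine Finset.sum_congr rfl fun a _ => ?_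
  rw [hx' a, hb_eq]

end

/-- the height of a number -/
noncomputable def h1 (x : C) : ℝ := hb ![1, x]

theorem h1_nonneg (x : C) : 0 ≤ h1 x := hb_nonneg _

theorem vec_ne (x : C) : (![1, x] : Fin 2 → C) ≠ 0 := by
  intro h
  have := congrFun h 0
  simp at this

theorem hb_powers (n : ℕ) (τ : C) : hb (fun i : Fin (n + 1) => τ ^ (i : ℕ)) = n * h1 τ := by
  classical
  have h2 : hb (fun I : Fin n → Fin 2 => ∏ a, (![1, τ] : Fin 2 → C) (I a)) = n * h1 τ := by
    rw [hb_prod (x := fun _ : Fin n => (![1, τ] : Fin 2 → C)) (fun _ => vec_ne τ)]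
    simp [h1]
  rw [← h2]
  apply le_antisymm
  · have h3 := hb_comp_le (C := C) (fun (i : Fin (n + 1)) (a : Fin n) =>
      if (a : ℕ) < i then (1 : Fin 2) else 0) (fun I => ∏ a, (![1, τ] : Fin 2 → C) (I a))
    refine le_of_eq_of_le ?_ h3
    congr 1
    funext i
    have h4 : ∀ a : Fin n, (![1, τ] : Fin 2 → C) (if (a : ℕ) < i then (1 : Fin 2) else 0) =
        if (a : ℕ) < i then τ else 1 := by
      intro a
      split_ifs <;> simp
    rw [Finset.prod_congr rfl (fun a _ => h4 a), Finset.prod_ite, Finset.prod_const,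
      Finset.prod_const_one, mul_one]
    congr 1
    have h5 : (Finset.univ.filter (fun a : Fin n => (a : ℕ) < i)).card = i := by
      rw [Fin.card_filter_val_lt]
      have := i.2
      omega
    exact h5.symm
  · have h3 := hb_comp_le (C := C) (fun (I : Fin n → Fin 2) =>
      (⟨(Finset.univ.filter (fun a => I a = 1)).card, by
        have := Finset.card_filter_le (Finset.univ : Finset (Fin n)) (fun a => I a = 1)
        rw [Finset.card_univ, Fintype.card_fin] at this
        omega⟩ : Fin (n + 1))) (fun i => τ ^ (i : ℕ))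
    refine le_of_eq_of_le ?_ h3
    congr 1
    funext I
    have h4 : ∀ a : Fin n, (![1, τ] : Fin 2 → C) (I a) = if I a = 1 then τ else 1 := by
      intro a
      have h5 : I a = 0 ∨ I a = 1 := by
        rcases I a with ⟨v, hv⟩
        interval_cases v
        · exact Or.inl rfl
        · exact Or.inr rfl
      rcases h5 with h5 | h5 <;> rw [h5] <;> simp
    rw [Finset.prod_congr rfl (fun a _ => h4 a), Finset.prod_ite, Finset.prod_const,
      Finset.prod_const_one, mul_one]

/-- **Roots of polynomials.** -/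
theorem root_bound {n : ℕ} {p : Fin (n + 1) → C} {τ : C} (hp : p ≠ 0)
    (h : ∑ i, p i * τ ^ (i : ℕ) = 0) : h1 τ ≤ hb p + Real.log ((n + 1) * (n + 1)) := by
  classical
  -- the leading index
  have hex : (Finset.univ.filter (fun i => p i ≠ 0)).Nonempty := by
    obtain ⟨i, hi⟩ := Function.ne_iff.1 hp
    exact ⟨i, Finset.mem_filter.2 ⟨Finset.mem_univ _, hi⟩⟩
  set m := (Finset.univ.filter (fun i => p i ≠ 0)).max' hex with hm
  have hm0 : p m ≠ 0 := (Finset.mem_filter.1 (Finset.max'_mem _ hex)).2
  have hmax : ∀ i, m < i → p i = 0 := by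
    intro i hi
    by_contra hne
    exact absurd (Finset.le_max' _ i (Finset.mem_filter.2 ⟨Finset.mem_univ _, hne⟩)) (not_le.2 hi)
  have hmpos : 0 < (m : ℕ) := by
    by_contra h0
    have h0' : (m : ℕ) = 0 := by omega
    rw [Finset.sum_eq_single m] at h
    · rw [h0', pow_zero, mul_one] at h
      exact hm0 h
    · intro i _ hi
      have : m < i := by
        rw [Fin.lt_def, h0']
        have h2 : (i : ℕ) ≠ m := fun h3 => hi (Fin.ext h3)
        omega
      rw [hmax i this, zero_mul]
    · intro h; exact absurd (Finset.mem_univ _) h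
  -- tuples
  obtain ⟨r, hr⟩ : ∃ r : ℕ, (m : ℕ) = r + 1 := ⟨m - 1, by omega⟩
  have hrn : r + 1 ≤ n := by have := m.2; omega
  let X : Fin (n + 1) × Fin (r + 1) → C := fun ij => p ij.1 * τ ^ (ij.2 : ℕ)
  have hX : hb X = hb p + r * h1 τ := by
    rw [← hb_powers, ← hb_mul hp]
    intro h0
    have := congrFun h0 0
    simp at this
  have hτ : hb (fun i : Fin (r + 1 + 1) => p m * τ ^ (i : ℕ)) = (r + 1 : ℕ) * h1 τ := by
    rw [hb_smul _ hm0, hb_powers]
  have hle : hb (fun i : Fin (r + 1 + 1) => p m * τ ^ (i : ℕ)) ≤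
      Real.log (Nat.card (Fin (n + 1) × Fin (r + 1))) + hb X := by
    apply hb_comb'
    intro j
    by_cases hj : (j : ℕ) < r + 1
    · refine ⟨fun ij => if ij = (m, ⟨j, hj⟩) then 1 else 0, fun ij => ?_, ?_⟩
      · beta_reduce; split_ifs <;> simp
      · beta_reduce; rw [Finset.sum_eq_single (m, ⟨(j : ℕ), hj⟩)]
        · simp [X]
        · intro b _ hb'
          rw [if_neg hb']
          simp
        · intro h; exact absurd (Finset.mem_univ _) h
    · have hj' : (j : ℕ) = r + 1 := by have := j.2; omega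
      refine ⟨fun ij => if (ij.1 : ℕ) = ij.2 then -1 else 0, fun ij => ?_, ?_⟩
      · beta_reduce; split_ifs <;> simp
      · have e1 : ∑ ij : Fin (n + 1) × Fin (r + 1), ((if (ij.1 : ℕ) = ij.2 then (-1 : ℤ) else 0 : ℤ) : C) *
            X ij = -∑ i : Fin (r + 1), p ⟨i, by omega⟩ * τ ^ (i : ℕ) := by
          rw [← Finset.univ_product_univ, Finset.sum_product_right, ← Finset.sum_neg_distrib]
          refine Finset.sum_congr rfl fun i _ => ?_
          rw [Finset.sum_eq_single ⟨(i : ℕ), by omega⟩]
          · simp [X]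
          · intro b _ hb'
            rw [if_neg (fun h3 => hb' (Fin.ext h3))]
            simp
          · intro h; exact absurd (Finset.mem_univ _) h
        rw [e1, hj']
        have e2 : ∑ i : Fin (n + 1), p i * τ ^ (i : ℕ) =
            (∑ i : Fin (r + 1), p ⟨i, by omega⟩ * τ ^ (i : ℕ)) + p m * τ ^ (r + 1) := by
          have e3 : ∀ i : Fin (n + 1), p i * τ ^ (i : ℕ) =
              if h4 : (i : ℕ) < n + 1 then p ⟨i, h4⟩ * τ ^ (i : ℕ) else 0 := by
            intro i
            rw [dif_pos i.2]
          rw [Finset.sum_congr rfl (fun i _ => e3 i), Fin.sum_univ_eq_sum_range (fun i =>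
            if h4 : i < n + 1 then p ⟨i, h4⟩ * τ ^ i else 0)]
          rw [← Finset.sum_range_add_sum_Ico _ (show r + 1 + 1 ≤ n + 1 by omega),
            Finset.sum_range_succ]
          have e4 : ∑ i ∈ Finset.Ico (r + 1 + 1) (n + 1),
              (if h4 : i < n + 1 then p ⟨i, h4⟩ * τ ^ i else 0) = 0 := by
            apply Finset.sum_eq_zero
            intro i hi
            rw [Finset.mem_Ico] at hi
            rw [dif_pos hi.2, hmax ⟨i, hi.2⟩ (by rw [Fin.lt_def, hr]; exact hi.1), zero_mul]
          rw [e4, add_zero, dif_pos (by omega : r + 1 < n + 1)]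
          congr 1
          · have e5 : ∀ i : Fin (r + 1), p ⟨i, by omega⟩ * τ ^ (i : ℕ) =
                (fun i : ℕ => if h4 : i < n + 1 then p ⟨i, h4⟩ * τ ^ i else 0) (i : ℕ) := by
              intro i
              simp only
              rw [dif_pos (by omega)]
            rw [Finset.sum_congr rfl (fun i _ => e5 i)]
            exact (Fin.sum_univ_eq_sum_range
              (fun i : ℕ => if h4 : i < n + 1 then p ⟨i, h4⟩ * τ ^ i else 0) (r + 1)).symm
          · congr 2
            exact Fin.ext hr.symm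
        rw [e2] at h
        linear_combination h
  rw [hτ, hX] at hle
  have hcard : (Nat.card (Fin (n + 1) × Fin (r + 1)) : ℝ) ≤ (n + 1) * (n + 1) := by
    rw [Nat.card_prod, Nat.card_fin, Nat.card_fin]
    push_cast
    have : (r : ℝ) + 1 ≤ n := by exact_mod_cast hrn
    nlinarith
  have hlog : Real.log (Nat.card (Fin (n + 1) × Fin (r + 1))) ≤ Real.log ((n + 1) * (n + 1)) := by
    apply Real.log_le_log _ hcard
    rw [Nat.card_prod, Nat.card_fin, Nat.card_fin]
    positivity
  push_cast at hle
  linarith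

end Fermat.Agent.MW
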