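import Fermat.Agent.MW.Fam

/-!
# Intersection numbers on a constant surface
-/

set_option autoImplicit false
set_option linter.unusedSectionVars false
set_option linter.unusedVariables false
set_option linter.style.haveILetI false

namespace Fermat.Agent.MW

open AlgebraicCurve Fermat.Agent.RR Fermat.Agent.Curve IntermediateField Module

variable {k Ω F 𝓕 : Type*} [Field k] [Field Ω] [Field F] [Field 𝓕]
  [Algebra k F] [Algebra Ω 𝓕] [Algebra k Ω] [Algebra F 𝓕]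
  [IsAlgClosed k] [IsAlgClosed Ω] [FunField k F] [FunField Ω 𝓕] [hC : CExt k Ω F 𝓕]

variable (k Ω F 𝓕) in
/-- A family of reductions parametrized by the places of a function field `L ⊂ Ω`. -/
structure Fam (L : Type*) [Field L] [Algebra k L] [Algebra L Ω] where
  R : Place k L → CRed k Ω F 𝓕
  mem_iff : ∀ (v : Place k L) (x : L), algebraMap L Ω x ∈ (R v).A ↔ 0 ≤ v.ord x

variable {L : Type*} [Field L] [Algebra k L] [Algebra L Ω] [IsScalarTower k L Ω] [FunField k L]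

/-- points rational over `L` -/
def Rat (F L : Type*) {Ω 𝓕 : Type*} [Field F] [Field L] [Field Ω] [IsAlgClosed Ω] [Field 𝓕]
    [Algebra Ω 𝓕] [Algebra F 𝓕] [FunField Ω 𝓕] [Algebra L Ω] (Q : Place Ω 𝓕) : Prop :=
  ∀ f : F, ∃ x : L, algebraMap L Ω x = ev Q (bc F 𝓕 f)

/-- the value of a constant function at a rational point -/
noncomputable def prL {Q : Place Ω 𝓕} (hr : Rat F L Q) (f : F) : L := Exists.choose (hr f)

theorem algebraMap_prL {Q : Place Ω 𝓕} (hr : Rat F L Q) (f : F) :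
    algebraMap L Ω (prL hr f) = ev Q (bc F 𝓕 f) := Exists.choose_spec (hr f)

/-- a rational point as an embedding -/
noncomputable def phi {Q : Place Ω 𝓕} (hQ : Gen k F Q) (hr : Rat F L Q) : F →ₐ[k] L where
  toFun f := prL hr f
  map_one' := by
    apply (algebraMap L Ω).injective
    rw [algebraMap_prL, map_one, map_one, ev_one]
  map_zero' := by
    apply (algebraMap L Ω).injective
    rw [algebraMap_prL, map_zero, map_zero, ev_zero]
  map_add' f g := by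
    apply (algebraMap L Ω).injective
    rw [map_add, algebraMap_prL, algebraMap_prL, algebraMap_prL, map_add,
      ev_add (hQ.ge f) (hQ.ge g)]
  map_mul' f g := by
    apply (algebraMap L Ω).injective
    rw [map_mul, algebraMap_prL, algebraMap_prL, algebraMap_prL, map_mul,
      ev_mul (hQ.ge f) (hQ.ge g)]
  commutes' a := by
    apply (algebraMap L Ω).injective
    rw [algebraMap_prL, bc, hC.comm, ev_algebraMap, ← IsScalarTower.algebraMap_apply]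

theorem algebraMap_phi {Q : Place Ω 𝓕} (hQ : Gen k F Q) (hr : Rat F L Q) (f : F) :
    algebraMap L Ω (phi hQ hr f) = ev Q (bc F 𝓕 f) := algebraMap_prL hr f

theorem prod_zpow_sum {ι M : Type*} [Field M] (s : Finset ι) (n : ι → ℤ) {c : M} (hc : c ≠ 0) :
    ∏ i ∈ s, c ^ (n i) = c ^ (∑ i ∈ s, n i) := by
  classical
  induction s using Finset.induction_on with
  | empty => simp
  | insert i s hi ih => rw [Finset.prod_insert hi, Finset.sum_insert hi, ih, zpow_add₀ hc]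

open Classical in
/-- order of elements of `Ω` lying in `L` -/
noncomputable def oL (v : Place k L) (a : Ω) : ℤ :=
  if h : ∃ x : L, algebraMap L Ω x = a then v.ord h.choose else 0

theorem oL_map (v : Place k L) (x : L) : oL v (algebraMap L Ω x) = v.ord x := by
  have h : ∃ y : L, algebraMap L Ω y = algebraMap L Ω x := ⟨x, rfl⟩
  rw [oL, dif_pos h]
  congr 1
  exact (algebraMap L Ω).injective h.choose_spec

theorem oL_one (v : Place k L) : oL v (1 : Ω) = 0 := by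
  rw [← map_one (algebraMap L Ω), oL_map, v.ord_one]

theorem oL_neg (v : Place k L) {a : Ω} (h : ∃ x : L, algebraMap L Ω x = a) :
    oL v (-a) = oL v a := by
  obtain ⟨x, rfl⟩ := h
  rw [← map_neg, oL_map, oL_map, ord_neg]

namespace Fam

variable (𝔽 : Fam k Ω F 𝓕 L)

/-- the reduction at `v` -/
noncomputable abbrev rp (v : Place k L) : Place Ω 𝓕 → Place k F := (𝔽.R v).rp

theorem ord_pos_of_ρ {v : Place k L} {x : L} (hx : x ≠ 0) (h : algebraMap L Ω x ∈ (𝔽.R v).A)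
    (h0 : (𝔽.R v).ρ ⟨_, h⟩ = 0) : 0 < v.ord x := by
  have h1 := (𝔽.R v).ρ_eq_zero _ h0 ((map_ne_zero _).2 hx)
  rw [← map_inv₀, 𝔽.mem_iff, v.ord_inv] at h1
  omega

theorem eq_zero_of_val {v : Place k L} {x : L} (hx : x ≠ 0)
    (h : (𝔽.R v).A.valuation (algebraMap L Ω x) = 1) : v.ord x = 0 := by
  have h1 : algebraMap L Ω x ∈ (𝔽.R v).A := ((𝔽.R v).A.valuation_le_one_iff _).1 h.le
  have h2 : algebraMap L Ω x⁻¹ ∈ (𝔽.R v).A := by
    rw [← ValuationSubring.valuation_le_one_iff, map_inv₀, map_inv₀, h, inv_one]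
  rw [𝔽.mem_iff] at h1 h2
  rw [v.ord_inv] at h2
  omega

/-- reduction is restriction of places -/
theorem rs_phi {Q : Place Ω 𝓕} (hQ : Gen k F Q) (hr : Rat F L Q) (v : Place k L) :
    rs (phi (L := L) hQ hr) v = 𝔽.rp v Q := by
  symm
  apply place_eq_of_le
  intro f hf
  rw [mem_iff_ord_nonneg] at hf ⊢
  rw [← le_zero_iff]
  obtain ⟨h1, -⟩ := (𝔽.R v).ev_bc (Ge.of_le hf) (rfl : (𝔽.R v).rp Q = 𝔽.rp v Q)
  rw [← algebraMap_phi (L := L) hQ hr, 𝔽.mem_iff] at h1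
  exact h1

open Classical in
/-- local intersection number -/
noncomputable def Bv (w : F) (v : Place k L) (Q Q' : Place Ω 𝓕) : ℤ :=
  if Q = Q' then -oL v (kap w (𝔽.rp v Q) Q) else
    if 𝔽.rp v Q = 𝔽.rp v Q' then
      oL v (ev Q (bc F 𝓕 (zc k F (𝔽.rp v Q))) - ev Q' (bc F 𝓕 (zc k F (𝔽.rp v Q)))) else 0

theorem Bv_self (w : F) (v : Place k L) (Q : Place Ω 𝓕) :
    𝔽.Bv w v Q Q = -oL v (kap w (𝔽.rp v Q) Q) := by
  rw [Bv, if_pos rfl]

theorem Bv_ne (w : F) (v : Place k L) {Q Q' : Place Ω 𝓕} (h : Q ≠ Q')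
    (h' : 𝔽.rp v Q ≠ 𝔽.rp v Q') : 𝔽.Bv w v Q Q' = 0 := by
  rw [Bv, if_neg h, if_neg h']

theorem Bv_eq (w : F) (v : Place k L) {Q Q' : Place Ω 𝓕} (h : Q ≠ Q')
    (h' : 𝔽.rp v Q = 𝔽.rp v Q') : 𝔽.Bv w v Q Q' =
      oL v (ev Q (bc F 𝓕 (zc k F (𝔽.rp v Q))) - ev Q' (bc F 𝓕 (zc k F (𝔽.rp v Q)))) := by
  rw [Bv, if_neg h, if_pos h']

theorem Bv_symm (w : F) (v : Place k L) {Q Q' : Place Ω 𝓕} (hr : Rat F L Q) (hr' : Rat F L Q') :
    𝔽.Bv w v Q Q' = 𝔽.Bv w v Q' Q := by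
  by_cases h : Q = Q'
  · rw [h]
  by_cases h' : 𝔽.rp v Q = 𝔽.rp v Q'
  · rw [𝔽.Bv_eq w v h h', 𝔽.Bv_eq w v (Ne.symm h) h'.symm, ← h']
    rw [← neg_sub, oL_neg]
    obtain ⟨x, hx⟩ := hr (zc k F (𝔽.rp v Q))
    obtain ⟨x', hx'⟩ := hr' (zc k F (𝔽.rp v Q))
    exact ⟨x' - x, by rw [map_sub, hx, hx']⟩
  · rw [𝔽.Bv_ne w v h h', 𝔽.Bv_ne w v (Ne.symm h) (Ne.symm h')]

theorem ev_bcP (P : Place k F) {f : F} (hf : Ge P 0 f) :
    ev (bcP Ω 𝓕 P) (bc F 𝓕 f) = algebraMap k Ω (ev P f) := by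
  apply ev_unique
  have h1 := ev_spec hf
  have h2 : bc F 𝓕 f - algebraMap Ω 𝓕 (algebraMap k Ω (ev P f)) =
      bc F 𝓕 (f - algebraMap k F (ev P f)) := by
    rw [map_sub, bc, hC.comm]
  rw [h2]
  rcases h1 with h1 | h1
  · rw [h1, map_zero]; exact Ge.zero _ _
  · exact Ge.of_le (by rw [bcP_ord]; exact h1)

theorem ev_pole {K F : Type*} [Field K] [IsAlgClosed K] [Field F] [Algebra K F] [FunField K F]
    {v : Place K F} {f : F} (h : v.ord f < 0) : ev v f = 0 := by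
  rw [ev, dif_neg]
  rintro ⟨a, ha⟩
  have h1 := ge_zero_of ha
  have hf : f ≠ 0 := by rintro rfl; rw [v.ord_zero] at h; exact lt_irrefl _ h
  have := h1.le_ord hf
  omega

theorem rat_bcP (P : Place k F) : Rat F L (bcP Ω 𝓕 P) := by
  intro f
  by_cases hf : Ge P 0 f
  · refine ⟨algebraMap k L (ev P f), ?_⟩
    rw [ev_bcP P hf, ← IsScalarTower.algebraMap_apply]
  · refine ⟨0, ?_⟩
    rw [map_zero, ev_pole]
    rw [bcP_ord]
    by_contra h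
    exact hf (Ge.of_le (not_lt.1 h))

theorem Bv_const_self (w : F) (v : Place k L) (P : Place k F) :
    𝔽.Bv w v (bcP Ω 𝓕 P) (bcP Ω 𝓕 P) = 0 := by
  rw [𝔽.Bv_self, rp, (𝔽.R v).rp_bcP, kap_const, oL_one, neg_zero]

theorem Bv_const (w : F) (v : Place k L) (P P' : Place k F) :
    𝔽.Bv w v (bcP Ω 𝓕 P) (bcP Ω 𝓕 P') = 0 := by
  by_cases h : P = P'
  · rw [h, Bv_const_self]
  · rw [𝔽.Bv_ne w v]
    · intro h1; exact h (bcP_injective h1)
    · rw [rp, (𝔽.R v).rp_bcP, (𝔽.R v).rp_bcP]; exact h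

open Classical in
theorem Bv_gen_const (w : F) (v : Place k L) {Q : Place Ω 𝓕} (hQ : Gen k F Q) (hr : Rat F L Q)
    (P : Place k F) : 𝔽.Bv w v Q (bcP Ω 𝓕 P) =
      if rs (phi (L := L) hQ hr) v = P then re (phi (L := L) hQ hr) v else 0 := by
  rw [𝔽.rs_phi hQ hr]
  have hz : Ge P 0 (zc k F P) := Ge.of_le (by rw [zc_ord]; norm_num)
  have hz' : ev P (zc k F P) = 0 := (ev_eq_zero_iff hz).2 (Ge.of_le (by rw [zc_ord]))
  have h0 : ev (bcP Ω 𝓕 P) (bc F 𝓕 (zc k F P)) = 0 := by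
    rw [ev_bcP P hz, hz', map_zero]
  split_ifs with h
  · rw [𝔽.Bv_eq w v (hQ P) (by rw [h, rp, (𝔽.R v).rp_bcP]), h, h0, sub_zero,
      ← algebraMap_phi (L := L) hQ hr, oL_map, ord_map, 𝔽.rs_phi hQ hr, h, zc_ord, mul_one]
  · rw [𝔽.Bv_ne w v (hQ P) (by rw [rp, (𝔽.R v).rp_bcP]; exact h)]

end Fam

/-- `Kw` is the divisor of `dw`. -/
def IsDw (w : F) (Kw : Divisor k F) : Prop :=
  ∀ P : Place k F, ∃ g : F, g ≠ 0 ∧ P.ord g = Kw P ∧
    KaehlerDifferential.D k F w = g • KaehlerDifferential.D k F (zc k F P)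

namespace Fam

variable (𝔽 : Fam k Ω F 𝓕 L)

theorem Bv_gen_self {w : F} (hw : Good k Ω 𝓕 w) {Kw : Divisor k F} (hK : IsDw w Kw)
    (v : Place k L) {Q : Place Ω 𝓕} (hQ : Gen k F Q) (hr : Rat F L Q) :
    𝔽.Bv w v Q Q = -(re (phi (L := L) hQ hr) v * Kw (rs (phi (L := L) hQ hr) v)) := by
  obtain ⟨g, hg0, hg1, hg2⟩ := hK (𝔽.rp v Q)
  rw [𝔽.Bv_self, kap_eq (𝔽.R v) hw rfl hQ hg2, ← algebraMap_phi (L := L) hQ hr, oL_map, ord_map,
    𝔽.rs_phi hQ hr, hg1]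

theorem kap_mem {w : F} (hw : Good k Ω 𝓕 w) {Kw : Divisor k F} (hK : IsDw w Kw)
    (v : Place k L) {Q : Place Ω 𝓕} (hr : Rat F L Q) :
    ∃ x : L, algebraMap L Ω x = kap w (𝔽.rp v Q) Q := by
  by_cases hQ : Gen k F Q
  · obtain ⟨g, hg0, hg1, hg2⟩ := hK (𝔽.rp v Q)
    rw [kap_eq (𝔽.R v) hw rfl hQ hg2]
    exact hr g
  · rw [Gen] at hQ
    push Not at hQ
    obtain ⟨P, rfl⟩ := hQ
    rw [rp, (𝔽.R v).rp_bcP, kap_const]
    exact ⟨1, map_one _⟩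

open Classical in
/-- **The order of the value of a function.** -/
theorem ord_value {w : F} (hw : Good k Ω 𝓕 w) {Kw : Divisor k F} (hK : IsDw w Kw)
    {x : 𝓕} (hx : x ≠ 0) {b : Divisor Ω 𝓕} (hb : Divisor.degree b = 0)
    (hrx : ∀ Q ∈ (divisor Ω x).support, Rat F L Q) (hrb : ∀ Q ∈ b.support, Rat F L Q)
    {Λ : L} (hΛ : algebraMap L Ω Λ = ∏ Q ∈ b.support, lc k w Q x ^ (b Q)) (v : Place k L) :
    v.ord Λ = ∑ Q ∈ b.support, ∑ Q' ∈ (divisor Ω x).support,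
      b Q * divisor Ω x Q' * 𝔽.Bv w v Q' Q := by
  obtain ⟨c, hc0, hcW, hcπ⟩ := (𝔽.R v).prim x hx
  set y : (𝔽.R v).W := ⟨_, hcW⟩ with hy
  have hyx : (y : 𝓕) = algebraMap Ω 𝓕 c * x := rfl
  have hy0 : (y : 𝓕) ≠ 0 := (𝔽.R v).ne_zero_of_π hcπ
  have hdiv : divisor Ω (y : 𝓕) = divisor Ω x := by
    ext Q
    rw [divisor_apply, divisor_apply, hyx, Q.ord_mul ((map_ne_zero _).2 hc0) hx, ord_algebraMap,
      zero_add]
  have hord : ∀ Q : Place Ω 𝓕, Q.ord (y : 𝓕) = divisor Ω x Q := fun Q => by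
    rw [← hdiv, divisor_apply]
  have hkap := fun Q (hQ : Rat F L Q) => 𝔽.kap_mem hw hK v hQ
  have hval := fun Q : Place Ω 𝓕 => (𝔽.R v).val_lc hw y hcπ (rfl : (𝔽.R v).rp Q = 𝔽.rp v Q)
  -- elements of `L`
  let kL : Place Ω 𝓕 → L := fun Q => if h : Rat F L Q then (hkap Q h).choose else 1
  have hkL : ∀ Q, Rat F L Q → algebraMap L Ω (kL Q) = kap w (𝔽.rp v Q) Q := by
    intro Q hQ
    simp only [kL, dif_pos hQ]
    exact (hkap Q hQ).choose_spec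
  let zL : F → Place Ω 𝓕 → L := fun f Q => if h : Rat F L Q then (h f).choose else 1
  have hzL : ∀ f Q, Rat F L Q → algebraMap L Ω (zL f Q) = ev Q (bc F 𝓕 f) := by
    intro f Q hQ
    simp only [zL, dif_pos hQ]
    exact (hQ f).choose_spec
  let S : Place Ω 𝓕 → Finset (Place Ω 𝓕) := fun Q =>
    (divisor Ω x).support.filter (fun u => 𝔽.rp v u = 𝔽.rp v Q ∧ u ≠ Q)
  have hS : ∀ Q, ∀ Q' ∈ S Q, Q' ∈ (divisor Ω x).support ∧ 𝔽.rp v Q' = 𝔽.rp v Q ∧ Q' ≠ Q :=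
    fun Q Q' h => Finset.mem_filter.1 h
  let dL : Place Ω 𝓕 → Place Ω 𝓕 → L := fun Q Q' =>
    zL (zc k F (𝔽.rp v Q)) Q - zL (zc k F (𝔽.rp v Q)) Q'
  let E : Place Ω 𝓕 → L := fun Q => kL Q ^ (divisor Ω x Q) *
    ∏ Q' ∈ S Q, dL Q Q' ^ (-(divisor Ω x Q'))
  have hE : ∀ Q ∈ b.support, algebraMap L Ω (E Q) = kap w (𝔽.rp v Q) Q ^ (Q.ord (y : 𝓕)) *
      ∏ R' ∈ (divisor Ω (y : 𝓕)).support.filter (fun u => (𝔽.R v).rp u = 𝔽.rp v Q ∧ u ≠ Q),
        (ev Q (bc F 𝓕 (zc k F (𝔽.rp v Q))) - ev R' (bc F 𝓕 (zc k F (𝔽.rp v Q)))) ^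
          (-(R'.ord (y : 𝓕))) := by
    intro Q hQ
    rw [map_mul, map_zpow₀, hkL Q (hrb Q hQ), map_prod, hord, hdiv]
    congr 1
    refine Finset.prod_congr rfl fun Q' hQ' => ?_
    rw [map_zpow₀, map_sub, hzL _ Q (hrb Q hQ), hzL _ Q' (hrx Q' (hS Q Q' hQ').1), hord]
  have hlc : ∏ Q ∈ b.support, lc k w Q (y : 𝓕) ^ (b Q) = algebraMap L Ω Λ := by
    rw [hΛ]
    have h1 : ∀ Q ∈ b.support, lc k w Q (y : 𝓕) ^ (b Q) = c ^ (b Q) * lc k w Q x ^ (b Q) := by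
      intro Q _
      rw [hyx, lc_smul hw Q hx hc0, mul_zpow]
    rw [Finset.prod_congr rfl h1, Finset.prod_mul_distrib]
    have h2 : ∏ Q ∈ b.support, c ^ (b Q) = 1 := by
      rw [prod_zpow_sum _ _ hc0, ← degree_eq, hb, zpow_zero]
    rw [h2, one_mul]
  have htot : (𝔽.R v).A.valuation (algebraMap L Ω (Λ * ∏ Q ∈ b.support, E Q ^ (b Q))) = 1 := by
    rw [map_mul, ← hlc, map_prod, ← Finset.prod_mul_distrib, map_prod]
    apply Finset.prod_eq_one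
    intro Q hQ
    rw [map_zpow₀, ← mul_zpow, hE Q hQ, map_zpow₀, ← mul_assoc, hval Q, one_zpow]
  -- nonvanishing
  have hkL0 : ∀ Q ∈ b.support, kL Q ≠ 0 := by
    intro Q hQ h0
    have := hkL Q (hrb Q hQ)
    rw [h0, map_zero] at this
    exact (𝔽.R v).kap_ne_zero hw (rfl : (𝔽.R v).rp Q = 𝔽.rp v Q) this.symm
  have hdL : ∀ Q ∈ b.support, ∀ Q' ∈ S Q, algebraMap L Ω (dL Q Q') =
      ev Q (bc F 𝓕 (zc k F (𝔽.rp v Q))) - ev Q' (bc F 𝓕 (zc k F (𝔽.rp v Q))) := by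
    intro Q hQ Q' hQ'
    rw [map_sub, hzL _ Q (hrb Q hQ), hzL _ Q' (hrx Q' (hS Q Q' hQ').1)]
  have hdL0 : ∀ Q ∈ b.support, ∀ Q' ∈ S Q, dL Q Q' ≠ 0 := by
    intro Q hQ Q' hQ' h0
    have := hdL Q hQ Q' hQ'
    rw [h0, map_zero] at this
    exact (𝔽.R v).sub_ne_zero' rfl (hS Q Q' hQ').2.1 (hS Q Q' hQ').2.2.symm this.symm
  have hE0 : ∀ Q ∈ b.support, E Q ≠ 0 := fun Q hQ =>
    mul_ne_zero (zpow_ne_zero _ (hkL0 Q hQ))
      (Finset.prod_ne_zero_iff.2 fun Q' hQ' => zpow_ne_zero _ (hdL0 Q hQ Q' hQ'))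
  have hΛ0 : Λ ≠ 0 := by
    rintro rfl
    rw [map_zero] at hΛ
    have := Finset.prod_ne_zero_iff.2 (fun Q (_ : Q ∈ b.support) =>
      zpow_ne_zero (b Q) (lc_ne_zero hw Q hx))
    exact this hΛ.symm
  have hP0 : ∏ Q ∈ b.support, E Q ^ (b Q) ≠ 0 :=
    Finset.prod_ne_zero_iff.2 fun Q hQ => zpow_ne_zero _ (hE0 Q hQ)
  have h1 := 𝔽.eq_zero_of_val (mul_ne_zero hΛ0 hP0) htot
  rw [v.ord_mul hΛ0 hP0, ord_prod _ _ (fun Q hQ => zpow_ne_zero _ (hE0 Q hQ))] at h1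
  have h2 : v.ord Λ = ∑ Q ∈ b.support, -(v.ord (E Q ^ (b Q))) := by
    rw [Finset.sum_neg_distrib]; omega
  rw [h2]
  refine Finset.sum_congr rfl fun Q hQ => ?_
  rw [v.ord_zpow, v.ord_mul (zpow_ne_zero _ (hkL0 Q hQ))
    (Finset.prod_ne_zero_iff.2 fun Q' hQ' => zpow_ne_zero _ (hdL0 Q hQ Q' hQ')), v.ord_zpow,
    ord_prod _ _ (fun Q' hQ' => zpow_ne_zero _ (hdL0 Q hQ Q' hQ'))]
  -- the right hand side
  have h3 : ∀ Q' ∈ (divisor Ω x).support, b Q * divisor Ω x Q' * 𝔽.Bv w v Q' Q =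
      if Q' ∈ S Q then b Q * (divisor Ω x Q' * v.ord (dL Q Q')) else
        (if Q' = Q then -(b Q * (divisor Ω x Q * v.ord (kL Q))) else 0) := by
    intro Q' hQ'
    by_cases h4 : Q' = Q
    · subst h4
      have h5 : Q' ∉ S Q' := fun h => (hS Q' Q' h).2.2 rfl
      rw [if_neg h5, if_pos rfl, 𝔽.Bv_self, ← hkL Q' (hrb Q' hQ), oL_map]
      ring
    · by_cases h5 : 𝔽.rp v Q' = 𝔽.rp v Q
      · have h6 : Q' ∈ S Q := Finset.mem_filter.2 ⟨hQ', h5, h4⟩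
        rw [if_pos h6, 𝔽.Bv_eq w v h4 h5, h5]
        have h7 : ev Q' (bc F 𝓕 (zc k F (𝔽.rp v Q))) - ev Q (bc F 𝓕 (zc k F (𝔽.rp v Q))) =
            algebraMap L Ω (-(dL Q Q')) := by
          rw [map_neg, hdL Q hQ Q' h6]; ring
        rw [h7, oL_map, ord_neg]
        ring
      · have h6 : Q' ∉ S Q := fun h => h5 (hS Q Q' h).2.1
        rw [if_neg h6, if_neg h4, 𝔽.Bv_ne w v h4 h5, mul_zero]
  rw [Finset.sum_congr rfl h3, Finset.sum_ite]
  have h4 : (divisor Ω x).support.filter (fun Q' => Q' ∈ S Q) = S Q := by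
    ext Q'
    rw [Finset.mem_filter]
    exact ⟨fun h => h.2, fun h => ⟨(hS Q Q' h).1, h⟩⟩
  rw [h4, ← Finset.mul_sum]
  have h5 : ∑ Q' ∈ (divisor Ω x).support.filter (fun Q' => Q' ∉ S Q),
      (if Q' = Q then -(b Q * (divisor Ω x Q * v.ord (kL Q))) else 0) =
      -(b Q * (divisor Ω x Q * v.ord (kL Q))) := by
    rw [Finset.sum_ite_eq']
    split_ifs with h6
    · rfl
    · have h7 : divisor Ω x Q = 0 := by
        by_contra h8
        apply h6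
        rw [Finset.mem_filter, Finsupp.mem_support_iff]
        exact ⟨h8, fun h => (hS Q Q h).2.2 rfl⟩
      rw [h7, zero_mul, mul_zero, neg_zero]
  rw [h5]
  have h6 : ∀ Q' ∈ S Q, v.ord (dL Q Q' ^ (-(divisor Ω x Q'))) = -(divisor Ω x Q' * v.ord (dL Q Q')) := by
    intro Q' _
    rw [v.ord_zpow]; ring
  rw [Finset.sum_congr rfl h6, Finset.sum_neg_distrib]
  ring

end Fam

end Fermat.Agent.MW
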