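import Fermat.Agent.MW.RamK

/-!
# Kummer theory at a finite level
-/

set_option autoImplicit false
set_option linter.unusedSectionVars false
set_option linter.style.haveILetI false

noncomputable section

namespace Fermat.Agent.MW

open NumberField Ideal IsDedekindDomain

section kummer

variable {F E : Type*} [Field F] [Field E] [Algebra F E] [FiniteDimensional F E]

/-- Lagrange resolvents -/
theorem exists_resolvent {p : ℕ} [NeZero p] {ζ : F} (hζ : ζ ^ p = 1)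
    (χ : Gal(E/F) → ZMod p) (hχ : ∀ σ τ, χ (σ * τ) = χ σ + χ τ) :
    ∃ b : E, b ≠ 0 ∧ ∀ σ : Gal(E/F), σ b = algebraMap F E (ζ ^ (χ σ).val) * b := by
  classical
  have hζ0 : ζ ≠ 0 := by
    rintro rfl
    rw [zero_pow (NeZero.ne p)] at hζ
    exact zero_ne_one hζ
  have hmod : ∀ m : ℕ, ζ ^ (m % p) = ζ ^ m := fun m => by
    conv_rhs => rw [← Nat.mod_add_div m p, pow_add, pow_mul, hζ, one_pow, mul_one]
  have hadd : ∀ x y : ZMod p, ζ ^ (x + y).val = ζ ^ x.val * ζ ^ y.val := fun x y => by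
    rw [ZMod.val_add, hmod, pow_add]
  let c : Gal(E/F) → E := fun τ => algebraMap F E (ζ ^ (χ τ).val)⁻¹
  have hc : ∀ τ, c τ ≠ 0 := fun τ => by
    simp only [c, ne_eq, map_eq_zero, inv_eq_zero]
    exact pow_ne_zero _ hζ0
  have hlin : LinearIndependent E (fun f : Gal(E/F) => (fun x => f x : E → E)) := by
    have h := linearIndependent_monoidHom E E
    have hinj : Function.Injective (fun f : Gal(E/F) => ((f : E →+* E) : E →* E)) := by
      intro f g hfg
      ext x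
      exact DFunLike.congr_fun hfg x
    exact h.comp _ hinj
  obtain ⟨x, hx⟩ : ∃ x : E, ∑ τ : Gal(E/F), c τ * τ x ≠ 0 := by
    by_contra hno
    push Not at hno
    have h := Fintype.linearIndependent_iff.1 hlin c (by
      funext x
      simp only [Finset.sum_apply, Pi.smul_apply, smul_eq_mul, Pi.zero_apply]
      exact hno x) 1
    exact hc 1 h
  refine ⟨_, hx, fun σ => ?_⟩
  rw [map_sum, Finset.mul_sum]
  rw [← Equiv.sum_comp (Equiv.mulLeft σ) (fun τ => algebraMap F E (ζ ^ (χ σ).val) * (c τ * τ x))]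
  refine Finset.sum_congr rfl fun τ _ => ?_
  simp only [Equiv.coe_mulLeft, c]
  rw [map_mul, AlgEquiv.commutes, ← mul_assoc, ← map_mul, hχ, hadd, mul_inv, ← mul_assoc,
    mul_inv_cancel₀ (pow_ne_zero _ hζ0), one_mul]
  rfl

theorem exists_pow_eq [IsGalois F E] {p : ℕ} [NeZero p] {ζ : F} (hζ : ζ ^ p = 1)
    (χ : Gal(E/F) → ZMod p) {b : E} (hb0 : b ≠ 0)
    (hb : ∀ σ : Gal(E/F), σ b = algebraMap F E (ζ ^ (χ σ).val) * b) :
    ∃ a : Fˣ, b ^ p = algebraMap F E a := by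
  have h1 : b ^ p ∈ Set.range (algebraMap F E) := by
    rw [IsGalois.mem_range_algebraMap_iff_fixed]
    intro σ
    rw [map_pow, hb, mul_pow, ← map_pow, ← pow_mul, mul_comm (χ σ).val, pow_mul, hζ, one_pow,
      map_one, one_mul]
  obtain ⟨a, ha⟩ := h1
  have ha0 : a ≠ 0 := by
    rintro rfl
    rw [map_zero] at ha
    exact pow_ne_zero p hb0 ha.symm
  exact ⟨Units.mk0 a ha0, ha.symm⟩

end kummer

variable {F E : Type*} [Field F] [NumberField F] [Field E] [NumberField E] [Algebra F E]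
  [IsGalois F E]

theorem kummer_finite_level {p : ℕ} [NeZero p] {ζ : F} (hζ : ζ ^ p = 1)
    {S : Set (HeightOneSpectrum (𝓞 F))} {T : Set Fˣ}
    (hT : ∀ x : Fˣ, (∀ v : HeightOneSpectrum (𝓞 F), v ∉ S → (p : ℤ) ∣ vz v x) →
      ∃ t ∈ T, ∃ c : Fˣ, x = t * c ^ p)
    (χ : Gal(E/F) → ZMod p) (hχ : ∀ σ τ, χ (σ * τ) = χ σ + χ τ)
    (hI : ∀ v : HeightOneSpectrum (𝓞 F), v ∉ S → ∃ P : Ideal (𝓞 E), P.IsPrime ∧
      P.LiesOver v.asIdeal ∧ ∀ σ : Gal(E/F), (∀ x : 𝓞 E, σ • x - x ∈ P) → χ σ = 0) :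
    ∃ t ∈ T, ∃ β : E, β ≠ 0 ∧ β ^ p = algebraMap F E t ∧
      ∀ σ : Gal(E/F), σ β = algebraMap F E (ζ ^ (χ σ).val) * β := by
  haveI : FiniteDimensional F E := by
    haveI : IsScalarTower ℚ F E := inferInstance
    exact Module.Finite.of_restrictScalars_finite ℚ F E
  obtain ⟨b, hb0, hb⟩ := exists_resolvent hζ χ hχ
  obtain ⟨a, ha⟩ := exists_pow_eq hζ χ hb0 hb
  obtain ⟨t, ht, c, hc⟩ := hT a (by
    intro v hv
    obtain ⟨P, hP, hPv, hPσ⟩ := hI v hv
    refine dvd_vz_of_inertia ha (NeZero.ne p) v P fun σ hσ => ?_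
    rw [hb, hPσ σ hσ, ZMod.val_zero, pow_zero, map_one, one_mul])
  have hc0 : algebraMap F E c ≠ 0 := by
    rw [Ne, map_eq_zero]; exact c.ne_zero
  refine ⟨t, ht, b / algebraMap F E c, div_ne_zero hb0 hc0, ?_, fun σ => ?_⟩
  · rw [div_pow, ha, hc, Units.val_mul, Units.val_pow_eq_pow_val, map_mul, map_pow,
      mul_div_assoc, div_self (pow_ne_zero _ hc0), mul_one]
  · rw [map_div₀, AlgEquiv.commutes, hb, mul_div_assoc]

end Fermat.Agent.MW
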