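import Fermat.Agent.MW.KumFin
import Fermat.Agent.Places.InertiaLift

/-!
# Characters unramified outside a finite set are controlled by a finite set
-/

set_option autoImplicit false
set_option linter.unusedSectionVars false
set_option linter.style.haveILetI false

noncomputable section

namespace Fermat.Agent.MW

open NumberField Ideal IsDedekindDomain

theorem numberField_of (E : Type*) [Field E] [CharZero E] [inst : Algebra ℚ E]
    [FiniteDimensional ℚ E] : NumberField E := by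
  obtain rfl : inst = DivisionRing.toRatAlgebra := Subsingleton.elim _ _
  exact ⟨⟩

attribute [-instance] DivisionRing.toRatAlgebra

variable {L : Type*} [Field L] [CharZero L] [Algebra ℚ L] [IsGalois ℚ L]

theorem exists_big (K₀ : IntermediateField ℚ L) [FiniteDimensional ℚ K₀] {B : Set L}
    (hB : B.Finite) : ∃ E : IntermediateField ℚ L, FiniteDimensional ℚ E ∧ Normal ℚ E ∧
      K₀ ≤ E ∧ B ⊆ E := by
  haveI : Finite B := hB
  haveI : FiniteDimensional ℚ (IntermediateField.adjoin ℚ B) :=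
    IntermediateField.finiteDimensional_adjoin fun x _ => Algebra.IsIntegral.isIntegral x
  haveI : FiniteDimensional ℚ (K₀ ⊔ IntermediateField.adjoin ℚ B : IntermediateField ℚ L) :=
    inferInstance
  refine ⟨IntermediateField.normalClosure ℚ
    (K₀ ⊔ IntermediateField.adjoin ℚ B : IntermediateField ℚ L) L, inferInstance, inferInstance,
    ?_, ?_⟩
  · exact le_sup_left.trans (IntermediateField.le_normalClosure _)
  · refine (IntermediateField.subset_adjoin ℚ B).trans (SetLike.coe_subset_coe.2 ?_)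
    exact le_sup_right.trans (IntermediateField.le_normalClosure _)

section

variable (K₀ E : IntermediateField ℚ L) (h : K₀ ≤ E)

/-- restriction of automorphisms -/
theorem exists_restrict [Normal ℚ E] :
    letI := (IntermediateField.inclusion h).toRingHom.toAlgebra
    ∀ σ ∈ K₀.fixingSubgroup, ∃ s : Gal(E/K₀), ∀ x : E, ((s x : E) : L) = σ (x : L) := by
  letI := (IntermediateField.inclusion h).toRingHom.toAlgebra
  intro σ hσ
  refine ⟨{ AlgEquiv.restrictNormal σ E with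
    commutes' := fun r => ?_ }, fun x => ?_⟩
  · apply Subtype.ext
    have h1 := AlgEquiv.restrictNormal_commutes σ E (algebraMap K₀ E r)
    refine h1.trans ?_
    exact hσ r
  · exact AlgEquiv.restrictNormal_commutes σ E x

end

/-- primes of `K₀` above `S` are finite in number -/
theorem finite_above {F : Type*} [Field F] [NumberField F] {S : Set ℕ} (hS : S.Finite)
    (hS0 : 0 ∉ S) :
    {v : HeightOneSpectrum (𝓞 F) | ∃ ℓ ∈ S, ((ℓ : ℕ) : 𝓞 F) ∈ v.asIdeal}.Finite := by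
  have h : {v : HeightOneSpectrum (𝓞 F) | ∃ ℓ ∈ S, ((ℓ : ℕ) : 𝓞 F) ∈ v.asIdeal} =
      ⋃ ℓ ∈ S, {v : HeightOneSpectrum (𝓞 F) | ((ℓ : ℕ) : 𝓞 F) ∈ v.asIdeal} := by
    ext v; simp
  rw [h]
  refine hS.biUnion fun ℓ hℓ => ?_
  have hℓ0 : ((ℓ : ℕ) : 𝓞 F) ≠ 0 := by
    rw [Nat.cast_ne_zero]
    rintro rfl
    exact hS0 hℓ
  have h2 : (Ideal.span {((ℓ : ℕ) : 𝓞 F)} : Ideal (𝓞 F)) ≠ 0 := by
    simpa using hℓ0
  refine (Ideal.finite_factors h2).subset fun v hv => ?_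
  rw [Set.mem_ofPred_eq, Ideal.dvd_span_singleton]
  exact hv

theorem kummer_finite (K₀ : IntermediateField ℚ L) [FiniteDimensional ℚ K₀] {p : ℕ} [NeZero p]
    {ζ : L} (hζ : IsPrimitiveRoot ζ p) (hζK : ζ ∈ K₀) {S : Set ℕ} (hS : S.Finite) (hS0 : 0 ∉ S) :
    ∃ T' : Set L, T'.Finite ∧ ∀ χ : (L ≃ₐ[ℚ] L) → ZMod p,
      (∀ σ ∈ K₀.fixingSubgroup, ∀ τ ∈ K₀.fixingSubgroup, χ (σ * τ) = χ σ + χ τ) →
      (∃ B : Set L, B.Finite ∧ ∀ σ ∈ K₀.fixingSubgroup, (∀ x ∈ B, σ x = x) → χ σ = 0) →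
      (∀ ℓ : ℕ, ℓ.Prime → ℓ ∉ S → ∀ A : ValuationSubring L, A.LiesOverPrime ℓ →
        ∀ σ ∈ A.inertiaSubgroupIn ℚ, σ ∈ K₀.fixingSubgroup → χ σ = 0) →
      ∀ σ ∈ K₀.fixingSubgroup, (∀ x ∈ T', σ x = x) → χ σ = 0 := by
  classical
  haveI : NumberField K₀ := numberField_of K₀
  have hp0 : p ≠ 0 := NeZero.ne p
  obtain ⟨T, hTfin, hT⟩ := exists_reps (𝓞 K₀) K₀ (n := p) hp0 (finite_above (F := K₀) hS hS0)
  have hrt : ∀ t : (K₀)ˣ, {x : L | x ^ p = ((t : K₀) : L)}.Finite := by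
    intro t
    have h0 : (Polynomial.X ^ p - Polynomial.C ((t : K₀) : L)) ≠ 0 :=
      Polynomial.X_pow_sub_C_ne_zero (Nat.pos_of_ne_zero hp0) _
    refine (Polynomial.rootSet_finite (Polynomial.X ^ p - Polynomial.C ((t : K₀) : L)) L).subset ?_
    intro x hx
    rw [Polynomial.mem_rootSet]
    refine ⟨h0, ?_⟩
    simp only [map_sub, map_pow, Polynomial.aeval_X, Polynomial.aeval_C, Algebra.algebraMap_self,
      RingHom.id_apply]
    rw [Set.mem_ofPred_eq] at hx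
    rw [hx, sub_self]
  refine ⟨⋃ t ∈ T, {x : L | x ^ p = ((t : K₀) : L)}, hTfin.biUnion fun t _ => hrt t, ?_⟩
  intro χ hχ ⟨B, hB, hBχ⟩ hI σ hσ hσT
  obtain ⟨E, hEfin, hEn, hKE, hBE⟩ := exists_big K₀ hB
  haveI : NumberField E := numberField_of E
  letI algE : Algebra K₀ E := (IntermediateField.inclusion hKE).toRingHom.toAlgebra
  haveI htow : @IsScalarTower ℚ K₀ E Algebra.toSMul Algebra.toSMul Algebra.toSMul :=
    IsScalarTower.of_algebraMap_eq' rfl
  haveI : IsGalois ℚ E := ⟨⟩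
  haveI : IsGalois K₀ E := IsGalois.tower_top_of_isGalois ℚ K₀ E
  -- lifts
  have hlift : ∀ s : Gal(E/K₀), ∃ τ : L ≃ₐ[ℚ] L, ∀ x : E, τ (x : L) = ((s x : E) : L) := by
    intro s
    obtain ⟨τ, hτ⟩ := AlgEquiv.restrictNormalHom_surjective (F := ℚ) (K₁ := E) L
      (s.restrictScalars ℚ)
    refine ⟨τ, fun x => ?_⟩
    have h1 := AlgEquiv.restrictNormal_commutes τ E x
    have h2 : AlgEquiv.restrictNormal τ E = s.restrictScalars ℚ := hτ
    rw [h2] at h1
    exact h1.symm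
  choose lift hl using hlift
  have hlK : ∀ s, lift s ∈ K₀.fixingSubgroup := by
    intro s x
    have h1 := hl s (algebraMap K₀ E x)
    rw [AlgEquiv.commutes] at h1
    exact h1
  have hmul : ∀ σ τ : L ≃ₐ[ℚ] L, σ ∈ K₀.fixingSubgroup → τ ∈ K₀.fixingSubgroup →
      (∀ x : E, σ (x : L) = τ (x : L)) → χ σ = χ τ := by
    intro σ τ hσ hτ h
    have h1 : χ (τ⁻¹ * σ) = 0 := by
      refine hBχ _ (mul_mem (inv_mem hτ) hσ) fun x hx => ?_
      have h2 := h ⟨x, hBE hx⟩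
      change τ⁻¹ (σ x) = x
      simp only at h2
      rw [h2]
      exact τ.symm_apply_apply x
    have h3 := hχ τ hτ (τ⁻¹ * σ) (mul_mem (inv_mem hτ) hσ)
    rw [mul_inv_cancel_left, h1, add_zero] at h3
    exact h3
  let χE : Gal(E/K₀) → ZMod p := fun s => χ (lift s)
  have hχE : ∀ s t, χE (s * t) = χE s + χE t := by
    intro s t
    simp only [χE]
    rw [← hχ _ (hlK s) _ (hlK t)]
    refine hmul _ _ (hlK _) (mul_mem (hlK s) (hlK t)) fun x => ?_
    rw [hl]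
    change _ = lift s (lift t (x : L))
    rw [hl, hl]
    rfl
  let ζ₀ : K₀ := ⟨ζ, hζK⟩
  have hζ₀ : ζ₀ ^ p = 1 := Subtype.ext (by simpa using hζ.pow_eq_one)
  obtain ⟨t, ht, β, hβ0, hβt, hβ⟩ := kummer_finite_level (F := K₀) (E := E) hζ₀ hT χE hχE (by
    intro v hv
    obtain ⟨P, hPmax, hPv⟩ := Ideal.exists_maximal_ideal_liesOver_of_isIntegral (S := 𝓞 E)
      v.asIdeal
    refine ⟨P, hPmax.isPrime, hPv, fun s hs => ?_⟩
    haveI := hPmax.isPrime
    have hP0 : P ≠ ⊥ := Ideal.ne_bot_of_liesOver_of_ne_bot v.ne_bot P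
    -- residue characteristic
    obtain ⟨ℓ, hℓp, hℓ⟩ : ∃ ℓ : ℕ, ℓ.Prime ∧ (ℓ : 𝓞 E) ∈ P := by
      haveI : Finite (𝓞 E ⧸ P) := Ring.HasFiniteQuotients.finiteQuotient hP0
      obtain ⟨ℓ, hℓ⟩ := CharP.exists (𝓞 E ⧸ P)
      refine ⟨ℓ, CharP.char_is_prime (𝓞 E ⧸ P) ℓ, ?_⟩
      rw [← Ideal.Quotient.eq_zero_iff_mem, map_natCast]
      exact CharP.cast_eq_zero _ _
    have hℓv : ((ℓ : ℕ) : 𝓞 K₀) ∈ v.asIdeal := by
      rw [hPv.over, Ideal.mem_comap, map_natCast]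
      exact hℓ
    have hℓS : ℓ ∉ S := fun h => hv ⟨ℓ, h, hℓv⟩
    obtain ⟨A, hA, τ, hτ, hτs⟩ := Places.exists_inertia_lift E P (s.restrictScalars ℚ) (fun x => hs x)
      hℓ
    have hτx : ∀ x : E, τ (x : L) = ((s x : E) : L) := by
      intro x
      have h1 := AlgEquiv.restrictNormal_commutes τ E x
      rw [hτs] at h1
      exact h1.symm
    have hτK : τ ∈ K₀.fixingSubgroup := by
      intro x
      have h1 := hτx (algebraMap K₀ E x)
      rw [AlgEquiv.commutes] at h1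
      exact h1
    have h1 := hI ℓ hℓp hℓS A hA τ hτ hτK
    rw [← h1]
    refine hmul _ _ (hlK s) hτK fun x => ?_
    rw [hl, hτx])
  obtain ⟨s, hs⟩ := exists_restrict K₀ E hKE σ hσ
  have h1 : χ σ = χE s := hmul _ _ hσ (hlK s) fun x => by rw [hl, hs]
  have h2 := hβ s
  have h3 : s β = β := by
    apply Subtype.ext
    rw [hs]
    apply hσT
    simp only [Set.mem_iUnion, Set.mem_ofPred_eq]
    refine ⟨t, ht, ?_⟩
    exact congrArg Subtype.val hβt
  rw [h3] at h2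
  have h4 : algebraMap K₀ E (ζ₀ ^ (χE s).val) = 1 := by
    have h5 : algebraMap K₀ E (ζ₀ ^ (χE s).val) * β = 1 * β := by rw [one_mul]; exact h2.symm
    exact mul_right_cancel₀ hβ0 h5
  have h5 : ζ ^ (χE s).val = 1 := by
    have h6 := congrArg (fun x : E => (x : L)) h4
    exact h6
  rw [h1]
  have h6 := hζ.dvd_of_pow_eq_one _ h5
  rw [← ZMod.val_eq_zero]
  exact Nat.eq_zero_of_dvd_of_lt h6 (ZMod.val_lt _)

end Fermat.Agent.MW
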