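import Fermat.Agent.MW.CRed

/-!
# The local formula for values of functions
-/

set_option autoImplicit false
set_option linter.unusedSectionVars false
set_option linter.style.haveILetI false

namespace Fermat.Agent.MW

open AlgebraicCurve Fermat.Agent.RR Fermat.Agent.Curve IntermediateField Module

variable {k Ω F 𝓕 : Type*} [Field k] [Field Ω] [Field F] [Field 𝓕]
  [Algebra k F] [Algebra Ω 𝓕] [Algebra k Ω] [Algebra F 𝓕]
  [IsAlgClosed k] [IsAlgClosed Ω] [FunField k F] [FunField Ω 𝓕] [hC : CExt k Ω F 𝓕]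

variable (𝓕) in
/-- the coordinate difference -/
noncomputable def hh (P : Place k F) (Q : Place Ω 𝓕) : 𝓕 :=
  bc F 𝓕 (zc k F P) - algebraMap Ω 𝓕 (ev Q (bc F 𝓕 (zc k F P)))

/-- the ratio between global and local uniformizers -/
noncomputable def kap (w : F) (P : Place k F) (Q : Place Ω 𝓕) : Ω :=
  ev Q (U (k := k) w Q * (hh 𝓕 P Q)⁻¹)

namespace CRed

variable (R : CRed k Ω F 𝓕)

theorem hh_spec {P : Place k F} {Q : Place Ω 𝓕} (hQ : R.rp Q = P) :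
    Q.ord (hh 𝓕 P Q) = 1 ∧ hh 𝓕 P Q ≠ 0 ∧
    (∃ h : hh 𝓕 P Q ∈ R.W, R.π ⟨_, h⟩ = zc k F P) ∧
    ∀ Q' : Place Ω 𝓕, R.rp Q' = P → Q' ≠ Q → Q'.ord (hh 𝓕 P Q) = 0 :=
  R.ord_coord (zc_ord P) hQ

theorem kap_ne_zero {w : F} (hw : Good k Ω 𝓕 w) {P : Place k F} {Q : Place Ω 𝓕}
    (hQ : R.rp Q = P) : kap w P Q ≠ 0 := by
  obtain ⟨h1, h2, -, -⟩ := R.hh_spec hQ
  apply ev_ne_zero (mul_ne_zero (U_ne hw Q) (inv_ne_zero h2))
  rw [Q.ord_mul (U_ne hw Q) (inv_ne_zero h2), Q.ord_inv, ord_U hw, h1]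
  norm_num

theorem ev_hh {P : Place k F} {Q Q' : Place Ω 𝓕} (hQ : R.rp Q = P) :
    ev Q (hh 𝓕 P Q') = ev Q (bc F 𝓕 (zc k F P)) - ev Q' (bc F 𝓕 (zc k F P)) := by
  rw [hh, ev_sub (R.reg_bc (Ge.of_le (by rw [zc_ord]; norm_num)) Q hQ) (Ge.algebraMap Q _),
    ev_algebraMap]

open Classical in
/-- **Local formula.** -/
theorem val_lc {w : F} (hw : Good k Ω 𝓕 w) (x : R.W) (hx : R.π x ≠ 0) {P : Place k F}
    {Q : Place Ω 𝓕} (hQ : R.rp Q = P) :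
    R.A.valuation (lc k w Q (x : 𝓕) * kap w P Q ^ (Q.ord (x : 𝓕)) *
      ∏ R' ∈ (divisor Ω (x : 𝓕)).support.filter (fun v => R.rp v = P ∧ v ≠ Q),
        (ev Q (bc F 𝓕 (zc k F P)) - ev R' (bc F 𝓕 (zc k F P))) ^ (-(R'.ord (x : 𝓕)))) = 1 := by
  set z := zc k F P with hz
  have hzord : P.ord z = 1 := zc_ord P
  have hz0 : z ≠ 0 := zc_ne P
  have hx0 := R.ne_zero_of_π hx
  let T := (divisor Ω (x : 𝓕)).support.filter (fun v => R.rp v = P)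
  let S := (divisor Ω (x : 𝓕)).support.filter (fun v => R.rp v = P ∧ v ≠ Q)
  let y : Place Ω 𝓕 → R.W := fun R' => if h : R.rp R' = P then
    ⟨(hh 𝓕 P R') ^ (-(R'.ord (x : 𝓕))), (R.zpow_mem ⟨_, (R.hh_spec h).2.2.1.choose⟩ (by
      rw [(R.hh_spec h).2.2.1.choose_spec]; exact hz0) _).choose⟩ else 1
  have hy : ∀ R', R.rp R' = P → ((y R' : R.W) : 𝓕) = (hh 𝓕 P R') ^ (-(R'.ord (x : 𝓕))) := by
    intro R' h
    simp only [y, dif_pos h]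
  have hyπ : ∀ R', R.π (y R') ≠ 0 := by
    intro R'
    by_cases h : R.rp R' = P
    · simp only [y, dif_pos h]
      rw [(R.zpow_mem ⟨_, (R.hh_spec h).2.2.1.choose⟩ (by
        rw [(R.hh_spec h).2.2.1.choose_spec]; exact hz0) _).choose_spec,
        (R.hh_spec h).2.2.1.choose_spec]
      exact zpow_ne_zero _ hz0
    · simp only [y, dif_neg h]
      rw [map_one]
      exact one_ne_zero
  let G : R.W := x * ∏ R' ∈ T, y R'
  have hGπ : R.π G ≠ 0 := by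
    rw [map_mul, map_prod]
    exact mul_ne_zero hx (Finset.prod_ne_zero_iff.2 fun R' _ => hyπ R')
  have hG0 := R.ne_zero_of_π hGπ
  have hTmem : ∀ R' ∈ T, R.rp R' = P := fun R' h => (Finset.mem_filter.1 h).2
  have hGe : (G : 𝓕) = (x : 𝓕) * ∏ R' ∈ T, (hh 𝓕 P R') ^ (-(R'.ord (x : 𝓕))) := by
    change ((x * ∏ R' ∈ T, y R' : R.W) : 𝓕) = _
    rw [Subring.coe_mul]
    congr 1
    have : ((∏ R' ∈ T, y R' : R.W) : 𝓕) = ∏ R' ∈ T, ((y R' : R.W) : 𝓕) := by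
      exact map_prod R.W.subtype _ _
    rw [this]
    exact Finset.prod_congr rfl fun R' h => hy R' (hTmem R' h)
  have hord : ∀ R'' : Place Ω 𝓕, R.rp R'' = P → R''.ord (G : 𝓕) = 0 := by
    intro R'' hR''
    have hne : ∀ R' ∈ T, (hh 𝓕 P R') ^ (-(R'.ord (x : 𝓕))) ≠ 0 := fun R' h =>
      zpow_ne_zero _ (R.hh_spec (hTmem R' h)).2.1
    rw [hGe, R''.ord_mul hx0 (Finset.prod_ne_zero_iff.2 hne), ord_prod _ _ hne]
    have h1 : ∀ R' ∈ T, R''.ord ((hh 𝓕 P R') ^ (-(R'.ord (x : 𝓕)))) =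
        if R' = R'' then -(R''.ord (x : 𝓕)) else 0 := by
      intro R' h
      rw [R''.ord_zpow]
      split_ifs with h2
      · subst h2
        rw [(R.hh_spec (hTmem R' h)).1, mul_one]
      · rw [(R.hh_spec (hTmem R' h)).2.2.2 R'' hR'' (fun h3 => h2 h3.symm), mul_zero]
    rw [Finset.sum_congr rfl h1, Finset.sum_ite_eq']
    split_ifs with h2
    · omega
    · have : R''.ord (x : 𝓕) = 0 := by
        by_contra h3
        apply h2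
        rw [Finset.mem_filter, Finsupp.mem_support_iff, divisor_apply]
        exact ⟨h3, hR''⟩
      omega
  have hreg : R.Reg P (G : 𝓕) := fun v hv => Ge.of_le (hord v hv).ge
  obtain ⟨hm, -⟩ := R.ev_mem G hreg hQ
  have hGinv : (G : 𝓕)⁻¹ ∈ R.W := R.inv_mem G hGπ
  have hreg' : R.Reg P (((⟨_, hGinv⟩ : R.W)) : 𝓕) := fun v hv => Ge.of_le (by
    change 0 ≤ v.ord (G : 𝓕)⁻¹
    rw [v.ord_inv, hord v hv]; norm_num)
  obtain ⟨hm', -⟩ := R.ev_mem ⟨_, hGinv⟩ hreg' hQ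
  change ev Q (G : 𝓕)⁻¹ ∈ R.A at hm'
  rw [ev_inv hG0 (hord Q hQ)] at hm'
  have hval := R.val_eq_one_of (ev_ne_zero hG0 (hord Q hQ)) hm hm'
  -- compute the value
  set n := Q.ord (x : 𝓕) with hn
  obtain ⟨hQ1, hQ0, -, hQ3⟩ := R.hh_spec hQ
  have hU0 := U_ne hw Q
  have hprod : ∏ R' ∈ T, (hh 𝓕 P R') ^ (-(R'.ord (x : 𝓕))) =
      (hh 𝓕 P Q) ^ (-n) * ∏ R' ∈ S, (hh 𝓕 P R') ^ (-(R'.ord (x : 𝓕))) := by
    have hS : S = T.erase Q := by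
      ext v
      simp only [S, T, Finset.mem_filter, Finset.mem_erase]
      tauto
    by_cases hQT : Q ∈ T
    · rw [hS]
      exact (Finset.mul_prod_erase T (fun R' => (hh 𝓕 P R') ^ (-(R'.ord (x : 𝓕)))) hQT).symm
    · rw [hS, Finset.erase_eq_of_notMem hQT]
      have : n = 0 := by
        by_contra h3
        apply hQT
        rw [Finset.mem_filter, Finsupp.mem_support_iff, divisor_apply]
        exact ⟨h3, hQ⟩
      rw [this, neg_zero, zpow_zero, one_mul]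
  have hG2 : (G : 𝓕) = ((x : 𝓕) * (U (k := k) w Q) ^ (-n)) *
      ((U (k := k) w Q * (hh 𝓕 P Q)⁻¹) ^ n) * ∏ R' ∈ S, (hh 𝓕 P R') ^ (-(R'.ord (x : 𝓕))) := by
    rw [hGe, hprod, mul_zpow, inv_zpow, zpow_neg, zpow_neg]
    field_simp
  have hord1 : Q.ord ((x : 𝓕) * (U (k := k) w Q) ^ (-n)) = 0 := by
    rw [ord_mul_U hw Q hx0]; omega
  have hUh0 : U (k := k) w Q * (hh 𝓕 P Q)⁻¹ ≠ 0 := mul_ne_zero hU0 (inv_ne_zero hQ0)
  have hUhord : Q.ord (U (k := k) w Q * (hh 𝓕 P Q)⁻¹) = 0 := by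
    rw [Q.ord_mul hU0 (inv_ne_zero hQ0), Q.ord_inv, ord_U hw, hQ1]; norm_num
  have hSmem : ∀ R' ∈ S, R.rp R' = P ∧ R' ≠ Q := fun R' h => (Finset.mem_filter.1 h).2
  have hS0 : ∀ R' ∈ S, Q.ord (hh 𝓕 P R') = 0 := fun R' h =>
    (R.hh_spec (hSmem R' h).1).2.2.2 Q hQ (hSmem R' h).2.symm
  have hSne : ∀ R' ∈ S, hh 𝓕 P R' ≠ 0 := fun R' h => (R.hh_spec (hSmem R' h).1).2.1
  have hSge : ∀ R' ∈ S, Ge Q 0 ((hh 𝓕 P R') ^ (-(R'.ord (x : 𝓕)))) := fun R' h =>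
    Ge.of_le (by rw [Q.ord_zpow, hS0 R' h, mul_zero])
  have hprodge : Ge Q 0 (∏ R' ∈ S, (hh 𝓕 P R') ^ (-(R'.ord (x : 𝓕)))) := Ge.of_le (by
    rw [ord_prod _ _ (fun R' h => zpow_ne_zero _ (hSne R' h))]
    refine Finset.sum_nonneg fun R' h => ?_
    rw [Q.ord_zpow, hS0 R' h, mul_zero])
  have hev : ev Q (G : 𝓕) = lc k w Q (x : 𝓕) * kap w P Q ^ n *
      ∏ R' ∈ S, (ev Q (bc F 𝓕 z) - ev R' (bc F 𝓕 z)) ^ (-(R'.ord (x : 𝓕))) := by
    rw [hG2, ev_mul _ hprodge, ev_mul (Ge.of_le hord1.ge), ev_zpow hUh0 hUhord, ev_prod _ _ hSge]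
    · congr 1
      refine Finset.prod_congr rfl fun R' h => ?_
      rw [ev_zpow (hSne R' h) (hS0 R' h), R.ev_hh hQ]
    · exact Ge.of_le (by rw [Q.ord_zpow, hUhord, mul_zero])
    · refine Ge.of_le ?_
      rw [Q.ord_mul (mul_ne_zero hx0 (zpow_ne_zero _ hU0)) (zpow_ne_zero _ hUh0), hord1,
        Q.ord_zpow, hUhord, mul_zero, add_zero]
  rw [hev] at hval
  exact hval

theorem sub_ne_zero' {P : Place k F} {Q Q' : Place Ω 𝓕} (hQ : R.rp Q = P)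
    (hQ' : R.rp Q' = P) (hne : Q ≠ Q') :
    ev Q (bc F 𝓕 (zc k F P)) - ev Q' (bc F 𝓕 (zc k F P)) ≠ 0 := by
  rw [← R.ev_hh hQ]
  obtain ⟨-, h2, -, h4⟩ := R.hh_spec hQ'
  exact ev_ne_zero h2 (h4 Q hQ hne)

end CRed

end Fermat.Agent.MW
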