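import Fermat.Agent.MW.FFExt
import Fermat.Agent.MW.AbsCRed

/-!
# Reduction of the constant modular curve
-/

set_option autoImplicit false
set_option linter.unusedSectionVars false
set_option linter.style.haveILetI false

noncomputable section

namespace Fermat.Agent.MW

open AlgebraicCurve ModularCurve Fermat.Agent.RR Fermat.Agent.Curve IntermediateField Module
open Fermat.Agent.ModPoly Fermat.Agent.Spec Fermat.Agent.Red Fermat.Agent.RedMod Fermat.Agent.Cusp

attribute [local instance] ffAlg ffCExt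

section

variable {k Ω : Type*} [Field k] [Field Ω] [Algebra k Ω] [IsAlgClosed k] [IsAlgClosed Ω]
  [CharZero k] [CharZero Ω] {N : ℕ} [NeZero N] [FunField k (FF k N)] [FunField Ω (FF Ω N)]

theorem genus_ff [Algebra ℚ k] [Algebra ℚ Ω] (ι : Ω →+* ℂ) :
    rrGenus k (FF k N) = rrGenus Ω (FF Ω N) := by
  have h1 := rrGenus_K (K := Ω) (N := N) ι
  have h2 := rrGenus_K (K := k) (N := N) (ι.comp (algebraMap k Ω))
  rw [← h1] at h2
  exact_mod_cast h2

/-- functions with constant coefficients have integral coefficients -/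
theorem rd_bc (A : ValuationSubring Ω) [Algebra A k]
    (hc : ∀ c : k, algebraMap k Ω c ∈ A)
    (hρ : ∀ c : k, algebraMap A k ⟨algebraMap k Ω c, hc c⟩ = c) (f : FF k N) :
    LevelRed.Rd A ((bc (FF k N) (FF Ω N) f : FF Ω N) : LaurentSeries Ω)
      ((f : FF k N) : LaurentSeries k) := by
  let s : k →+* A :=
    { toFun := fun c => ⟨algebraMap k Ω c, hc c⟩
      map_one' := Subtype.ext (map_one _)
      map_mul' := fun _ _ => Subtype.ext (map_mul _ _ _)
      map_zero' := Subtype.ext (map_zero _)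
      map_add' := fun _ _ => Subtype.ext (map_add _ _ _) }
  rw [rd_iff]
  refine ⟨coeffMap s (f : LaurentSeries k), 1, ?_, ?_, ?_⟩
  · rw [map_one]; exact one_ne_zero
  · rw [map_one, one_mul]
    change coeffMap (algebraMap k Ω) (f : LaurentSeries k) = coeffMap _ (coeffMap _ _)
    ext n
    simp only [coeffMap_coeff]
    rfl
  · rw [map_one, one_mul]
    change (f : LaurentSeries k) = coeffMap _ (coeffMap _ _)
    ext n
    simp only [coeffMap_coeff]
    exact (hρ _).symm

attribute [local instance] algI isScalarTower_algI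

/-- the reduction of constant modular curves -/
theorem exists_cred (ι : Ω →+* ℂ) (A : ValuationSubring Ω) [Algebra A k]
    (hc : ∀ c : k, algebraMap k Ω c ∈ A)
    (hρ : ∀ c : k, algebraMap A k ⟨algebraMap k Ω c, hc c⟩ = c)
    (hloc : ∀ a : A, algebraMap A k a = 0 ↔ ¬ IsUnit a) :
    ∃ R : CRed k Ω (FF k N) (FF Ω N), R.A = A := by
  have hk : Function.Surjective (algebraMap A k) := fun c => ⟨⟨_, hc c⟩, hρ c⟩
  have hN : (N : k) ≠ 0 := Nat.cast_ne_zero.2 (NeZero.ne N)
  letI : Algebra ℚ Ω := DivisionRing.toRatAlgebra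
  obtain ⟨S⟩ := nonempty_levelRed (A := A) (K := Ω) (k := k) ι hk hN (FF Ω N) rfl
  exact ⟨mkCRed A S.D (fun f => S.mem_of_rd (rd_bc A hc hρ f)) hc hρ hloc, rfl⟩

end

end Fermat.Agent.MW
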