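import Fermat.Agent.MW.Height2

/-!
# Northcott's theorem for algebraic numbers of bounded degree
-/

set_option autoImplicit false
set_option linter.unusedSectionVars false
set_option linter.unusedVariables false
set_option linter.style.haveILetI false

namespace Fermat.Agent.MW

open NumberField Module Height IntermediateField Polynomial

variable {C : Type*} [Field C] [CharZero C] [Algebra.IsAlgebraic ℚ C]

/-- the coefficients -/
noncomputable def cf (d : ℕ) (q : C[X]) : Fin (d + 1) → C := fun i => q.coeff i

theorem cf_ne_zero {d : ℕ} {q : C[X]} (hq : q.Monic) (hd : q.natDegree ≤ d) : cf d q ≠ 0 := by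
  intro h
  have h2 := congrFun h ⟨q.natDegree, by omega⟩
  simp only [cf, Pi.zero_apply] at h2
  rw [coeff_natDegree, hq.leadingCoeff] at h2
  exact one_ne_zero h2

theorem cf_mul {d : ℕ} {q : C[X]} (hq : q.Monic) (hd : q.natDegree ≤ d) (y : C) :
    hb (cf d ((X - Polynomial.C y) * q)) ≤ Real.log (2 * (d + 1)) + hb (cf d q) + h1 y := by
  classical
  have h2 := hb_mul (cf_ne_zero hq hd) (vec_ne y)
  have h3 : hb (cf d ((X - Polynomial.C y) * q)) ≤
      Real.log (Nat.card (Fin (d + 1) × Fin 2)) +
        hb (fun ij : Fin (d + 1) × Fin 2 => cf d q ij.1 * (![1, y] : Fin 2 → C) ij.2) := by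
    apply hb_comb'
    intro j
    refine ⟨fun ij => if (ij.2 = 0 ∧ (ij.1 : ℕ) + 1 = j) then 1 else
      if (ij.2 = 1 ∧ ij.1 = j) then -1 else 0, fun ij => ?_, ?_⟩
    · beta_reduce; split_ifs <;> simp
    · rw [← Finset.univ_product_univ, Finset.sum_product_right, Fin.sum_univ_two]
      have e1 : ∑ i : Fin (d + 1), (((if ((0 : Fin 2) = 0 ∧ (i : ℕ) + 1 = j) then 1 else
          if ((0 : Fin 2) = 1 ∧ i = j) then -1 else 0 : ℤ)) : C) *
          (cf d q i * (![1, y] : Fin 2 → C) 0) =
          if (j : ℕ) = 0 then 0 else q.coeff ((j : ℕ) - 1) := by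
        by_cases hj : (j : ℕ) = 0
        · rw [if_pos hj]
          apply Finset.sum_eq_zero
          intro i _
          rw [if_neg (by omega), if_neg (by simp)]
          simp
        · rw [if_neg hj, Finset.sum_eq_single ⟨(j : ℕ) - 1, by omega⟩]
          · rw [if_pos ⟨rfl, by simp only; omega⟩]
            simp [cf]
          · intro b _ hb'
            rw [if_neg, if_neg (by simp)]
            · simp
            · rintro ⟨-, h4⟩
              apply hb'
              apply Fin.ext
              simp only
              omega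
          · intro h; exact absurd (Finset.mem_univ _) h
      have e2 : ∑ i : Fin (d + 1), (((if ((1 : Fin 2) = 0 ∧ (i : ℕ) + 1 = j) then 1 else
          if ((1 : Fin 2) = 1 ∧ i = j) then -1 else 0 : ℤ)) : C) *
          (cf d q i * (![1, y] : Fin 2 → C) 1) = -(y * q.coeff j) := by
        rw [Finset.sum_eq_single j]
        · rw [if_neg (by simp), if_pos ⟨rfl, rfl⟩]
          simp only [cf, Matrix.cons_val_one, Matrix.cons_val_zero]
          push_cast
          ring
        · intro b _ hb'
          rw [if_neg (by simp), if_neg (by rintro ⟨-, h⟩; exact hb' h)]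
          simp
        · intro h; exact absurd (Finset.mem_univ _) h
      have e3 : cf d ((X - Polynomial.C y) * q) j =
          (if (j : ℕ) = 0 then 0 else q.coeff ((j : ℕ) - 1)) - y * q.coeff j := by
        simp only [cf]
        rw [sub_mul, coeff_sub, coeff_C_mul]
        congr 1
        rcases Nat.eq_zero_or_pos (j : ℕ) with hj | hj
        · rw [if_pos hj, hj, mul_coeff_zero, coeff_X_zero, zero_mul]
        · rw [if_neg (by omega)]
          obtain ⟨m, hm⟩ : ∃ m, (j : ℕ) = m + 1 := ⟨j - 1, by omega⟩
          rw [hm, coeff_X_mul]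
          rfl
      rw [e3]
      refine Eq.trans ?_ (congrArg₂ (· + ·) e1 e2).symm
      ring
  rw [h2] at h3
  have hcard : (Nat.card (Fin (d + 1) × Fin 2) : ℝ) = 2 * (d + 1) := by
    rw [Nat.card_prod, Nat.card_fin, Nat.card_fin]
    push_cast
    ring
  rw [hcard] at h3
  have : h1 y = hb ![1, y] := rfl
  linarith

theorem cf_prod (d : ℕ) {B : ℝ} (s : Multiset C) (hs : s.card ≤ d) (hB : ∀ y ∈ s, h1 y ≤ B) :
    hb (cf d (s.map (fun y => X - Polynomial.C y)).prod) ≤
      s.card * (Real.log (2 * (d + 1)) + B) := by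
  classical
  induction s using Multiset.induction_on with
  | empty =>
    rw [Multiset.map_zero, Multiset.prod_zero, Multiset.card_zero, Nat.cast_zero, zero_mul]
    have h2 : cf d (1 : C[X]) = fun i : Fin (d + 1) =>
        (((if (i : ℕ) = 0 then 1 else 0 : ℤ)) : C) := by
      funext i
      simp only [cf]
      rw [coeff_one]
      split_ifs <;> simp
    rw [h2]
    have h3 := hb_int_le (C := C) (fun i : Fin (d + 1) => (if (i : ℕ) = 0 then 1 else 0 : ℤ))
      (M := 1) le_rfl (fun i => by split_ifs <;> simp)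
    rwa [Nat.cast_one, Real.log_one] at h3
  | cons y s ih =>
    rw [Multiset.card_cons] at hs
    rw [Multiset.map_cons, Multiset.prod_cons, Multiset.card_cons]
    have h2 := ih (by omega) (fun z hz => hB z (Multiset.mem_cons_of_mem hz))
    have h3 : ((s.map (fun y => X - Polynomial.C y)).prod).Monic :=
      monic_multisetProd_X_sub_C s
    have h4 : ((s.map (fun y => X - Polynomial.C y)).prod).natDegree ≤ d := by
      rw [natDegree_multiset_prod_X_sub_C_eq_card]
      omega
    have h5 := cf_mul h3 h4 y
    have h6 := hB y (Multiset.mem_cons_self y s)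
    push_cast
    linarith

theorem finite_poly {S : Set ℚ} (hS : S.Finite) (d : ℕ) :
    {f : ℚ[X] | f.natDegree ≤ d ∧ ∀ i ≤ d, f.coeff i ∈ S}.Finite := by
  have h2 : ({f : ℚ[X] | f.natDegree ≤ d ∧ ∀ i ≤ d, f.coeff i ∈ S}).InjOn
      (fun f (i : Fin (d + 1)) => f.coeff i) := by
    rintro f ⟨hf, -⟩ g ⟨hg, -⟩ h
    ext i
    by_cases hi : i ≤ d
    · exact congrFun h ⟨i, by omega⟩
    · rw [coeff_eq_zero_of_natDegree_lt (by omega), coeff_eq_zero_of_natDegree_lt (by omega)]
  refine Set.Finite.of_finite_image ?_ h2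
  refine (Set.Finite.pi' (t := fun _ : Fin (d + 1) => S) (fun _ => hS)).subset ?_
  rintro _ ⟨f, ⟨-, hf⟩, rfl⟩ i
  exact hf i (by omega)

/-- **Northcott's theorem.** -/
theorem northcott [IsAlgClosed C] (d : ℕ) (B : ℝ) :
    {x : C | (minpoly ℚ x).natDegree ≤ d ∧ h1 x ≤ B}.Finite := by
  classical
  have hlog : 0 ≤ Real.log (2 * ((d : ℝ) + 1)) := by
    apply Real.log_nonneg
    have : (0 : ℝ) ≤ d := Nat.cast_nonneg d
    linarith
  set B' : ℝ := d * (Real.log (2 * (d + 1)) + |B|) with hB'
  have hS := NumberField.finite_setOfPred_logHeight₁_le (K := ℚ) B'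
  have hfin := finite_poly hS d
  have hfin2 : (⋃ f ∈ {f : ℚ[X] | f.natDegree ≤ d ∧ ∀ i ≤ d,
      f.coeff i ∈ {x : ℚ | logHeight₁ x ≤ B'}}, (f.rootSet C)).Finite :=
    Set.Finite.biUnion hfin fun f _ => Polynomial.rootSet_finite f C
  refine hfin2.subset ?_
  rintro x ⟨hdeg, hx⟩
  have hint : IsIntegral ℚ x := (Algebra.IsAlgebraic.isAlgebraic x).isIntegral
  set f := minpoly ℚ x with hf
  have hmonic : f.Monic := minpoly.monic hint
  rw [Set.mem_iUnion₂]
  refine ⟨f, ⟨hdeg, ?_⟩, ?_⟩
  · intro i hi
    rw [Set.mem_ofPred_eq]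
    -- the roots
    have hsplit : (f.map (algebraMap ℚ C)).Splits := IsAlgClosed.splits _
    have hprod : f.map (algebraMap ℚ C) =
        ((f.map (algebraMap ℚ C)).roots.map (fun y => X - Polynomial.C y)).prod :=
      hsplit.eq_prod_roots_of_monic (hmonic.map _)
    have hroot : ∀ y ∈ (f.map (algebraMap ℚ C)).roots, h1 y ≤ |B| := by
      intro y hy
      have hy' : aeval y f = 0 := by
        rw [mem_roots (hmonic.map _).ne_zero, IsRoot.def, eval_map_algebraMap] at hy
        exact hy
      haveI : Normal ℚ C := ⟨fun z => IsAlgClosed.splits _⟩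
      obtain ⟨σ, hσ⟩ := minpoly.exists_algEquiv_of_root' (K := ℚ) (L := C)
        (Algebra.IsAlgebraic.isAlgebraic x) hy'
      have h2 : h1 y = h1 x := by
        have h3 := hb_map (C := C) (σ : C →+* C) ![1, x]
        have h4 : (fun i => (σ : C →+* C) ((![1, x] : Fin 2 → C) i)) = ![1, y] := by
          funext i
          fin_cases i
          · simp
          · simpa using hσ
        rw [h4] at h3
        exact h3
      rw [h2]
      exact hx.trans (le_abs_self B)
    have hcard : (f.map (algebraMap ℚ C)).roots.card ≤ d := by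
      refine (card_roots' _).trans ?_
      rw [natDegree_map]
      exact hdeg
    have h2 := cf_prod d _ hcard hroot
    rw [← hprod] at h2
    have h3 : cf d (f.map (algebraMap ℚ C)) =
        fun i => (algebraMap ℚ C) ((fun j : Fin (d + 1) => f.coeff j) i) := by
      funext i
      simp only [cf]
      rw [coeff_map]
    rw [h3, hb_eq, finrank_self, Nat.cast_one, div_one] at h2
    have h4 : logHeight₁ (f.coeff i) ≤ logHeight (fun j : Fin (d + 1) => f.coeff j) := by
      rw [logHeight₁_eq_logHeight]
      have h5 := logHeight_comp_le (K := ℚ) (fun j : Fin 2 =>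
        if j = 0 then (⟨i, by omega⟩ : Fin (d + 1)) else ⟨f.natDegree, by omega⟩)
        (fun j : Fin (d + 1) => f.coeff j)
      refine le_of_eq_of_le ?_ h5
      congr 1
      funext j
      fin_cases j
      · simp
      · simp [hmonic.leadingCoeff]
    refine h4.trans (h2.trans ?_)
    rw [hB']
    apply mul_le_mul_of_nonneg_right
    · exact_mod_cast hcard
    · have := abs_nonneg B
      linarith
  · rw [mem_rootSet]
    exact ⟨hmonic.ne_zero, minpoly.aeval ℚ x⟩

end Fermat.Agent.MW
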