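import Fermat.Agent.MW.Smooth
import Fermat.Agent.MW.Northcott

/-!
# Finiteness of rational classes of bounded height
-/

set_option autoImplicit false
set_option linter.unusedSectionVars false
set_option linter.style.haveILetI false

noncomputable section

namespace Fermat.Agent.MW

open AlgebraicCurve Fermat.Agent.RR Fermat.Agent.Curve IntermediateField Module ModularCurve
open Fermat.Agent.ModPoly Fermat.Agent.Spec Fermat.Agent.Cusp Polynomial

attribute [local instance] funField_ff

theorem finite_range_of_factors {X Y Z : Type*} (π : X → Y) (g : X → Z)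
    (hπ : (Set.range π).Finite) (h : ∀ σ τ, π σ = π τ → g σ = g τ) : (Set.range g).Finite := by
  classical
  rcases isEmpty_or_nonempty X with hX | hX
  · rw [Set.range_eq_empty]; exact Set.finite_empty
  · obtain ⟨x₀⟩ := hX
    refine (hπ.image (Function.extend π g (fun _ => g x₀))).subset ?_
    rintro _ ⟨x, rfl⟩
    refine ⟨π x, ⟨x, rfl⟩, ?_⟩
    exact Function.FactorsThrough.extend_apply (fun a b hab => h a b hab) _ x

section

variable {K : Type*} [Field K] [IsAlgClosed K] [CharZero K] [Algebra.IsAlgebraic ℚ K]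

theorem finite_conj (b : K) : (Set.range fun σ : K ≃+* K => σ b).Finite := by
  have h0 : minpoly ℚ b ≠ 0 := minpoly.ne_zero (Algebra.IsIntegral.isIntegral b)
  refine (Polynomial.rootSet_finite (minpoly ℚ b) K).subset ?_
  rintro _ ⟨σ, rfl⟩
  rw [Polynomial.mem_rootSet]
  refine ⟨h0, ?_⟩
  have h1 := (σ : K →+* K).toRatAlgHom
  have h2 : Polynomial.aeval ((σ : K →+* K).toRatAlgHom b) (minpoly ℚ b) = 0 := by
    rw [Polynomial.aeval_algHom_apply, minpoly.aeval, map_zero]
  exact h2

theorem natDegree_minpoly_le (α : K) (s : Finset K) (h : ∀ σ : K ≃+* K, σ α ∈ s) :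
    (minpoly ℚ α).natDegree ≤ s.card := by
  classical
  haveI : IsAlgClosure ℚ K := ⟨inferInstance, inferInstance⟩
  haveI : Normal ℚ K := inferInstance
  have hint : IsIntegral ℚ α := Algebra.IsIntegral.isIntegral α
  have h0 : minpoly ℚ α ≠ 0 := minpoly.ne_zero hint
  have hsep : (minpoly ℚ α).Separable := (minpoly.irreducible hint).separable
  have h1 : Fintype.card ((minpoly ℚ α).rootSet K) = (minpoly ℚ α).natDegree :=
    Polynomial.card_rootSet_eq_natDegree hsep (IsAlgClosed.splits _)
  rw [← h1, ← Set.toFinset_card]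
  apply Finset.card_le_card
  intro β hβ
  rw [Set.mem_toFinset, Polynomial.mem_rootSet] at hβ
  have h2 : IsConjRoot ℚ α β := (isConjRoot_iff_aeval_eq_zero hint).2 hβ.2
  obtain ⟨σ, hσ⟩ := isConjRoot_iff_exists_algEquiv.1 h2.symm
  rw [← hσ]
  exact h σ.toRingEquiv

variable {N : ℕ} [NeZero N]

theorem finite_orbit_fun (w : FF K N) : (Set.range fun σ : K ≃+* K => coeffAut N σ • w).Finite := by
  obtain ⟨B, hB, h⟩ := smooth_fun w
  haveI : Finite B := hB
  refine finite_range_of_factors (fun (σ : K ≃+* K) (b : B) => σ (b : K)) _ ?_ ?_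
  · refine (Set.Finite.pi' fun b : B => finite_conj (b : K)).subset ?_
    rintro _ ⟨σ, rfl⟩ b
    exact ⟨σ, rfl⟩
  · intro σ τ hst
    have h1 := h (τ⁻¹ * σ) fun b hb => by
      have h2 : σ b = τ b := congrFun hst ⟨b, hb⟩
      change τ.symm (σ b) = b
      rw [h2, RingEquiv.symm_apply_apply]
    have h3 : coeffAut N (τ⁻¹ * σ) = (coeffAut N τ)⁻¹ * coeffAut N σ := rfl
    rw [h3, mul_smul, inv_smul_eq_iff] at h1
    exact h1

theorem finite_bounded {ι : Type*} (S : Set ι) (hS : S.Finite) (g : ℤ) :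
    {D : ι →₀ ℤ | (∀ i, 0 ≤ D i ∧ D i ≤ g) ∧ ∀ i, D i ≠ 0 → i ∈ S}.Finite := by
  classical
  haveI : Finite S := hS
  refine Set.Finite.of_finite_image (f := fun D : ι →₀ ℤ => fun i : S => D i) ?_ ?_
  · refine (Set.Finite.pi' fun _ : S => Set.finite_Icc (0 : ℤ) g).subset ?_
    rintro _ ⟨D, hD, rfl⟩ i
    exact hD.1 i
  · intro D hD E hE hDE
    ext i
    by_cases hi : i ∈ S
    · exact congrFun hDE ⟨i, hi⟩
    · have h1 : D i = 0 := by
        by_contra h
        exact hi (hD.2 i h)
      have h2 : E i = 0 := by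
        by_contra h
        exact hi (hE.2 i h)
      rw [h1, h2]

/-- **Northcott** for classes -/
theorem finite_rational {w : FF K N} (hwt : Transcendental K w) {P₁ : Place K (FF K N)}
    (hP₁ : ∀ σ : K ≃+* K, coeffAut N σ • P₁ = P₁) (M : ℝ) :
    {x : Pic0 K (FF K N) | (∀ σ : K ≃+* K, coeffAut N σ • x = x) ∧
      hD w (minD P₁ x) ≤ M}.Finite := by
  classical
  set g := rrGenus K (FF K N) with hg
  obtain ⟨W, hW⟩ : ∃ W : Finset (FF K N), ∀ σ : K ≃+* K, coeffAut N σ • w ∈ W :=
    ⟨(finite_orbit_fun w).toFinset, fun σ => by simp⟩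
  set d := g * W.card with hd
  have hA := northcott (C := K) d M
  have hP : (⋃ t ∈ {x : K | (minpoly ℚ x).natDegree ≤ d ∧ h1 x ≤ M},
      {P : Place K (FF K N) | ev P w = t}).Finite := hA.biUnion fun t _ => finite_fiber' hwt t
  have hDfin := finite_bounded _ hP g
  refine Set.Finite.of_finite_image (f := minD P₁) (hDfin.subset ?_) (minD_injective P₁).injOn
  rintro _ ⟨x, ⟨hx, hxM⟩, rfl⟩
  have hD0 : 0 ≤ minD P₁ x := (isMin_minD P₁ x).nonneg
  have hdeg : Divisor.degree (minD P₁ x) ≤ g := degree_minD_le P₁ x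
  have hDσ : ∀ σ : K ≃+* K, coeffAut N σ • minD P₁ x = minD P₁ x := fun σ => by
    rw [← minD_smul P₁ (hP₁ σ), hx σ]
  have hdegsum : Divisor.degree (minD P₁ x) = ∑ P ∈ (minD P₁ x).support, minD P₁ x P := by
    conv_lhs => rw [← Finsupp.sum_single (minD P₁ x)]
    rw [Finsupp.sum, map_sum]
    exact Finset.sum_congr rfl fun P _ => degree_single' _ _
  have hle : ∀ P, minD P₁ x P ≤ g := by
    intro P
    by_cases hP0 : minD P₁ x P = 0
    · rw [hP0]; positivity
    · refine le_trans ?_ hdeg
      rw [hdegsum]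
      exact Finset.single_le_sum (f := fun P => minD P₁ x P) (fun Q _ => hD0 Q)
        (Finsupp.mem_support_iff.2 hP0)
  have hcard : (minD P₁ x).support.card ≤ g := by
    have h1 : ((minD P₁ x).support.card : ℤ) ≤ Divisor.degree (minD P₁ x) := by
      rw [hdegsum, Finset.card_eq_sum_ones, Nat.cast_sum]
      refine Finset.sum_le_sum fun P hP => ?_
      have h2 := hD0 P
      have h3 := Finsupp.mem_support_iff.1 hP
      have h4 : (0 : ℤ) ≤ minD P₁ x P := h2
      push_cast
      omega
    exact_mod_cast h1.trans hdeg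
  refine ⟨fun P => ⟨hD0 P, hle P⟩, fun P hPne => ?_⟩
  simp only [Set.mem_iUnion, Set.mem_ofPred_eq, exists_prop]
  refine ⟨ev P w, ⟨?_, ?_⟩, rfl⟩
  · refine (natDegree_minpoly_le (ev P w)
      (((minD P₁ x).support ×ˢ W).image fun q => ev q.1 q.2) fun σ => ?_).trans ?_
    · rw [Finset.mem_image]
      refine ⟨(coeffAut N σ • P, coeffAut N σ • w), ?_, ?_⟩
      · rw [Finset.mem_product]
        refine ⟨?_, hW σ⟩
        rw [Finsupp.mem_support_iff]
        change minD P₁ x (coeffAut N σ • P) ≠ 0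
        rw [← hDσ σ, SemilinearAut.divisor_smul_apply_smul]
        exact hPne
      · exact ev_smul _ _ _
    · refine Finset.card_image_le.trans ?_
      rw [Finset.card_product]
      exact Nat.mul_le_mul_right _ hcard
  · refine le_trans ?_ hxM
    have h1 : Finsupp.single P 1 ≤ minD P₁ x := by
      intro Q
      by_cases hQ : Q = P
      · subst hQ
        rw [Finsupp.single_eq_same]
        have h2 : (0 : ℤ) ≤ minD P₁ x Q := hD0 Q
        omega
      · rw [Finsupp.single_eq_of_ne hQ]
        exact hD0 Q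
    have h2 := hD_mono w h1
    rw [hD_single, Int.cast_one, one_mul] at h2
    exact h2

end

end Fermat.Agent.MW
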