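import Mathlib.GroupTheory.CosetCover
import Fermat.Agent.RR.Riemann

/-!
# Base points and the base point free pencil trick
-/

set_option autoImplicit false
set_option linter.style.haveILetI false
set_option linter.unusedSectionVars false

namespace Fermat.Agent.MW

open AlgebraicCurve Fermat.Agent.Curve Fermat.Agent.RR Polynomial IntermediateField

variable {K F : Type*} [Field K] [IsAlgClosed K] [Field F] [Algebra K F]

/-- The subspace `U` is contained in `L(D)` and generates `O(D)` everywhere. -/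
def IsBase (U : Submodule K F) (D : Divisor K F) : Prop :=
  U ≤ riemannRochSpace D ∧ ∀ v : Place K F, ∃ s ∈ U, s ≠ 0 ∧ v.ord s = -D v

theorem ge_of_mem {U : Submodule K F} {D : Divisor K F} (h : U ≤ riemannRochSpace D) {s : F}
    (hs : s ∈ U) (v : Place K F) : Ge v (-D v) s := mem_L.1 (h hs) v

theorem IsBase.unique {U : Submodule K F} {D E : Divisor K F} (h : IsBase U D) (h' : IsBase U E) :
    D = E := by
  ext v
  obtain ⟨s, hs, hs0, hsv⟩ := h.2 v
  obtain ⟨s', hs', hs0', hsv'⟩ := h'.2 v
  have h1 := (ge_of_mem h'.1 hs v).le_ord hs0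
  have h2 := (ge_of_mem h.1 hs' v).le_ord hs0'
  omega

theorem IsBase.le {U : Submodule K F} {D E : Divisor K F} (h : IsBase U D)
    (h' : U ≤ riemannRochSpace E) : D ≤ E := by
  intro v
  obtain ⟨s, hs, hs0, hsv⟩ := h.2 v
  have h1 := (ge_of_mem h' hs v).le_ord hs0
  omega

theorem IsBase.mono {U V : Submodule K F} {D : Divisor K F} (h : IsBase U D) (hUV : U ≤ V)
    (hV : V ≤ riemannRochSpace D) : IsBase V D :=
  ⟨hV, fun v => (h.2 v).imp fun _ hs => ⟨hUV hs.1, hs.2⟩⟩

variable [hF : FunField K F]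

theorem exists_isBase {U : Submodule K F} {D₀ : Divisor K F} (hU : U ≤ riemannRochSpace D₀)
    (hU0 : U ≠ ⊥) : ∃ D : Divisor K F, IsBase U D ∧ D ≤ D₀ := by
  classical
  obtain ⟨s₀, hs₀, hs₀0⟩ := (Submodule.ne_bot_iff _).1 hU0
  have key : ∀ v : Place K F, ∃ n : ℤ, (∃ s ∈ U, s ≠ 0 ∧ v.ord s = n) ∧
      ∀ s ∈ U, s ≠ 0 → n ≤ v.ord s := by
    intro v
    obtain ⟨n, ⟨s, hs, hs0, hsn⟩, hn⟩ := Int.exists_least_of_bdd
      (P := fun n => ∃ s ∈ U, s ≠ 0 ∧ v.ord s = n)
      ⟨-D₀ v, by
        rintro n ⟨s, hs, hs0, rfl⟩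
        exact (ge_of_mem hU hs v).le_ord hs0⟩
      ⟨_, s₀, hs₀, hs₀0, rfl⟩
    exact ⟨n, ⟨s, hs, hs0, hsn⟩, fun s hs hs0 => hn _ ⟨s, hs, hs0, rfl⟩⟩
  choose n hn1 hn2 using key
  have hle : ∀ v, -n v ≤ D₀ v := by
    intro v
    obtain ⟨s, hs, hs0, hsn⟩ := hn1 v
    have := (ge_of_mem hU hs v).le_ord hs0
    omega
  have hge : ∀ v, -v.ord s₀ ≤ -n v := by
    intro v
    have := hn2 v s₀ hs₀ hs₀0
    omega
  let D : Divisor K F := Finsupp.onFinset (D₀.support ∪ (divisor K s₀).support)
    (fun v => -n v) (by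
      intro v hv
      rw [Finset.mem_union, Finsupp.mem_support_iff, Finsupp.mem_support_iff, divisor_apply]
      by_contra hcon
      push Not at hcon
      have h1 := hle v
      have h2 := hge v
      rw [hcon.1] at h1
      rw [hcon.2] at h2
      omega)
  have hD : ∀ v, D v = -n v := fun v => rfl
  refine ⟨D, ⟨?_, ?_⟩, fun v => (hD v).le.trans (hle v)⟩
  · intro s hs
    rw [mem_L]
    intro v
    by_cases hs0 : s = 0
    · exact Or.inl hs0
    · right
      rw [hD, neg_neg]
      exact hn2 v s hs hs0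
  · intro v
    obtain ⟨s, hs, hs0, hsn⟩ := hn1 v
    exact ⟨s, hs, hs0, by rw [hD, neg_neg, hsn]⟩

variable (K F) in
/-- The threshold for Riemann's theorem. -/
noncomputable def rc : ℤ := max 0 (exists_riemann (K := K) (F := F)).choose

theorem rc_nonneg : 0 ≤ rc K F := le_max_left _ _

theorem ell_eq_of_le {D : Divisor K F} (h : rc K F ≤ Divisor.degree D) :
    (ell D : ℤ) = Divisor.degree D + 1 - rrGenus K F :=
  (exists_riemann (K := K) (F := F)).choose_spec D ((le_max_right _ _).trans h)

/-- `O(D)` is generated by its global sections when `deg D` is large. -/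
theorem isBase_L {D : Divisor K F} (h : rc K F + 1 ≤ Divisor.degree D) :
    IsBase (riemannRochSpace D) D := by
  refine ⟨le_rfl, fun v => ?_⟩
  by_contra hcon
  push Not at hcon
  have h1 : riemannRochSpace D ≤ riemannRochSpace (D - Finsupp.single v 1) := by
    intro s hs
    rw [mem_L] at hs ⊢
    intro w
    by_cases hs0 : s = 0
    · exact Or.inl hs0
    right
    have h2 := (hs w).le_ord hs0
    by_cases hw : w = v
    · subst hw
      have h3 := hcon s (mem_L.2 hs) hs0
      rw [Finsupp.sub_apply, Finsupp.single_eq_same]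
      omega
    · rw [Finsupp.sub_apply, Finsupp.single_eq_of_ne hw]
      omega
  have h2 : ell D ≤ ell (D - Finsupp.single v 1) := Submodule.finrank_mono h1
  have h3 : Divisor.degree (D - Finsupp.single v 1) = Divisor.degree D - 1 := by
    rw [map_sub, degree_single']
  have h4 := ell_eq_of_le (D := D) (by linarith)
  have h5 := ell_eq_of_le (D := D - Finsupp.single v 1) (by rw [h3]; linarith)
  rw [h3] at h5
  omega

/-- Two sections without common zeros. -/
theorem exists_pair {U : Submodule K F} {D : Divisor K F} (h : IsBase U D) :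
    ∃ s₁ ∈ U, ∃ s₂ ∈ U, s₁ ≠ 0 ∧ s₂ ≠ 0 ∧
      ∀ v : Place K F, v.ord s₁ = -D v ∨ v.ord s₂ = -D v := by
  classical
  haveI : Infinite K := IsAlgClosed.instInfinite
  obtain ⟨t, ht, _⟩ := hF.out
  obtain ⟨v₀, -⟩ := exists_pole ht
  obtain ⟨s₁, hs₁, hs₁0, -⟩ := h.2 v₀
  -- the places where `s₁` vanishes
  let S : Finset (Place K F) := D.support ∪ (divisor K s₁).support
  let p : Place K F → Submodule K U := fun v =>
    { carrier := {s | Ge v (-D v + 1) (s : F)}
      add_mem' := fun ha hb => ha.add hb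
      zero_mem' := Ge.zero _ _
      smul_mem' := fun c x hx => by
        change Ge v (-D v + 1) ((c • x : U) : F)
        exact Ge.smul c hx }
  have hp : ∀ v, p v ≠ ⊤ := by
    intro v htop
    obtain ⟨s, hs, hs0, hsv⟩ := h.2 v
    have h1 : (⟨s, hs⟩ : U) ∈ p v := htop ▸ Submodule.mem_top
    have h2 : Ge v (-D v + 1) s := h1
    have := h2.le_ord hs0
    omega
  have hne := Subspace.biUnion_ne_univ_of_top_notMem (k := K) (E := U) (s := S.image p) (by
    intro hmem
    rw [Finset.mem_image] at hmem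
    obtain ⟨v, -, hv⟩ := hmem
    exact hp v hv)
  have hne' : ∃ s₂ : U, ∀ v ∈ S, s₂ ∉ p v := by
    by_contra hcon
    push Not at hcon
    apply hne
    rw [Set.eq_univ_iff_forall]
    intro s
    obtain ⟨v, hv, hs⟩ := hcon s
    rw [Set.mem_iUnion₂]
    exact ⟨p v, Finset.mem_image_of_mem p hv, hs⟩
  obtain ⟨s₂, hs₂⟩ := hne'
  by_cases h20 : (s₂ : F) = 0
  · -- then `S` is empty, and `s₁` works twice
    have hSe : S = ∅ := by
      rw [Finset.eq_empty_iff_forall_notMem]
      intro v hv
      apply hs₂ v hv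
      change Ge v (-D v + 1) (s₂ : F)
      rw [h20]
      exact Ge.zero _ _
    refine ⟨s₁, hs₁, s₁, hs₁, hs₁0, hs₁0, fun v => Or.inl ?_⟩
    have hv : v ∉ S := by rw [hSe]; exact Finset.notMem_empty v
    rw [Finset.mem_union, not_or, Finsupp.notMem_support_iff, Finsupp.notMem_support_iff,
      divisor_apply] at hv
    rw [hv.1, hv.2]; rfl
  refine ⟨s₁, hs₁, s₂, s₂.2, hs₁0, h20, fun v => ?_⟩
  by_cases hv : v ∈ S
  · right
    have h1 : ¬ Ge v (-D v + 1) (s₂ : F) := hs₂ v hv
    have h2 := (ge_of_mem h.1 s₂.2 v).le_ord h20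
    by_contra hcon
    exact h1 (Ge.of_le (by omega))
  · left
    rw [Finset.mem_union, not_or, Finsupp.notMem_support_iff, Finsupp.notMem_support_iff,
      divisor_apply] at hv
    rw [hv.1, hv.2]; rfl

theorem IsBase.degree_nonneg {U : Submodule K F} {D : Divisor K F} (h : IsBase U D) :
    0 ≤ Divisor.degree D := by
  obtain ⟨s₁, hs₁, -, -, hs₁0, -⟩ := exists_pair h
  by_contra hcon
  push Not at hcon
  have h1 := h.1 hs₁
  rw [L_eq_bot hcon, Submodule.mem_bot] at h1
  exact hs₁0 h1

/-- **Base point free pencil trick**: if `U` generates `O(D)` then `U · L(E) = L(D + E)` as soon as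
`deg E` is large compared with `deg D`. -/
theorem mul_L {U : Submodule K F} {D E : Divisor K F} (h : IsBase U D)
    (hE : rc K F + Divisor.degree D ≤ Divisor.degree E) :
    U * riemannRochSpace E = riemannRochSpace (D + E) := by
  classical
  have hD0 := h.degree_nonneg
  have hrc := rc_nonneg (K := K) (F := F)
  apply le_antisymm
  · rw [Submodule.mul_le]
    intro s hs u hu
    exact L_mul_mem (h.1 hs) hu
  obtain ⟨s₁, hs₁, s₂, hs₂, hs₁0, hs₂0, hmin⟩ := exists_pair h
  let φ : (riemannRochSpace E × riemannRochSpace E) →ₗ[K] F :=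
    ((LinearMap.mulLeft K s₁).comp (riemannRochSpace E).subtype).coprod
      ((LinearMap.mulLeft K s₂).comp (riemannRochSpace E).subtype)
  have hφ : ∀ x, φ x = s₁ * (x.1 : F) + s₂ * (x.2 : F) := fun x => rfl
  have hle : LinearMap.range φ ≤ U * riemannRochSpace E := by
    rintro _ ⟨x, rfl⟩
    rw [hφ]
    exact add_mem (Submodule.mul_mem_mul hs₁ x.1.2) (Submodule.mul_mem_mul hs₂ x.2.2)
  refine le_trans ?_ hle
  have hle2 : LinearMap.range φ ≤ riemannRochSpace (D + E) := by
    rintro _ ⟨x, rfl⟩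
    rw [hφ]
    exact add_mem (L_mul_mem (h.1 hs₁) x.1.2) (L_mul_mem (h.1 hs₂) x.2.2)
  -- the kernel
  have hker : Module.finrank K (LinearMap.ker φ) ≤ ell (E - D) := by
    let ψ : riemannRochSpace (E - D) →ₗ[K] F := (LinearMap.mulLeft K s₂).comp (Submodule.subtype _)
    let χ : LinearMap.ker φ →ₗ[K] F :=
      (riemannRochSpace E).subtype ∘ₗ (LinearMap.fst K _ _) ∘ₗ (LinearMap.ker φ).subtype
    have hχ : Function.Injective χ := by
      rw [injective_iff_map_eq_zero]
      intro x hx
      have h1 : ((x.1).1 : F) = 0 := hx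
      have h2 : φ x.1 = 0 := x.2
      rw [hφ, h1, mul_zero, zero_add] at h2
      have h3 : ((x.1).2 : F) = 0 := (mul_eq_zero.1 h2).resolve_left hs₂0
      apply Subtype.ext
      apply Prod.ext
      · exact Subtype.ext h1
      · exact Subtype.ext h3
    have hrange : LinearMap.range χ ≤ LinearMap.range ψ := by
      rintro _ ⟨x, rfl⟩
      have h2 : φ x.1 = 0 := x.2
      rw [hφ] at h2
      let a : F := (x.1).1
      let b : F := (x.1).2
      have ha : a ∈ riemannRochSpace E := (x.1).1.2
      have hb : b ∈ riemannRochSpace E := (x.1).2.2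
      have hab : s₁ * a = s₂ * (-b) := by
        have : s₁ * a + s₂ * b = 0 := h2
        linear_combination this
      refine ⟨⟨s₂⁻¹ * a, ?_⟩, ?_⟩
      · rw [mem_L]
        intro v
        by_cases ha0 : a = 0
        · left; rw [ha0, mul_zero]
        right
        have hb0 : b ≠ 0 := by
          intro hb0
          rw [hb0, neg_zero, mul_zero] at hab
          exact (mul_ne_zero hs₁0 ha0) hab
        rw [v.ord_mul (inv_ne_zero hs₂0) ha0, v.ord_inv, Finsupp.sub_apply]
        have h3 := (mem_L.1 ha v).le_ord ha0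
        have h4 := (mem_L.1 hb v).le_ord hb0
        have h5 := congrArg v.ord hab
        rw [v.ord_mul hs₁0 ha0, v.ord_mul hs₂0 (neg_ne_zero.2 hb0)] at h5
        have h6 : v.ord (-b) = v.ord b := ord_neg v b
        rw [h6] at h5
        rcases hmin v with h7 | h7 <;> omega
      · change s₂ * (s₂⁻¹ * a) = a
        rw [mul_inv_cancel_left₀ hs₂0]
    calc Module.finrank K (LinearMap.ker φ) = Module.finrank K (LinearMap.range χ) :=
          (LinearMap.finrank_range_of_inj hχ).symm
      _ ≤ Module.finrank K (LinearMap.range ψ) := Submodule.finrank_mono hrange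
      _ ≤ ell (E - D) := LinearMap.finrank_range_le ψ
  have hrn := LinearMap.finrank_range_add_finrank_ker φ
  rw [Module.finrank_prod] at hrn
  have h1 := ell_eq_of_le (D := E) (by linarith)
  have h2 : Divisor.degree (E - D) = Divisor.degree E - Divisor.degree D := map_sub _ _ _
  have h3 := ell_eq_of_le (D := E - D) (by rw [h2]; linarith)
  have h4 : Divisor.degree (D + E) = Divisor.degree D + Divisor.degree E := map_add _ _ _
  have h5 := ell_eq_of_le (D := D + E) (by rw [h4]; linarith)
  rw [h2] at h3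
  rw [h4] at h5
  have h6 : ell (D + E) ≤ Module.finrank K (LinearMap.range φ) := by
    have h7 : Module.finrank K (riemannRochSpace E) = ell E := rfl
    rw [h7] at hrn
    have h8 : (Module.finrank K (LinearMap.range φ) : ℤ) + Module.finrank K (LinearMap.ker φ) =
        ell E + ell E := by exact_mod_cast hrn
    have h9 : (Module.finrank K (LinearMap.ker φ) : ℤ) ≤ ell (E - D) := by exact_mod_cast hker
    have h10 : (ell (D + E) : ℤ) ≤ Module.finrank K (LinearMap.range φ) := by linarith
    exact_mod_cast h10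
  exact (Submodule.eq_of_le_of_finrank_le hle2 h6).ge

end Fermat.Agent.MW
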