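import Fermat.Agent.MW.GalGen
import Fermat.Agent.MW.DivC
import Fermat.Agent.MW.Cheap

/-!
# Heights of division points
-/

set_option autoImplicit false
set_option linter.unusedSectionVars false
set_option linter.style.haveILetI false

noncomputable section

namespace Fermat.Agent.MW

open AlgebraicCurve Fermat.Agent.RR Fermat.Agent.Curve IntermediateField Module

section HD

variable {k F : Type*} [Field k] [IsAlgClosed k] [CharZero k] [Algebra.IsAlgebraic ℚ k]
  [Field F] [Algebra k F] [FunField k F]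

/-- the height of a divisor -/
def hD (w : F) : Divisor k F →+ ℝ :=
  Finsupp.liftAddHom fun Q => (AddMonoidHom.mulRight (h1 (ev Q w))).comp (Int.castAddHom ℝ)

theorem hD_single (w : F) (Q : Place k F) (n : ℤ) :
    hD w (Finsupp.single Q n) = n * h1 (ev Q w) := by
  rw [hD, Finsupp.liftAddHom_apply_single]
  rfl

theorem hD_apply (w : F) (D : Divisor k F) :
    hD w D = ∑ Q ∈ D.support, D Q * h1 (ev Q w) := by
  rw [hD, Finsupp.liftAddHom_apply]
  rfl

theorem hD_mapDomain {P : Type*} (w : F) (rp : P → Place k F) (D : P →₀ ℤ) :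
    hD w (Finsupp.mapDomain rp D) = ∑ Q ∈ D.support, D Q * h1 (ev (rp Q) w) := by
  rw [Finsupp.mapDomain, Finsupp.sum, map_sum]
  exact Finset.sum_congr rfl fun Q _ => hD_single w _ _

theorem hD_nonneg (w : F) {D : Divisor k F} (h : 0 ≤ D) : 0 ≤ hD w D := by
  rw [hD_apply]
  refine Finset.sum_nonneg fun Q _ => mul_nonneg ?_ (h1_nonneg _)
  exact_mod_cast h Q

theorem hD_mono (w : F) {D E : Divisor k F} (h : D ≤ E) : hD w D ≤ hD w E := by
  have := hD_nonneg w (sub_nonneg.2 h)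
  rw [map_sub] at this
  linarith

end HD

variable {k Ω F 𝓕 : Type*} [Field k] [Field Ω] [Field F] [Field 𝓕]
  [Algebra k F] [Algebra Ω 𝓕] [Algebra k Ω] [Algebra F 𝓕]
  [IsAlgClosed k] [IsAlgClosed Ω] [FunField k F] [FunField Ω 𝓕] [hC : CExt k Ω F 𝓕]

theorem h1_zero {C : Type*} [Field C] [CharZero C] [Algebra.IsAlgebraic ℚ C] : h1 (0 : C) = 0 := by
  have : (![1, 0] : Fin 2 → C) = Pi.single 0 1 := by
    funext i
    fin_cases i <;> simp
  rw [h1, this]
  exact hb_single _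

theorem CRed.mapDomain_nonneg (R : CRed k Ω F 𝓕) {D : Divisor Ω 𝓕} (h : 0 ≤ D) :
    0 ≤ (Finsupp.mapDomain R.rp D : Divisor k F) := by
  classical
  intro P
  rw [R.mapDomain_apply']
  exact Finset.sum_nonneg fun v _ => h v

theorem CRed.degree_mapDomain (R : CRed k Ω F 𝓕) (D : Divisor Ω 𝓕) :
    Divisor.degree (Finsupp.mapDomain R.rp D : Divisor k F) = Divisor.degree D := by
  have : (Divisor.degree (K := k) (F := F)).comp
      (Finsupp.mapDomain.addMonoidHom R.rp : Divisor Ω 𝓕 →+ Divisor k F) =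
      Divisor.degree (K := Ω) (F := 𝓕) := by
    refine Finsupp.addHom_ext' fun v => AddMonoidHom.ext_int ?_
    change Divisor.degree (Finsupp.mapDomain R.rp (Finsupp.single v 1)) =
      Divisor.degree (Finsupp.single v 1)
    rw [Finsupp.mapDomain_single, degree_single', degree_single']
  exact DFunLike.congr_fun this D

/-- reduction is compatible with classes -/
theorem CRed.cl_mapDomain (R : CRed k Ω F 𝓕) {P₁ : Place k F} {D : Divisor Ω 𝓕}
    (h : cl (bcP Ω 𝓕 P₁) D = 0) : cl P₁ (Finsupp.mapDomain R.rp D) = 0 := by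
  rw [cl_eq_zero] at h ⊢
  obtain ⟨x, hx, hxd⟩ := Spec.isPrincipal_iff.1 h
  obtain ⟨f, hf, hfd⟩ := R.map_principal hx
  rw [← hxd] at hfd
  have h2 := map_sub (Finsupp.mapDomain.addMonoidHom (M := ℤ) R.rp) D
    (Finsupp.single (bcP Ω 𝓕 P₁) (Divisor.degree D))
  simp only [Finsupp.mapDomain.addMonoidHom_apply] at h2
  rw [Finsupp.mapDomain_single, R.rp_bcP] at h2
  rw [R.degree_mapDomain]
  exact Spec.isPrincipal_iff.2 ⟨f, hf, by rw [← hfd]; exact h2.symm⟩

/-- Adding constant points. -/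
theorem exists_add_const {E₀ : Divisor Ω 𝓕} (h1 : ell E₀ = 1) (n : ℕ)
    (hn : Divisor.degree E₀ + n ≤ rrGenus Ω 𝓕) :
    ∃ B₀ : Divisor k F, 0 ≤ B₀ ∧ Divisor.degree B₀ = n ∧ ell (E₀ + bcD Ω 𝓕 B₀) = 1 := by
  classical
  induction n with
  | zero => exact ⟨0, le_rfl, by simp, by rw [map_zero, add_zero, h1]⟩
  | succ n ih =>
    push_cast at hn
    obtain ⟨B₀, hB, hBd, hell⟩ := ih (by omega)
    have hfin := finite_bad hell (by rw [map_add, degree_bcD, hBd]; omega)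
    obtain ⟨P, hP⟩ := exists_place_avoid (K := k) (F := F)
      (hfin.toFinset.preimage (bcP Ω 𝓕) (bcP_injective.injOn))
    rw [Finset.mem_preimage, Set.Finite.mem_toFinset] at hP
    refine ⟨B₀ + Finsupp.single P 1, add_nonneg hB (Spec.single_le_of_nonneg P), ?_, ?_⟩
    · rw [map_add, hBd, degree_single']; push_cast; ring
    · rw [map_add, ← add_assoc, bcD_single]
      by_contra h
      exact hP h

theorem pt_est [CharZero k] [CharZero Ω] [Algebra.IsAlgebraic ℚ k]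
    (hg : rrGenus k F = rrGenus Ω 𝓕) {w : F} (hwt : Transcendental k w)
    {P₁ : Place k F} {a : ℕ} (ha : 1 ≤ a) (hwp : poleDiv k w = Finsupp.single P₁ (a : ℤ))
    {Kw : Divisor k F} (hK : IsDw w Kw) (hKd : Divisor.degree Kw = 2 * (rrGenus k F : ℤ) - 2)
    {t : Ω} (ht : Transcendental k t) (halg : ∀ x : Ω, IsIntegral k⟮t⟯ x)
    (hFam : ∀ (L : IntermediateField k Ω), FunField k L → Nonempty (Fam k Ω F 𝓕 L))
    {m : ℕ} (hdiv : ∀ x : Pic0 Ω 𝓕, ∃ y, m • y = x) :
    ∃ (B : Divisor k F) (C : ℝ), Divisor.degree B = rrGenus k F ∧ ∀ P : Place k F,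
      ∃ D : Divisor k F, 0 ≤ D ∧ Divisor.degree D = rrGenus k F ∧
        m • cl P₁ (D - B) = cl P₁ (Finsupp.single P 1) ∧
        (m : ℝ) ^ 2 * hD w D ≤ rrGenus k F * (rrGenus k F + 1) * h1 (ev P w) + C := by
  classical
  set g := rrGenus k F with hgdef
  -- the generic point
  obtain ⟨η, hηt⟩ : ∃ η : Place Ω 𝓕, ev η (bc F 𝓕 w) = t := by
    have h2 : Transcendental Ω (bc F 𝓕 w - algebraMap Ω 𝓕 t) :=
      transcendental_sub (bc_transcendental hwt) t
    obtain ⟨v, hv⟩ := exists_zero' h2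
    exact ⟨v, ev_unique (Ge.of_le (by omega))⟩
  have hη : Gen k F η := by
    rw [gen_iff hwt]
    intro c hc
    apply ht
    rw [← hηt, ← hc]
    exact isAlgebraic_algebraMap _
  -- the division point
  set P₀ := bcP Ω 𝓕 P₁ with hP₀
  obtain ⟨y, hy⟩ := hdiv (cl P₀ (Finsupp.single η 1))
  set E₀ := minD P₀ y with hE₀
  have hmin := isMin_minD P₀ y
  rw [← hE₀] at hmin
  have hE₀d := degree_minD_le P₀ y
  rw [← hE₀, ← hg] at hE₀d
  have hE₀d0 := degree_nonneg hmin.nonneg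
  obtain ⟨B₀, hB₀, hB₀d, hell⟩ := exists_add_const (k := k) (F := F) hmin.ell_eq
    ((g : ℤ) - Divisor.degree E₀).toNat (by rw [Int.toNat_of_nonneg (by omega), ← hg]; omega)
  rw [Int.toNat_of_nonneg (by omega)] at hB₀d
  set E := E₀ + bcD Ω 𝓕 B₀ with hE
  have hE0 : 0 ≤ E := add_nonneg hmin.nonneg (bcD_nonneg hB₀)
  have hEd : Divisor.degree E = g := by rw [hE, map_add, degree_bcD, hB₀d]; ring
  set Bd : Divisor k F := B₀ + Finsupp.single P₁ (Divisor.degree E₀) with hBd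
  have hBdd : Divisor.degree Bd = g := by rw [hBd, map_add, hB₀d, degree_single']; ring
  have hclE : m • cl P₀ (E - bcD Ω 𝓕 Bd) = cl P₀ (Finsupp.single η 1) := by
    rw [← hy]
    congr 1
    have h1 : E - bcD Ω 𝓕 Bd = E₀ - Finsupp.single P₀ (Divisor.degree E₀) := by
      rw [hE, hBd, map_add, bcD_single, ← hP₀]; abel
    rw [h1, map_sub, cl_minD, cl_single_self, sub_zero]
  have hclz : cl P₀ (m • (E - bcD Ω 𝓕 Bd) - Finsupp.single η 1) = 0 := by
    rw [map_sub, map_nsmul, hclE, sub_self]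
  have hrel : ((m : ℤ) • (E - bcD Ω 𝓕 Bd) -
      (Finsupp.single η 1 - Finsupp.single P₀ 1)).IsPrincipal := by
    rw [cl_eq_zero, map_sub, map_nsmul, map_sub, degree_bcD, hEd, hBdd, sub_self, smul_zero,
      degree_single', zero_sub, Finsupp.single_neg, sub_neg_eq_add] at hclz
    rw [natCast_zsmul, ← sub_add]
    exact hclz
  obtain ⟨x₀, hx₀, hx₀d⟩ := Spec.isPrincipal_iff.1 hrel
  -- the field `M`
  choose SQ hSQ1 hSQ2 using fun Q : Place Ω 𝓕 => exists_rat_set (k := k) (F := F) Q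
  obtain ⟨M, hM, hSM⟩ := exists_funField ht halg (SQ η ∪ ⋃ Q ∈ E.support, SQ Q)
    ((hSQ1 η).union (E.support.finite_toSet.biUnion fun Q _ => hSQ1 Q))
  obtain ⟨𝔽⟩ := hFam M hM
  have hrη : Rat F M η := hSQ2 η M (fun z hz => hSM (Or.inl hz))
  have hrQ : ∀ Q, E Q ≠ 0 → Rat F M Q := fun Q hQ => hSQ2 Q M (fun z hz => hSM (Or.inr (by
    simp only [Set.mem_iUnion]
    exact ⟨Q, Finsupp.mem_support_iff.2 hQ, hz⟩)))
  have hgood : Good k Ω 𝓕 w := good_of_transcendental hg hwt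
  have hadeg : Divisor.degree (poleDiv k w) = a := by rw [hwp, degree_single']
  -- the height comparison
  have hcomp : ∀ Q, E Q ≠ 0 → ∃ c : ℝ, 0 ≤ c ∧ ∀ v : Place k M, (𝔽.R v).rp η ≠ P₁ →
      (m : ℝ) ^ 2 * h1 (ev ((𝔽.R v).rp Q) w) ≤ (g + 1) * h1 (ev ((𝔽.R v).rp η) w) + c := by
    intro Q hQ
    by_cases hQg : Gen k F Q
    · have hG6 := G6 hg hgood hK hKd ht halg hFam hE0 hEd hell hBdd hx₀ hx₀d hη hQg hQ M
        (hrQ Q hQ) hrη
      have hlt : ((m ^ 2 : ℕ) : ℤ) * Divisor.degree (poleDiv k (phi hQg (hrQ Q hQ) w)) <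
          ((g + 1 : ℕ) : ℤ) * Divisor.degree (poleDiv k (phi hη hrη w)) := by
        rw [degree_poleDiv_map _ hwt, degree_poleDiv_map _ hwt, hadeg, ← mul_assoc, ← mul_assoc]
        have hpos : 0 < dg (phi hη hrη) := dg_pos _
        have ha' : (0 : ℤ) < a := by exact_mod_cast ha
        refine mul_lt_mul_of_pos_right ?_ ha'
        push_cast
        have : (0 : ℤ) < dg (phi hη hrη) := by exact_mod_cast hpos
        nlinarith
      obtain ⟨c, hc⟩ := height_compare (map_transcendental (phi hQg (hrQ Q hQ)) hwt)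
        (map_transcendental (phi hη hrη) hwt) hlt
      refine ⟨max c 0, le_max_right _ _, fun v hv => ?_⟩
      have hv' : rs (phi hη hrη) v ≠ P₁ := by rw [𝔽.rs_phi]; exact hv
      have hreg : ∀ P : Place k F, P ≠ P₁ → Ge P 0 w := by
        intro P hP
        have h5 := DFunLike.congr_fun hwp P
        rw [poleDiv_apply, Finsupp.single_eq_of_ne hP] at h5
        have := le_max_left (-P.ord w) 0
        exact Ge.of_le (by omega)
      have hbreg := hreg _ hv'
      have hb1 : Ge v 0 (phi hη hrη w) := Ge.of_le ((le_zero_iff _ v w).2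
        (hbreg.le_ord (by rintro rfl; exact hwt isAlgebraic_zero)))
      have hev1 : ev v (phi hη hrη w) = ev ((𝔽.R v).rp η) w := by
        rw [ev_map _ v hbreg, 𝔽.rs_phi]
      have hnn : (0 : ℝ) ≤ (g + 1) * h1 (ev ((𝔽.R v).rp η) w) :=
        mul_nonneg (by positivity) (h1_nonneg _)
      by_cases hQP : (𝔽.R v).rp Q = P₁
      · have h5 : ev P₁ w = 0 := by
          apply Fam.ev_pole
          have h5 := DFunLike.congr_fun hwp P₁
          rw [poleDiv_apply, Finsupp.single_eq_same] at h5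
          have ha' : (0 : ℤ) < a := by exact_mod_cast ha
          omega
        have h6 : h1 (0 : k) = 0 := h1_zero
        rw [hQP, h5, h6, mul_zero]
        exact add_nonneg hnn (le_max_right _ _)
      · have hQ' : rs (phi hQg (hrQ Q hQ)) v ≠ P₁ := by rw [𝔽.rs_phi]; exact hQP
        have hareg := hreg _ hQ'
        have ha1 : Ge v 0 (phi hQg (hrQ Q hQ) w) := Ge.of_le ((le_zero_iff _ v w).2
          (hareg.le_ord (by rintro rfl; exact hwt isAlgebraic_zero)))
        have hev2 : ev v (phi hQg (hrQ Q hQ) w) = ev ((𝔽.R v).rp Q) w := by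
          rw [ev_map _ v hareg, 𝔽.rs_phi]
        have h7 := hc v ha1 hb1
        rw [hev1, hev2] at h7
        push_cast at h7
        have := le_max_left c 0
        linarith
    · rw [Gen] at hQg
      push Not at hQg
      obtain ⟨P', rfl⟩ := hQg
      refine ⟨(m : ℝ) ^ 2 * h1 (ev P' w), mul_nonneg (by positivity) (h1_nonneg _), fun v _ => ?_⟩
      rw [(𝔽.R v).rp_bcP]
      have : (0 : ℝ) ≤ (g + 1) * h1 (ev ((𝔽.R v).rp η) w) :=
        mul_nonneg (by positivity) (h1_nonneg _)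
      linarith
  choose! c hc0 hc using hcomp
  -- specialisation
  have hspec : ∀ v : Place k M, 0 ≤ (Finsupp.mapDomain (𝔽.R v).rp E : Divisor k F) ∧
      Divisor.degree (Finsupp.mapDomain (𝔽.R v).rp E : Divisor k F) = g ∧
      m • cl P₁ (Finsupp.mapDomain (𝔽.R v).rp E - Bd) =
        cl P₁ (Finsupp.single ((𝔽.R v).rp η) 1) := by
    intro v
    refine ⟨(𝔽.R v).mapDomain_nonneg hE0, by rw [(𝔽.R v).degree_mapDomain, hEd], ?_⟩
    have h1 := (𝔽.R v).cl_mapDomain hclz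
    have h2 : (Finsupp.mapDomain (𝔽.R v).rp (m • (E - bcD Ω 𝓕 Bd) - Finsupp.single η 1) :
        Divisor k F) = m • (Finsupp.mapDomain (𝔽.R v).rp E - Bd) -
          Finsupp.single ((𝔽.R v).rp η) 1 := by
      have h3 := map_sub (Finsupp.mapDomain.addMonoidHom (M := ℤ) (𝔽.R v).rp)
        (m • (E - bcD Ω 𝓕 Bd)) (Finsupp.single η 1)
      have h4 := map_sub (Finsupp.mapDomain.addMonoidHom (M := ℤ) (𝔽.R v).rp) E (bcD Ω 𝓕 Bd)
      have h5 := map_nsmul (Finsupp.mapDomain.addMonoidHom (M := ℤ) (𝔽.R v).rp) m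
        (E - bcD Ω 𝓕 Bd)
      simp only [Finsupp.mapDomain.addMonoidHom_apply] at h3 h4 h5
      rw [h3, h5, h4, (𝔽.R v).mapDomain_bcD, Finsupp.mapDomain_single]
    rw [h2, map_sub, map_nsmul, sub_eq_zero] at h1
    exact h1
  obtain ⟨v₁, hv₁⟩ := exists_above (phi hη hrη) P₁
  rw [𝔽.rs_phi] at hv₁
  have hsum : (∑ Q ∈ E.support, ((E Q : ℤ) : ℝ)) = g := by
    rw [← Int.cast_sum, ← RR.degree_eq, hEd, Int.cast_natCast]
  refine ⟨Bd, ∑ Q ∈ E.support, (E Q : ℝ) * c Q +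
    (m : ℝ) ^ 2 * hD w (Finsupp.mapDomain (𝔽.R v₁).rp E), hBdd, fun P => ?_⟩
  have hCnn : 0 ≤ ∑ Q ∈ E.support, (E Q : ℝ) * c Q := by
    refine Finset.sum_nonneg fun Q hQ => mul_nonneg ?_ (hc0 Q (Finsupp.mem_support_iff.1 hQ))
    exact_mod_cast hE0 Q
  have hDnn := hD_nonneg w (hspec v₁).1
  by_cases hP : P = P₁
  · refine ⟨_, (hspec v₁).1, (hspec v₁).2.1, ?_, ?_⟩
    · rw [(hspec v₁).2.2, hP]
      congr 2
    · have : 0 ≤ (g : ℝ) * (g + 1) * h1 (ev P w) := mul_nonneg (by positivity) (h1_nonneg _)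
      linarith
  · obtain ⟨v, hv⟩ := exists_above (phi hη hrη) P
    rw [𝔽.rs_phi] at hv
    have hv' : (𝔽.R v).rp η = P := hv
    refine ⟨_, (hspec v).1, (hspec v).2.1, ?_, ?_⟩
    · rw [(hspec v).2.2, hv']
    · rw [hD_mapDomain, Finset.mul_sum]
      have h5 : ∑ Q ∈ E.support, (m : ℝ) ^ 2 * (((E Q : ℤ) : ℝ) * h1 (ev ((𝔽.R v).rp Q) w)) ≤
          ∑ Q ∈ E.support, (((E Q : ℤ) : ℝ) * ((g + 1) * h1 (ev P w) + c Q)) := by
        refine Finset.sum_le_sum fun Q hQ => ?_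
        have h6 := hc Q (Finsupp.mem_support_iff.1 hQ) v (by rw [hv']; exact hP)
        rw [hv'] at h6
        have h7 : (0 : ℝ) ≤ ((E Q : ℤ) : ℝ) := by exact_mod_cast hE0 Q
        calc (m : ℝ) ^ 2 * (((E Q : ℤ) : ℝ) * h1 (ev ((𝔽.R v).rp Q) w))
            = ((E Q : ℤ) : ℝ) * ((m : ℝ) ^ 2 * h1 (ev ((𝔽.R v).rp Q) w)) := by ring
          _ ≤ _ := mul_le_mul_of_nonneg_left h6 h7
      have h8 : ∑ Q ∈ E.support, (((E Q : ℤ) : ℝ) * ((g + 1) * h1 (ev P w) + c Q)) =
          (g : ℝ) * (g + 1) * h1 (ev P w) + ∑ Q ∈ E.support, (E Q : ℝ) * c Q := by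
        simp only [mul_add, Finset.sum_add_distrib]
        rw [← Finset.sum_mul, hsum]
        ring
      have h9 : 0 ≤ (m : ℝ) ^ 2 * hD w (Finsupp.mapDomain (𝔽.R v₁).rp E) :=
        mul_nonneg (by positivity) hDnn
      linarith

end Fermat.Agent.MW
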