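import Fermat.Agent.MW.PtEst
import Fermat.Agent.MW.DivK
import Fermat.Agent.MW.DwDiv

/-!
# Heights of division points on the modular curve
-/

set_option autoImplicit false
set_option linter.unusedSectionVars false
set_option linter.style.haveILetI false

noncomputable section

namespace Fermat.Agent.MW

open AlgebraicCurve ModularCurve Fermat.Agent.RR Fermat.Agent.Curve IntermediateField Module
open Fermat.Agent.ModPoly Fermat.Agent.Spec

attribute [local instance] ffAlg ffCExt funField_ff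

section

variable (K : Type) [Field K] [CharZero K] [Algebra.IsAlgebraic ℚ K] [Algebra K ℂ]

theorem exists_transcendental : ∃ t : ℂ, Transcendental K t := by
  have h1 : Cardinal.mk K ≤ Cardinal.aleph0 := by
    refine (Algebra.IsAlgebraic.cardinalMk_le_max ℚ K).trans ?_
    exact max_le Cardinal.mk_le_aleph0 le_rfl
  have h2 : Cardinal.mk (algebraicClosure K ℂ) ≤ Cardinal.aleph0 :=
    (Algebra.IsAlgebraic.cardinalMk_le_max K (algebraicClosure K ℂ)).trans (max_le h1 le_rfl)
  by_contra hcon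
  push Not at hcon
  have h3 : Countable (algebraicClosure K ℂ) := Cardinal.mk_le_aleph0_iff.1 h2
  have h4 : ((algebraicClosure K ℂ : IntermediateField K ℂ) : Set ℂ).Countable := h3
  exact not_countable_complex (h4.mono fun x _ => mem_algebraicClosure_iff.2 (by
    have := hcon x
    rwa [Transcendental, not_not] at this))

end

variable {N : ℕ} [NeZero N]

theorem pt_est_Ω (K Ω : Type) [Field K] [IsAlgClosed K] [CharZero K] [Algebra.IsAlgebraic ℚ K]
    [Field Ω] [IsAlgClosed Ω] [CharZero Ω] [Algebra K Ω] [Algebra Ω ℂ]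
    {t : Ω} (ht : Transcendental K t) (halg : ∀ x : Ω, IsIntegral K⟮t⟯ x)
    {w : FF K N} (hwt : Transcendental K w)
    {P₁ : Place K (FF K N)} {a : ℕ} (ha : 1 ≤ a) (hwp : poleDiv K w = Finsupp.single P₁ (a : ℤ))
    {m : ℕ} (hm : m ≠ 0) :
    ∃ (B : Divisor K (FF K N)) (C : ℝ), Divisor.degree B = rrGenus K (FF K N) ∧
      ∀ P : Place K (FF K N), ∃ D : Divisor K (FF K N), 0 ≤ D ∧
        Divisor.degree D = rrGenus K (FF K N) ∧
        m • cl P₁ (D - B) = cl P₁ (Finsupp.single P 1) ∧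
        (m : ℝ) ^ 2 * hD w D ≤ rrGenus K (FF K N) * (rrGenus K (FF K N) + 1) * h1 (ev P w) + C := by
  obtain ⟨Kw, hKw, hK⟩ := exists_dw hwt
  letI : Algebra ℚ K := DivisionRing.toRatAlgebra
  letI : Algebra ℚ Ω := DivisionRing.toRatAlgebra
  have hKd := degree_dw N ((algebraMap Ω ℂ).comp (algebraMap K Ω)) hwt hKw
  have hg : rrGenus K (FF K N) = rrGenus Ω (FF Ω N) := genus_ff (algebraMap Ω ℂ)
  refine pt_est (Ω := Ω) (𝓕 := FF Ω N) hg hwt ha hwp hK hKd ht halg ?_ (divisible Ω hm)
  intro L hL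
  haveI := isAlgebraic_funField halg L
  exact exists_fam (algebraMap Ω ℂ) L

theorem pt_est_Q (K : Type) [Field K] [IsAlgClosed K] [CharZero K] [Algebra.IsAlgebraic ℚ K]
    [Algebra K ℂ] {w : FF K N} (hwt : Transcendental K w)
    {P₁ : Place K (FF K N)} {a : ℕ} (ha : 1 ≤ a) (hwp : poleDiv K w = Finsupp.single P₁ (a : ℤ))
    {m : ℕ} (hm : m ≠ 0) :
    ∃ (B : Divisor K (FF K N)) (C : ℝ), Divisor.degree B = rrGenus K (FF K N) ∧
      ∀ P : Place K (FF K N), ∃ D : Divisor K (FF K N), 0 ≤ D ∧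
        Divisor.degree D = rrGenus K (FF K N) ∧
        m • cl P₁ (D - B) = cl P₁ (Finsupp.single P 1) ∧
        (m : ℝ) ^ 2 * hD w D ≤ rrGenus K (FF K N) * (rrGenus K (FF K N) + 1) * h1 (ev P w) + C := by
  obtain ⟨t, ht⟩ := exists_transcendental K
  let Ω : IntermediateField K ℂ := (algebraicClosure K⟮t⟯ ℂ).restrictScalars K
  haveI hΩ : IsAlgClosed Ω := (inferInstance : IsAlgClosure K⟮t⟯
    (algebraicClosure K⟮t⟯ ℂ)).isAlgClosed
  have htΩ : t ∈ Ω := by
    change t ∈ algebraicClosure K⟮t⟯ ℂ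
    rw [mem_algebraicClosure_iff]
    exact isAlgebraic_algebraMap (⟨t, mem_adjoin_simple_self K t⟩ : K⟮t⟯)
  let t' : Ω := ⟨t, htΩ⟩
  have ht' : Transcendental K t' := fun h =>
    ht ((isAlgebraic_algHom_iff Ω.val Ω.val.injective).2 h)
  have halg : ∀ x : Ω, IsIntegral K⟮t'⟯ x := by
    intro x
    rw [← isAlgebraic_iff_isIntegral]
    have h1 : IsAlgebraic (Algebra.adjoin K {t}) (x : ℂ) := by
      rw [← isAlgebraic_adjoin_iff]
      exact mem_algebraicClosure_iff.1 x.2
    rw [isAlgebraic_adjoin_iff]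
    obtain ⟨p, hp0, hp⟩ := h1
    -- transport the polynomial
    have h2 : (Algebra.adjoin K {t'}).map Ω.val = Algebra.adjoin K {t} := by
      rw [← Algebra.adjoin_image, Set.image_singleton]
      rfl
    let e : Algebra.adjoin K {t'} ≃ₐ[K] Algebra.adjoin K {t} :=
      ((Algebra.adjoin K {t'}).equivMapOfInjective Ω.val Ω.val.injective).trans
        (Subalgebra.equivOfEq _ _ h2)
    refine ⟨p.map (e.symm : _ →+* Algebra.adjoin K {t'}), ?_, ?_⟩
    · rwa [Ne, Polynomial.map_eq_zero_iff e.symm.injective]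
    · apply Subtype.ext
      change Ω.val (Polynomial.aeval x (p.map _)) = 0
      rw [Polynomial.aeval_def, Polynomial.eval₂_map]
      change (Ω.val : Ω →+* ℂ) _ = 0
      rw [Polynomial.hom_eval₂, ← hp, Polynomial.aeval_def]
      congr 1
      ext z
      obtain ⟨z', rfl⟩ := e.surjective z
      simp only [RingHom.comp_apply]
      change (((e.symm (e z') : Algebra.adjoin K {t'}) : Ω) : ℂ) = ((e z' : _) : ℂ)
      rw [AlgEquiv.symm_apply_apply]
      rfl
  exact pt_est_Ω K Ω ht' halg hwt ha hwp hm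

end Fermat.Agent.MW
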