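import Fermat.Agent.MW.Det3
import Fermat.Agent.Spec.Transport

/-!
# The quadratic relation and the resulting bound
-/

set_option autoImplicit false
set_option linter.unusedSectionVars false
set_option linter.unusedVariables false
set_option linter.style.haveILetI false

namespace Fermat.Agent.MW

open AlgebraicCurve Fermat.Agent.RR Fermat.Agent.Curve IntermediateField Module Fermat.Agent

variable {k Ω F 𝓕 : Type*} [Field k] [Field Ω] [Field F] [Field 𝓕]
  [Algebra k F] [Algebra Ω 𝓕] [Algebra k Ω] [Algebra F 𝓕]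
  [IsAlgClosed k] [IsAlgClosed Ω] [FunField k F] [FunField Ω 𝓕] [hC : CExt k Ω F 𝓕]

variable {L : Type*} [Field L] [Algebra k L] [Algebra L Ω] [IsScalarTower k L Ω] [FunField k L]

theorem CRed.map_principal (R : CRed k Ω F 𝓕) {x : 𝓕} (hx : x ≠ 0) :
    ∃ f : F, f ≠ 0 ∧ (Finsupp.mapDomain R.rp (divisor Ω x) : Divisor k F) = divisor k f := by
  obtain ⟨c, hc0, hcW, hcπ⟩ := R.prim x hx
  refine ⟨R.π ⟨_, hcW⟩, hcπ, ?_⟩
  rw [← R.map_div _ hcπ]
  congr 1
  ext Q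
  rw [divisor_apply, divisor_apply, Q.ord_mul ((map_ne_zero _).2 hc0) hx, ord_algebraMap, zero_add]

namespace Fam

variable (𝔽 : Fam k Ω F 𝓕 L)

open Classical in
/-- the height of a point: intersection with a constant point -/
noncomputable def ht (F : Type*) {k Ω 𝓕 L : Type*} [Field k] [Field Ω] [Field F] [Field 𝓕]
  [Algebra k F] [Algebra Ω 𝓕] [Algebra k Ω] [Algebra F 𝓕]
  [IsAlgClosed k] [IsAlgClosed Ω] [FunField k F] [FunField Ω 𝓕] [hC : CExt k Ω F 𝓕]
  [Field L] [Algebra k L] [Algebra L Ω] [IsScalarTower k L Ω] [FunField k L]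
  {Q : Place Ω 𝓕} (hr : Rat F L Q) : ℤ :=
  if hQ : Gen k F Q then dg (phi (k := k) (L := L) hQ hr) else 0

theorem B_ht (w : F) {Q : Place Ω 𝓕} (hr : Rat F L Q) (P : Place k F) :
    𝔽.B w Q (bcP Ω 𝓕 P) = ht (k := k) F hr := by
  rw [ht]
  split_ifs with h
  · exact 𝔽.B_gen_const w h hr P
  · rw [Gen] at h
    push Not at h
    obtain ⟨P', rfl⟩ := h
    exact 𝔽.B_const w P' P

theorem B_self_ht {w : F} (hw : Good k Ω 𝓕 w) {Kw : Divisor k F} (hK : IsDw w Kw)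
    {Q : Place Ω 𝓕} (hr : Rat F L Q) :
    𝔽.B w Q Q = -(ht (k := k) F hr * Divisor.degree Kw) := by
  rw [ht]
  split_ifs with h
  · exact 𝔽.B_gen_self hw hK h hr
  · rw [Gen] at h
    push Not at h
    obtain ⟨P', rfl⟩ := h
    rw [𝔽.B_const w P' P', zero_mul, neg_zero]

theorem ht_nonneg {Q : Place Ω 𝓕} (hr : Rat F L Q) : 0 ≤ ht (k := k) F hr := by
  rw [ht]
  split_ifs with h
  · exact Int.natCast_nonneg _
  · exact le_refl _

theorem BB_single_single (w : F) (Q Q' : Place Ω 𝓕) :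
    𝔽.BB w (Finsupp.single Q 1) (Finsupp.single Q' 1) = 𝔽.B w Q Q' := by
  rw [𝔽.BB_single, one_mul, one_mul]

section
variable {n : ℕ} {P : Fin n → Place Ω 𝓕}

/-- the sum of the points -/
noncomputable def sumD (P : Fin n → Place Ω 𝓕) : Divisor Ω 𝓕 := ∑ i, Finsupp.single (P i) 1

theorem support_sumD {Q : Place Ω 𝓕} (hQ : Q ∈ (sumD P).support) : ∃ i, P i = Q := by
  classical
  by_contra h
  push Not at h
  rw [Finsupp.mem_support_iff] at hQ
  apply hQ
  rw [sumD, Finsupp.finsetSum_apply]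
  exact Finset.sum_eq_zero fun i _ => by rw [Finsupp.single_apply, if_neg (h i)]

theorem BB_sumD_left (w : F) (E : Divisor Ω 𝓕) :
    𝔽.BB w (sumD P) E = ∑ i, 𝔽.BB w (Finsupp.single (P i) 1) E := by
  rw [sumD, map_sum, LinearMap.sum_apply]

theorem BB_sumD_self (w : F) (hrat : ∀ i, Rat F L (P i)) :
    𝔽.BB w (sumD P) (sumD P) = (∑ i, 𝔽.B w (P i) (P i)) +
      2 * ∑ i, ∑ j ∈ bef i, 𝔽.B w (P j) (P i) := by
  have h1 : 𝔽.BB w (sumD P) (sumD P) = ∑ i, ∑ j, 𝔽.B w (P i) (P j) := by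
    rw [𝔽.BB_sumD_left]
    refine Finset.sum_congr rfl fun i _ => ?_
    rw [sumD, map_sum]
    exact Finset.sum_congr rfl fun j _ => 𝔽.BB_single_single w _ _
  rw [h1]
  have h2 : ∀ i : Fin n, ∑ j, 𝔽.B w (P i) (P j) = 𝔽.B w (P i) (P i) +
      (∑ j, (if j < i then 𝔽.B w (P j) (P i) else 0)) +
      ∑ j, (if i < j then 𝔽.B w (P i) (P j) else 0) := by
    intro i
    have h3 : 𝔽.B w (P i) (P i) = ∑ j, if j = i then 𝔽.B w (P i) (P j) else 0 := by
      rw [Finset.sum_ite_eq', if_pos (Finset.mem_univ _)]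
    rw [h3, ← Finset.sum_add_distrib, ← Finset.sum_add_distrib]
    refine Finset.sum_congr rfl fun j _ => ?_
    rcases lt_trichotomy j i with h | h | h
    · rw [if_neg h.ne, if_pos h, if_neg (not_lt.2 h.le), zero_add, add_zero,
        𝔽.B_symm w (hrat i) (hrat j)]
    · rw [if_pos h, if_neg (by rw [h]; exact lt_irrefl _), if_neg (by rw [h]; exact lt_irrefl _),
        add_zero, add_zero]
    · rw [if_neg h.ne', if_neg (not_lt.2 h.le), if_pos h, zero_add, zero_add]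
  rw [Finset.sum_congr rfl (fun i _ => h2 i), Finset.sum_add_distrib, Finset.sum_add_distrib]
  have h3 : ∑ i, ∑ j, (if i < j then 𝔽.B w (P i) (P j) else 0) =
      ∑ i, ∑ j, (if j < i then 𝔽.B w (P j) (P i) else 0) := Finset.sum_comm
  rw [h3]
  have h4 : ∀ i : Fin n, ∑ j ∈ bef i, 𝔽.B w (P j) (P i) =
      ∑ j, (if j < i then 𝔽.B w (P j) (P i) else 0) := fun i => Finset.sum_filter _ _
  rw [Finset.sum_congr rfl (fun i _ => h4 i)]
  ring

/-- **The bound for the number of special fibres where an effective divisor meets a point.** -/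
theorem sq_card_le (hg : rrGenus k F = rrGenus Ω 𝓕) {w : F} (hw : Good k Ω 𝓕 w)
    {Kw : Divisor k F} (hK : IsDw w Kw) (hKd : Divisor.degree Kw = 2 * (rrGenus k F : ℤ) - 2)
    {E : Divisor Ω 𝓕} (hE : 0 ≤ E) (hEell : ell E = 1)
    {Bd : Divisor k F} (hBd : Divisor.degree Bd = rrGenus k F)
    {η : Place Ω 𝓕} {P₀ : Place k F} {m : ℤ} {x₀ : 𝓕} (hx₀ : x₀ ≠ 0)
    (hrel : m • (E - bcD Ω 𝓕 Bd) - (Finsupp.single η 1 - Finsupp.single (bcP Ω 𝓕 P₀) 1) =
      divisor Ω x₀)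
    (hinj : Function.Injective P) {x₁ : 𝓕} (hx₁ : x₁ ≠ 0)
    (hD : sumD P = (n : ℤ) • Finsupp.single (bcP Ω 𝓕 P₀) 1 + bcD Ω 𝓕 Bd - E + divisor Ω x₁)
    {Q₀ : Place k F} (hQ₀ : E (bcP Ω 𝓕 Q₀) = 0)
    {𝔞 : Divisor k F} (h𝔞 : 0 ≤ 𝔞) {f₀ : F} (hf₀ : f₀ ≠ 0)
    (h𝔞' : 𝔞 = (n : ℤ) • Finsupp.single P₀ 1 + Bd - Finsupp.single Q₀ 1 + divisor k f₀)
    (hell : ell 𝔞 = n) (hdisj : ∀ p, 𝔞 p ≠ 0 → ∀ i, P i ≠ bcP Ω 𝓕 p)
    (hrat : ∀ i, Rat F L (P i)) (hrη : Rat F L η)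
    (hΛa : ∃ Λ : L, algebraMap L Ω Λ = ∏ Q ∈ (sumD P - (n : ℤ) • Finsupp.single (bcP Ω 𝓕 P₀) 1).support,
      lc k w Q (x₁ ^ m * x₀⁻¹) ^ ((sumD P - (n : ℤ) • Finsupp.single (bcP Ω 𝓕 P₀) 1 :
        Divisor Ω 𝓕) Q))
    (hΛb : ∃ Λ : L, algebraMap L Ω Λ =
      ∏ Q ∈ (Finsupp.single η 1 - Finsupp.single (bcP Ω 𝓕 P₀) 1 : Divisor Ω 𝓕).support,
      lc k w Q (x₁ ^ m * x₀⁻¹) ^ ((Finsupp.single η 1 - Finsupp.single (bcP Ω 𝓕 P₀) 1 :
        Divisor Ω 𝓕) Q))
    (S : Finset (Place k L)) (hS : ∀ v ∈ S, ∃ Q, E Q ≠ 0 ∧ 𝔽.rp v Q = Q₀) :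
    m ^ 2 * (S.card : ℤ) ≤ rrGenus k F * ht (k := k) F hrη := by
  classical
  set g : ℤ := (rrGenus k F : ℤ) with hgdef
  set a : Divisor Ω 𝓕 := sumD P - (n : ℤ) • Finsupp.single (bcP Ω 𝓕 P₀) 1 with ha
  set b : Divisor Ω 𝓕 := Finsupp.single η 1 - Finsupp.single (bcP Ω 𝓕 P₀) 1 with hb
  have hx : x₁ ^ m * x₀⁻¹ ≠ 0 := mul_ne_zero (zpow_ne_zero _ hx₁) (inv_ne_zero hx₀)
  have hdivx : divisor Ω (x₁ ^ m * x₀⁻¹) = m • a + b := by
    have h1 : divisor Ω (x₁ ^ m * x₀⁻¹) = m • divisor Ω x₁ - divisor Ω x₀ := by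
      ext Q
      rw [divisor_apply, Finsupp.sub_apply, Finsupp.smul_apply, divisor_apply, divisor_apply,
        Q.ord_mul (zpow_ne_zero _ hx₁) (inv_ne_zero hx₀), Q.ord_zpow, Q.ord_inv, smul_eq_mul]
      ring
    rw [h1, ← hrel]
    have h2 : divisor Ω x₁ = a - bcD Ω 𝓕 Bd + E := by
      rw [ha, hD]; abel
    rw [h2]
    module
  have hdega : Divisor.degree a = 0 := by
    rw [ha, map_sub, sumD, map_sum, map_zsmul]
    simp only [degree_single', Finset.sum_const, Finset.card_univ, Fintype.card_fin, smul_eq_mul,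
      mul_one, nsmul_eq_mul, sub_self]
  have hdegb : Divisor.degree b = 0 := by
    rw [hb, map_sub, degree_single', degree_single', sub_self]
  have hsupa : ∀ Q ∈ a.support, Rat F L Q := by
    intro Q hQ
    rw [ha] at hQ
    have h1 := Finsupp.support_sub hQ
    rw [Finset.mem_union] at h1
    rcases h1 with h1 | h1
    · obtain ⟨i, rfl⟩ := support_sumD h1
      exact hrat i
    · have h2 := Finsupp.support_smul h1
      have h3 := Finsupp.support_single_subset h2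
      rw [Finset.mem_singleton] at h3
      rw [h3]
      exact rat_bcP P₀
  have hsupb : ∀ Q ∈ b.support, Rat F L Q := by
    intro Q hQ
    rw [hb] at hQ
    have h1 := Finsupp.support_sub hQ
    rw [Finset.mem_union] at h1
    rcases h1 with h1 | h1
    · have h3 := Finsupp.support_single_subset h1
      rw [Finset.mem_singleton] at h3
      rw [h3]
      exact hrη
    · have h3 := Finsupp.support_single_subset h1
      rw [Finset.mem_singleton] at h3
      rw [h3]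
      exact rat_bcP P₀
  have hsupx : ∀ Q ∈ (divisor Ω (x₁ ^ m * x₀⁻¹)).support, Rat F L Q := by
    intro Q hQ
    rw [hdivx] at hQ
    have h1 := Finsupp.support_add hQ
    rw [Finset.mem_union] at h1
    rcases h1 with h1 | h1
    · exact hsupa Q (Finsupp.support_smul h1)
    · exact hsupb Q h1
  have e1 := 𝔽.BB_divisor hg hw hK hx hdega hsupx hsupa hΛa
  have e2 := 𝔽.BB_divisor hg hw hK hx hdegb hsupx hsupb hΛb
  rw [hdivx, map_add, map_zsmul, LinearMap.add_apply, LinearMap.smul_apply, smul_eq_mul] at e1 e2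
  have e3 : 𝔽.BB w a b = 𝔽.BB w b a := 𝔽.BB_symm w hsupa hsupb
  -- heights
  set h : ℤ := ∑ i, ht (k := k) F (hrat i) with hh
  set I : ℤ := ∑ i, ∑ j ∈ bef i, 𝔽.B w (P j) (P i) with hI
  have hBconst : ∀ i, 𝔽.B w (P i) (bcP Ω 𝓕 P₀) = ht (k := k) F (hrat i) := fun i =>
    𝔽.B_ht w (hrat i) P₀
  have hc : 𝔽.BB w (Finsupp.single (bcP Ω 𝓕 P₀) 1) (Finsupp.single (bcP Ω 𝓕 P₀) 1) = 0 := by
    rw [𝔽.BB_single_single, 𝔽.B_const]
  have hsc : 𝔽.BB w (sumD P) (Finsupp.single (bcP Ω 𝓕 P₀) 1) = h := by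
    rw [𝔽.BB_sumD_left, hh]
    exact Finset.sum_congr rfl fun i _ => by rw [𝔽.BB_single_single, hBconst]
  have hcs : 𝔽.BB w (Finsupp.single (bcP Ω 𝓕 P₀) 1) (sumD P) = h := by
    rw [← hsc]
    refine 𝔽.BB_symm w (fun Q hQ => ?_) (fun Q hQ => ?_)
    · have h3 := Finsupp.support_single_subset hQ
      rw [Finset.mem_singleton] at h3
      rw [h3]
      exact rat_bcP P₀
    · obtain ⟨i, rfl⟩ := support_sumD hQ
      exact hrat i
  have hss : 𝔽.BB w (sumD P) (sumD P) = -(h * (2 * g - 2)) + 2 * I := by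
    rw [𝔽.BB_sumD_self w hrat]
    congr 1
    rw [hh, Finset.sum_mul, ← Finset.sum_neg_distrib]
    exact Finset.sum_congr rfl fun i _ => by rw [𝔽.B_self_ht hw hK (hrat i), hKd]
  have hBBsub : ∀ X Y Z W : Divisor Ω 𝓕, 𝔽.BB w (X - Y) (Z - W) =
      𝔽.BB w X Z - 𝔽.BB w Y Z - (𝔽.BB w X W - 𝔽.BB w Y W) := by
    intro X Y Z W
    rw [map_sub, map_sub, LinearMap.sub_apply, LinearMap.sub_apply]
  have haa : 𝔽.BB w a a = -(h * (2 * g - 2)) + 2 * I - 2 * n * h := by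
    rw [ha, hBBsub, map_zsmul, map_zsmul, map_zsmul, LinearMap.smul_apply, LinearMap.smul_apply,
      hss, hsc, hcs, hc]
    simp only [smul_eq_mul]
    ring
  have hηη : 𝔽.B w η η = -(ht (k := k) F hrη * (2 * g - 2)) := by
    rw [𝔽.B_self_ht hw hK hrη, hKd]
  have hbb : 𝔽.BB w b b = -(2 * g * ht (k := k) F hrη) := by
    rw [hb, hBBsub, 𝔽.BB_single_single,
      𝔽.BB_single_single, 𝔽.BB_single_single, 𝔽.BB_single_single, hηη, 𝔽.B_ht w hrη,
      𝔽.B_symm w (rat_bcP P₀) hrη, 𝔽.B_ht w hrη, 𝔽.B_const]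
    ring
  have e4 : m ^ 2 * 𝔽.BB w a a = 𝔽.BB w b b := by
    rw [← e3] at e1
    linear_combination m * e1 - e2
  -- the determinant bound
  have hfd : FiniteDimensional k (riemannRochSpace 𝔞) := inferInstance
  let bs := Module.finBasisOfFinrankEq k (riemannRochSpace 𝔞) hell
  have hbli : LinearIndependent k (fun i => (bs i : F)) := by
    have := bs.linearIndependent
    exact this.map' (riemannRochSpace 𝔞).subtype (Submodule.ker_subtype _)
  have hbspan : Submodule.span k (Set.range fun i => (bs i : F)) = riemannRochSpace 𝔞 := by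
    have h2 : Submodule.map (riemannRochSpace 𝔞).subtype (Submodule.span k (Set.range bs)) =
        Submodule.map (riemannRochSpace 𝔞).subtype ⊤ := by rw [bs.span_eq]
    rw [Submodule.map_span, Submodule.map_top, Submodule.range_subtype] at h2
    refine Eq.trans ?_ h2
    congr 1
    rw [← Set.range_comp]
    rfl
  -- `𝔞 - D ~ E - Q₀`
  have hcut : cut 𝔞 P Finset.univ = E - Finsupp.single (bcP Ω 𝓕 Q₀) 1 -
      divisor Ω (x₁ * (bc F 𝓕 f₀)⁻¹) := by
    have h1 : divisor Ω (x₁ * (bc F 𝓕 f₀)⁻¹) = divisor Ω x₁ - bcD Ω 𝓕 (divisor k f₀) := by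
      rw [← divisor_bc]
      ext Q
      rw [divisor_apply, Finsupp.sub_apply, divisor_apply, divisor_apply,
        Q.ord_mul hx₁ (inv_ne_zero (bc_ne_zero hf₀)), Q.ord_inv]
      ring
    have h2 : cut 𝔞 P Finset.univ = bcD Ω 𝓕 𝔞 - sumD P := rfl
    rw [h1, h2, hD, h𝔞', map_add, map_sub, map_add, map_zsmul, bcD_single, bcD_single]
    abel
  have hxf : x₁ * (bc F 𝓕 f₀)⁻¹ ≠ 0 := mul_ne_zero hx₁ (inv_ne_zero (bc_ne_zero hf₀))
  have hLbot : riemannRochSpace (cut 𝔞 P Finset.univ) = ⊥ := by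
    rw [hcut]
    have h1 := ell_sub_divisor (K := Ω) hxf (E - Finsupp.single (bcP Ω 𝓕 Q₀) 1)
    have h2 : riemannRochSpace (E - Finsupp.single (bcP Ω 𝓕 Q₀) 1) = ⊥ := by
      rw [eq_bot_iff]
      intro y hy
      rw [Submodule.mem_bot]
      by_contra hy0
      -- `L(E)` is the constants
      have h3 : riemannRochSpace E = Submodule.span Ω {(1 : 𝓕)} := by
        symm
        apply Submodule.eq_of_le_of_finrank_eq
        · rw [Submodule.span_singleton_le_iff_mem, mem_L]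
          intro v
          exact (Ge.one v).mono (neg_nonpos.2 (hE v))
        · rw [finrank_span_singleton one_ne_zero]
          exact hEell.symm
      have h4 : y ∈ riemannRochSpace E := L_mono (by
        rw [sub_le_self_iff]; exact Spec.single_le_of_nonneg _) hy
      rw [h3] at h4
      obtain ⟨c, hc'⟩ := Submodule.mem_span_singleton.1 h4
      have h5 := (mem_L.1 hy (bcP Ω 𝓕 Q₀)).le_ord hy0
      rw [Finsupp.sub_apply, hQ₀, Finsupp.single_eq_same, ← hc', Algebra.smul_def, mul_one,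
        ord_algebraMap] at h5
      norm_num at h5
    have h3 : ell (E - Finsupp.single (bcP Ω 𝓕 Q₀) 1 - divisor Ω (x₁ * (bc F 𝓕 f₀)⁻¹)) = 0 := by
      rw [h1, ell, h2, finrank_bot]
    exact Submodule.finrank_eq_zero.1 h3
  have hSne : ∀ v ∈ S, riemannRochSpace (cutk 𝔞 (fun j => 𝔽.rp v (P j)) Finset.univ) ≠ ⊥ := by
    intro v hv
    obtain ⟨Q, hQE, hQv⟩ := hS v hv
    rw [← CRed.mapDomain_cut (𝔽.R v), hcut]
    obtain ⟨f, hf0, hf⟩ := (𝔽.R v).map_principal hxf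
    have h1 : (Finsupp.mapDomain (𝔽.R v).rp (E - Finsupp.single (bcP Ω 𝓕 Q₀) 1 -
        divisor Ω (x₁ * (bc F 𝓕 f₀)⁻¹)) : Divisor k F) =
        Finsupp.mapDomain (𝔽.R v).rp E - Finsupp.single Q₀ 1 - divisor k f := by
      have h2 := map_sub (Finsupp.mapDomain.addMonoidHom (M := ℤ) (𝔽.R v).rp)
        (E - Finsupp.single (bcP Ω 𝓕 Q₀) 1) (divisor Ω (x₁ * (bc F 𝓕 f₀)⁻¹))
      have h3 := map_sub (Finsupp.mapDomain.addMonoidHom (M := ℤ) (𝔽.R v).rp)
        E (Finsupp.single (bcP Ω 𝓕 Q₀) 1)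
      rw [h3] at h2
      refine h2.trans ?_
      change Finsupp.mapDomain (𝔽.R v).rp E - Finsupp.mapDomain (𝔽.R v).rp
        (Finsupp.single (bcP Ω 𝓕 Q₀) 1) - Finsupp.mapDomain (𝔽.R v).rp _ = _
      rw [Finsupp.mapDomain_single, (𝔽.R v).rp_bcP, hf]
    rw [h1]
    intro hbot
    have h2 : f ∈ riemannRochSpace (Finsupp.mapDomain (𝔽.R v).rp E - Finsupp.single Q₀ 1 -
        divisor k f) := by
      rw [Spec.mem_L_of_divisor hf0, sub_add_cancel]
      intro p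
      rw [Finsupp.sub_apply, (𝔽.R v).mapDomain_apply']
      change 0 ≤ _
      by_cases hp : p = Q₀
      · subst hp
        rw [Finsupp.single_eq_same, sub_nonneg]
        have h3 : Q ∈ E.support.filter (fun u => (𝔽.R v).rp u = p) := by
          rw [Finset.mem_filter, Finsupp.mem_support_iff]
          exact ⟨hQE, hQv⟩
        refine le_trans ?_ (Finset.single_le_sum (f := fun u => E u) (fun u _ => hE u) h3)
        have h4 : 0 ≤ E Q := hE Q
        change 1 ≤ E Q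
        omega
      · rw [Finsupp.single_eq_of_ne hp, sub_zero]
        exact Finset.sum_nonneg fun u _ => hE u
    rw [hbot, Submodule.mem_bot] at h2
    exact hf0 h2
  have hmain := 𝔽.card_le hg hw hK hinj hrat h𝔞 hdisj hbli hbspan hLbot S hSne
  have hdeg𝔞 : Divisor.degree 𝔞 = n + g - 1 := by
    rw [h𝔞', map_add, map_sub, map_add, map_zsmul, degree_single', degree_single', hBd,
      degree_divisor]
    simp only [smul_eq_mul, mul_one, add_zero]
  have hrhs : ∑ i, ((∑ p ∈ 𝔞.support, 𝔞 p * 𝔽.B w (P i) (bcP Ω 𝓕 p)) -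
      ∑ j ∈ bef i, 𝔽.B w (P j) (P i)) = (n + g - 1) * h - I := by
    rw [Finset.sum_sub_distrib, ← hI]
    congr 1
    rw [hh, Finset.mul_sum]
    refine Finset.sum_congr rfl fun i _ => ?_
    rw [← hdeg𝔞, degree_eq, Finset.sum_mul]
    exact Finset.sum_congr rfl fun p _ => by rw [𝔽.B_ht w (hrat i)]
  rw [hrhs] at hmain
  rw [haa, hbb] at e4
  have h5 : m ^ 2 * ((n + g - 1) * h - I) = g * ht (k := k) F hrη := by linarith
  calc m ^ 2 * (S.card : ℤ) ≤ m ^ 2 * ((n + g - 1) * h - I) :=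
        mul_le_mul_of_nonneg_left hmain (sq_nonneg m)
    _ = _ := h5

end

end Fam

end Fermat.Agent.MW
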