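import Fermat.Agent.MW.SUnit
import Fermat.Agent.Places.Minkowski
import Mathlib.NumberTheory.RamificationInertia.Valuation

/-!
# An `n`-th root fixed by inertia has an `n`-th power with divisible valuation
-/

set_option autoImplicit false
set_option linter.unusedSectionVars false
set_option linter.style.haveILetI false

noncomputable section

namespace Fermat.Agent.MW

open NumberField Ideal IsDedekindDomain

variable {F E : Type*} [Field F] [NumberField F] [Field E] [NumberField E] [Algebra F E]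
  [IsGalois F E]

theorem dvd_vz_of_inertia {n : ℕ} {a : Fˣ} {b : E} (hb : b ^ n = algebraMap F E a)
    (hn : n ≠ 0)
    (v : HeightOneSpectrum (𝓞 F)) (P : Ideal (𝓞 E)) [P.IsPrime] [P.LiesOver v.asIdeal]
    (hP : ∀ σ ∈ P.inertia Gal(E/F), σ b = b) : (n : ℤ) ∣ vz v a := by
  let H : Subgroup Gal(E/F) := MulAction.stabilizer Gal(E/F) b
  let K₁ : IntermediateField F E := FixedPoints.intermediateField H
  haveI : IsGaloisGroup H (𝓞 K₁) (𝓞 E) :=
    IsGaloisGroup.of_isFractionRing H (𝓞 K₁) (𝓞 E) K₁ E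
  haveI : IsGaloisGroup Gal(E/F) (𝓞 F) (𝓞 E) :=
    IsGaloisGroup.of_isFractionRing Gal(E/F) (𝓞 F) (𝓞 E) F E
  have hb1 : b ∈ K₁ := fun σ => σ.2
  let b₁ : K₁ := ⟨b, hb1⟩
  have hPle : P.inertia Gal(E/F) ≤ H := fun σ hσ => hP σ hσ
  have hP0 : P ≠ ⊥ := Ideal.ne_bot_of_liesOver_of_ne_bot v.ne_bot P
  let P' : Ideal (𝓞 K₁) := P.under (𝓞 K₁)
  haveI : P'.LiesOver v.asIdeal := ⟨by
    rw [Ideal.under_under]; exact P.over_def v.asIdeal⟩
  have hP'0 : P' ≠ ⊥ := Ideal.ne_bot_of_liesOver_of_ne_bot v.ne_bot P'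
  let v₁ : HeightOneSpectrum (𝓞 K₁) := ⟨P', inferInstance, hP'0⟩
  haveI := Places.perfect_residueField v.asIdeal v.ne_bot
  haveI := Places.perfect_residueField P' hP'0
  have e1 : Nat.card (P.inertia Gal(E/F)) = P.ramificationIdx (𝓞 F) := by
    rw [card_inertia_eq_ramificationIdxIn (G := Gal(E/F)) v.asIdeal P,
      Ideal.ramificationIdxIn_eq_ramificationIdx v.asIdeal P Gal(E/F)]
  have e2 : Nat.card (P.inertia H) = P.ramificationIdx (𝓞 K₁) := by
    rw [card_inertia_eq_ramificationIdxIn (G := H) P' P,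
      Ideal.ramificationIdxIn_eq_ramificationIdx P' P H]
  have e3 : P.ramificationIdx (𝓞 F) = P'.ramificationIdx (𝓞 F) * P.ramificationIdx (𝓞 K₁) :=
    Ideal.ramificationIdx_tower P' P
  have e4 : Nat.card (P.inertia H) = Nat.card (P.inertia Gal(E/F)) := by
    refine Nat.card_congr
      { toFun := fun σ => ⟨σ.1.1, ?_⟩
        invFun := fun σ => ⟨⟨σ.1, hPle σ.2⟩, ?_⟩
        left_inv := fun _ => rfl
        right_inv := fun _ => rfl }
    · exact σ.2
    · exact σ.2
  have e5 : P'.ramificationIdx (𝓞 F) = 1 := by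
    rw [← e1, ← e2, e4, e1] at e3
    have : P.ramificationIdx (𝓞 F) ≠ 0 := by
      rw [← e1]; exact Nat.card_pos.ne'
    exact (mul_eq_right₀ this).mp e3.symm
  haveI : v₁.asIdeal.LiesOver v.asIdeal := inferInstanceAs (P'.LiesOver v.asIdeal)
  have e6 : v.asIdeal.ramificationIdx' v₁.asIdeal = 1 := by
    rw [Ideal.ramificationIdx'_eq_ramificationIdx v.asIdeal v₁.asIdeal v.ne_bot]
    exact e5
  have h1 := HeightOneSpectrum.valuation_liesOver (K := F) K₁ v v₁ (a : F)
  have h2 : algebraMap F K₁ (a : F) = b₁ ^ n := by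
    apply (algebraMap K₁ E).injective
    rw [← IsScalarTower.algebraMap_apply, ← hb, map_pow]
    rfl
  rw [e6, pow_one, h2, map_pow] at h1
  have hb0 : b₁ ≠ 0 := by
    intro h0
    rw [h0, zero_pow hn] at h2
    rw [map_eq_zero] at h2
    exact a.ne_zero h2
  have h3 : v₁.valuation K₁ b₁ = v₁.valuationOfNeZero (Units.mk0 b₁ hb0) :=
    (v₁.valuationOfNeZero_eq (K := K₁) (Units.mk0 b₁ hb0)).symm
  rw [h3, ← v.valuationOfNeZero_eq, ← WithZero.coe_pow, WithZero.coe_inj] at h1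
  rw [vz, h1, toAdd_pow, nsmul_eq_mul]
  exact dvd_mul_right _ _

end Fermat.Agent.MW
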