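import Mathlib

/-!
# Finiteness of the group of elements which are locally `p`-th powers outside a finite set
-/

set_option autoImplicit false
set_option linter.style.haveILetI false

noncomputable section

namespace Fermat.Agent.MW

open IsDedekindDomain nonZeroDivisors

/-- finitely generated commutative groups modulo `n`-th powers -/
theorem exists_reps_of_fg (A : Type*) [CommGroup A] [Module.Finite ℤ (Additive A)] {n : ℕ}
    (hn : n ≠ 0) : ∃ T : Set A, T.Finite ∧ ∀ a : A, ∃ t ∈ T, ∃ c : A, a = t * c ^ n := by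
  let f : Additive A →ₗ[ℤ] Additive A := (n : ℤ) • LinearMap.id
  let Q := Additive A ⧸ LinearMap.range f
  haveI : Module.Finite ℤ Q := inferInstance
  haveI : Finite Q := by
    apply Module.finite_of_fg_torsion Q
    intro x
    obtain ⟨a, rfl⟩ := Submodule.Quotient.mk_surjective _ x
    refine ⟨⟨(n : ℤ), mem_nonZeroDivisors_of_ne_zero (by exact_mod_cast hn)⟩, ?_⟩
    change (n : ℤ) • (Submodule.Quotient.mk a : Q) = 0
    rw [← Submodule.Quotient.mk_smul, Submodule.Quotient.mk_eq_zero]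
    exact ⟨a, rfl⟩
  choose s hs using fun q : Q => Submodule.Quotient.mk_surjective (LinearMap.range f) q
  refine ⟨Set.range fun q : Q => (s q).toMul, Set.finite_range _, fun a => ?_⟩
  obtain ⟨q, hq⟩ : ∃ q : Q, q = Submodule.Quotient.mk (Additive.ofMul a) := ⟨_, rfl⟩
  refine ⟨_, ⟨q, rfl⟩, ?_⟩
  have h1 : (Submodule.Quotient.mk (Additive.ofMul a) : Q) = Submodule.Quotient.mk (s q) := by
    rw [← hq]; exact (hs q).symm
  rw [Submodule.Quotient.eq] at h1
  obtain ⟨c, hc⟩ := h1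
  refine ⟨c.toMul, ?_⟩
  have h2 : (n : ℤ) • c = Additive.ofMul a - s q := hc
  have h3 : Additive.ofMul a = s q + (n : ℤ) • c := by
    rw [h2, add_sub_cancel]
  have h4 := congrArg Additive.toMul h3
  rw [toMul_ofMul, toMul_add, natCast_zsmul, toMul_nsmul] at h4
  exact h4

variable {R : Type*} [CommRing R] [IsDedekindDomain R] {K : Type*} [Field K] [Algebra R K]
  [IsFractionRing R K]

/-- the valuation as an integer -/
def vz (v : HeightOneSpectrum R) (x : Kˣ) : ℤ := Multiplicative.toAdd (v.valuationOfNeZero x)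

theorem exists_reps_fun {X Y : Type*} [Finite Y] (f : X → Y) (s : Set X) :
    ∃ T ⊆ s, T.Finite ∧ ∀ x ∈ s, ∃ t ∈ T, f x = f t := by
  obtain ⟨T, hT, hbij⟩ := (Set.surjOn_image f s).exists_bijOn_subset
  refine ⟨T, hT, ?_, fun x hx => ?_⟩
  · exact Set.Finite.of_finite_image (Set.toFinite _) hbij.injOn
  · obtain ⟨t, ht, h⟩ := hbij.surjOn ⟨x, hx, rfl⟩
    exact ⟨t, ht, h.symm⟩

theorem vz_mul (v : HeightOneSpectrum R) (x y : Kˣ) : vz v (x * y) = vz v x + vz v y := by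
  rw [vz, map_mul, toAdd_mul, vz, vz]

theorem vz_pow (v : HeightOneSpectrum R) (x : Kˣ) (n : ℕ) : vz v (x ^ n) = n * vz v x := by
  rw [vz, map_pow, toAdd_pow, vz, nsmul_eq_mul]

theorem vz_inv (v : HeightOneSpectrum R) (x : Kˣ) : vz v x⁻¹ = -vz v x := by
  rw [vz, map_inv, toAdd_inv, vz]

open Classical in
theorem vz_algebraMap (v : HeightOneSpectrum R) {r : R} (hr : r ≠ 0) (x : Kˣ)
    (hx : (x : K) = algebraMap R K r) :
    vz v x = -((Associates.mk v.asIdeal).count (Associates.mk (Ideal.span {r} : Ideal R)).factors : ℤ) := by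
  have h1 := v.valuationOfNeZero_eq (K := K) x
  rw [hx, HeightOneSpectrum.valuation_of_algebraMap, HeightOneSpectrum.intValuation_if_neg v hr,
    WithZero.exp, WithZero.coe_inj] at h1
  rw [vz, h1, toAdd_ofAdd]

open Classical in
theorem exists_ideal_pow {n : ℕ} {r : R} (hr : r ≠ 0)
    (h : ∀ v : HeightOneSpectrum R,
      n ∣ (Associates.mk v.asIdeal).count (Associates.mk (Ideal.span {r} : Ideal R)).factors) :
    ∃ I : Ideal R, I ^ n = Ideal.span {r} := by
  have h0 : Associates.mk (Ideal.span {r} : Ideal R) ≠ 0 := by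
    rw [Ne, Associates.mk_eq_zero]
    simpa using hr
  obtain ⟨b, hb⟩ := Associates.is_pow_of_dvd_count h0 (k := n) (by
    intro p hp
    obtain ⟨P, rfl⟩ := Associates.mk_surjective p
    rw [Associates.irreducible_mk] at hp
    have hP0 : P ≠ ⊥ := hp.ne_zero
    have hPp : P.IsPrime := Ideal.isPrime_of_prime hp.prime
    exact h ⟨P, hPp, hP0⟩)
  obtain ⟨I, rfl⟩ := Associates.mk_surjective b
  rw [← Associates.mk_pow, Associates.mk_eq_mk_iff_associated, associated_iff_eq] at hb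
  exact ⟨I, hb.symm⟩

variable (R K) in
/-- elements with divisor divisible by `n` -/
theorem exists_reps_empty [Finite (ClassGroup R)] [Module.Finite ℤ (Additive Rˣ)] {n : ℕ}
    (hn : n ≠ 0) : ∃ T : Set Kˣ, T.Finite ∧ ∀ x : Kˣ,
      (∀ v : HeightOneSpectrum R, (n : ℤ) ∣ vz v x) → ∃ t ∈ T, ∃ c : Kˣ, x = t * c ^ n := by
  classical
  obtain ⟨Tu, hTu, hTu'⟩ := exists_reps_of_fg Rˣ hn
  -- integral elements
  let good : Set R := {r | r ≠ 0 ∧ ∃ I : Ideal R, I ^ n = Ideal.span {r}}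
  have hI : ∀ r ∈ good, ∃ I : (Ideal R)⁰, (I : Ideal R) ^ n = Ideal.span {r} := by
    rintro r ⟨hr, I, hI⟩
    refine ⟨⟨I, ?_⟩, hI⟩
    rw [mem_nonZeroDivisors_iff_ne_zero]
    rintro rfl
    rw [zero_pow hn] at hI
    apply hr
    exact Ideal.span_singleton_eq_bot.1 hI.symm
  choose! I hI using hI
  -- representatives of classes
  obtain ⟨T, hTg, hT, hTr⟩ := exists_reps_fun (fun r => ClassGroup.mk0 (I r)) good
  let e : R × Rˣ → Kˣ := fun q => if h : algebraMap R K q.1 ≠ 0 then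
    Units.mk0 (algebraMap R K q.1) h * Units.map (algebraMap R K : R →* K) q.2 else 1
  have he : ∀ q : R × Rˣ, q.1 ≠ 0 → ((e q : Kˣ) : K) = algebraMap R K q.1 * algebraMap R K q.2 := by
    intro q hq
    have h : algebraMap R K q.1 ≠ 0 := by
      rwa [Ne, FaithfulSMul.algebraMap_eq_zero_iff]
    simp only [e, dif_pos h]
    rfl
  refine ⟨e '' (T ×ˢ Tu), (hT.prod hTu).image _, fun x hx => ?_⟩
  -- make `x` integral
  obtain ⟨r, s, hs, hrs⟩ := IsFractionRing.div_surjective (A := R) (K := K) (x : K)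
  have hs0 : s ≠ 0 := nonZeroDivisors.ne_zero hs
  have hsK : algebraMap R K s ≠ 0 := by rwa [Ne, FaithfulSMul.algebraMap_eq_zero_iff]
  have hrK : algebraMap R K r ≠ 0 := by
    intro h
    rw [h, zero_div] at hrs
    exact x.ne_zero hrs.symm
  have hr0 : r ≠ 0 := by
    rintro rfl
    exact hrK (map_zero _)
  obtain ⟨r', hr'⟩ : ∃ r' : R, r' = r * s ^ (n - 1) := ⟨_, rfl⟩
  have hr'0 : r' ≠ 0 := by rw [hr']; exact mul_ne_zero hr0 (pow_ne_zero _ hs0)
  let su : Kˣ := Units.mk0 (algebraMap R K s) hsK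
  have hx' : ((x * su ^ n : Kˣ) : K) = algebraMap R K r' := by
    rw [hr', Units.val_mul, Units.val_pow_eq_pow_val, Units.val_mk0, ← hrs, map_mul, map_pow]
    obtain ⟨n', rfl⟩ := Nat.exists_eq_succ_of_ne_zero hn
    rw [Nat.succ_sub_one, pow_succ]
    field_simp
  have hgood : r' ∈ good := by
    refine ⟨hr'0, exists_ideal_pow hr'0 fun v => ?_⟩
    have h1 := vz_algebraMap v hr'0 _ hx'
    have h2 : (n : ℤ) ∣ vz v (x * su ^ n) := by
      rw [vz_mul, vz_pow]
      exact dvd_add (hx v) (dvd_mul_right _ _)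
    rw [h1, dvd_neg] at h2
    exact_mod_cast h2
  obtain ⟨t, ht, hcl⟩ := hTr r' hgood
  obtain ⟨a, b, ha, hb, hab⟩ := ClassGroup.mk0_eq_mk0_iff.1 hcl
  have h3 : Ideal.span {a ^ n * r'} = Ideal.span {b ^ n * t} := by
    rw [← Ideal.span_singleton_mul_span_singleton, ← Ideal.span_singleton_mul_span_singleton,
      ← Ideal.span_singleton_pow, ← Ideal.span_singleton_pow, ← hI r' hgood, ← hI t (hTg ht),
      ← mul_pow, ← mul_pow, hab]
  rw [Ideal.span_singleton_eq_span_singleton] at h3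
  obtain ⟨u, hu⟩ := h3.symm
  -- `b ^ n * t * u = a ^ n * r'`
  obtain ⟨tu, htu, c, hc⟩ := hTu' u
  have ht0 : t ≠ 0 := (hTg ht).1
  have haK : algebraMap R K a ≠ 0 := by rwa [Ne, FaithfulSMul.algebraMap_eq_zero_iff]
  have hbK : algebraMap R K b ≠ 0 := by rwa [Ne, FaithfulSMul.algebraMap_eq_zero_iff]
  let au : Kˣ := Units.mk0 _ haK
  let bu : Kˣ := Units.mk0 _ hbK
  refine ⟨e (t, tu), ⟨(t, tu), ⟨ht, htu⟩, rfl⟩,
    bu * Units.map (algebraMap R K : R →* K) c * (au * su)⁻¹, ?_⟩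
  have h4 := congrArg (algebraMap R K) hu
  rw [map_mul, map_mul, map_mul, map_pow, map_pow, ← hx', hc] at h4
  rw [mul_pow, inv_pow, ← mul_assoc, eq_mul_inv_iff_mul_eq]
  apply Units.ext
  rw [Units.val_mul, Units.val_mul, he (t, tu) ht0]
  simp only [mul_pow, Units.val_mul, Units.val_pow_eq_pow_val, Units.val_mk0, Units.coe_map,
    au, bu, su, MonoidHom.coe_coe] at h4 ⊢
  simp only [Units.val_mul, Units.val_pow_eq_pow_val, map_mul, map_pow] at h4
  linear_combination -h4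

variable (R K) in
/-- **Finiteness.** -/
theorem exists_reps [Finite (ClassGroup R)] [Module.Finite ℤ (Additive Rˣ)] {n : ℕ}
    (hn : n ≠ 0) {S : Set (HeightOneSpectrum R)} (hS : S.Finite) :
    ∃ T : Set Kˣ, T.Finite ∧ ∀ x : Kˣ,
      (∀ v : HeightOneSpectrum R, v ∉ S → (n : ℤ) ∣ vz v x) → ∃ t ∈ T, ∃ c : Kˣ, x = t * c ^ n := by
  classical
  haveI : NeZero n := ⟨hn⟩
  haveI : Finite S := hS
  obtain ⟨T, hT, hT'⟩ := exists_reps_empty R K hn
  obtain ⟨T₁, hT₁g, hT₁, hT₁'⟩ := exists_reps_fun (Y := S → ZMod n)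
    (fun x : Kˣ => fun v : S => ((vz (v : HeightOneSpectrum R) x : ℤ) : ZMod n))
    {x : Kˣ | ∀ v : HeightOneSpectrum R, v ∉ S → (n : ℤ) ∣ vz v x}
  refine ⟨(fun q : Kˣ × Kˣ => q.1 * q.2) '' (T₁ ×ˢ T), (hT₁.prod hT).image _, fun x hx => ?_⟩
  obtain ⟨t₁, ht₁, h1⟩ := hT₁' x hx
  obtain ⟨t, ht, c, hc⟩ := hT' (x * t₁⁻¹) (by
    intro v
    rw [vz_mul, vz_inv]
    by_cases hv : v ∈ S
    · have h2 := congrFun h1 ⟨v, hv⟩
      simp only at h2
      rw [← sub_eq_add_neg, ← ZMod.intCast_zmod_eq_zero_iff_dvd, Int.cast_sub, sub_eq_zero]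
      exact h2
    · exact dvd_add (hx v hv) (dvd_neg.2 (hT₁g ht₁ v hv)))
  refine ⟨_, ⟨(t₁, t), ⟨ht₁, ht⟩, rfl⟩, c, ?_⟩
  rw [mul_assoc, ← hc, mul_comm x, mul_inv_cancel_left]

end Fermat.Agent.MW
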