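import Fermat.Agent.MW.Height2

/-!
# Small solutions of linear systems
-/

set_option autoImplicit false
set_option linter.unusedSectionVars false
set_option linter.unusedVariables false
set_option linter.style.haveILetI false

namespace Fermat.Agent.MW

open Module

variable {C : Type*} [Field C] [CharZero C] [Algebra.IsAlgebraic ℚ C]

section
variable {ι ι' κ : Type*} [Finite ι] [Finite ι'] [Finite κ]

/-- the affine height -/
noncomputable def ha (x : ι → C) : ℝ := hb (fun o : Option ι => o.elim 1 x)

theorem aff_ne (x : ι → C) : (fun o : Option ι => o.elim 1 x) ≠ 0 := by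
  intro h
  have := congrFun h none
  simp at this

theorem ha_nonneg (x : ι → C) : 0 ≤ ha x := hb_nonneg _

theorem hb_le_ha (x : ι → C) : hb x ≤ ha x :=
  hb_comp_le (C := C) (fun i => some i) (fun o : Option ι => o.elim 1 x)

theorem ha_le_hb {x : ι → C} {i : ι} (hi : x i = 1) : ha x ≤ hb x := by
  have h := hb_comp_le (C := C) (fun o : Option ι => o.elim i id) x
  refine le_of_eq_of_le ?_ h
  unfold ha
  congr 1
  funext o
  cases o with
  | none => exact hi.symm
  | some j => rfl

theorem hb_pair_eq (x : C) : ha (fun _ : Unit => x) = h1 x := by
  unfold ha h1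
  apply le_antisymm
  · have h := hb_comp_le (C := C) (fun o : Option Unit => o.elim (0 : Fin 2) (fun _ => 1)) ![1, x]
    refine le_of_eq_of_le ?_ h
    congr 1
    funext o
    cases o with
    | none => simp
    | some j => simp
  · have h := hb_comp_le (C := C) (fun i : Fin 2 => if i = 0 then none else some ())
      (fun o : Option Unit => o.elim (1 : C) (fun _ => x))
    refine le_of_eq_of_le ?_ h
    congr 1
    funext i
    fin_cases i <;> simp

/-- sums of at most products of two -/
theorem hb_bilin [Fintype ι] [Fintype ι'] {x : ι → C} {y : ι' → C} (hx : x ≠ 0) (hy : y ≠ 0)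
    {z : κ → C} (h : ∀ j, ∃ n : ι → ι' → ℤ, (∀ i i', |n i i'| ≤ 1) ∧
      z j = ∑ i, ∑ i', (n i i' : C) * (x i * y i')) :
    hb z ≤ Real.log (Nat.card (ι × ι')) + (hb x + hb y) := by
  rw [← hb_mul hx hy]
  apply hb_comb'
  intro j
  obtain ⟨n, hn, hz⟩ := h j
  refine ⟨fun p => n p.1 p.2, fun p => hn _ _, ?_⟩
  rw [hz, ← Finset.univ_product_univ, Finset.sum_product]

theorem hb_single (i : ι) [DecidableEq ι] : hb (Pi.single i (1 : C)) = 0 := by
  apply le_antisymm _ (hb_nonneg _)
  have h := hb_int_le (C := C) (fun j : ι => (if j = i then 1 else 0 : ℤ)) (M := 1) le_rfl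
    (fun i => by split_ifs <;> simp)
  rw [Nat.cast_one, Real.log_one] at h
  refine le_of_eq_of_le ?_ h
  congr 1
  funext j
  rw [Pi.single_apply]
  split_ifs <;> simp

end

/-- **Small solutions of linear systems.** -/
theorem small_solution (ι : Type*) [Finite ι] (s : ℕ) :
    ∃ c : ℝ, 0 ≤ c ∧ ∀ A : ι × Fin s → C,
      (∃ x : Fin s → C, x ≠ 0 ∧ ∀ i, ∑ j, A (i, j) * x j = 0) →
      ∃ x : Fin s → C, x ≠ 0 ∧ (∀ i, ∑ j, A (i, j) * x j = 0) ∧ hb x ≤ c * (ha A + 1) := by
  classical
  haveI := Fintype.ofFinite ι
  induction s with
  | zero =>
    refine ⟨0, le_rfl, fun A => ?_⟩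
    rintro ⟨x, hx, -⟩
    exact absurd (Subsingleton.elim x 0) hx
  | succ s ih =>
    obtain ⟨c', hc'0, hc'⟩ := ih
    set N₁ : ℝ := Real.log (Nat.card (Option (ι × Fin (s + 1)) × Option (ι × Fin (s + 1)))) with hN₁
    set N₂ : ℝ := Real.log (Nat.card (Option (ι × Fin (s + 1)) × Fin s)) with hN₂
    have hN₁0 : 0 ≤ N₁ := Real.log_natCast_nonneg _
    have hN₂0 : 0 ≤ N₂ := Real.log_natCast_nonneg _
    refine ⟨N₂ + 1 + c' * (N₁ + 3), by positivity, fun A => ?_⟩
    rintro ⟨x, hx, hAx⟩
    have hA0 := ha_nonneg A
    by_cases hcol : ∀ i, A (i, 0) = 0
    · refine ⟨Pi.single 0 1, ?_, ?_, ?_⟩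
      · intro h
        have := congrFun h 0
        simp at this
      · intro i
        apply Finset.sum_eq_zero
        intro j _
        by_cases hj : j = 0
        · subst hj
          rw [hcol, zero_mul]
        · rw [Pi.single_eq_of_ne hj, mul_zero]
      · rw [hb_single]
        positivity
    · push Not at hcol
      obtain ⟨i₀, hi₀⟩ := hcol
      let A' : ι × Fin s → C := fun p => A (i₀, 0) * A (p.1, p.2.succ) - A (p.1, 0) * A (i₀, p.2.succ)
      have hsum : ∀ (y : Fin (s + 1) → C) (i : ι), ∑ j, A (i, j) * y j =
          A (i, 0) * y 0 + ∑ j : Fin s, A (i, j.succ) * y j.succ := fun y i => Fin.sum_univ_succ _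
      have hx' : (fun j : Fin s => x j.succ) ≠ 0 := by
        intro h0
        apply hx
        have h1 := hAx i₀
        rw [hsum] at h1
        have h2 : ∑ j : Fin s, A (i₀, j.succ) * x j.succ = 0 := by
          apply Finset.sum_eq_zero
          intro j _
          have := congrFun h0 j
          simp only [Pi.zero_apply] at this
          rw [this, mul_zero]
        rw [h2, add_zero] at h1
        have h3 := (mul_eq_zero.1 h1).resolve_left hi₀
        funext j
        refine Fin.cases h3 (fun j => ?_) j
        exact congrFun h0 j
      obtain ⟨y, hy, hAy, hby⟩ := hc' A' ⟨_, hx', fun i => by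
        have h1 := hAx i
        have h2 := hAx i₀
        rw [hsum] at h1 h2
        have h3 : ∑ j : Fin s, A' (i, j) * x j.succ =
            A (i₀, 0) * ∑ j : Fin s, A (i, j.succ) * x j.succ -
            A (i, 0) * ∑ j : Fin s, A (i₀, j.succ) * x j.succ := by
          rw [Finset.mul_sum, Finset.mul_sum, ← Finset.sum_sub_distrib]
          refine Finset.sum_congr rfl fun j _ => ?_
          simp only [A']
          ring
        rw [h3]
        linear_combination A (i₀, 0) * h1 - A (i, 0) * h2⟩
      -- the height of `A'`
      have hA' : ha A' ≤ N₁ + (ha A + ha A) := by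
        refine hb_bilin (aff_ne A) (aff_ne A) (κ := Option (ι × Fin s)) ?_
        intro o
        cases o with
        | none =>
          refine ⟨fun a b => if a = none ∧ b = none then 1 else 0, fun a b => ?_, ?_⟩
          · beta_reduce; split_ifs <;> simp
          · beta_reduce
            rw [Finset.sum_eq_single none, Finset.sum_eq_single none]
            · simp
            · intro b _ hb'
              rw [if_neg (fun h => hb' h.2)]
              simp
            · intro h; exact absurd (Finset.mem_univ _) h
            · intro a _ ha'
              apply Finset.sum_eq_zero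
              intro b _
              rw [if_neg (fun h => ha' h.1)]
              simp
            · intro h; exact absurd (Finset.mem_univ _) h
        | some p =>
          by_cases hp : p.1 = i₀
          · refine ⟨fun a b => 0, fun a b => by simp, ?_⟩
            simp only [Option.elim_some, A', hp, sub_self, Int.cast_zero, zero_mul,
              Finset.sum_const_zero]
          · refine ⟨fun a b => if a = some (i₀, 0) ∧ b = some (p.1, p.2.succ) then 1 else
              if a = some (p.1, 0) ∧ b = some (i₀, p.2.succ) then -1 else 0, fun a b => ?_, ?_⟩
            · beta_reduce; split_ifs <;> simp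
            · have e1 : ∀ a b : Option (ι × Fin (s + 1)),
                  (((if a = some (i₀, 0) ∧ b = some (p.1, p.2.succ) then 1 else
                  if a = some (p.1, 0) ∧ b = some (i₀, p.2.succ) then -1 else 0 : ℤ)) : C) *
                  (a.elim 1 A * b.elim 1 A) =
                  (if a = some (i₀, 0) then (if b = some (p.1, p.2.succ) then
                    a.elim 1 A * b.elim 1 A else 0) else 0) -
                  (if a = some (p.1, 0) then (if b = some (i₀, p.2.succ) then
                    a.elim 1 A * b.elim 1 A else 0) else 0) := by
                intro a b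
                by_cases h1 : a = some (i₀, 0)
                · have h2 : a ≠ some (p.1, 0) := by
                    rw [h1]
                    intro h3
                    exact hp (Prod.mk.inj (Option.some.inj h3)).1.symm
                  rw [if_pos h1, if_neg h2]
                  by_cases h3 : b = some (p.1, p.2.succ)
                  · rw [if_pos ⟨h1, h3⟩, if_pos h3]; push_cast; ring
                  · rw [if_neg (fun h => h3 h.2), if_neg (fun h => h2 h.1), if_neg h3]
                    push_cast; ring
                · rw [if_neg (fun h => h1 h.1), if_neg h1]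
                  by_cases h2 : a = some (p.1, 0)
                  · rw [if_pos h2]
                    by_cases h3 : b = some (i₀, p.2.succ)
                    · rw [if_pos ⟨h2, h3⟩, if_pos h3]; push_cast; ring
                    · rw [if_neg (fun h => h3 h.2), if_neg h3]; push_cast; ring
                  · rw [if_neg (fun h => h2 h.1), if_neg h2]; push_cast; ring
              simp only [e1, Finset.sum_sub_distrib, Finset.sum_ite_irrel,
                Finset.sum_const_zero, Finset.sum_ite_eq', Finset.mem_univ, if_true]
              simp only [Option.elim_some, A']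
      refine ⟨Fin.cons (-∑ j, A (i₀, j.succ) * y j) (fun j => A (i₀, 0) * y j), ?_, ?_, ?_⟩
      · intro h0
        apply hy
        funext j
        have := congrFun h0 j.succ
        rw [Fin.cons_succ, Pi.zero_apply] at this
        exact (mul_eq_zero.1 this).resolve_left hi₀
      · intro i
        rw [hsum, Fin.cons_zero]
        simp only [Fin.cons_succ]
        have h1 := hAy i
        have h3 : ∑ j : Fin s, A' (i, j) * y j =
            A (i₀, 0) * ∑ j : Fin s, A (i, j.succ) * y j -
            A (i, 0) * ∑ j : Fin s, A (i₀, j.succ) * y j := by
          rw [Finset.mul_sum, Finset.mul_sum, ← Finset.sum_sub_distrib]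
          refine Finset.sum_congr rfl fun j _ => ?_
          simp only [A']
          ring
        rw [h3] at h1
        have h4 : ∑ j : Fin s, A (i, j.succ) * (A (i₀, 0) * y j) =
            A (i₀, 0) * ∑ j : Fin s, A (i, j.succ) * y j := by
          rw [Finset.mul_sum]
          exact Finset.sum_congr rfl fun j _ => by ring
        rw [h4]
        linear_combination h1
      · have h5 : hb (Fin.cons (-∑ j, A (i₀, j.succ) * y j) (fun j => A (i₀, 0) * y j) :
            Fin (s + 1) → C) ≤ N₂ + (ha A + hb y) := by
          refine hb_bilin (aff_ne A) hy ?_
          intro j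
          refine Fin.cases ?_ (fun j => ?_) j
          · refine ⟨fun a b => if a = some (i₀, b.succ) then -1 else 0, fun a b => ?_, ?_⟩
            · beta_reduce; split_ifs <;> simp
            · beta_reduce
              rw [Fin.cons_zero, Finset.sum_comm, ← Finset.sum_neg_distrib]
              refine Finset.sum_congr rfl fun b _ => ?_
              rw [Finset.sum_eq_single (some (i₀, b.succ))]
              · simp
              · intro a _ ha'
                rw [if_neg ha']
                simp
              · intro h; exact absurd (Finset.mem_univ _) h
          · refine ⟨fun a b => if a = some (i₀, 0) ∧ b = j then 1 else 0, fun a b => ?_, ?_⟩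
            · beta_reduce; split_ifs <;> simp
            · beta_reduce
              rw [Fin.cons_succ, Finset.sum_eq_single (some (i₀, 0)), Finset.sum_eq_single j]
              · simp
              · intro b _ hb'
                rw [if_neg (fun h => hb' h.2)]
                simp
              · intro h; exact absurd (Finset.mem_univ _) h
              · intro a _ ha'
                apply Finset.sum_eq_zero
                intro b _
                rw [if_neg (fun h => ha' h.1)]
                simp
              · intro h; exact absurd (Finset.mem_univ _) h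
        have h6 : c' * (ha A' + 1) ≤ c' * (N₁ + 3) * (ha A + 1) := by
          rw [mul_assoc]
          apply mul_le_mul_of_nonneg_left _ hc'0
          nlinarith
        have h7 : N₂ + ha A ≤ (N₂ + 1) * (ha A + 1) := by nlinarith
        calc _ ≤ N₂ + (ha A + hb y) := h5
          _ ≤ N₂ + (ha A + c' * (ha A' + 1)) := by linarith
          _ ≤ _ := by linarith

end Fermat.Agent.MW
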