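import Fermat.Agent.MW.PtQ
import Fermat.Agent.MW.DivK

/-!
# Galois action: smoothness
-/

set_option autoImplicit false
set_option linter.unusedSectionVars false
set_option linter.style.haveILetI false

noncomputable section

namespace Fermat.Agent.MW

open AlgebraicCurve Fermat.Agent.RR Fermat.Agent.Curve IntermediateField Module ModularCurve
open Fermat.Agent.ModPoly Fermat.Agent.Spec Fermat.Agent.Cusp

attribute [local instance] funField_ff

variable {K : Type*} [Field K] [IsAlgClosed K] [CharZero K] {N : ℕ} [NeZero N]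

theorem smooth_fun (f : FF K N) : ∃ B : Set K, B.Finite ∧ ∀ σ : K ≃+* K, (∀ b ∈ B, σ b = b) →
    coeffAut N σ • f = f := by
  have h4 : f ∈ IntermediateField.adjoin K
      {x : FF K N | ∃ (m : ℕ+) (hm : (m : ℕ) ∣ N), x = jm K m hm} := by
    rw [adjoin_jm_eq_top]; exact IntermediateField.mem_top
  induction h4 using IntermediateField.adjoin_induction with
  | mem x hx =>
    obtain ⟨m, hm, rfl⟩ := hx
    refine ⟨∅, Set.finite_empty, fun σ _ => Subtype.ext ?_⟩
    rw [coe_coeffAut_smul]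
    exact coeffMap_Jc_one _ _
  | algebraMap x =>
    refine ⟨{x}, Set.finite_singleton _, fun σ h => ?_⟩
    have h1 := SemilinearAut.smul_algebraMap (coeffAut N σ) x
    rw [h1]
    congr 1
    exact h x rfl
  | add x y _ _ hx hy =>
    obtain ⟨B, hB, h1⟩ := hx
    obtain ⟨C, hC, h2⟩ := hy
    refine ⟨B ∪ C, hB.union hC, fun σ h => ?_⟩
    rw [smul_add, h1 σ fun b hb => h b (Or.inl hb), h2 σ fun b hb => h b (Or.inr hb)]
  | inv x _ hx =>
    obtain ⟨B, hB, h1⟩ := hx
    refine ⟨B, hB, fun σ h => ?_⟩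
    have h3 := h1 σ h
    rw [smul_inv'', h3]
  | mul x y _ _ hx hy =>
    obtain ⟨B, hB, h1⟩ := hx
    obtain ⟨C, hC, h2⟩ := hy
    refine ⟨B ∪ C, hB.union hC, fun σ h => ?_⟩
    rw [smul_mul', h1 σ fun b hb => h b (Or.inl hb), h2 σ fun b hb => h b (Or.inr hb)]

theorem place_eq {F : Type*} [Field F] [Algebra K F] [FunField K F] {v w : Place K F}
    (h : ∀ f : F, v.ord f = w.ord f) : v = w := by
  obtain ⟨c, hc⟩ := exists_single_pole w
  obtain ⟨f, -, hf⟩ := hc (c + 1) (Nat.le_succ c)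
  by_contra hne
  have h1 := DFunLike.congr_fun hf v
  have h2 := DFunLike.congr_fun hf w
  rw [poleDiv_apply, Finsupp.single_eq_of_ne hne] at h1
  rw [poleDiv_apply, ← h, Finsupp.single_eq_same, h1] at h2
  push_cast at h2
  omega

theorem poleDiv_smul {F : Type*} [Field F] [Algebra K F] [FunField K F] (σ : SemilinearAut K F)
    (f : F) : poleDiv K (σ • f) = σ • poleDiv K f := by
  ext v
  rw [SemilinearAut.divisor_smul_apply, poleDiv_apply, poleDiv_apply]
  have h2 := SemilinearAut.ord_smul σ (σ⁻¹ • v) f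
  rw [smul_inv_smul] at h2
  rw [h2]

theorem smooth_place (v : Place K (FF K N)) : ∃ B : Set K, B.Finite ∧
    ∀ σ : K ≃+* K, (∀ b ∈ B, σ b = b) → coeffAut N σ • v = v := by
  obtain ⟨c, hc⟩ := exists_single_pole v
  obtain ⟨f, -, hf⟩ := hc (c + 1) (Nat.le_succ c)
  obtain ⟨B, hB, h⟩ := smooth_fun f
  refine ⟨B, hB, fun σ hσ => ?_⟩
  have h1 := poleDiv_smul (coeffAut N σ) f
  rw [h σ hσ, hf, SemilinearAut.smul_single] at h1
  have h2 := (Finsupp.single_eq_single_iff _ _ _ _).1 h1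
  rcases h2 with ⟨h2, -⟩ | ⟨h2, -⟩
  · exact h2.symm
  · push_cast at h2; omega

theorem smooth_div (D : Divisor K (FF K N)) : ∃ B : Set K, B.Finite ∧
    ∀ σ : K ≃+* K, (∀ b ∈ B, σ b = b) → coeffAut N σ • D = D := by
  induction D using Finsupp.induction_linear with
  | zero => exact ⟨∅, Set.finite_empty, fun σ _ => smul_zero _⟩
  | add x y hx hy =>
    obtain ⟨B, hB, h1⟩ := hx
    obtain ⟨C, hC, h2⟩ := hy
    refine ⟨B ∪ C, hB.union hC, fun σ h => ?_⟩
    rw [smul_add, h1 σ fun b hb => h b (Or.inl hb), h2 σ fun b hb => h b (Or.inr hb)]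
  | single v n =>
    obtain ⟨B, hB, h⟩ := smooth_place v
    refine ⟨B, hB, fun σ hσ => ?_⟩
    rw [SemilinearAut.smul_single, h σ hσ]

theorem smooth_pic (x : Pic0 K (FF K N)) : ∃ B : Set K, B.Finite ∧
    ∀ σ : K ≃+* K, (∀ b ∈ B, σ b = b) → coeffAut N σ • x = x := by
  obtain ⟨D, rfl⟩ := Pic0.mk_surjective x
  obtain ⟨B, hB, h⟩ := smooth_div (D : Divisor K (FF K N))
  refine ⟨B, hB, fun σ hσ => ?_⟩
  rw [SemilinearAut.pic0_smul_mk]
  congr 1
  exact Subtype.ext (h σ hσ)

theorem order_coeffMap {k : Type*} [Field k] (σ : k →+* k) (f : LaurentSeries k) :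
    (coeffMap σ f).order = f.order := by
  by_cases hf : f = 0
  · rw [hf, map_zero]
  · have h1 : coeffMap σ f ≠ 0 := by
      rw [Ne, map_eq_zero_iff _ (coeffMap_injective σ.injective)]
      exact hf
    apply le_antisymm
    · apply HahnSeries.order_le_of_coeff_ne_zero
      rw [coeffMap_coeff, Ne, map_eq_zero]
      exact fun h => hf (HahnSeries.coeff_order_eq_zero.1 h)
    · apply HahnSeries.order_le_of_coeff_ne_zero
      have : (coeffMap σ f).coeff (coeffMap σ f).order ≠ 0 := fun h => h1 (HahnSeries.coeff_order_eq_zero.1 h)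
      rw [coeffMap_coeff, Ne, map_eq_zero] at this
      exact this

theorem smul_cuspInf (σ : K ≃+* K) : coeffAut N σ • cuspInf K N = cuspInf K N := by
  apply place_eq
  intro f
  have h2 := SemilinearAut.ord_smul (coeffAut N σ) (cuspInf K N) ((coeffAut N σ)⁻¹ • f)
  rw [smul_inv_smul] at h2
  rw [h2, cuspInf_ord, cuspInf_ord, coe_coeffAut_inv_smul, order_coeffMap]

end Fermat.Agent.MW
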