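import Fermat.Agent.MW.Pencil
import Fermat.Agent.MW.Small
import Fermat.Agent.MW.Det

/-!
# Heights on curves
-/

set_option autoImplicit false
set_option linter.unusedSectionVars false
set_option linter.unusedVariables false
set_option linter.style.haveILetI false

namespace Fermat.Agent.MW

open AlgebraicCurve Fermat.Agent.RR Fermat.Agent.Curve IntermediateField Module Fermat.Agent

variable {k F : Type*} [Field k] [Field F] [Algebra k F] [IsAlgClosed k] [FunField k F]
  [CharZero k] [Algebra.IsAlgebraic ℚ k]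

theorem Ge.of_L {D : Divisor k F} {f : F} (hf : f ∈ riemannRochSpace D) {v : Place k F}
    (h : D v ≤ 0) : Ge v 0 f := (mem_L.1 hf v).mono (by omega)

theorem ev_smul' {v : Place k F} {f : F} (hf : Ge v 0 f) (a : k) : ev v (a • f) = a * ev v f := by
  rw [Algebra.smul_def, ev_mul (Ge.algebraMap v a) hf, ev_algebraMap]

/-- comparison of heights -/
theorem hb_le_of_base {U : Submodule k F} {D : Divisor k F} (hU : IsBase U D)
    {ι κ : Type*} [Fintype ι] [Fintype κ] (u : κ → F) (hu : Submodule.span k (Set.range u) = U)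
    (f : ι → F) (hf : ∀ i, f i ∈ riemannRochSpace D) (E : Divisor k F) (hE0 : 0 ≤ E)
    (hE : rc k F + Divisor.degree D ≤ Divisor.degree E) :
    ∃ c : ℝ, ∀ v : Place k F, D v = 0 → E v = 0 →
      hb (fun i => ev v (f i)) ≤ hb (fun l => ev v (u l)) + c := by
  classical
  let s := Module.finBasis k (riemannRochSpace E)
  have hspan : Submodule.span k (Set.range fun j => (s j : F)) = riemannRochSpace E := by
    have h2 : Submodule.map (riemannRochSpace E).subtype (Submodule.span k (Set.range s)) =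
        Submodule.map (riemannRochSpace E).subtype ⊤ := by rw [s.span_eq]
    rw [Submodule.map_span, Submodule.map_top, Submodule.range_subtype] at h2
    refine Eq.trans ?_ h2
    congr 1
    rw [← Set.range_comp]
    rfl
  have hmul := mul_L hU hE
  rw [← hu, ← hspan, Submodule.span_mul_span] at hmul
  open Pointwise in
  have hset : (Set.range u * Set.range fun j => (s j : F)) =
      Set.range fun p : κ × Fin (finrank k (riemannRochSpace E)) => u p.1 * (s p.2 : F) := by
    ext x
    constructor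
    · rintro ⟨_, ⟨i, rfl⟩, _, ⟨j, rfl⟩, rfl⟩
      exact ⟨(i, j), rfl⟩
    · rintro ⟨⟨i, j⟩, rfl⟩
      exact ⟨_, ⟨i, rfl⟩, _, ⟨j, rfl⟩, rfl⟩
  rw [hset] at hmul
  have hmem : ∀ q : ι × Fin (finrank k (riemannRochSpace E)), f q.1 * (s q.2 : F) ∈
      Submodule.span k (Set.range fun p : κ × Fin (finrank k (riemannRochSpace E)) =>
        u p.1 * (s p.2 : F)) := by
    intro q
    rw [hmul]
    exact L_mul_mem (hf q.1) (s q.2).2
  have hmem' := fun q => (Submodule.mem_span_range_iff_exists_fun k).1 (hmem q)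
  choose A hA using hmem'
  refine ⟨Real.log (Nat.card (κ × Fin (finrank k (riemannRochSpace E)))) +
    hb (fun p : (ι × Fin (finrank k (riemannRochSpace E))) ×
      (κ × Fin (finrank k (riemannRochSpace E))) => A p.1 p.2), fun v hDv hEv => ?_⟩
  have hulD : ∀ l, u l ∈ riemannRochSpace D := fun l =>
    hU.1 (hu ▸ Submodule.subset_span ⟨l, rfl⟩)
  have huge : ∀ l, Ge v 0 (u l) := fun l => Ge.of_L (hulD l) hDv.le
  have hfge : ∀ i, Ge v 0 (f i) := fun i => Ge.of_L (hf i) hDv.le
  have hsge : ∀ j, Ge v 0 (s j : F) := fun j => Ge.of_L (s j).2 hEv.le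
  have hc0 : 0 ≤ Real.log (Nat.card (κ × Fin (finrank k (riemannRochSpace E)))) :=
    Real.log_natCast_nonneg _
  by_cases hf0 : (fun i => ev v (f i)) = 0
  · rw [hf0, hb_zero]
    have h1 := hb_nonneg (fun l => ev v (u l))
    have h2 := hb_nonneg (fun p : (ι × Fin (finrank k (riemannRochSpace E))) ×
      (κ × Fin (finrank k (riemannRochSpace E))) => A p.1 p.2)
    linarith
  -- `s(v) ≠ 0`
  have hs0 : (fun j => ev v (s j : F)) ≠ 0 := by
    intro h0
    have h1 : (1 : F) ∈ riemannRochSpace E := by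
      rw [mem_L]
      intro w
      exact (Ge.one w).mono (neg_nonpos.2 (hE0 w))
    rw [← hspan] at h1
    obtain ⟨c, hc⟩ := (Submodule.mem_span_range_iff_exists_fun k).1 h1
    have h2 := (ev_sum (v := v) Finset.univ (fun j => c j • (s j : F))
      (fun j _ => Ge.smul (c j) (hsge j))).1
    rw [hc, ev_one] at h2
    have h3 : ∑ j, ev v (c j • (s j : F)) = 0 := by
      apply Finset.sum_eq_zero
      intro j _
      rw [ev_smul' (hsge j)]
      have := congrFun h0 j
      simp only [Pi.zero_apply] at this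
      rw [this, mul_zero]
    rw [h3] at h2
    exact one_ne_zero h2
  have hY : (fun q : ι × Fin (finrank k (riemannRochSpace E)) => ev v (f q.1) * ev v (s q.2 : F)) =
      fun q => ∑ p : κ × Fin (finrank k (riemannRochSpace E)),
        A q p * (ev v (u p.1) * ev v (s p.2 : F)) := by
    funext q
    rw [← ev_mul (hfge q.1) (hsge q.2), ← hA q, (ev_sum (v := v) Finset.univ _ (fun p _ =>
      Ge.smul (A q p) (((huge p.1).mul (hsge p.2)).mono (by norm_num)))).1]
    refine Finset.sum_congr rfl fun p _ => ?_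
    rw [ev_smul' (((huge p.1).mul (hsge p.2)).mono (by norm_num)), ev_mul (huge p.1) (hsge p.2)]
  have hu0 : (fun l => ev v (u l)) ≠ 0 := by
    intro h0
    obtain ⟨i, hi⟩ := Function.ne_iff.1 hf0
    obtain ⟨j, hj⟩ := Function.ne_iff.1 hs0
    have h1 := congrFun hY (i, j)
    simp only at h1
    have h2 : ∑ p : κ × Fin (finrank k (riemannRochSpace E)),
        A (i, j) p * (ev v (u p.1) * ev v (s p.2 : F)) = 0 := by
      apply Finset.sum_eq_zero
      intro p _
      have := congrFun h0 p.1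
      simp only [Pi.zero_apply] at this
      rw [this, zero_mul, mul_zero]
    rw [h2] at h1
    exact mul_ne_zero hi hj h1
  have h1 := hb_linear (fun p : (ι × Fin (finrank k (riemannRochSpace E))) ×
      (κ × Fin (finrank k (riemannRochSpace E))) => A p.1 p.2)
    (fun p : κ × Fin (finrank k (riemannRochSpace E)) => ev v (u p.1) * ev v (s p.2 : F))
  rw [hb_mul hu0 hs0] at h1
  have h2 := hb_mul hf0 hs0
  rw [hY] at h2
  linarith

/-- powers form a base point free system -/
theorem isBase_powers {b : F} (hb : Transcendental k b) (e : ℕ) :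
    IsBase (Submodule.span k (Set.range fun i : Fin (e + 1) => b ^ (i : ℕ)))
      (e • poleDiv k b) := by
  have hb0 : b ≠ 0 := by rintro rfl; exact hb isAlgebraic_zero
  constructor
  · rw [Submodule.span_le]
    rintro _ ⟨i, rfl⟩
    change b ^ (i : ℕ) ∈ riemannRochSpace (e • poleDiv k b)
    rw [mem_L]
    intro v
    refine Ge.of_le ?_
    rw [Finsupp.smul_apply, poleDiv_apply, Curve.ord_pow, nsmul_eq_mul]
    have h1 : (i : ℤ) ≤ e := by exact_mod_cast Nat.lt_succ_iff.1 i.2
    have h2 : (0 : ℤ) ≤ i := Int.natCast_nonneg _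
    rcases le_total (-v.ord b) 0 with h3 | h3
    · rw [max_eq_right h3]
      nlinarith
    · rw [max_eq_left h3]
      nlinarith
  · intro v
    by_cases hv : v.ord b < 0
    · refine ⟨b ^ e, Submodule.subset_span ⟨Fin.last e, rfl⟩, pow_ne_zero _ hb0, ?_⟩
      rw [Finsupp.smul_apply, poleDiv_apply, Curve.ord_pow, nsmul_eq_mul, max_eq_left (by omega)]
      ring
    · refine ⟨1, Submodule.subset_span ⟨0, by simp⟩, one_ne_zero, ?_⟩
      rw [Finsupp.smul_apply, poleDiv_apply, nsmul_eq_mul, max_eq_right (by omega), v.ord_one]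
      ring

theorem poleDiv_nonneg (b : F) : 0 ≤ poleDiv k b := by
  intro v
  rw [poleDiv_apply]
  exact le_max_right _ _

theorem degree_poleDiv_pos {b : F} (hb : Transcendental k b) :
    1 ≤ Divisor.degree (poleDiv k b) := by
  rw [degree_poleDiv hb]
  haveI := fd (K := k) hb
  exact_mod_cast Module.finrank_pos

/-- **Heights of functions with bounded poles.** -/
theorem hb_le_poles {b : F} (hb' : Transcendental k b) (e : ℕ) {ι : Type*} [Fintype ι]
    (f : ι → F) (hf : ∀ i, f i ∈ riemannRochSpace (e • poleDiv k b)) :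
    ∃ c : ℝ, ∀ v : Place k F, Ge v 0 b → hb (fun i => ev v (f i)) ≤ e * h1 (ev v b) + c := by
  have hdeg := degree_poleDiv_pos hb'
  obtain ⟨n, hn⟩ : ∃ n : ℕ, rc k F + e * Divisor.degree (poleDiv k b) ≤
      n * Divisor.degree (poleDiv k b) := by
    refine ⟨(rc k F).toNat + e, ?_⟩
    have h1 := Int.self_le_toNat (rc k F)
    push_cast
    nlinarith [Int.natCast_nonneg (rc k F).toNat]
  obtain ⟨c, hc⟩ := hb_le_of_base (isBase_powers hb' e) _ rfl f hf (n • poleDiv k b)
    (nsmul_nonneg (poleDiv_nonneg b) n) (by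
      rw [map_nsmul, map_nsmul, nsmul_eq_mul, nsmul_eq_mul]
      exact hn)
  refine ⟨c, fun v hv => ?_⟩
  have hb0 : b ≠ 0 := by rintro rfl; exact hb' isAlgebraic_zero
  have h0 : poleDiv k b v = 0 := by
    rw [poleDiv_apply]
    exact max_eq_right (by have := hv.le_ord hb0; omega)
  have h1 := hc v (by rw [Finsupp.smul_apply, h0, smul_zero]) (by
    rw [Finsupp.smul_apply, h0, smul_zero])
  have h2 : (fun l : Fin (e + 1) => ev v (b ^ (l : ℕ))) =
      fun l : Fin (e + 1) => (ev v b) ^ (l : ℕ) := by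
    funext l
    exact ev_pow hv l
  rw [h2, hb_powers] at h1
  exact h1

/-- **Comparison of heights for functions on a curve.** -/
theorem height_compare {a b : F} (ha' : Transcendental k a) (hb' : Transcendental k b) {p s : ℕ}
    (h : (s : ℤ) * Divisor.degree (poleDiv k a) < p * Divisor.degree (poleDiv k b)) :
    ∃ c : ℝ, ∀ v : Place k F, Ge v 0 a → Ge v 0 b →
      s * h1 (ev v a) ≤ p * h1 (ev v b) + c := by
  classical
  -- the auxiliary function
  obtain ⟨n, hn0, φ, hφ, hφ0⟩ : ∃ n : ℕ, 0 < n ∧ ∃ φ : F,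
      φ ∈ riemannRochSpace ((n * p) • poleDiv k b - (n * s) • poleDiv k a) ∧ φ ≠ 0 := by
    refine ⟨((rc k F) + rrGenus k F).toNat + 1, by omega, ?_⟩
    set n := ((rc k F) + rrGenus k F).toNat + 1 with hn
    have h1 : rc k F + rrGenus k F + 1 ≤ n := by
      have := Int.self_le_toNat (rc k F + rrGenus k F)
      rw [hn]; push_cast; omega
    have h2 : (n : ℤ) ≤ Divisor.degree ((n * p) • poleDiv k b - (n * s) • poleDiv k a) := by
      rw [map_sub, map_nsmul, map_nsmul, nsmul_eq_mul, nsmul_eq_mul]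
      push_cast
      have : (0 : ℤ) ≤ n := Int.natCast_nonneg n
      nlinarith
    have h3 := ell_eq_of_le (K := k) (F := F)
      (D := (n * p) • poleDiv k b - (n * s) • poleDiv k a) (by
        have := Int.natCast_nonneg (rrGenus k F); omega)
    have h4 : (0 : ℤ) < ell ((n * p) • poleDiv k b - (n * s) • poleDiv k a) := by
      have := rc_nonneg (K := k) (F := F)
      omega
    obtain ⟨φ, h5, h6⟩ := exists_ne_zero_of_ell_pos h4
    exact ⟨φ, h6, h5⟩
  have ha0 : a ≠ 0 := by rintro rfl; exact ha' isAlgebraic_zero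
  have hf : ∀ i : Fin (n * s + 1), φ * a ^ (i : ℕ) ∈ riemannRochSpace ((n * p) • poleDiv k b) := by
    intro i
    rw [mem_L]
    intro v
    have h1 := mem_L.1 hφ v
    have h2 : Ge v (-((i : ℕ) * max (-v.ord a) 0)) (a ^ (i : ℕ)) := by
      refine Ge.of_le ?_
      rw [Curve.ord_pow]
      have : -(max (-v.ord a) 0) ≤ v.ord a := by
        have := le_max_left (-v.ord a) 0; omega
      have h3 : (0 : ℤ) ≤ (i : ℕ) := Int.natCast_nonneg _
      nlinarith
    refine (h1.mul h2).mono ?_
    rw [Finsupp.sub_apply, Finsupp.smul_apply, Finsupp.smul_apply, nsmul_eq_mul, nsmul_eq_mul,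
      poleDiv_apply a]
    have h3 : ((i : ℕ) : ℤ) ≤ ((n * s : ℕ) : ℤ) := by exact_mod_cast Nat.lt_succ_iff.1 i.2
    have h4 : (0 : ℤ) ≤ max (-v.ord a) 0 := le_max_right _ _
    nlinarith
  obtain ⟨c, hc⟩ := hb_le_poles hb' (n * p) _ hf
  -- the exceptional places
  let S : Finset (Place k F) := (finite_ord (K := k) hφ0).toFinset
  obtain ⟨c', hc'⟩ : ∃ c' : ℝ, ∀ v ∈ S, s * h1 (ev v a) ≤ c' := by
    by_cases hS : S.Nonempty
    · refine ⟨S.sup' hS (fun v => s * h1 (ev v a)), fun v hv => ?_⟩
      exact Finset.le_sup' (fun v => (s : ℝ) * h1 (ev v a)) hv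
    · refine ⟨0, fun v hv => absurd ⟨v, hv⟩ hS⟩
  have hn0' : (0 : ℝ) < n := by exact_mod_cast hn0
  refine ⟨max (c / n) c', fun v hva hvb => ?_⟩
  have hpos : (0 : ℝ) ≤ p * h1 (ev v b) := mul_nonneg (Nat.cast_nonneg _) (h1_nonneg _)
  by_cases hv : v ∈ S
  · have h1 := hc' v hv
    have h2 := le_max_right (c / n) c'
    linarith
  · have hvφ : v.ord φ = 0 := by
      by_contra h1
      exact hv ((Set.Finite.mem_toFinset _).2 h1)
    have h1 := hc v hvb
    have h2 : (fun i : Fin (n * s + 1) => ev v (φ * a ^ (i : ℕ))) =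
        fun i : Fin (n * s + 1) => ev v φ * (ev v a) ^ (i : ℕ) := by
      funext i
      rw [ev_mul (Ge.of_le hvφ.ge) ((hva.pow i).mono (by simp)), ev_pow hva]
    rw [h2, hb_smul _ (ev_ne_zero hφ0 hvφ), hb_powers] at h1
    have h3 := le_max_left (c / n) c'
    push_cast at h1
    have h4 : s * MW.h1 (ev v a) ≤ p * MW.h1 (ev v b) + c / n := by
      have h5 : (n : ℝ) * (s * MW.h1 (ev v a)) ≤ n * (p * MW.h1 (ev v b) + c / n) := by
        rw [mul_add, mul_div_cancel₀ _ hn0'.ne']
        linarith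
      exact le_of_mul_le_mul_left h5 hn0'
    linarith

end Fermat.Agent.MW
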