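import Fermat.Agent.MW.Trick

/-!
# Heights of zeros of functions
-/

set_option autoImplicit false
set_option linter.unusedSectionVars false
set_option linter.unusedVariables false
set_option linter.style.haveILetI false

namespace Fermat.Agent.MW

open AlgebraicCurve Fermat.Agent.RR Fermat.Agent.Curve IntermediateField Module Fermat.Agent

theorem small_solution' {C : Type*} [Field C] [CharZero C] [Algebra.IsAlgebraic ℚ C]
    (ι κ : Type*) [Finite ι] [Fintype κ] :
    ∃ c : ℝ, 0 ≤ c ∧ ∀ A : ι × κ → C,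
      (∃ x : κ → C, x ≠ 0 ∧ ∀ i, ∑ j, A (i, j) * x j = 0) →
      ∃ x : κ → C, x ≠ 0 ∧ (∀ i, ∑ j, A (i, j) * x j = 0) ∧ hb x ≤ c * (ha A + 1) := by
  classical
  obtain ⟨c, hc0, hc⟩ := small_solution (C := C) ι (Fintype.card κ)
  let e := Fintype.equivFin κ
  refine ⟨c, hc0, fun A => ?_⟩
  rintro ⟨x, hx, hAx⟩
  obtain ⟨y, hy, hAy, hby⟩ := hc (fun p => A (p.1, e.symm p.2)) ⟨fun j => x (e.symm j), by
    intro h
    apply hx
    funext i
    have := congrFun h (e i)
    simpa using this, fun i => by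
    rw [← hAx i]
    exact Equiv.sum_comp e.symm (fun j => A (i, j) * x j)⟩
  refine ⟨fun j => y (e j), ?_, fun i => ?_, ?_⟩
  · intro h
    apply hy
    funext i
    have := congrFun h (e.symm i)
    simpa using this
  · rw [← hAy i]
    have := Equiv.sum_comp e (fun j => A (i, e.symm j) * y j)
    rw [← this]
    simp
  · refine (hb_comp_le (C := C) e y).trans (hby.trans ?_)
    apply mul_le_mul_of_nonneg_left _ hc0
    have h2 := hb_comp_le (C := C) (fun o : Option (ι × Fin (Fintype.card κ)) =>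
      o.map (fun p => (p.1, e.symm p.2))) (fun o : Option (ι × κ) => o.elim 1 A)
    have h3 : ha (fun p : ι × Fin (Fintype.card κ) => A (p.1, e.symm p.2)) ≤ ha A := by
      refine le_of_eq_of_le ?_ h2
      unfold ha
      congr 1
      funext o
      cases o <;> rfl
    linarith

variable {k F : Type*} [Field k] [Field F] [Algebra k F] [IsAlgClosed k] [FunField k F]
  [CharZero k] [Algebra.IsAlgebraic ℚ k]

theorem w_pow_mem {w : F} {P₀ : Place k F} {a : ℕ}
    (hw : poleDiv k w = Finsupp.single P₀ (a : ℤ)) {N i : ℕ} (hi : i ≤ N) :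
    w ^ i ∈ riemannRochSpace (Finsupp.single P₀ ((N * a : ℕ) : ℤ)) := by
  classical
  rw [mem_L]
  intro v
  refine Ge.of_le ?_
  rw [Curve.ord_pow]
  have h1 : -v.ord w ≤ (Finsupp.single P₀ (a : ℤ) : Divisor k F) v := by
    rw [← hw, poleDiv_apply]
    exact le_max_left _ _
  have h2 : (Finsupp.single P₀ ((N * a : ℕ) : ℤ) : Divisor k F) v =
      N * (Finsupp.single P₀ (a : ℤ) : Divisor k F) v := by
    rw [Finsupp.single_apply, Finsupp.single_apply]
    split_ifs
    · push_cast; rfl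
    · simp
  have h3 : 0 ≤ (Finsupp.single P₀ (a : ℤ) : Divisor k F) v := by
    rw [Finsupp.single_apply]; split_ifs <;> simp
  rw [h2]
  have h4 : (i : ℤ) ≤ N := by exact_mod_cast hi
  have h5 : (0 : ℤ) ≤ i := Int.natCast_nonneg _
  nlinarith

theorem w_ge {w : F} {P₀ : Place k F} {a : ℕ}
    (hw : poleDiv k w = Finsupp.single P₀ (a : ℤ)) {P : Place k F} (hP : P ≠ P₀) : Ge P 0 w := by
  refine Ge.of_le ?_
  have h1 : poleDiv k w P = 0 := by rw [hw, Finsupp.single_eq_of_ne hP]
  rw [poleDiv_apply] at h1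
  have := le_max_left (-P.ord w) 0
  omega

theorem L_single_ge {P₀ : Place k F} {n : ℤ} {f : F}
    (hf : f ∈ riemannRochSpace (Finsupp.single P₀ n)) {P : Place k F} (hP : P ≠ P₀) : Ge P 0 f :=
  Ge.of_L hf (by rw [Finsupp.single_eq_of_ne hP])

theorem finBasis_li (D : Divisor k F) :
    LinearIndependent k (fun i => ((Module.finBasis k (riemannRochSpace D)) i : F)) :=
  (Module.finBasis k (riemannRochSpace D)).linearIndependent.map' (riemannRochSpace D).subtype
    (Submodule.ker_subtype _)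

/-- **Heights of zeros.** -/
theorem zeros_bound {w : F} {P₀ : Place k F} {a : ℕ} (ha0 : 1 ≤ a)
    (hw : poleDiv k w = Finsupp.single P₀ (a : ℤ)) (N : ℕ) {κ : Type*} [Fintype κ] (e : κ → F)
    (he : LinearIndependent k e)
    (hspan : ∀ i, e i ∈ riemannRochSpace (Finsupp.single P₀ (N : ℤ))) :
    ∃ c : ℝ, 0 ≤ c ∧ ∀ x : κ → k, x ≠ 0 → ∀ P : Place k F, P ≠ P₀ →
      Ge P 1 (∑ l, x l • e l) → h1 (ev P w) ≤ c * (hb x + 1) := by
  classical
  set N' : ℕ := N + (rc k F).toNat + 1 + rrGenus k F with hN'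
  have hrc := Int.self_le_toNat (rc k F)
  have hrc0 := rc_nonneg (K := k) (F := F)
  have hle : N + (rc k F).toNat + 1 + rrGenus k F ≤ N' * a := by nlinarith
  set n : ℕ := N' * a - N with hn
  have hNn : N + n = N' * a := by omega
  -- bases
  set m := Module.finBasis k (riemannRochSpace (Finsupp.single P₀ (n : ℤ) : Divisor k F)) with hm
  set t := Module.finBasis k (riemannRochSpace (Finsupp.single P₀ ((N' * a : ℕ) : ℤ) :
    Divisor k F)) with ht
  set d1 := finrank k (riemannRochSpace (Finsupp.single P₀ (n : ℤ) : Divisor k F)) with hd1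
  set d2 := finrank k (riemannRochSpace (Finsupp.single P₀ ((N' * a : ℕ) : ℤ) : Divisor k F))
    with hd2
  have hell1 : (d1 : ℤ) = n + 1 - rrGenus k F := by
    have := ell_eq_of_le (K := k) (F := F) (D := Finsupp.single P₀ (n : ℤ)) (by
      rw [degree_single']; omega)
    rw [degree_single'] at this
    exact this
  have hell2 : (d2 : ℤ) = (N' * a : ℕ) + 1 - rrGenus k F := by
    have := ell_eq_of_le (K := k) (F := F) (D := Finsupp.single P₀ ((N' * a : ℕ) : ℤ)) (by
      rw [degree_single']; omega)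
    rw [degree_single'] at this
    exact this
  let W : Fin (N' + 1) → riemannRochSpace (Finsupp.single P₀ ((N' * a : ℕ) : ℤ) : Divisor k F) :=
    fun i => ⟨w ^ (i : ℕ), w_pow_mem hw (Nat.lt_succ_iff.1 i.2)⟩
  have hGmem : ∀ l j, e l * (m j : F) ∈
      riemannRochSpace (Finsupp.single P₀ ((N' * a : ℕ) : ℤ) : Divisor k F) := by
    intro l j
    have h := L_mul_mem (hspan l) (m j).2
    rw [← Finsupp.single_add] at h
    have h2 : (N : ℤ) + n = ((N' * a : ℕ) : ℤ) := by exact_mod_cast hNn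
    rwa [h2] at h
  let G : κ → Fin d1 → riemannRochSpace (Finsupp.single P₀ ((N' * a : ℕ) : ℤ) : Divisor k F) :=
    fun l j => ⟨e l * (m j : F), hGmem l j⟩
  obtain ⟨c₁, hc₁0, hc₁⟩ := small_solution' (C := k) (Fin d2) (Fin (N' + 1) ⊕ Fin d1)
  -- the fixed matrix
  let A : Option (Fin d2 × (Fin (N' + 1) ⊕ Fin d1)) × Option κ → k := fun p =>
    match p with
    | (none, none) => 1
    | (none, some _) => 0
    | (some (r, Sum.inl i), none) => t.repr (W i) r
    | (some (r, Sum.inl i), some _) => 0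
    | (some (r, Sum.inr j), none) => 0
    | (some (r, Sum.inr j), some l) => -(t.repr (G l j) r)
  let B : (κ → k) → Fin d2 × (Fin (N' + 1) ⊕ Fin d1) → k := fun x p =>
    match p with
    | (r, Sum.inl i) => t.repr (W i) r
    | (r, Sum.inr j) => -∑ l, x l * t.repr (G l j) r
  have hB : ∀ x : κ → k, ha (B x) ≤ Real.log (Nat.card (Option κ)) + hb A + ha x := by
    intro x
    have h := hb_linear A (fun o : Option κ => o.elim 1 x)
    refine le_of_eq_of_le ?_ h
    unfold ha
    congr 1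
    funext o
    rcases o with _ | ⟨r, i | j⟩
    · simp [A, Fintype.sum_option]
    · simp [A, B, Fintype.sum_option]
    · simp only [Option.elim_some, A, B, Fintype.sum_option, Option.elim_none, zero_mul, zero_add]
      rw [← Finset.sum_neg_distrib]
      exact Finset.sum_congr rfl fun l _ => by ring
  set K₀ : ℝ := Real.log (Nat.card (Option κ)) + hb A with hK₀
  have hK₀0 : 0 ≤ K₀ := add_nonneg (Real.log_natCast_nonneg _) (hb_nonneg _)
  set K₁ : ℝ := Real.log ((N' + 1) * (N' + 1)) with hK₁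
  have hK₁0 : 0 ≤ K₁ := by
    apply Real.log_nonneg
    have : (0 : ℝ) ≤ N' := Nat.cast_nonneg _
    nlinarith
  refine ⟨c₁ * (K₀ + 1) + K₁, by positivity, fun x₀ hx₀ P hP hf₀ => ?_⟩
  -- normalise
  obtain ⟨l₀, hl₀⟩ := Function.ne_iff.1 hx₀
  rw [Pi.zero_apply] at hl₀
  set x : κ → k := fun l => (x₀ l₀)⁻¹ * x₀ l with hx
  have hx1 : x l₀ = 1 := inv_mul_cancel₀ hl₀
  have hhbx : hb x = hb x₀ := hb_smul x₀ (inv_ne_zero hl₀)
  have hxne : x ≠ 0 := by
    intro h
    have := congrFun h l₀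
    rw [hx1] at this
    exact one_ne_zero this
  set f : F := ∑ l, x l • e l with hfdef
  have hff : f = (x₀ l₀)⁻¹ • ∑ l, x₀ l • e l := by
    rw [Finset.smul_sum]
    exact Finset.sum_congr rfl fun l _ => (smul_smul _ _ _).symm
  have hfP : Ge P 1 f := by
    rw [hff]
    exact Ge.smul _ hf₀
  have hf0 : f ≠ 0 := fun h => hxne (funext (Fintype.linearIndependent_iff.1 he x h))
  -- the relation for solutions
  have hrel : ∀ y : Fin (N' + 1) ⊕ Fin d1 → k, (∀ r, ∑ q, B x (r, q) * y q = 0) ↔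
      ∑ i, y (Sum.inl i) • w ^ (i : ℕ) = f * ∑ j, y (Sum.inr j) • (m j : F) := by
    intro y
    have h1 : ∀ r, ∑ q, B x (r, q) * y q =
        t.repr (∑ i, y (Sum.inl i) • W i - ∑ j, ∑ l, (y (Sum.inr j) * x l) • G l j) r := by
      intro r
      rw [Fintype.sum_sum_type, map_sub, Finsupp.sub_apply, map_sum, map_sum,
        Finsupp.finsetSum_apply, Finsupp.finsetSum_apply, sub_eq_add_neg, ← Finset.sum_neg_distrib]
      congr 1
      · refine Finset.sum_congr rfl fun i _ => ?_
        rw [map_smul, Finsupp.smul_apply, smul_eq_mul, mul_comm]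
      · refine Finset.sum_congr rfl fun j _ => ?_
        rw [map_sum, Finsupp.finsetSum_apply]
        change -(∑ l, x l * t.repr (G l j) r) * y (Sum.inr j) = _
        rw [neg_mul, Finset.sum_mul]
        congr 1
        refine Finset.sum_congr rfl fun l _ => ?_
        rw [map_smul, Finsupp.smul_apply, smul_eq_mul]
        ring
    have h2 : (∀ r, ∑ q, B x (r, q) * y q = 0) ↔
        ∑ i, y (Sum.inl i) • W i - ∑ j, ∑ l, (y (Sum.inr j) * x l) • G l j = 0 := by
      rw [← t.repr.map_eq_zero_iff, Finsupp.ext_iff]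
      simp only [h1, Finsupp.coe_zero, Pi.zero_apply]
    rw [h2, ← Submodule.coe_eq_zero, Submodule.coe_sub, sub_eq_zero]
    have h3 : ((∑ i, y (Sum.inl i) • W i : riemannRochSpace
        (Finsupp.single P₀ ((N' * a : ℕ) : ℤ) : Divisor k F)) : F) =
        ∑ i, y (Sum.inl i) • w ^ (i : ℕ) := by
      rw [Submodule.coe_sum]
      rfl
    have h4 : ((∑ j, ∑ l, (y (Sum.inr j) * x l) • G l j : riemannRochSpace
        (Finsupp.single P₀ ((N' * a : ℕ) : ℤ) : Divisor k F)) : F) =
        f * ∑ j, y (Sum.inr j) • (m j : F) := by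
      rw [Submodule.coe_sum, Finset.mul_sum]
      refine Finset.sum_congr rfl fun j _ => ?_
      rw [Submodule.coe_sum, hfdef, Finset.sum_mul]
      refine Finset.sum_congr rfl fun l _ => ?_
      change (y (Sum.inr j) * x l) • (e l * (m j : F)) = _
      rw [smul_mul_smul_comm, mul_comm (x l)]
    rw [h3, h4]
  -- existence
  have hex : ∃ y : Fin (N' + 1) ⊕ Fin d1 → k, y ≠ 0 ∧ ∀ r, ∑ q, B x (r, q) * y q = 0 := by
    let M : (Fin (N' + 1) ⊕ Fin d1 → k) →ₗ[k] (Fin d2 → k) :=
      Matrix.mulVecLin (Matrix.of fun r q => B x (r, q))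
    have h1 : LinearMap.ker M ≠ ⊥ := by
      apply LinearMap.ker_ne_bot_of_finrank_lt
      rw [Module.finrank_pi, Module.finrank_pi, Fintype.card_fin, Fintype.card_sum,
        Fintype.card_fin, Fintype.card_fin]
      have h2 : (n : ℤ) = (N' * a : ℕ) - N := by omega
      have h3 : (N : ℤ) ≤ N' := by exact_mod_cast (by omega : N ≤ N')
      omega
    obtain ⟨y, hy, hy0⟩ := (Submodule.ne_bot_iff _).1 h1
    refine ⟨y, hy0, fun r => ?_⟩
    exact congrFun (LinearMap.mem_ker.1 hy) r
  obtain ⟨y, hy0, hy, hby⟩ := hc₁ (B x) hex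
  rw [hrel] at hy
  set p : Fin (N' + 1) → k := fun i => y (Sum.inl i) with hp
  have hp0 : p ≠ 0 := by
    intro h0
    apply hy0
    have h1 : ∑ i, y (Sum.inl i) • w ^ (i : ℕ) = 0 := by
      apply Finset.sum_eq_zero
      intro i _
      have h1 : y (Sum.inl i) = 0 := congrFun h0 i
      rw [h1, zero_smul]
    rw [h1] at hy
    have h2 := (mul_eq_zero.1 hy.symm).resolve_left hf0
    have hmli : LinearIndependent k (fun j => (m j : F)) :=
      m.linearIndependent.map' (riemannRochSpace _).subtype (Submodule.ker_subtype _)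
    have h3 := Fintype.linearIndependent_iff.1 hmli (fun j => y (Sum.inr j)) h2
    funext q
    rcases q with i | j
    · exact congrFun h0 i
    · exact h3 j
  have hroot : ∑ i, p i * (ev P w) ^ (i : ℕ) = 0 := by
    have hwge := w_ge hw hP
    have hmge : ∀ j, Ge P 0 (m j : F) := fun j => L_single_ge (m j).2 hP
    have h1 := (ev_sum (v := P) Finset.univ (fun i : Fin (N' + 1) => y (Sum.inl i) • w ^ (i : ℕ))
      (fun i _ => Ge.smul _ ((hwge.pow i).mono (by simp)))).1
    have h2 := ev_sum (v := P) Finset.univ (fun j => y (Sum.inr j) • (m j : F))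
      (fun j _ => Ge.smul _ (hmge j))
    have h3 : ev P (f * ∑ j, y (Sum.inr j) • (m j : F)) = 0 := by
      rw [ev_mul (hfP.mono (by norm_num)) h2.2, (ev_eq_zero_iff (hfP.mono (by norm_num))).2 hfP,
        zero_mul]
    rw [← hy, h1] at h3
    rw [← h3]
    refine Finset.sum_congr rfl fun i _ => ?_
    rw [ev_smul' ((hwge.pow i).mono (by simp)), ev_pow hwge]
  have h1 := root_bound hp0 hroot
  have h2 : hb p ≤ hb y := hb_comp_le (C := k) Sum.inl y
  have h3 : ha x ≤ hb x := ha_le_hb hx1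
  have h4 := hB x
  have h5 := hb_nonneg x₀
  have h6 : hb y ≤ c₁ * ((K₀ + 1) * (hb x₀ + 1)) := by
    refine hby.trans (mul_le_mul_of_nonneg_left ?_ hc₁0)
    rw [hhbx] at h3
    nlinarith
  calc MW.h1 (ev P w) ≤ hb p + K₁ := h1
    _ ≤ c₁ * ((K₀ + 1) * (hb x₀ + 1)) + K₁ := by linarith
    _ ≤ (c₁ * (K₀ + 1) + K₁) * (hb x₀ + 1) := by nlinarith

end Fermat.Agent.MW
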